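import Mathlib
import Fermat.Prelude.Def_ModularCurve_GenusNumerics

set_option autoImplicit false

/-!
# Project S20 + S21 : shared definitions

Everything is phrased with spaces of FUNCTIONS `ℍ → ℂ` (submodules of `ℍ → ℂ` indexed by the
weight), so that no dependent casts between `ModularForm Γ (k + 4)` and `ModularForm Γ k'` are
ever needed.  The bridge to Mathlib's bundled `ModularForm` / `CuspForm` is in `Bridge.lean`.
-/

namespace Fermat.Agent.S20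

open UpperHalfPlane CongruenceSubgroup
open scoped MatrixGroups ModularForm Manifold

/-- Weight `k` modular forms on `Γ₀(N)`, as a `ℂ`-subspace of the functions `ℍ → ℂ`:
holomorphic, `Γ₀(N)`-invariant, and every `SL(2,ℤ)`-translate is bounded at `i∞`. -/
def Mfun (N : ℕ) (k : ℤ) : Submodule ℂ (ℍ → ℂ) where
  carrier := {f | MDiff f ∧ (∀ γ ∈ Gamma0 N, f ∣[k] γ = f) ∧
    ∀ σ : SL(2, ℤ), IsBoundedAtImInfty (f ∣[k] σ)}
  add_mem' := by
    rintro f g ⟨hf1, hf2, hf3⟩ ⟨hg1, hg2, hg3⟩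
    refine ⟨hf1.add hg1, fun γ hγ => ?_, fun σ => ?_⟩
    · rw [SlashAction.add_slash, hf2 γ hγ, hg2 γ hγ]
    · rw [SlashAction.add_slash]; exact (hf3 σ).add (hg3 σ)
  zero_mem' := by
    refine ⟨mdifferentiable_const, fun γ _ => SlashAction.zero_slash _ _, fun σ => ?_⟩
    rw [SlashAction.zero_slash]
    exact Filter.const_boundedAtFilter _ 0
  smul_mem' := by
    rintro c f ⟨hf1, hf2, hf3⟩
    refine ⟨hf1.const_smul c, fun γ hγ => ?_, fun σ => ?_⟩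
    · rw [ModularForm.SL_smul_slash, hf2 γ hγ]
    · rw [ModularForm.SL_smul_slash]; exact (hf3 σ).const_smul_left c

/-- Weight `k` cusp forms on `Γ₀(N)`, as a `ℂ`-subspace of the functions `ℍ → ℂ`. -/
def Sfun (N : ℕ) (k : ℤ) : Submodule ℂ (ℍ → ℂ) where
  carrier := {f | MDiff f ∧ (∀ γ ∈ Gamma0 N, f ∣[k] γ = f) ∧
    ∀ σ : SL(2, ℤ), IsZeroAtImInfty (f ∣[k] σ)}
  add_mem' := by
    rintro f g ⟨hf1, hf2, hf3⟩ ⟨hg1, hg2, hg3⟩
    refine ⟨hf1.add hg1, fun γ hγ => ?_, fun σ => ?_⟩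
    · rw [SlashAction.add_slash, hf2 γ hγ, hg2 γ hγ]
    · rw [SlashAction.add_slash]; exact (hf3 σ).add (hg3 σ)
  zero_mem' := by
    refine ⟨mdifferentiable_const, fun γ _ => SlashAction.zero_slash _ _, fun σ => ?_⟩
    rw [SlashAction.zero_slash]
    exact Filter.zero_zeroAtFilter _
  smul_mem' := by
    rintro c f ⟨hf1, hf2, hf3⟩
    refine ⟨hf1.const_smul c, fun γ hγ => ?_, fun σ => ?_⟩
    · rw [ModularForm.SL_smul_slash, hf2 γ hγ]
    · rw [ModularForm.SL_smul_slash]; exact (hf3 σ).smul c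

/-- Weight `l` modular forms of level one, as a `ℂ`-subspace of the functions `ℍ → ℂ`. -/
def Lfun (l : ℤ) : Submodule ℂ (ℍ → ℂ) where
  carrier := {F | MDiff F ∧ (∀ γ : SL(2, ℤ), F ∣[l] γ = F) ∧ IsBoundedAtImInfty F}
  add_mem' := by
    rintro f g ⟨hf1, hf2, hf3⟩ ⟨hg1, hg2, hg3⟩
    refine ⟨hf1.add hg1, fun γ => ?_, hf3.add hg3⟩
    rw [SlashAction.add_slash, hf2 γ, hg2 γ]
  zero_mem' :=
    ⟨mdifferentiable_const, fun γ => SlashAction.zero_slash _ _, Filter.const_boundedAtFilter _ 0⟩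
  smul_mem' := by
    rintro c f ⟨hf1, hf2, hf3⟩
    refine ⟨hf1.const_smul c, fun γ => ?_, hf3.const_smul_left c⟩
    rw [ModularForm.SL_smul_slash, hf2 γ]

theorem mem_Mfun_iff {N : ℕ} {k : ℤ} {f : ℍ → ℂ} :
    f ∈ Mfun N k ↔ MDiff f ∧ (∀ γ ∈ Gamma0 N, f ∣[k] γ = f) ∧
      ∀ σ : SL(2, ℤ), IsBoundedAtImInfty (f ∣[k] σ) := Iff.rfl

theorem mem_Sfun_iff {N : ℕ} {k : ℤ} {f : ℍ → ℂ} :
    f ∈ Sfun N k ↔ MDiff f ∧ (∀ γ ∈ Gamma0 N, f ∣[k] γ = f) ∧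
      ∀ σ : SL(2, ℤ), IsZeroAtImInfty (f ∣[k] σ) := Iff.rfl

theorem mem_Lfun_iff {l : ℤ} {F : ℍ → ℂ} :
    F ∈ Lfun l ↔ MDiff F ∧ (∀ γ : SL(2, ℤ), F ∣[l] γ = F) ∧ IsBoundedAtImInfty F := Iff.rfl

theorem Sfun_le_Mfun (N : ℕ) (k : ℤ) : Sfun N k ≤ Mfun N k :=
  fun _ hf => ⟨hf.1, hf.2.1, fun σ => (hf.2.2 σ).boundedAtFilter⟩

/-- The conjugate of `f` (of weight `k`) attached to the coset `q = g Γ₀(N)`: it is
`f ∣[k] g⁻¹` for the chosen representative `g = q.out`. For `Γ₀(N)`-invariant `f` it does not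
depend on the representative (`cj_mk` in `Conj.lean`). -/
noncomputable def cj (N : ℕ) (k : ℤ) (f : ℍ → ℂ) (q : SL(2, ℤ) ⧸ Gamma0 N) : ℍ → ℂ :=
  f ∣[k] (Quotient.out q : SL(2, ℤ))⁻¹

/-- Evaluation of all conjugates at `τ`: the fibre map `M_k → ℂ^X`. -/
noncomputable def evX (N : ℕ) (k : ℤ) (τ : ℍ) :
    (ℍ → ℂ) →ₗ[ℂ] ((SL(2, ℤ) ⧸ Gamma0 N) → ℂ) where
  toFun f q := cj N k f q τ
  map_add' f g := by
    funext q
    simp only [cj, SlashAction.add_slash, Pi.add_apply]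
  map_smul' c f := by
    funext q
    simp only [cj, ModularForm.SL_smul_slash, Pi.smul_apply, RingHom.id_apply]

theorem evX_apply (N : ℕ) (k : ℤ) (τ : ℍ) (f : ℍ → ℂ) (q : SL(2, ℤ) ⧸ Gamma0 N) :
    evX N k τ f q = cj N k f q τ := rfl

/-- The Hilbert function `m_k = dim M_k(Γ₀(N))`. -/
noncomputable def mdim (N : ℕ) (k : ℤ) : ℕ := Module.finrank ℂ (Mfun N k)

/-- `n_k = m_k - m_{k-4} - m_{k-6} + m_{k-10}`: the number of generators of weight `k` of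
`⨁ M_k(Γ₀(N))` over `ℂ[E₄, E₆]`. -/
noncomputable def ngen (N : ℕ) (k : ℤ) : ℤ :=
  (mdim N k : ℤ) - mdim N (k - 4) - mdim N (k - 6) + mdim N (k - 10)

/-- `μ = [SL(2,ℤ) : Γ₀(N)]`. -/
noncomputable def idx (N : ℕ) : ℕ := Nat.card (SL(2, ℤ) ⧸ Gamma0 N)

/-- Number of fixed points of `S` on `X = SL(2,ℤ)/Γ₀(N)`. -/
noncomputable def fixS (N : ℕ) : ℕ :=
  Nat.card {q : SL(2, ℤ) ⧸ Gamma0 N // ModularGroup.S • q = q}

/-- Number of fixed points of `U = S * T` (of order 3 on `X`). -/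
noncomputable def fixU (N : ℕ) : ℕ :=
  Nat.card {q : SL(2, ℤ) ⧸ Gamma0 N // (ModularGroup.S * ModularGroup.T) • q = q}

/-- Number of `T`-orbits on `X` (= number of cusps of `Γ₀(N)`). -/
noncomputable def orbT (N : ℕ) : ℕ :=
  Nat.card (MulAction.orbitRel.Quotient (Subgroup.zpowers ModularGroup.T)
    (SL(2, ℤ) ⧸ Gamma0 N))

/-- The genus expressed through the four counts (equal to `ModularCurve.genusFormula N` once
`idx = dedekindPsi`, `fixS = nuTwo`, `fixU = nuThree`, `orbT = cuspCount` are known). -/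
noncomputable def genusQ (N : ℕ) : ℚ :=
  1 + (idx N : ℚ) / 12 - (fixS N : ℚ) / 4 - (fixU N : ℚ) / 3 - (orbT N : ℚ) / 2

end Fermat.Agent.S20
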