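import Mathlib
import Fermat.Agent.S20.Defs

set_option autoImplicit false

/-!
# Project S20 + S21 : shared definitions, part 2 (eigenspaces on `ℂ^X`, generator families)
-/

namespace Fermat.Agent.S20

open UpperHalfPlane CongruenceSubgroup
open scoped MatrixGroups ModularForm Manifold

/-- `ε`-eigenspace of `S` on `ℂ^X`, `X = SL(2,ℤ)/Γ₀(N)`: `v (S⁻¹ • q) = ε * v q`. The vector
`evX N k I f` of a form of weight `k` lies in `eigS N (Complex.I ^ (-k))`. -/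
def eigS (N : ℕ) (ε : ℂ) : Submodule ℂ ((SL(2, ℤ) ⧸ Gamma0 N) → ℂ) where
  carrier := {v | ∀ q, v (ModularGroup.S⁻¹ • q) = ε * v q}
  add_mem' := by intro a b ha hb q; simp only [Pi.add_apply, ha q, hb q, mul_add]
  zero_mem' := by intro q; simp
  smul_mem' := by intro c a ha q; simp only [Pi.smul_apply, ha q, smul_eq_mul]; ring

/-- `ε`-eigenspace of `U = S * T` on `ℂ^X`: `v (U⁻¹ • q) = ε * v q`. The vector
`evX N k ρ f` of a form of weight `k` lies in `eigU N ((ρ + 1) ^ (-k))`. -/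
def eigU (N : ℕ) (ε : ℂ) : Submodule ℂ ((SL(2, ℤ) ⧸ Gamma0 N) → ℂ) where
  carrier := {v | ∀ q, v ((ModularGroup.S * ModularGroup.T)⁻¹ • q) = ε * v q}
  add_mem' := by intro a b ha hb q; simp only [Pi.add_apply, ha q, hb q, mul_add]
  zero_mem' := by intro q; simp
  smul_mem' := by intro c a ha q; simp only [Pi.smul_apply, ha q, smul_eq_mul]; ring

theorem mem_eigS {N : ℕ} {ε : ℂ} {v : (SL(2, ℤ) ⧸ Gamma0 N) → ℂ} :
    v ∈ eigS N ε ↔ ∀ q, v (ModularGroup.S⁻¹ • q) = ε * v q := Iff.rfl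

theorem mem_eigU {N : ℕ} {ε : ℂ} {v : (SL(2, ℤ) ⧸ Gamma0 N) → ℂ} :
    v ∈ eigU N ε ↔ ∀ q, v ((ModularGroup.S * ModularGroup.T)⁻¹ • q) = ε * v q := Iff.rfl

/-- A family `c j ∈ M_{w j}(Γ₀(N))` which generates `⨁ M_k(Γ₀(N))` freely over the ring of
level-one forms (`Lfun`). Sums are over finsets because `J` is not known to be finite a priori
(it is: `card J = idx N`). -/
structure IsGenFamily (N : ℕ) {J : Type} (w : J → ℤ) (c : J → ℍ → ℂ) : Prop where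
  mem : ∀ j, c j ∈ Mfun N (w j)
  gen : ∀ (K : ℤ) (f : ℍ → ℂ), f ∈ Mfun N K → ∃ (s : Finset J) (a : J → ℍ → ℂ),
    (∀ j ∈ s, a j ∈ Lfun (K - w j)) ∧ f = ∑ j ∈ s, a j * c j
  free : ∀ (K : ℤ) (s : Finset J) (a : J → ℍ → ℂ), (∀ j ∈ s, a j ∈ Lfun (K - w j)) →
    ∑ j ∈ s, a j * c j = 0 → ∀ j ∈ s, a j = 0

end Fermat.Agent.S20
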