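import Mathlib
import Fermat.Prelude.Thm_ModularForm_sturm_bound_Gamma0
import Fermat.Prelude.Thm_CongruenceSubgroup_one_mem_strictPeriods_Gamma0

set_option autoImplicit false

namespace Fermat.Agent.S20

open UpperHalfPlane ModularForm Filter Topology CongruenceSubgroup Matrix.SpecialLinearGroup
open scoped MatrixGroups Pointwise Manifold ModularForm

section Bridge

/-- `SL(2, ℤ)` as the subgroup `𝒮ℒ` of `GL(2, ℝ)`. -/
noncomputable def h84_toSL (g : SL(2, ℤ)) : 𝒮ℒ := ⟨mapGL ℝ g, g, rfl⟩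

theorem h84_toSL_mul (g h : SL(2, ℤ)) : h84_toSL (g * h) = h84_toSL g * h84_toSL h := by
  apply Subtype.ext
  simp [h84_toSL]

theorem h84_toSL_inv (g : SL(2, ℤ)) : h84_toSL g⁻¹ = (h84_toSL g)⁻¹ := by
  apply Subtype.ext
  simp [h84_toSL]

theorem h84_toSL_injective : Function.Injective h84_toSL := by
  intro a b hab
  have h1 : mapGL ℝ a = mapGL ℝ b := congrArg Subtype.val hab
  exact mapGL_injective h1

theorem h84_toSL_surjective : Function.Surjective h84_toSL := by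
  rintro ⟨_, g, rfl⟩
  exact ⟨g, rfl⟩

theorem h84_toSL_zpow (g : SL(2, ℤ)) (n : ℤ) : h84_toSL (g ^ n) = h84_toSL g ^ n := by
  apply Subtype.ext
  simp [h84_toSL]

theorem h84_toSL_mem_iff (Γ : Subgroup SL(2, ℤ)) (g : SL(2, ℤ)) :
    h84_toSL g ∈ (Γ : Subgroup (GL (Fin 2) ℝ)).subgroupOf 𝒮ℒ ↔ g ∈ Γ := by
  rw [Subgroup.mem_subgroupOf]
  show mapGL ℝ g ∈ Γ.map (mapGL ℝ) ↔ g ∈ Γ
  constructor
  · rintro ⟨g', hg', h⟩
    rw [mapGL_injective h] at hg'
    exact hg'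
  · intro h
    exact ⟨g, h, rfl⟩

/-- The bridge between `SL(2, ℤ) ⧸ Γ` and the coset space used by Mathlib's trace map. -/
noncomputable def h84_quotEquiv (Γ : Subgroup SL(2, ℤ)) :
    SL(2, ℤ) ⧸ Γ ≃ 𝒮ℒ ⧸ (Γ : Subgroup (GL (Fin 2) ℝ)).subgroupOf 𝒮ℒ :=
  Quotient.congr (Equiv.ofBijective h84_toSL ⟨h84_toSL_injective, h84_toSL_surjective⟩)
    (by
      intro a b
      rw [QuotientGroup.leftRel_apply, QuotientGroup.leftRel_apply]
      show a⁻¹ * b ∈ Γ ↔ (h84_toSL a)⁻¹ * h84_toSL b ∈ _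
      rw [← h84_toSL_inv, ← h84_toSL_mul, h84_toSL_mem_iff])

theorem h84_quotEquiv_mk (Γ : Subgroup SL(2, ℤ)) (g : SL(2, ℤ)) :
    h84_quotEquiv Γ (QuotientGroup.mk g) = QuotientGroup.mk (h84_toSL g) := rfl

theorem h84_quotEquiv_smul (Γ : Subgroup SL(2, ℤ)) (g : SL(2, ℤ)) (x : SL(2, ℤ) ⧸ Γ) :
    h84_quotEquiv Γ (g • x) = h84_toSL g • h84_quotEquiv Γ x := by
  induction x using QuotientGroup.induction_on with
  | H a =>
    rw [MulAction.Quotient.smul_mk, h84_quotEquiv_mk, h84_quotEquiv_mk,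
      MulAction.Quotient.smul_mk, smul_eq_mul, smul_eq_mul, h84_toSL_mul]

/-- Orbit counts agree across the bridge. -/
theorem h84_card_orbits (Γ : Subgroup SL(2, ℤ)) (g : SL(2, ℤ)) :
    Nat.card (MulAction.orbitRel.Quotient (Subgroup.zpowers (h84_toSL g))
        (𝒮ℒ ⧸ (Γ : Subgroup (GL (Fin 2) ℝ)).subgroupOf 𝒮ℒ)) =
      Nat.card (MulAction.orbitRel.Quotient (Subgroup.zpowers g) (SL(2, ℤ) ⧸ Γ)) := by
  symm
  apply Nat.card_congr
  refine Quotient.congr (h84_quotEquiv Γ) ?_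
  intro x y
  rw [MulAction.orbitRel_apply, MulAction.orbitRel_apply]
  constructor
  · rintro ⟨⟨_, n, rfl⟩, hn⟩
    refine ⟨⟨h84_toSL g ^ n, n, rfl⟩, ?_⟩
    have hn' : g ^ n • y = x := hn
    show h84_toSL g ^ n • h84_quotEquiv Γ y = h84_quotEquiv Γ x
    rw [← hn', h84_quotEquiv_smul, h84_toSL_zpow]
  · rintro ⟨⟨_, n, rfl⟩, hn⟩
    refine ⟨⟨g ^ n, n, rfl⟩, ?_⟩
    have hn' : h84_toSL g ^ n • h84_quotEquiv Γ y = h84_quotEquiv Γ x := hn
    show g ^ n • y = x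
    apply (h84_quotEquiv Γ).injective
    rw [h84_quotEquiv_smul, h84_toSL_zpow, hn']

end Bridge

section Analytic

variable {𝒢 : Subgroup (GL (Fin 2) ℝ)} [𝒢.IsArithmetic] {k : ℤ}

/-- Every `SL(2, ℤ)`-translate of a modular form on an arithmetic group tends to its value
at infinity. -/
theorem h84_tendsto_slash (f : ModularForm 𝒢 k) (g : SL(2, ℤ)) :
    Tendsto (⇑f ∣[k] g) atImInfty (𝓝 (valueAtInfty (⇑f ∣[k] g))) := by
  have : ((ConjAct.toConjAct (g : GL (Fin 2) ℝ)⁻¹) • 𝒢).IsArithmetic := by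
    simpa [(show Rat.castHom ℝ = algebraMap ℚ ℝ by rfl), map_inv, map_mapGL]
      using! Subgroup.IsArithmetic.conj 𝒢 (mapGL ℚ g)⁻¹
  obtain ⟨c, hc, hO⟩ := ModularFormClass.exp_decay_sub_atImInfty'
    (ModularForm.translate f (g : GL (Fin 2) ℝ))
  have h0 : Tendsto (fun τ : ℍ ↦ Real.exp (-c * τ.im)) atImInfty (𝓝 0) := by
    have h1 : Tendsto (fun τ : ℍ ↦ -c * τ.im) atImInfty atBot := by
      have h2 : Tendsto (fun τ : ℍ ↦ τ.im) atImInfty atTop := tendsto_comap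
      exact Tendsto.const_mul_atTop_of_neg (neg_neg_of_pos hc) h2
    exact Real.tendsto_exp_atBot.comp h1
  have h1 := hO.trans_tendsto h0
  have h2 : Tendsto (fun τ : ℍ ↦ (⇑f ∣[k] g) τ - valueAtInfty (⇑f ∣[k] g)) atImInfty (𝓝 0) := h1
  have h3 := h2.add_const (valueAtInfty (⇑f ∣[k] g))
  simpa using h3

/-- A function with a limit at `i∞` has that limit as its value at infinity. -/
theorem h84_valueAtInfty_eq_of_tendsto {F : ℍ → ℂ} {L : ℂ} (h : Tendsto F atImInfty (𝓝 L)) :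
    valueAtInfty F = L :=
  h.limUnder_eq

/-- (K1) Each conjugate of a modular form tends to its value at infinity. -/
theorem h84_tendsto_quotientFunc (f : ModularForm 𝒢 k) (q : 𝒮ℒ ⧸ 𝒢.subgroupOf 𝒮ℒ) :
    Tendsto (SlashInvariantForm.quotientFunc f q) atImInfty
      (𝓝 (valueAtInfty (SlashInvariantForm.quotientFunc f q))) := by
  induction q using Quotient.inductionOn with
  | h r =>
    obtain ⟨r, γ, rfl⟩ := r
    have h1 := h84_tendsto_slash f γ⁻¹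
    have h2 : SlashInvariantForm.quotientFunc f
        (⟦(⟨mapGL ℝ γ, γ, rfl⟩ : 𝒮ℒ)⟧ : 𝒮ℒ ⧸ 𝒢.subgroupOf 𝒮ℒ) = ⇑f ∣[k] γ⁻¹ := by
      rw [SlashInvariantForm.quotientFunc_mk, ModularForm.SL_slash, map_inv]
      rfl
    rw [h2]
    exact h1

/-- Slashing with `T⁻¹` is translation by `-1`. -/
theorem h84_slash_T_inv (F : ℍ → ℂ) (k : ℤ) (τ : ℍ) :
    (F ∣[k] (mapGL ℝ) (ModularGroup.T⁻¹)) τ = F ((-1 : ℝ) +ᵥ τ) := by
  have h : F ∣[k] (mapGL ℝ) (ModularGroup.T⁻¹) = F ∣[k] (ModularGroup.T⁻¹) := by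
    rw [ModularForm.SL_slash]
    rfl
  have h2 : ModularGroup.T⁻¹ • τ = (-1 : ℝ) +ᵥ τ := by
    apply UpperHalfPlane.ext
    have := ModularGroup.coe_T_zpow_smul_eq (z := τ) (n := -1)
    rw [zpow_neg_one] at this
    rw [this, UpperHalfPlane.coe_vadd]
    push_cast
    ring
  rw [h, ModularForm.SL_slash_apply, h2]
  have h3 : denom (toGL ((Matrix.SpecialLinearGroup.map (Int.castRingHom ℝ))
      (ModularGroup.T⁻¹))) (τ : ℂ) = 1 := by
    simp [UpperHalfPlane.denom, Matrix.inv_def, Matrix.adjugate_fin_two, Matrix.det_fin_two]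
  rw [h3]
  simp

/-- The element `T` of `𝒮ℒ`. -/
noncomputable def h84_T : 𝒮ℒ := h84_toSL ModularGroup.T

/-- Translation by one preserves the filter `atImInfty`. -/
theorem h84_tendsto_vadd_atImInfty (x : ℝ) :
    Tendsto (fun τ : ℍ => x +ᵥ τ) atImInfty atImInfty := by
  rw [atImInfty, tendsto_comap_iff]
  have : (UpperHalfPlane.im ∘ fun τ : ℍ => x +ᵥ τ) = UpperHalfPlane.im := by
    funext τ
    simp
  rw [this]
  exact tendsto_comap

/-- (K2) The value at infinity is constant on `T`-orbits. -/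
theorem h84_value_T_smul (f : ModularForm 𝒢 k) (q : 𝒮ℒ ⧸ 𝒢.subgroupOf 𝒮ℒ) :
    valueAtInfty (SlashInvariantForm.quotientFunc f (h84_T • q)) =
      valueAtInfty (SlashInvariantForm.quotientFunc f q) := by
  have h1 : SlashInvariantForm.quotientFunc f (h84_T • q) =
      SlashInvariantForm.quotientFunc f q ∣[k] (h84_T⁻¹ : 𝒮ℒ).val := by
    rw [SlashInvariantForm.quotientFunc_smul f (h84_T⁻¹ : 𝒮ℒ).2 q]
    congr 1
  have h2 : ∀ τ : ℍ, (SlashInvariantForm.quotientFunc f q ∣[k] (h84_T⁻¹ : 𝒮ℒ).val) τ =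
      SlashInvariantForm.quotientFunc f q ((-1 : ℝ) +ᵥ τ) := by
    intro τ
    have h3 : ((h84_T⁻¹ : 𝒮ℒ).val : GL (Fin 2) ℝ) = mapGL ℝ (ModularGroup.T⁻¹) := by
      simp [h84_T, h84_toSL]
    rw [h3, h84_slash_T_inv]
  apply h84_valueAtInfty_eq_of_tendsto
  rw [h1]
  have h4 := (h84_tendsto_quotientFunc f q).comp (h84_tendsto_vadd_atImInfty (-1))
  refine h4.congr (fun τ => ?_)
  rw [h2 τ]
  rfl

/-- (K3) For a weight two form the values at infinity of all conjugates add up to zero. -/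
theorem h84_sum_value_eq_zero (f : ModularForm 𝒢 2) :
    ∑ᶠ q : 𝒮ℒ ⧸ 𝒢.subgroupOf 𝒮ℒ, valueAtInfty (SlashInvariantForm.quotientFunc f q) = 0 := by
  classical
  let _ := Fintype.ofFinite (𝒮ℒ ⧸ 𝒢.subgroupOf 𝒮ℒ)
  rw [finsum_eq_sum_of_fintype]
  have h0 : ModularForm.trace 𝒮ℒ f = 0 :=
    rank_zero_iff_forall_zero.mp levelOne_weight_two_rank_zero _
  have h1 : Tendsto (fun τ : ℍ => ∑ q : 𝒮ℒ ⧸ 𝒢.subgroupOf 𝒮ℒ,
      SlashInvariantForm.quotientFunc f q τ) atImInfty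
      (𝓝 (∑ q : 𝒮ℒ ⧸ 𝒢.subgroupOf 𝒮ℒ, valueAtInfty (SlashInvariantForm.quotientFunc f q))) :=
    tendsto_finsetSum _ (fun q _ => h84_tendsto_quotientFunc f q)
  have h2 : (fun τ : ℍ => ∑ q : 𝒮ℒ ⧸ 𝒢.subgroupOf 𝒮ℒ,
      SlashInvariantForm.quotientFunc f q τ) = fun _ => (0 : ℂ) := by
    funext τ
    have h3 := congrArg (fun F : ModularForm 𝒮ℒ 2 => F τ) h0
    simp only [ModularForm.coe_trace] at h3
    rw [← Finset.sum_apply]
    rw [show (0 : ℂ) = (0 : ModularForm 𝒮ℒ 2) τ from rfl]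
    convert h3 using 2
  rw [h2] at h1
  exact tendsto_nhds_unique h1 tendsto_const_nhds

/-- (K4) A modular form all of whose conjugates vanish at infinity is a cusp form. -/
theorem h84_exists_cuspForm_of_values_zero (f : ModularForm 𝒢 k)
    (h : ∀ q : 𝒮ℒ ⧸ 𝒢.subgroupOf 𝒮ℒ, valueAtInfty (SlashInvariantForm.quotientFunc f q) = 0) :
    ∃ g : CuspForm 𝒢 k, (⇑g : ℍ → ℂ) = ⇑f := by
  refine ⟨{ toFun := f, slash_action_eq' := f.slash_action_eq', holo' := f.holo',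
            zero_at_cusps' := ?_ }, rfl⟩
  intro c hc
  have hc' : IsCusp c 𝒮ℒ := (Subgroup.IsArithmetic.isCusp_iff_isCusp_SL2Z 𝒢).mp hc
  rw [OnePoint.isZeroAt_iff_forall_SL2Z hc']
  intro γ _
  have h1 := h84_tendsto_quotientFunc f
    (⟦(⟨mapGL ℝ γ⁻¹, γ⁻¹, rfl⟩ : 𝒮ℒ)⟧ : 𝒮ℒ ⧸ 𝒢.subgroupOf 𝒮ℒ)
  rw [h] at h1
  have h2 : SlashInvariantForm.quotientFunc f
        (⟦(⟨mapGL ℝ γ⁻¹, γ⁻¹, rfl⟩ : 𝒮ℒ)⟧ : 𝒮ℒ ⧸ 𝒢.subgroupOf 𝒮ℒ) = ⇑f ∣[k] γ := by
    rw [SlashInvariantForm.quotientFunc_mk, ModularForm.SL_slash]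
    simp only [map_inv, inv_inv]
    rfl
  rw [h2] at h1
  exact h1

end Analytic

section Linear

variable {𝒢 : Subgroup (GL (Fin 2) ℝ)} {k : ℤ}

theorem h84_quotientFunc_toSL (f : ModularForm 𝒢 k) (γ : SL(2, ℤ)) :
    SlashInvariantForm.quotientFunc f
      (QuotientGroup.mk (h84_toSL γ) : 𝒮ℒ ⧸ 𝒢.subgroupOf 𝒮ℒ) = ⇑f ∣[k] γ⁻¹ := by
  show SlashInvariantForm.quotientFunc f (⟦h84_toSL γ⟧ : 𝒮ℒ ⧸ 𝒢.subgroupOf 𝒮ℒ) = _
  rw [SlashInvariantForm.quotientFunc_mk, ModularForm.SL_slash, map_inv]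
  rfl

theorem h84_exists_toSL (q : 𝒮ℒ ⧸ 𝒢.subgroupOf 𝒮ℒ) :
    ∃ γ : SL(2, ℤ), q = QuotientGroup.mk (h84_toSL γ) := by
  induction q using QuotientGroup.induction_on with
  | H r =>
    obtain ⟨γ, rfl⟩ := h84_toSL_surjective r
    exact ⟨γ, rfl⟩

variable [𝒢.IsArithmetic] [𝒢.HasDetOne]

/-- The value at the cusp attached to the coset `q`. -/
noncomputable def h84_cuspValue (f : ModularForm 𝒢 k) (q : 𝒮ℒ ⧸ 𝒢.subgroupOf 𝒮ℒ) : ℂ :=
  valueAtInfty (SlashInvariantForm.quotientFunc f q)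

omit [𝒢.HasDetOne] in
theorem h84_cuspValue_add (f g : ModularForm 𝒢 k) (q : 𝒮ℒ ⧸ 𝒢.subgroupOf 𝒮ℒ) :
    h84_cuspValue (f + g) q = h84_cuspValue f q + h84_cuspValue g q := by
  obtain ⟨γ, rfl⟩ := h84_exists_toSL q
  unfold h84_cuspValue
  apply h84_valueAtInfty_eq_of_tendsto
  have h1 := (h84_tendsto_quotientFunc f (QuotientGroup.mk (h84_toSL γ))).add
    (h84_tendsto_quotientFunc g (QuotientGroup.mk (h84_toSL γ)))
  refine h1.congr (fun τ => ?_)
  rw [h84_quotientFunc_toSL, h84_quotientFunc_toSL, h84_quotientFunc_toSL]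
  rw [FunLike.coe_add, SlashAction.add_slash]
  rfl

theorem h84_cuspValue_smul (c : ℂ) (f : ModularForm 𝒢 k) (q : 𝒮ℒ ⧸ 𝒢.subgroupOf 𝒮ℒ) :
    h84_cuspValue (c • f) q = c * h84_cuspValue f q := by
  obtain ⟨γ, rfl⟩ := h84_exists_toSL q
  unfold h84_cuspValue
  apply h84_valueAtInfty_eq_of_tendsto
  have h1 := (h84_tendsto_quotientFunc f (QuotientGroup.mk (h84_toSL γ))).const_mul c
  refine h1.congr (fun τ => ?_)
  rw [h84_quotientFunc_toSL, h84_quotientFunc_toSL]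
  rw [FunLike.coe_smul, ModularForm.SL_smul_slash]
  rfl

omit [𝒢.HasDetOne] in
theorem h84_cuspValue_zpow_smul (f : ModularForm 𝒢 k) (n : ℤ) (q : 𝒮ℒ ⧸ 𝒢.subgroupOf 𝒮ℒ) :
    h84_cuspValue f (h84_T ^ n • q) = h84_cuspValue f q := by
  induction n using Int.induction_on generalizing q with
  | zero => simp
  | succ n ih =>
    rw [zpow_add_one, mul_smul, ih]
    exact h84_value_T_smul f q
  | pred n ih =>
    rw [zpow_sub_one, mul_smul, ih]
    have h := h84_value_T_smul f (h84_T⁻¹ • q)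
    rw [smul_inv_smul] at h
    exact h.symm

/-- The linear map sending a modular form to its values at the cusps (`T`-orbits of cosets). -/
noncomputable def h84_cuspValueMap (𝒢 : Subgroup (GL (Fin 2) ℝ)) [𝒢.IsArithmetic] [𝒢.HasDetOne]
    (k : ℤ) :
    ModularForm 𝒢 k →ₗ[ℂ]
      (MulAction.orbitRel.Quotient (Subgroup.zpowers h84_T) (𝒮ℒ ⧸ 𝒢.subgroupOf 𝒮ℒ) → ℂ) where
  toFun f ω := Quotient.liftOn' ω (h84_cuspValue f) (by
    intro a b hab
    obtain ⟨⟨_, n, rfl⟩, hn⟩ := hab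
    have hn' : h84_T ^ n • b = a := hn
    rw [← hn', h84_cuspValue_zpow_smul])
  map_add' f g := by
    funext ω
    induction ω using Quotient.inductionOn' with
    | h q => exact h84_cuspValue_add f g q
  map_smul' c f := by
    funext ω
    induction ω using Quotient.inductionOn' with
    | h q => exact h84_cuspValue_smul c f q

theorem h84_cuspValueMap_mk (f : ModularForm 𝒢 k) (q : 𝒮ℒ ⧸ 𝒢.subgroupOf 𝒮ℒ) :
    h84_cuspValueMap 𝒢 k f (Quotient.mk'' q) = h84_cuspValue f q := rfl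

/-- The inclusion of cusp forms into modular forms. -/
noncomputable def h84_cuspIncl (𝒢 : Subgroup (GL (Fin 2) ℝ)) [𝒢.HasDetOne] (k : ℤ) :
    CuspForm 𝒢 k →ₗ[ℂ] ModularForm 𝒢 k where
  toFun g :=
    { toFun := g
      slash_action_eq' := g.slash_action_eq'
      holo' := g.holo'
      bdd_at_cusps' := fun hc => ModularFormClass.bdd_at_cusps g hc }
  map_add' _ _ := rfl
  map_smul' _ _ := rfl

theorem h84_cuspIncl_injective (𝒢 : Subgroup (GL (Fin 2) ℝ)) [𝒢.HasDetOne] (k : ℤ) :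
    Function.Injective (h84_cuspIncl 𝒢 k) := by
  intro a b hab
  apply DFunLike.coe_injective
  exact congrArg (fun F : ModularForm 𝒢 k => (⇑F : ℍ → ℂ)) hab

theorem h84_ker_le_range (𝒢 : Subgroup (GL (Fin 2) ℝ)) [𝒢.IsArithmetic] [𝒢.HasDetOne] (k : ℤ) :
    LinearMap.ker (h84_cuspValueMap 𝒢 k) ≤ LinearMap.range (h84_cuspIncl 𝒢 k) := by
  intro f hf
  rw [LinearMap.mem_ker] at hf
  have h : ∀ q : 𝒮ℒ ⧸ 𝒢.subgroupOf 𝒮ℒ,
      valueAtInfty (SlashInvariantForm.quotientFunc f q) = 0 := by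
    intro q
    have := congrFun hf (Quotient.mk'' q)
    rw [h84_cuspValueMap_mk] at this
    exact this
  obtain ⟨g, hg⟩ := h84_exists_cuspForm_of_values_zero f h
  refine ⟨g, ?_⟩
  apply DFunLike.coe_injective
  exact hg

/-- (K5, general form) `dim M₂ + 1 ≤ dim S₂ + #cusps`, the cusps being counted as `T`-orbits on
the coset space. -/
theorem h84_finrank_modularForm_two_le_general (𝒢 : Subgroup (GL (Fin 2) ℝ)) [𝒢.IsArithmetic]
    [𝒢.HasDetOne] [FiniteDimensional ℂ (ModularForm 𝒢 2)] :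
    Module.finrank ℂ (ModularForm 𝒢 2) + 1 ≤ Module.finrank ℂ (CuspForm 𝒢 2) +
      Nat.card (MulAction.orbitRel.Quotient (Subgroup.zpowers h84_T)
        (𝒮ℒ ⧸ 𝒢.subgroupOf 𝒮ℒ)) := by
  classical
  let Q := 𝒮ℒ ⧸ 𝒢.subgroupOf 𝒮ℒ
  let Ω := MulAction.orbitRel.Quotient (Subgroup.zpowers h84_T) Q
  let _ : Fintype Q := Fintype.ofFinite Q
  let _ : Fintype Ω := Fintype.ofFinite Ω
  have hS : FiniteDimensional ℂ (CuspForm 𝒢 2) :=
    FiniteDimensional.of_injective (h84_cuspIncl 𝒢 2) (h84_cuspIncl_injective 𝒢 2)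
  let A := h84_cuspValueMap 𝒢 2
  have hrn := LinearMap.finrank_range_add_finrank_ker A
  have hker : Module.finrank ℂ (LinearMap.ker A) ≤ Module.finrank ℂ (CuspForm 𝒢 2) :=
    (Submodule.finrank_mono (h84_ker_le_range 𝒢 2)).trans
      (LinearMap.finrank_range_le (h84_cuspIncl 𝒢 2))
  -- the linear functional "sum over all cosets"
  let ℓ : (Ω → ℂ) →ₗ[ℂ] ℂ := ∑ q : Q, LinearMap.proj (Quotient.mk'' q : Ω)
  have hℓ : ∀ u : Ω → ℂ, ℓ u = ∑ q : Q, u (Quotient.mk'' q) := by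
    intro u
    simp [ℓ, LinearMap.sum_apply]
  have hrange : LinearMap.range A ≤ LinearMap.ker ℓ := by
    rintro _ ⟨f, rfl⟩
    rw [LinearMap.mem_ker, hℓ]
    have h := h84_sum_value_eq_zero f
    rw [finsum_eq_sum_of_fintype] at h
    exact h
  have hlt : LinearMap.ker ℓ ≠ ⊤ := by
    intro htop
    have h1 : (fun _ : Ω => (1 : ℂ)) ∈ LinearMap.ker ℓ := by
      rw [htop]
      trivial
    rw [LinearMap.mem_ker, hℓ] at h1
    simp only [Finset.sum_const, Finset.card_univ, nsmul_eq_mul, mul_one] at h1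
    have h2 : Fintype.card Q ≠ 0 := Fintype.card_ne_zero
    exact h2 (by exact_mod_cast h1)
  have h3 : Module.finrank ℂ (LinearMap.ker ℓ) < Module.finrank ℂ (Ω → ℂ) :=
    Submodule.finrank_lt hlt
  have h4 : Module.finrank ℂ (Ω → ℂ) = Nat.card Ω := by
    rw [Module.finrank_fintype_fun_eq_card, Nat.card_eq_fintype_card]
  have h5 : Module.finrank ℂ (LinearMap.range A) ≤ Module.finrank ℂ (LinearMap.ker ℓ) :=
    Submodule.finrank_mono hrange
  show Module.finrank ℂ (ModularForm 𝒢 2) + 1 ≤ Module.finrank ℂ (CuspForm 𝒢 2) + Nat.card Ω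
  omega

end Linear

section Gamma0

/-- Truncated `q`-expansion map on modular forms of level `Γ₀(N)`. -/
noncomputable def h84_trunc (N : ℕ) (k : ℤ) :
    ModularForm (Gamma0 N) k →ₗ[ℂ] (Fin ((k * (Gamma0 N).index).toNat / 12 + 1) → ℂ) where
  toFun f i := (qExpansion 1 f).coeff i
  map_add' f g := by
    funext i
    have h := ModularForm.qExpansion_add (h := 1) one_pos (one_mem_strictPeriods_Gamma0 N) f g
    have h' : qExpansion 1 (⇑(f + g)) = qExpansion 1 ⇑f + qExpansion 1 ⇑g := h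
    simp only [h', map_add, Pi.add_apply]
  map_smul' a f := by
    funext i
    have h := ModularForm.qExpansion_smul (h := 1) one_pos (one_mem_strictPeriods_Gamma0 N) a f
    have h' : qExpansion 1 (⇑(a • f)) = a • qExpansion 1 ⇑f := h
    simp only [h', PowerSeries.coeff_smul, RingHom.id_apply, Pi.smul_apply, smul_eq_mul]

theorem h84_trunc_injective (N : ℕ) [NeZero N] (k : ℤ) : Function.Injective (h84_trunc N k) := by
  refine (injective_iff_map_eq_zero _).mpr fun f hf ↦ ?_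
  refine ModularForm.sturm_bound_Gamma0 N _ fun n hn ↦ ?_
  exact congrFun hf ⟨n, Nat.lt_succ_of_le hn⟩

/-- Modular forms of level `Γ₀(N)` form a finite-dimensional space. -/
theorem h84_finiteDimensional_modularForm (N : ℕ) [NeZero N] (k : ℤ) :
    FiniteDimensional ℂ (ModularForm (Gamma0 N) k) :=
  FiniteDimensional.of_injective (h84_trunc N k) (h84_trunc_injective N k)

/-- (K5) `dim M₂(Γ₀(N)) + 1 ≤ dim S₂(Γ₀(N)) + #(T-orbits on SL(2, ℤ) ⧸ Γ₀(N))`. -/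
theorem h84_finrank_modularForm_two_le (N : ℕ) [NeZero N] :
    Module.finrank ℂ (ModularForm (Gamma0 N) 2) + 1 ≤ Module.finrank ℂ (CuspForm (Gamma0 N) 2) +
      Nat.card (MulAction.orbitRel.Quotient (Subgroup.zpowers ModularGroup.T)
        (SL(2, ℤ) ⧸ Gamma0 N)) := by
  have hfin := h84_finiteDimensional_modularForm N 2
  have h := h84_finrank_modularForm_two_le_general (Gamma0 N : Subgroup (GL (Fin 2) ℝ))
  have hc := h84_card_orbits (Gamma0 N) ModularGroup.T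
  rw [← hc]
  exact h

end Gamma0

end Fermat.Agent.S20
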