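import Mathlib
import Fermat.Agent.S20.Defs2
import Fermat.Agent.S20.h84_CuspTrace

set_option autoImplicit false

/-!
# Project S20 + S21 : conjugates `cj` and the fibre maps `evX` (task row CONJ)
-/

namespace Fermat.Agent.S20

open UpperHalfPlane CongruenceSubgroup
open scoped MatrixGroups ModularForm Manifold

theorem cj_mk {N : ℕ} {k : ℤ} {f : ℍ → ℂ} (hf : ∀ γ ∈ Gamma0 N, f ∣[k] γ = f) (g : SL(2, ℤ)) :
    cj N k f (g : SL(2, ℤ) ⧸ Gamma0 N) = f ∣[k] g⁻¹ := by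
  unfold cj
  have h1 : ((Quotient.out (g : SL(2, ℤ) ⧸ Gamma0 N) : SL(2, ℤ)) : SL(2, ℤ) ⧸ Gamma0 N) = g :=
    QuotientGroup.out_eq' _
  have h2 : (Quotient.out (g : SL(2, ℤ) ⧸ Gamma0 N) : SL(2, ℤ))⁻¹ * g ∈ Gamma0 N :=
    QuotientGroup.eq.mp h1
  have h3 : g⁻¹ * (Quotient.out (g : SL(2, ℤ) ⧸ Gamma0 N) : SL(2, ℤ)) ∈ Gamma0 N := by
    have := (Gamma0 N).inv_mem h2
    simpa [mul_inv_rev] using this
  have h4 : f ∣[k] g⁻¹ = f ∣[k] ((g⁻¹ * (Quotient.out (g : SL(2, ℤ) ⧸ Gamma0 N) : SL(2, ℤ)))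
      * (Quotient.out (g : SL(2, ℤ) ⧸ Gamma0 N) : SL(2, ℤ))⁻¹) := by
    congr 1
    group
  rw [h4, SlashAction.slash_mul, hf _ h3]

theorem cj_slash {N : ℕ} {k : ℤ} {f : ℍ → ℂ} (hf : ∀ γ ∈ Gamma0 N, f ∣[k] γ = f)
    (q : SL(2, ℤ) ⧸ Gamma0 N) (γ : SL(2, ℤ)) : cj N k f q ∣[k] γ = cj N k f (γ⁻¹ • q) := by
  induction q using QuotientGroup.induction_on with
  | H g =>
    rw [cj_mk hf, MulAction.Quotient.smul_mk, smul_eq_mul, cj_mk hf, ← SlashAction.slash_mul,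
      mul_inv_rev, inv_inv]

theorem cj_mul_Lfun (N : ℕ) (k : ℤ) {l : ℤ} {F : ℍ → ℂ} (hF : F ∈ Lfun l) (f : ℍ → ℂ)
    (q : SL(2, ℤ) ⧸ Gamma0 N) : cj N (k + l) (F * f) q = F * cj N k f q := by
  unfold cj
  rw [add_comm k l, ModularForm.mul_slash_SL2, hF.2.1]

theorem cj_mdiff (N : ℕ) (k : ℤ) {f : ℍ → ℂ} (hf : MDiff f) (q : SL(2, ℤ) ⧸ Gamma0 N) :
    MDiff (cj N k f q) :=
  hf.slash k _

theorem cj_isBounded {N : ℕ} {k : ℤ} {f : ℍ → ℂ} (hf : f ∈ Mfun N k)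
    (q : SL(2, ℤ) ⧸ Gamma0 N) : IsBoundedAtImInfty (cj N k f q) :=
  hf.2.2 _

theorem cj_T {N : ℕ} {k : ℤ} {f : ℍ → ℂ} (hf : ∀ γ ∈ Gamma0 N, f ∣[k] γ = f)
    (q : SL(2, ℤ) ⧸ Gamma0 N) (τ : ℍ) :
    cj N k f (ModularGroup.T⁻¹ • q) τ = cj N k f q ((1 : ℝ) +ᵥ τ) := by
  rw [← cj_slash hf, ModularForm.SL_slash_apply, modular_T_smul]
  have h : denom ModularGroup.T τ = 1 := by
    rw [ModularGroup.denom_apply]
    simp [ModularGroup.T]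
  rw [h, one_zpow, mul_one]

theorem evX_mul_Lfun (N : ℕ) (k : ℤ) {l : ℤ} {F : ℍ → ℂ} (hF : F ∈ Lfun l) (f : ℍ → ℂ)
    (τ : ℍ) : evX N (k + l) τ (F * f) = F τ • evX N k τ f := by
  funext q
  rw [evX_apply, cj_mul_Lfun N k hF, Pi.smul_apply, evX_apply, Pi.mul_apply, smul_eq_mul]

theorem evX_smul_stab {N : ℕ} {k : ℤ} {f : ℍ → ℂ} (hf : ∀ γ ∈ Gamma0 N, f ∣[k] γ = f)
    {γ : SL(2, ℤ)} {τ : ℍ} (hγ : γ • τ = τ) (q : SL(2, ℤ) ⧸ Gamma0 N) :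
    evX N k τ f (γ⁻¹ • q) = (denom γ τ) ^ (-k) * evX N k τ f q := by
  rw [evX_apply, ← cj_slash hf, ModularForm.SL_slash_apply, hγ, evX_apply, mul_comm]

theorem evX_eq_zero_iff {N : ℕ} {k : ℤ} {f : ℍ → ℂ} (hf : ∀ γ ∈ Gamma0 N, f ∣[k] γ = f)
    (τ : ℍ) : evX N k τ f = 0 ↔ ∀ γ : SL(2, ℤ), f (γ • τ) = 0 := by
  constructor
  · intro h γ
    have h1 := congrFun h ((γ⁻¹ : SL(2, ℤ)) : SL(2, ℤ) ⧸ Gamma0 N)
    rw [evX_apply, cj_mk hf, inv_inv, ModularForm.SL_slash_apply] at h1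
    simp only [Pi.zero_apply] at h1
    exact (mul_eq_zero.mp h1).resolve_right (zpow_ne_zero _ (denom_ne_zero γ τ))
  · intro h
    funext q
    induction q using QuotientGroup.induction_on with
    | H g =>
      rw [evX_apply, cj_mk hf, ModularForm.SL_slash_apply, h, zero_mul]
      rfl

theorem evX_I_mem_eigS {N : ℕ} {k : ℤ} {f : ℍ → ℂ} (hf : f ∈ Mfun N k) :
    evX N k I f ∈ eigS N (Complex.I ^ (-k)) := by
  intro q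
  have hS : ModularGroup.S • I = I := ModularGroup.stabilizer_I.mpr (by simp)
  rw [evX_smul_stab hf.2.1 hS q, ModularGroup.denom_S, coe_I]

theorem evX_rho_mem_eigU {N : ℕ} {k : ℤ} {f : ℍ → ℂ} (hf : f ∈ Mfun N k) :
    evX N k ρ f ∈ eigU N (((ρ : ℂ) + 1) ^ (-k)) := by
  intro q
  have hU : (ModularGroup.S * ModularGroup.T) • ρ = ρ := ModularGroup.stabilizer_ρ.mpr (by simp)
  have h10 : (ModularGroup.S * ModularGroup.T : SL(2, ℤ)) 1 0 = 1 := by decide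
  have h11 : (ModularGroup.S * ModularGroup.T : SL(2, ℤ)) 1 1 = 1 := by decide
  have hd : denom ((ModularGroup.S * ModularGroup.T : SL(2, ℤ))) ρ = (ρ : ℂ) + 1 := by
    rw [ModularGroup.denom_apply, h10, h11]
    simp
  rw [evX_smul_stab hf.2.1 hU q, hd]

theorem sum_cj_mem_Lfun {N : ℕ} [NeZero N] {k : ℤ} {f : ℍ → ℂ} (hf : f ∈ Mfun N k) :
    (∑ᶠ q : SL(2, ℤ) ⧸ Gamma0 N, cj N k f q) ∈ Lfun k := by
  classical
  have : Fintype (SL(2, ℤ) ⧸ Gamma0 N) := Fintype.ofFinite _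
  rw [finsum_eq_sum_of_fintype]
  refine ⟨?_, ?_, ?_⟩
  · exact MDifferentiable.sum (fun q _ => cj_mdiff N k hf.1 q)
  · intro γ
    rw [SlashAction.sum_slash]
    simp only [cj_slash hf.2.1]
    exact Equiv.sum_comp (MulAction.toPerm (γ⁻¹ : SL(2, ℤ))) (fun q => cj N k f q)
  · exact Asymptotics.IsBigO.sum (fun q _ => cj_isBounded hf q)

theorem exists_equiv_quotientFunc (N : ℕ) [NeZero N] :
    ∃ e : (SL(2, ℤ) ⧸ Gamma0 N) ≃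
        (𝒮ℒ ⧸ ((Gamma0 N : Subgroup SL(2, ℤ)) : Subgroup (GL (Fin 2) ℝ)).subgroupOf 𝒮ℒ),
      ∀ (k : ℤ) (F : ModularForm (Gamma0 N) k) (q : SL(2, ℤ) ⧸ Gamma0 N),
        SlashInvariantForm.quotientFunc F (e q) = cj N k ⇑F q := by
  refine ⟨h84_quotEquiv (Gamma0 N), fun k F q => ?_⟩
  have hF : ∀ γ ∈ Gamma0 N, (⇑F : ℍ → ℂ) ∣[k] γ = ⇑F := fun γ hγ =>
    SlashInvariantFormClass.slash_action_eq F _ ⟨γ, hγ, rfl⟩
  induction q using QuotientGroup.induction_on with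
  | H g =>
    rw [cj_mk hF, h84_quotEquiv_mk]
    show (⇑F : ℍ → ℂ) ∣[k] (Matrix.SpecialLinearGroup.mapGL ℝ g)⁻¹
      = (⇑F : ℍ → ℂ) ∣[k] (Matrix.SpecialLinearGroup.mapGL ℝ g⁻¹)
    rw [map_inv]

end Fermat.Agent.S20
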