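import Mathlib
import Fermat.Agent.S20.Defs

set_option autoImplicit false

/-!
# Project S20 + S21 : bridge between the function spaces `Mfun / Sfun / Lfun` and Mathlib's
bundled `ModularForm` / `CuspForm`, and level-one basics.
-/

namespace Fermat.Agent.S20

open UpperHalfPlane CongruenceSubgroup ModularForm Filter Topology
open scoped MatrixGroups ModularForm Manifold

/-- Every `SL(2,ℤ)`-translate `∞` is a cusp of `Γ₀(N)`. -/
private theorem bridge_isCusp (N : ℕ) [NeZero N] (σ : SL(2, ℤ)) :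
    IsCusp (Matrix.SpecialLinearGroup.mapGL ℝ σ • OnePoint.infty)
      (Gamma0 N : Subgroup (GL (Fin 2) ℝ)) := by
  rw [Subgroup.IsArithmetic.isCusp_iff_isCusp_SL2Z, isCusp_SL2Z_iff']
  exact ⟨σ, rfl⟩

theorem mem_Mfun_iff_exists (N : ℕ) [NeZero N] (k : ℤ) (f : ℍ → ℂ) :
    f ∈ Mfun N k ↔ ∃ F : ModularForm (Gamma0 N) k, ⇑F = f := by
  constructor
  · rintro ⟨h1, h2, h3⟩
    refine ⟨{ toFun := f
              slash_action_eq' := ?_
              holo' := h1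
              bdd_at_cusps' := ?_ }, rfl⟩
    · rintro γ ⟨γ', hγ', rfl⟩
      exact h2 γ' hγ'
    · intro c hc
      rw [Subgroup.IsArithmetic.isCusp_iff_isCusp_SL2Z] at hc
      rw [OnePoint.isBoundedAt_iff_forall_SL2Z hc]
      intro σ _
      exact h3 σ
  · rintro ⟨F, rfl⟩
    refine ⟨ModularFormClass.holo F, fun γ hγ => ?_, fun σ => ?_⟩
    · exact SlashInvariantFormClass.slash_action_eq F _ ⟨γ, hγ, rfl⟩
    · exact ModularFormClass.bdd_at_cusps F (bridge_isCusp N σ) _ rfl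

theorem mem_Sfun_iff_exists (N : ℕ) [NeZero N] (k : ℤ) (f : ℍ → ℂ) :
    f ∈ Sfun N k ↔ ∃ F : CuspForm (Gamma0 N) k, ⇑F = f := by
  constructor
  · rintro ⟨h1, h2, h3⟩
    refine ⟨{ toFun := f
              slash_action_eq' := ?_
              holo' := h1
              zero_at_cusps' := ?_ }, rfl⟩
    · rintro γ ⟨γ', hγ', rfl⟩
      exact h2 γ' hγ'
    · intro c hc
      rw [Subgroup.IsArithmetic.isCusp_iff_isCusp_SL2Z] at hc
      rw [OnePoint.isZeroAt_iff_forall_SL2Z hc]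
      intro σ _
      exact h3 σ
  · rintro ⟨F, rfl⟩
    refine ⟨CuspFormClass.holo F, fun γ hγ => ?_, fun σ => ?_⟩
    · exact SlashInvariantFormClass.slash_action_eq F _ ⟨γ, hγ, rfl⟩
    · exact CuspFormClass.zero_at_cusps F (bridge_isCusp N σ) _ rfl

theorem mem_Lfun_iff_exists (l : ℤ) (F : ℍ → ℂ) :
    F ∈ Lfun l ↔ ∃ G : ModularForm 𝒮ℒ l, ⇑G = F := by
  constructor
  · rintro ⟨h1, h2, h3⟩
    refine ⟨{ toFun := F
              slash_action_eq' := fun _ ⟨γ, hγ⟩ => hγ ▸ h2 γ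
              holo' := h1
              bdd_at_cusps' := ?_ }, rfl⟩
    intro c hc
    rw [Subgroup.IsArithmetic.isCusp_iff_isCusp_SL2Z] at hc
    rw [OnePoint.isBoundedAt_iff_forall_SL2Z hc]
    intro γ _
    rw [h2 γ]
    exact h3
  · rintro ⟨G, rfl⟩
    refine ⟨ModularFormClass.holo G, fun γ => ?_, ModularFormClass.bdd_at_infty G⟩
    exact SlashInvariantFormClass.slash_action_eq G _ ⟨γ, rfl⟩

/-- The coercion of cusp forms to functions, as a linear map. -/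
private noncomputable def bridgeCoe (N : ℕ) (k : ℤ) :
    CuspForm (Gamma0 N) k →ₗ[ℂ] (ℍ → ℂ) where
  toFun F := ⇑F
  map_add' _ _ := rfl
  map_smul' _ _ := rfl

theorem finrank_Sfun (N : ℕ) [NeZero N] (k : ℤ) :
    Module.finrank ℂ (Sfun N k) = Module.finrank ℂ (CuspForm (Gamma0 N) k) := by
  have hinj : Function.Injective (bridgeCoe N k) := fun F G h => DFunLike.coe_injective h
  have hrange : LinearMap.range (bridgeCoe N k) = Sfun N k := by
    ext f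
    rw [LinearMap.mem_range, mem_Sfun_iff_exists]
    rfl
  rw [← hrange]
  exact LinearMap.finrank_range_of_inj hinj

theorem E4_mem_Lfun : (⇑E₄ : ℍ → ℂ) ∈ Lfun 4 :=
  (mem_Lfun_iff_exists 4 _).mpr ⟨E₄, rfl⟩

theorem E6_mem_Lfun : (⇑E₆ : ℍ → ℂ) ∈ Lfun 6 :=
  (mem_Lfun_iff_exists 6 _).mpr ⟨E₆, rfl⟩

theorem delta_mem_Lfun : (discriminant : ℍ → ℂ) ∈ Lfun 12 :=
  ⟨CuspFormClass.holo CuspForm.discriminant,
    fun γ => SlashInvariantFormClass.slash_action_eq CuspForm.discriminant _ ⟨γ, rfl⟩,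
    discriminant_isZeroAtImInfty.boundedAtFilter⟩

theorem const_mem_Lfun (c : ℂ) : (fun _ : ℍ => c) ∈ Lfun 0 :=
  ⟨mdifferentiable_const, fun γ => ModularForm.is_invariant_const γ c,
    Filter.const_boundedAtFilter _ c⟩

theorem Lfun_mul_mem {l l' : ℤ} {F G : ℍ → ℂ} (hF : F ∈ Lfun l) (hG : G ∈ Lfun l') :
    F * G ∈ Lfun (l + l') := by
  obtain ⟨hF1, hF2, hF3⟩ := hF
  obtain ⟨hG1, hG2, hG3⟩ := hG
  refine ⟨hF1.mul hG1, fun γ => ?_, hF3.mul hG3⟩
  rw [ModularForm.mul_slash_SL2, hF2 γ, hG2 γ]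

theorem Lfun_eq_bot_of_neg {l : ℤ} (hl : l < 0) : Lfun l = ⊥ := by
  rw [eq_bot_iff]
  intro F hF
  obtain ⟨G, rfl⟩ := (mem_Lfun_iff_exists l F).mp hF
  rw [Submodule.mem_bot]
  exact ModularFormClass.levelOne_neg_weight_eq_zero hl G

theorem Lfun_two_eq_bot : Lfun 2 = ⊥ := by
  rw [eq_bot_iff]
  intro F hF
  obtain ⟨G, rfl⟩ := (mem_Lfun_iff_exists 2 F).mp hF
  rw [Submodule.mem_bot]
  have hG : G = 0 := rank_zero_iff_forall_zero.mp levelOne_weight_two_rank_zero G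
  rw [hG]
  rfl

theorem Lfun_zero_const {F : ℍ → ℂ} (hF : F ∈ Lfun 0) : ∃ c : ℂ, F = fun _ => c := by
  obtain ⟨G, rfl⟩ := (mem_Lfun_iff_exists 0 F).mp hF
  obtain ⟨c, hc⟩ := ModularFormClass.levelOne_weight_zero_const G
  exact ⟨c, hc⟩

theorem Mfun_eq_bot_of_neg (N : ℕ) [NeZero N] {k : ℤ} (hk : k < 0) : Mfun N k = ⊥ := by
  rw [eq_bot_iff]
  intro f hf
  obtain ⟨F, rfl⟩ := (mem_Mfun_iff_exists N k f).mp hf
  rw [Submodule.mem_bot]
  have hF : F = 0 := ModularForm.isZero_of_neg_weight hk F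
  rw [hF]
  rfl

theorem Mfun_eq_bot_of_odd (N : ℕ) [NeZero N] {k : ℤ} (hk : Odd k) : Mfun N k = ⊥ := by
  rw [eq_bot_iff]
  intro f hf
  obtain ⟨F, rfl⟩ := (mem_Mfun_iff_exists N k f).mp hf
  rw [Submodule.mem_bot]
  have hneg : (-1 : GL (Fin 2) ℝ) ∈ (Gamma0 N : Subgroup (GL (Fin 2) ℝ)) := by
    refine Subgroup.mem_map.mpr ⟨-1, ?_, ?_⟩
    · rw [Gamma0_mem]; simp
    · ext i j
      fin_cases i <;> fin_cases j <;> simp [Matrix.SpecialLinearGroup.mapGL]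
  have hF : F = 0 := ModularForm.eq_zero_of_neg_one_mem hneg hk F
  rw [hF]
  rfl

theorem Lfun_mul_Mfun {N : ℕ} {k l : ℤ} {F f : ℍ → ℂ} (hF : F ∈ Lfun l) (hf : f ∈ Mfun N k) :
    F * f ∈ Mfun N (k + l) := by
  obtain ⟨hF1, hF2, hF3⟩ := hF
  obtain ⟨hf1, hf2, hf3⟩ := hf
  rw [add_comm k l]
  refine ⟨hF1.mul hf1, fun γ hγ => ?_, fun σ => ?_⟩
  · rw [ModularForm.mul_slash_SL2, hF2 γ, hf2 γ hγ]
  · rw [ModularForm.mul_slash_SL2, hF2 σ]
    exact hF3.mul (hf3 σ)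

/-- A level-one modular form tends to its constant `q`-coefficient at `i∞`. -/
private theorem bridge_tendsto_modularForm {k : ℤ} (f : ModularForm 𝒮ℒ k) :
    Tendsto f atImInfty (𝓝 ((qExpansion 1 f).coeff 0)) := by
  have hanal : AnalyticAt ℂ (cuspFunction 1 (f : ℍ → ℂ)) 0 :=
    ModularFormClass.analyticAt_cuspFunction_zero f one_pos one_mem_strictPeriods_SL
  have h1 := hanal.continuousAt.tendsto.comp (qParam_tendsto_atImInfty one_pos)
  have h0 : (qExpansion 1 (f : ℍ → ℂ)).coeff 0 = cuspFunction 1 (f : ℍ → ℂ) 0 := by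
    simp [qExpansion_coeff]
  rw [h0]
  refine h1.congr fun τ => ?_
  exact SlashInvariantFormClass.eq_cuspFunction f τ one_mem_strictPeriods_SL one_ne_zero

theorem E4_tendsto : Tendsto (⇑E₄ : ℍ → ℂ) atImInfty (𝓝 1) := by
  have h := bridge_tendsto_modularForm E₄
  have c40 : (qExpansion 1 (E₄ : ℍ → ℂ)).coeff 0 = 1 := EisensteinSeries.E_qExpansion_coeff_zero _ ⟨2, rfl⟩
  rwa [c40] at h

theorem E6_tendsto : Tendsto (⇑E₆ : ℍ → ℂ) atImInfty (𝓝 1) := by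
  have h := bridge_tendsto_modularForm E₆
  have c60 : (qExpansion 1 (E₆ : ℍ → ℂ)).coeff 0 = 1 := EisensteinSeries.E_qExpansion_coeff_zero _ ⟨3, rfl⟩
  rwa [c60] at h

theorem Lfun_tendsto {l : ℤ} {F : ℍ → ℂ} (hF : F ∈ Lfun l) :
    ∃ c : ℂ, Tendsto F atImInfty (𝓝 c) := by
  obtain ⟨G, rfl⟩ := (mem_Lfun_iff_exists l F).mp hF
  exact ⟨_, bridge_tendsto_modularForm G⟩

theorem Lfun_sub_limit_isBigO {l : ℤ} {F : ℍ → ℂ} (hF : F ∈ Lfun l) {c : ℂ}
    (hc : Tendsto F atImInfty (𝓝 c)) :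
    (fun τ : ℍ => F τ - c) =O[atImInfty] (fun τ : ℍ => Real.exp (-2 * Real.pi * τ.im)) := by
  obtain ⟨G, rfl⟩ := (mem_Lfun_iff_exists l F).mp hF
  have hval : valueAtInfty (G : ℍ → ℂ) = c := hc.limUnder_eq
  have h := exp_decay_sub_atImInfty (h := 1) one_pos
    (SlashInvariantFormClass.periodic_comp_ofComplex G one_mem_strictPeriods_SL)
    (ModularFormClass.holo G) (ModularFormClass.bdd_at_infty G)
  rw [hval] at h
  simpa using h

end Fermat.Agent.S20
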