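import Mathlib

set_option autoImplicit false

/-!
# Level-one modular forms without zeros on the upper half plane

A modular form for `SL(2, ℤ)` that has no zero on `ℍ` is a nonzero constant multiple of a
power of the discriminant (so its weight is `12 * m`).
-/

namespace Fermat.Agent.S20

open UpperHalfPlane ModularForm SlashInvariantForm ModularFormClass CuspFormClass MatrixGroups
  OnePoint Filter Topology

/-- A level-one modular form tends to the constant coefficient of its `q`-expansion at `i∞`. -/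
theorem h12_tendsto_atImInfty {k : ℤ} (f : ModularForm 𝒮ℒ k) :
    Tendsto f atImInfty (𝓝 ((qExpansion 1 f).coeff 0)) := by
  have hanal := ModularFormClass.analyticAt_cuspFunction_zero f one_pos one_mem_strictPeriods_SL
  have hper := SlashInvariantFormClass.periodic_comp_ofComplex f one_mem_strictPeriods_SL
  have h0 : (qExpansion 1 f).coeff 0 = cuspFunction 1 f 0 := by
    rw [qExpansion_coeff_zero one_pos hanal hper, cuspFunction_apply_zero one_pos hanal hper]
  rw [h0]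
  exact (hanal.continuousAt.tendsto.comp (qParam_tendsto_atImInfty one_pos)).congr
    (fun τ ↦ SlashInvariantFormClass.eq_cuspFunction f τ one_mem_strictPeriods_SL one_ne_zero)

theorem h12_inv_slash_eq {k : ℤ} (f : ModularForm 𝒮ℒ k) (γ : SL(2, ℤ)) :
    (fun z ↦ (f z)⁻¹) ∣[-k] γ = fun z ↦ (f z)⁻¹ := by
  have hγ : (γ : GL (Fin 2) ℝ) ∈ 𝒮ℒ := ⟨γ, rfl⟩
  have h1 : (fun z : ℍ ↦ (f z)⁻¹) = (1 : ℍ → ℂ) / ⇑f := by
    funext z
    simp
  have h2 : (1 : ℍ → ℂ) ∣[(0 : ℤ)] γ = 1 := by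
    simp [SL_slash]
  have h3 : (⇑f) ∣[k] γ = ⇑f := by
    rw [SL_slash]
    exact f.slash_action_eq' _ hγ
  rw [h1, show (-k : ℤ) = 0 - k by ring, div_slash_SL2, h2, h3]

/-- The inverse of a level-one modular form without zeros on `ℍ` and with nonzero value at
`i∞`, as a modular form of weight `-k`. -/
noncomputable def h12_invForm {k : ℤ} (f : ModularForm 𝒮ℒ k) (hf : ∀ τ : ℍ, f τ ≠ 0)
    (h0 : (qExpansion 1 f).coeff 0 ≠ 0) : ModularForm 𝒮ℒ (-k) where
  toFun z := (f z)⁻¹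
  slash_action_eq' := fun _ ⟨γ, hγ⟩ ↦ hγ ▸ h12_inv_slash_eq f γ
  holo' := by
    have h2 := (1 : ModularForm 𝒮ℒ 0).holo'.div f.holo' hf
    have h1 : (⇑(1 : ModularForm 𝒮ℒ 0).toSlashInvariantForm / ⇑f.toSlashInvariantForm) =
        (fun z : ℍ ↦ (f z)⁻¹) := by
      funext z
      show (1 : ℂ) / f z = (f z)⁻¹
      rw [one_div]
    rw [h1] at h2
    exact h2
  bdd_at_cusps' {c} hc := by
    rw [Subgroup.IsArithmetic.isCusp_iff_isCusp_SL2Z] at hc
    rw [isBoundedAt_iff_forall_SL2Z hc]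
    intro γ _
    rw [h12_inv_slash_eq f γ, IsBoundedAtImInfty, BoundedAtFilter]
    have ht : Tendsto (fun z : ℍ ↦ (f z)⁻¹) atImInfty (𝓝 ((qExpansion 1 f).coeff 0)⁻¹) :=
      (h12_tendsto_atImInfty f).inv₀ h0
    exact ht.isBigO_one ℝ

theorem h12_invForm_apply {k : ℤ} (f : ModularForm 𝒮ℒ k) (hf : ∀ τ : ℍ, f τ ≠ 0)
    (h0 : (qExpansion 1 f).coeff 0 ≠ 0) (z : ℍ) : h12_invForm f hf h0 z = (f z)⁻¹ := rfl

/-- A level-one modular form without zeros on `ℍ` and with nonzero value at `i∞` has weight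
zero. -/
theorem h12_weight_eq_zero {k : ℤ} (f : ModularForm 𝒮ℒ k) (hf : ∀ τ : ℍ, f τ ≠ 0)
    (h0 : (qExpansion 1 f).coeff 0 ≠ 0) : k = 0 := by
  by_contra hk
  rcases lt_or_gt_of_ne hk with hneg | hpos
  · have := levelOne_neg_weight_eq_zero hneg f
    exact hf I (by rw [this]; rfl)
  · have := levelOne_neg_weight_eq_zero (show -k < 0 by omega) (h12_invForm f hf h0)
    have h1 : h12_invForm f hf h0 I = 0 := by rw [this]; rfl
    rw [h12_invForm_apply] at h1
    exact hf I (inv_eq_zero.mp h1)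

/-- A level-one modular form without zeros on `ℍ` and with nonzero value at `i∞` is a nonzero
constant. -/
theorem h12_eq_const {k : ℤ} (f : ModularForm 𝒮ℒ k) (hf : ∀ τ : ℍ, f τ ≠ 0)
    (h0 : (qExpansion 1 f).coeff 0 ≠ 0) : k = 0 ∧ ∃ c : ℂ, c ≠ 0 ∧ ∀ τ : ℍ, f τ = c := by
  have hk := h12_weight_eq_zero f hf h0
  subst hk
  refine ⟨rfl, ?_⟩
  obtain ⟨c, hc⟩ := levelOne_weight_zero_const f
  refine ⟨c, ?_, fun τ ↦ by rw [hc]; rfl⟩
  rintro rfl
  exact hf I (by rw [hc]; rfl)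

private theorem h12_aux (n : ℕ) : ∀ (k : ℤ), k ≤ n → ∀ (f : ModularForm 𝒮ℒ k),
    (∀ τ : ℍ, f τ ≠ 0) → ∃ (m : ℕ) (c : ℂ), c ≠ 0 ∧ k = 12 * (m : ℤ) ∧
      ∀ τ : ℍ, f τ = c * ModularForm.discriminant τ ^ m := by
  induction n using Nat.strong_induction_on with
  | _ n ih =>
    intro k hk f hf
    by_cases h0 : (qExpansion 1 f).coeff 0 = 0
    · -- divide by the discriminant
      let g : ModularForm 𝒮ℒ (k - 12) := CuspForm.discriminantEquiv (toCuspForm f h0)
      have hg : ∀ τ : ℍ, g τ = f τ / ModularForm.discriminant τ := fun τ ↦ rfl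
      have hgne : ∀ τ : ℍ, g τ ≠ 0 := fun τ ↦ by
        rw [hg]
        exact div_ne_zero (hf τ) (discriminant_ne_zero τ)
      have hk0 : 0 ≤ k - 12 := by
        by_contra hneg
        have := levelOne_neg_weight_eq_zero (show k - 12 < 0 by omega) g
        exact hgne I (by rw [this]; rfl)
      have hn : 12 ≤ n := by omega
      obtain ⟨m, c, hc, hkm, hgm⟩ := ih (n - 12) (by omega) (k - 12) (by omega) g hgne
      refine ⟨m + 1, c, hc, by push_cast; omega, fun τ ↦ ?_⟩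
      have h1 := hgm τ
      rw [hg] at h1
      rw [pow_succ, ← mul_assoc, ← h1, div_mul_cancel₀ _ (discriminant_ne_zero τ)]
    · obtain ⟨hk0, c, hc, hfc⟩ := h12_eq_const f hf h0
      exact ⟨0, c, hc, by simpa using hk0, fun τ ↦ by simpa using hfc τ⟩

/-- **A level-one modular form without zeros on the upper half plane is a nonzero constant
multiple of a power of the discriminant.** -/
theorem h12_eq_const_mul_discriminant_pow {k : ℤ} (f : ModularForm 𝒮ℒ k)
    (hf : ∀ τ : ℍ, f τ ≠ 0) :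
    ∃ (m : ℕ) (c : ℂ), c ≠ 0 ∧ k = 12 * (m : ℤ) ∧
      ∀ τ : ℍ, f τ = c * ModularForm.discriminant τ ^ m := by
  by_cases hk : k < 0
  · have := levelOne_neg_weight_eq_zero hk f
    exact absurd (by rw [this]; rfl) (hf I)
  · exact h12_aux k.toNat k (by omega) f hf

/-- Variant for a function which is the underlying function of some level-one form. -/
theorem h12_eq_const_mul_discriminant_pow' {k : ℤ} (F : ℍ → ℂ)
    (hF : ∃ f : ModularForm 𝒮ℒ k, ⇑f = F) (hne : ∀ τ : ℍ, F τ ≠ 0) :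
    ∃ (m : ℕ) (c : ℂ), c ≠ 0 ∧ k = 12 * (m : ℤ) ∧
      ∀ τ : ℍ, F τ = c * ModularForm.discriminant τ ^ m := by
  obtain ⟨f, rfl⟩ := hF
  exact h12_eq_const_mul_discriminant_pow f hne

end Fermat.Agent.S20
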