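import Mathlib

set_option autoImplicit false

namespace Fermat.Agent.S20

open Complex Filter PeriodPair EisensteinSeries
open scoped Topology

noncomputable section

/-- near `0`, no nonzero lattice point -/
theorem h55_eventually_notMem (L : PeriodPair) :
    ∀ᶠ z in 𝓝 (0 : ℂ), z ≠ 0 → z ∉ L.lattice := by
  filter_upwards [L.compl_lattice_sdiff_singleton_mem_nhds 0] with z hz hz0 hzL
  exact hz ⟨hzL, hz0⟩

theorem h55_P_eq (L : PeriodPair) (z : ℂ) :
    L.weierstrassP z = L.weierstrassPExcept 0 z + 1 / z ^ 2 := by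
  have h := L.weierstrassPExcept_add (0 : L.lattice) z
  simp only [ZeroMemClass.coe_zero, sub_zero] at h
  rw [← h]
  simp

theorem h55_dP_eq (L : PeriodPair) (z : ℂ) :
    L.derivWeierstrassP z = L.derivWeierstrassPExcept 0 z - 2 / z ^ 3 := by
  have h := L.derivWeierstrassPExcept_sub (0 : L.lattice) z
  simp only [ZeroMemClass.coe_zero, sub_zero] at h
  rw [← h]

/-- polynomial form of the Weierstrass equation near `0` -/
theorem h55_ode_poly (L : PeriodPair) {z : ℂ} (hz0 : z ≠ 0) (hz : z ∉ L.lattice) :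
    (z ^ 3 * L.derivWeierstrassPExcept 0 z - 2) ^ 2 =
      4 * (z ^ 2 * L.weierstrassPExcept 0 z + 1) ^ 3
        - L.g₂ * z ^ 4 * (z ^ 2 * L.weierstrassPExcept 0 z + 1) - L.g₃ * z ^ 6 := by
  have h := L.derivWeierstrassP_sq z hz
  rw [h55_dP_eq, h55_P_eq] at h
  field_simp at h
  linear_combination h

/-- the key identity: `z u' A = u B` near `0` for two lattices with the same invariants -/
theorem h55_key_identity (L₁ L₂ : PeriodPair) (h2 : L₁.g₂ = L₂.g₂) (h3 : L₁.g₃ = L₂.g₃)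
    {z : ℂ} (hz0 : z ≠ 0) (hz1 : z ∉ L₁.lattice) (hz2 : z ∉ L₂.lattice) :
    z * (L₁.derivWeierstrassPExcept 0 z - L₂.derivWeierstrassPExcept 0 z) *
        (z ^ 3 * (L₁.derivWeierstrassPExcept 0 z + L₂.derivWeierstrassPExcept 0 z) - 4) =
      (L₁.weierstrassPExcept 0 z - L₂.weierstrassPExcept 0 z) *
        (4 * ((z ^ 2 * L₁.weierstrassPExcept 0 z + 1) ^ 2
          + (z ^ 2 * L₁.weierstrassPExcept 0 z + 1) * (z ^ 2 * L₂.weierstrassPExcept 0 z + 1)
          + (z ^ 2 * L₂.weierstrassPExcept 0 z + 1) ^ 2) - L₁.g₂ * z ^ 4) := by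
  have e1 := h55_ode_poly L₁ hz0 hz1
  have e2 := h55_ode_poly L₂ hz0 hz2
  rw [← h2, ← h3] at e2
  have hz2' : z ^ 2 ≠ 0 := pow_ne_zero 2 hz0
  apply mul_left_cancel₀ hz2'
  linear_combination e1 - e2

/-- two lattices with the same invariants have the same Weierstrass function near `0` -/
theorem h55_eventuallyEq_of_g_eq (L₁ L₂ : PeriodPair) (h2 : L₁.g₂ = L₂.g₂) (h3 : L₁.g₃ = L₂.g₃) :
    L₁.weierstrassPExcept 0 =ᶠ[𝓝 0] L₂.weierstrassPExcept 0 := by
  set E₁ := L₁.weierstrassPExcept 0 with hE₁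
  set E₂ := L₂.weierstrassPExcept 0 with hE₂
  set D₁ := L₁.derivWeierstrassPExcept 0 with hD₁
  set D₂ := L₂.derivWeierstrassPExcept 0 with hD₂
  have aE₁ : AnalyticAt ℂ E₁ 0 := L₁.analyticAt_weierstrassPExcept 0
  have aE₂ : AnalyticAt ℂ E₂ 0 := L₂.analyticAt_weierstrassPExcept 0
  have aD₁ : AnalyticAt ℂ D₁ 0 := L₁.analyticAt_derivWeierstrassPExcept 0
  have aD₂ : AnalyticAt ℂ D₂ 0 := L₂.analyticAt_derivWeierstrassPExcept 0
  have au : AnalyticAt ℂ (fun z => E₁ z - E₂ z) 0 := aE₁.sub aE₂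
  by_contra hne
  have hne' : ¬ ∀ᶠ z in 𝓝 (0 : ℂ), (fun z => E₁ z - E₂ z) z = 0 := by
    intro h
    apply hne
    filter_upwards [h] with z hz
    exact sub_eq_zero.mp hz
  obtain ⟨n, g, ag, hg0, hu⟩ := (au.exists_eventuallyEq_pow_smul_nonzero_iff).mpr hne'
  simp only [sub_zero, smul_eq_mul] at hu
  -- derivative of u
  have hderiv : ∀ᶠ z in 𝓝 (0 : ℂ), D₁ z - D₂ z = deriv (fun z => z ^ n * g z) z := by
    have h1 : ∀ᶠ z in 𝓝 (0 : ℂ), deriv (fun z => E₁ z - E₂ z) z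
        = deriv (fun z => z ^ n * g z) z := (Filter.EventuallyEq.deriv hu)
    have hW1 := L₁.compl_lattice_sdiff_singleton_mem_nhds 0
    have hW2 := L₂.compl_lattice_sdiff_singleton_mem_nhds 0
    filter_upwards [h1, hW1, hW2, aE₁.eventually_analyticAt, aE₂.eventually_analyticAt]
      with z hz hz1 hz2 ha1 ha2
    rw [← hz, deriv_fun_sub ha1.differentiableAt ha2.differentiableAt]
    rw [L₁.eqOn_deriv_weierstrassPExcept_derivWeierstrassPExcept 0 hz1,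
      L₂.eqOn_deriv_weierstrassPExcept_derivWeierstrassPExcept 0 hz2]
  have hderiv2 : ∀ᶠ z in 𝓝 (0 : ℂ), z * deriv (fun z => z ^ n * g z) z
      = z ^ n * (n * g z + z * deriv g z) := by
    filter_upwards [ag.eventually_analyticAt] with z hz
    rw [deriv_fun_mul (differentiableAt_pow n) hz.differentiableAt]
    simp only [differentiableAt_fun_id, deriv_fun_pow, deriv_id'', mul_one]
    rcases Nat.eq_zero_or_pos n with rfl | hn
    · simp
    · have : z * z ^ (n - 1) = z ^ n := mul_pow_sub_one hn.ne' z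
      linear_combination (n : ℂ) * g z * this
  -- the limiting identity
  set A : ℂ → ℂ := fun z => z ^ 3 * (D₁ z + D₂ z) - 4 with hA
  set B : ℂ → ℂ := fun z => 4 * ((z ^ 2 * E₁ z + 1) ^ 2
          + (z ^ 2 * E₁ z + 1) * (z ^ 2 * E₂ z + 1)
          + (z ^ 2 * E₂ z + 1) ^ 2) - L₁.g₂ * z ^ 4 with hB
  have hEq : ∀ᶠ z in 𝓝[≠] (0 : ℂ), (n * g z + z * deriv g z) * A z = g z * B z := by
    have hev : ∀ᶠ z in 𝓝 (0 : ℂ), z ≠ 0 → (n * g z + z * deriv g z) * A z = g z * B z := by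
      filter_upwards [hu, hderiv, hderiv2, h55_eventually_notMem L₁, h55_eventually_notMem L₂]
        with z h1 h2' h3' h4 h5 hz0
      have key := h55_key_identity L₁ L₂ h2 h3 hz0 (h4 hz0) (h5 hz0)
      rw [← hD₁, ← hD₂, ← hE₁, ← hE₂] at key
      rw [h2', h1] at key
      have hzn : z ^ n ≠ 0 := pow_ne_zero n hz0
      apply mul_left_cancel₀ hzn
      simp only [hA, hB]
      linear_combination key - (z ^ 3 * (D₁ z + D₂ z) - 4) * h3'
    exact (eventually_nhdsWithin_iff.mpr (by filter_upwards [hev] with z hz hz0 using hz hz0))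
  have cg : ContinuousAt g 0 := ag.continuousAt
  have cdg : ContinuousAt (deriv g) 0 := ag.deriv.continuousAt
  have cA : ContinuousAt A 0 := by
    have := aD₁.continuousAt
    have := aD₂.continuousAt
    simp only [hA]
    fun_prop
  have cB : ContinuousAt B 0 := by
    have := aE₁.continuousAt
    have := aE₂.continuousAt
    simp only [hB]
    fun_prop
  have cl : ContinuousAt (fun z => (n * g z + z * deriv g z) * A z) 0 := by fun_prop
  have cr : ContinuousAt (fun z => g z * B z) 0 := by fun_prop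
  have hlim := tendsto_nhds_unique
    ((cl.tendsto.mono_left nhdsWithin_le_nhds).congr' hEq)
    (cr.tendsto.mono_left (nhdsWithin_le_nhds (s := {0}ᶜ)))
  simp only [hA, hB] at hlim
  norm_num at hlim
  have h4 : ((n : ℂ) + 3) * g 0 = 0 := by linear_combination (-1 / 4 : ℂ) * hlim
  rcases mul_eq_zero.mp h4 with h | h
  · have : ((n + 3 : ℕ) : ℂ) = 0 := by push_cast; exact h
    exact absurd (Nat.cast_eq_zero.mp this) (by omega)
  · exact hg0 h

theorem h55_countable_lattice (L : PeriodPair) : (L.lattice : Set ℂ).Countable := by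
  have : Countable L.lattice := Countable.of_equiv _ L.latticeEquivProd.toEquiv.symm
  exact Set.countable_coe_iff.mp this

/-- if the Weierstrass functions agree near `0`, every pole of the first is a pole of the second -/
theorem h55_lattice_subset (L₁ L₂ : PeriodPair)
    (hE : L₁.weierstrassPExcept 0 =ᶠ[𝓝 0] L₂.weierstrassPExcept 0) :
    (L₁.lattice : Set ℂ) ⊆ L₂.lattice := by
  set U : Set ℂ := ((L₁.lattice : Set ℂ) ∪ (L₂.lattice : Set ℂ))ᶜ with hU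
  have hUopen : IsOpen U := (L₁.isClosed_lattice.union L₂.isClosed_lattice).isOpen_compl
  have hUconn : IsPreconnected U := by
    have hc : ((L₁.lattice : Set ℂ) ∪ (L₂.lattice : Set ℂ)).Countable :=
      (h55_countable_lattice L₁).union (h55_countable_lattice L₂)
    have hr : 1 < Module.rank ℝ ℂ := by
      rw [Complex.rank_real_complex]; norm_num
    exact (hc.isConnected_compl_of_one_lt_rank hr).isPreconnected
  have hP1 : AnalyticOnNhd ℂ L₁.weierstrassP U :=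
    L₁.analyticOnNhd_weierstrassP.mono (by
      intro z hz hz1; exact hz (Or.inl hz1))
  have hP2 : AnalyticOnNhd ℂ L₂.weierstrassP U :=
    L₂.analyticOnNhd_weierstrassP.mono (by
      intro z hz hz2; exact hz (Or.inr hz2))
  -- a point of `U` near which the two functions agree
  have hev : ∀ᶠ z in 𝓝 (0 : ℂ), z ≠ 0 → (z ∈ U ∧ L₁.weierstrassP z = L₂.weierstrassP z) := by
    filter_upwards [hE, h55_eventually_notMem L₁, h55_eventually_notMem L₂] with z h1 h2 h3 hz0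
    refine ⟨fun h => h.elim (h2 hz0) (h3 hz0), ?_⟩
    rw [h55_P_eq, h55_P_eq, h1]
  have hev' : ∀ᶠ z in 𝓝[≠] (0 : ℂ), (z ∈ U ∧ L₁.weierstrassP z = L₂.weierstrassP z) :=
    eventually_nhdsWithin_iff.mpr (by filter_upwards [hev] with z hz hz0 using hz hz0)
  -- pick z₀
  obtain ⟨V, hVsub, hVopen, hV0⟩ := eventually_nhds_iff.mp hev
  have hfreq : ∃ᶠ z in 𝓝[≠] (0 : ℂ), z ∈ V := by
    apply Filter.Eventually.frequently
    exact eventually_nhdsWithin_of_eventually_nhds (hVopen.mem_nhds hV0)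
  obtain ⟨z₀, hz₀V, hz₀ne⟩ : ∃ z₀, z₀ ∈ V ∧ z₀ ≠ 0 := by
    have := (hfreq.and_eventually (self_mem_nhdsWithin (s := ({0}ᶜ : Set ℂ)))).exists
    obtain ⟨z, hz1, hz2⟩ := this
    exact ⟨z, hz1, hz2⟩
  have hz₀U : z₀ ∈ U := (hVsub z₀ hz₀V hz₀ne).1
  have heq₀ : L₁.weierstrassP =ᶠ[𝓝 z₀] L₂.weierstrassP := by
    have hopen : IsOpen (V ∩ {0}ᶜ) := hVopen.inter isOpen_compl_singleton
    filter_upwards [hopen.mem_nhds ⟨hz₀V, hz₀ne⟩] with z hz
    exact (hVsub z hz.1 hz.2).2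
  have hEqOn : Set.EqOn L₁.weierstrassP L₂.weierstrassP U :=
    hP1.eqOn_of_preconnected_of_eventuallyEq hP2 hUconn hz₀U heq₀
  -- compare poles
  intro l hl1
  by_contra hl2
  have hord1 : meromorphicOrderAt L₁.weierstrassP l = -2 := L₁.order_weierstrassP l hl1
  have han2 : AnalyticAt ℂ L₂.weierstrassP l := L₂.analyticOnNhd_weierstrassP l hl2
  have hord2 : 0 ≤ meromorphicOrderAt L₂.weierstrassP l := han2.meromorphicOrderAt_nonneg
  have hcongr : L₁.weierstrassP =ᶠ[𝓝[≠] l] L₂.weierstrassP := by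
    have h1 := L₁.compl_lattice_sdiff_singleton_mem_nhds l
    have h2 : (L₂.lattice : Set ℂ)ᶜ ∈ 𝓝 l := L₂.isClosed_lattice.isOpen_compl.mem_nhds hl2
    apply eventually_nhdsWithin_iff.mpr
    filter_upwards [h1, h2] with z hz1 hz2 hzl
    apply hEqOn
    intro h
    rcases h with h | h
    · exact hz1 ⟨h, hzl⟩
    · exact hz2 h
  rw [meromorphicOrderAt_congr hcongr] at hord1
  rw [hord1] at hord2
  exact absurd hord2 (by decide)

theorem h55_lattice_eq_of_g_eq (L₁ L₂ : PeriodPair) (h2 : L₁.g₂ = L₂.g₂) (h3 : L₁.g₃ = L₂.g₃) :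
    (L₁.lattice : Set ℂ) = L₂.lattice := by
  have h := h55_eventuallyEq_of_g_eq L₁ L₂ h2 h3
  exact Set.Subset.antisymm (h55_lattice_subset L₁ L₂ h) (h55_lattice_subset L₂ L₁ h.symm)

/-- the period pair `(c τ, c)` -/
def h55_pp (τ : UpperHalfPlane) (c : ℂ) (hc : c ≠ 0) : PeriodPair where
  ω₁ := c * τ
  ω₂ := c
  indep := by
    rw [LinearIndependent.pair_iff]
    intro s t hst
    have h1 : c * ((s : ℂ) * τ + t) = 0 := by
      rw [← hst]
      simp only [Complex.real_smul]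
      ring
    have h2 : (s : ℂ) * τ + t = 0 := (mul_eq_zero.mp h1).resolve_left hc
    have him := congrArg Complex.im h2
    simp only [Complex.add_im, Complex.mul_im, Complex.ofReal_re, Complex.ofReal_im,
      zero_mul, add_zero, Complex.zero_im, UpperHalfPlane.coe_im] at him
    have hs : s = 0 := (mul_eq_zero.mp him).resolve_right τ.im_pos.ne'
    subst hs
    have hre := congrArg Complex.re h2
    simp at hre
    exact ⟨rfl, hre⟩

theorem h55_G_eq_tsum (L : PeriodPair) (n : ℕ) :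
    L.G n = ∑' x : ℤ × ℤ, (((x.1 : ℂ) * L.ω₁ + x.2 * L.ω₂) ^ n)⁻¹ := by
  rw [PeriodPair.G, ← L.latticeEquivProd.symm.toEquiv.tsum_eq]
  refine tsum_congr fun x => ?_
  simp only [LinearEquiv.coe_toEquiv, latticeEquiv_symm_apply]

theorem h55_tsum_eq_eis (τ : UpperHalfPlane) (k : ℕ) :
    ∑' x : ℤ × ℤ, (((x.1 : ℂ) * τ + x.2) ^ k)⁻¹
      = ∑' v : Fin 2 → ℤ, EisensteinSeries.eisSummand k v τ := by
  rw [← (finTwoArrowEquiv ℤ).tsum_eq]
  refine tsum_congr fun v => ?_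
  simp [EisensteinSeries.eisSummand, finTwoArrowEquiv, zpow_neg]

theorem h55_G_pp (τ : UpperHalfPlane) (c : ℂ) (hc : c ≠ 0) {k : ℕ} (hk : 3 ≤ k) :
    (h55_pp τ c hc).G k = (c ^ k)⁻¹ * (riemannZeta k * (2 * ModularForm.E hk τ)) := by
  rw [h55_G_eq_tsum]
  have h1 : ∀ x : ℤ × ℤ, (((x.1 : ℂ) * (h55_pp τ c hc).ω₁ + x.2 * (h55_pp τ c hc).ω₂) ^ k)⁻¹
      = (c ^ k)⁻¹ * (((x.1 : ℂ) * τ + x.2) ^ k)⁻¹ := by
    intro x
    rw [← mul_inv, ← mul_pow]
    simp only [h55_pp]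
    ring
  simp_rw [h1]
  rw [tsum_mul_left, h55_tsum_eq_eis, tsum_eisSummand_eq_riemannZeta_mul_eisensteinSeries hk τ]
  congr 2
  rw [show ModularForm.E hk τ = (1 / 2 : ℂ) • eisensteinSeriesSIF (N := 1) 0 k τ from rfl,
    eisensteinSeriesSIF_apply 0 k τ]
  simp

theorem h55_zeta_ne_zero {k : ℕ} (hk : 3 ≤ k) : riemannZeta k ≠ 0 :=
  riemannZeta_ne_zero_of_one_lt_re (by
    simp only [Complex.natCast_re]
    exact_mod_cast (by omega : 1 < k))

/-- pure algebra: equal `j` gives a common rescaling of `(E₄, E₆)` -/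
theorem h55_exists_scale (a₁ b₁ a₂ b₂ : ℂ) (h₁ : a₁ ^ 3 ≠ b₁ ^ 2) (h₂ : a₂ ^ 3 ≠ b₂ ^ 2)
    (h : a₁ ^ 3 * b₂ ^ 2 = a₂ ^ 3 * b₁ ^ 2) :
    ∃ c : ℂ, c ≠ 0 ∧ a₂ = c ^ 4 * a₁ ∧ b₂ = c ^ 6 * b₁ := by
  by_cases ha : a₁ = 0
  · subst ha
    have hb₁ : b₁ ≠ 0 := by
      rintro rfl; exact h₁ (by ring)
    have ha₂ : a₂ = 0 := by
      have : a₂ ^ 3 * b₁ ^ 2 = 0 := by rw [← h]; ring
      rcases mul_eq_zero.mp this with h' | h'
      · exact pow_eq_zero_iff (by norm_num) |>.mp h'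
      · exact absurd (pow_eq_zero_iff (by norm_num) |>.mp h') hb₁
    subst ha₂
    have hb₂ : b₂ ≠ 0 := by
      rintro rfl; exact h₂ (by ring)
    obtain ⟨c, hc⟩ := IsAlgClosed.exists_pow_nat_eq (b₂ / b₁) (n := 6) (by norm_num)
    refine ⟨c, ?_, by ring, ?_⟩
    · rintro rfl
      have : b₂ / b₁ = 0 := by rw [← hc]; ring
      exact div_ne_zero hb₂ hb₁ this
    · rw [hc]; field_simp
  by_cases hb : b₁ = 0
  · subst hb
    have hb₂ : b₂ = 0 := by
      have : a₁ ^ 3 * b₂ ^ 2 = 0 := by rw [h]; ring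
      rcases mul_eq_zero.mp this with h' | h'
      · exact absurd (pow_eq_zero_iff (by norm_num) |>.mp h') ha
      · exact pow_eq_zero_iff (by norm_num) |>.mp h'
    subst hb₂
    have ha₂ : a₂ ≠ 0 := by
      rintro rfl; exact h₂ (by ring)
    obtain ⟨c, hc⟩ := IsAlgClosed.exists_pow_nat_eq (a₂ / a₁) (n := 4) (by norm_num)
    refine ⟨c, ?_, ?_, by ring⟩
    · rintro rfl
      have : a₂ / a₁ = 0 := by rw [← hc]; ring
      exact div_ne_zero ha₂ ha this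
    · rw [hc]; field_simp
  have ha₂ : a₂ ≠ 0 := by
    rintro rfl
    have : a₁ ^ 3 * b₂ ^ 2 = 0 := by rw [h]; ring
    rcases mul_eq_zero.mp this with h' | h'
    · exact ha (pow_eq_zero_iff (by norm_num) |>.mp h')
    · have hb2 : b₂ = 0 := pow_eq_zero_iff (by norm_num) |>.mp h'
      subst hb2
      exact h₂ (by ring)
  have hb₂ : b₂ ≠ 0 := by
    rintro rfl
    have : a₂ ^ 3 * b₁ ^ 2 = 0 := by rw [← h]; ring
    rcases mul_eq_zero.mp this with h' | h'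
    · exact ha₂ (pow_eq_zero_iff (by norm_num) |>.mp h')
    · exact hb (pow_eq_zero_iff (by norm_num) |>.mp h')
  obtain ⟨c, hc⟩ := IsAlgClosed.exists_pow_nat_eq ((b₂ / b₁) / (a₂ / a₁)) (n := 2) (by norm_num)
  have hc0 : c ≠ 0 := by
    rintro rfl
    have : (b₂ / b₁) / (a₂ / a₁) = 0 := by rw [← hc]; ring
    exact div_ne_zero (div_ne_zero hb₂ hb) (div_ne_zero ha₂ ha) this
  have hc' : c ^ 2 * (a₂ * b₁) = b₂ * a₁ := by
    rw [hc]; field_simp
  refine ⟨c, hc0, ?_, ?_⟩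
  · -- c^4 a₁ = a₂ : from (c^2 a₂ b₁)^2 = (b₂ a₁)^2 and the relation
    have h4 : c ^ 4 * (a₂ * b₁) ^ 2 = (b₂ * a₁) ^ 2 := by
      rw [← hc']; ring
    have h5 : (a₂ ^ 2 * b₁ ^ 2) * (c ^ 4 * a₁) = (a₂ ^ 2 * b₁ ^ 2) * a₂ := by
      linear_combination a₁ * h4 + h
    have hne : a₂ ^ 2 * b₁ ^ 2 ≠ 0 := mul_ne_zero (pow_ne_zero 2 ha₂) (pow_ne_zero 2 hb)
    exact (mul_left_cancel₀ hne h5).symm
  · have h6 : c ^ 6 * (a₂ * b₁) ^ 3 = (b₂ * a₁) ^ 3 := by
      rw [← hc']; ring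
    have h7 : (a₂ ^ 3 * b₁ ^ 2) * (c ^ 6 * b₁) = (a₂ ^ 3 * b₁ ^ 2) * b₂ := by
      linear_combination h6 + b₂ * h
    have hne : a₂ ^ 3 * b₁ ^ 2 ≠ 0 := mul_ne_zero (pow_ne_zero 3 ha₂) (pow_ne_zero 2 hb)
    exact (mul_left_cancel₀ hne h7).symm

open UpperHalfPlane ModularForm MatrixGroups

theorem h55_E_cube_ne (τ : ℍ) : E₄ τ ^ 3 ≠ E₆ τ ^ 2 := by
  intro h
  have h' := ModularForm.discriminant_eq_E₄_cube_sub_E₆_sq τ
  rw [h, sub_self, zero_div] at h'
  exact ModularForm.discriminant_ne_zero τ h'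

theorem h55_int_indep (τ : ℍ) (a b : ℤ) (h : (a : ℂ) * τ + b = 0) : a = 0 ∧ b = 0 := by
  have him := congrArg Complex.im h
  simp only [Complex.add_im, Complex.mul_im, Complex.intCast_re, Complex.intCast_im,
    zero_mul, add_zero, Complex.zero_im, UpperHalfPlane.coe_im] at him
  have ha : (a : ℝ) = 0 := (mul_eq_zero.mp him).resolve_right τ.im_pos.ne'
  have ha' : a = 0 := by exact_mod_cast ha
  subst ha'
  have hre := congrArg Complex.re h
  simp at hre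
  exact ⟨rfl, hre⟩

/-- equal lattices `ℤ τ₁ + ℤ = c (ℤ τ₂ + ℤ)` give an element of `SL(2, ℤ)` -/
theorem h55_exists_smul_of_lattice_eq (τ₁ τ₂ : ℍ) (c : ℂ) (hc : c ≠ 0)
    (h : ((h55_pp τ₁ 1 one_ne_zero).lattice : Set ℂ) = (h55_pp τ₂ c hc).lattice) :
    ∃ γ : SL(2, ℤ), γ • τ₁ = τ₂ := by
  have hω₁ : (h55_pp τ₁ 1 one_ne_zero).ω₁ = τ₁ := by simp [h55_pp]
  have hω₂ : (h55_pp τ₁ 1 one_ne_zero).ω₂ = 1 := rfl
  have hω₁' : (h55_pp τ₂ c hc).ω₁ = c * τ₂ := rfl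
  have hω₂' : (h55_pp τ₂ c hc).ω₂ = c := rfl
  -- c and c τ₂ in the first lattice
  have m1 : c ∈ ((h55_pp τ₁ 1 one_ne_zero).lattice : Set ℂ) := by
    rw [h]; exact (h55_pp τ₂ c hc).ω₂_mem_lattice
  have m2 : c * τ₂ ∈ ((h55_pp τ₁ 1 one_ne_zero).lattice : Set ℂ) := by
    rw [h]; exact (h55_pp τ₂ c hc).ω₁_mem_lattice
  have m3 : (τ₁ : ℂ) ∈ ((h55_pp τ₂ c hc).lattice : Set ℂ) := by
    rw [← h, ← hω₁]; exact (h55_pp τ₁ 1 one_ne_zero).ω₁_mem_lattice
  have m4 : (1 : ℂ) ∈ ((h55_pp τ₂ c hc).lattice : Set ℂ) := by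
    rw [← h]; exact (h55_pp τ₁ 1 one_ne_zero).ω₂_mem_lattice
  obtain ⟨m, n, hmn⟩ := PeriodPair.mem_lattice.mp m1
  obtain ⟨p, q, hpq⟩ := PeriodPair.mem_lattice.mp m2
  obtain ⟨p', q', hpq'⟩ := PeriodPair.mem_lattice.mp m3
  obtain ⟨m', n', hmn'⟩ := PeriodPair.mem_lattice.mp m4
  rw [hω₁, hω₂, mul_one] at hmn hpq
  rw [hω₁', hω₂'] at hpq' hmn'
  -- the integer relations
  have r1 : ((p' * p + q' * m - 1 : ℤ) : ℂ) * τ₁ + ((p' * q + q' * n : ℤ) : ℂ) = 0 := by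
    push_cast
    linear_combination hpq' + (p' : ℂ) * hpq + (q' : ℂ) * hmn
  have r2 : ((m' * p + n' * m : ℤ) : ℂ) * τ₁ + ((m' * q + n' * n - 1 : ℤ) : ℂ) = 0 := by
    push_cast
    linear_combination hmn' + (m' : ℂ) * hpq + (n' : ℂ) * hmn
  obtain ⟨e1, e2⟩ := h55_int_indep τ₁ _ _ r1
  obtain ⟨e3, e4⟩ := h55_int_indep τ₁ _ _ r2
  have hdet : (p' * n' - q' * m') * (p * n - q * m) = 1 := by
    linear_combination (m' * q + n' * n) * e1 + e4 - (m' * p + n' * m) * e2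
  -- positivity of the determinant
  have hrel : (p : ℂ) * τ₁ + q = ((m : ℂ) * τ₁ + n) * τ₂ := by
    rw [hpq, hmn]
  have hre := congrArg Complex.re hrel
  have him := congrArg Complex.im hrel
  simp only [Complex.add_re, Complex.mul_re, Complex.intCast_re, Complex.intCast_im,
    zero_mul, sub_zero, Complex.add_im, Complex.mul_im, add_zero, UpperHalfPlane.coe_re,
    UpperHalfPlane.coe_im] at hre him
  have hcre : c.re = m * τ₁.re + n := by
    rw [← hmn]; simp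
  have hcim : c.im = m * τ₁.im := by
    rw [← hmn]; simp
  have hA : 0 < (m * τ₁.re + n) ^ 2 + (m * τ₁.im) ^ 2 := by
    have := Complex.normSq_pos.mpr hc
    rw [Complex.normSq_apply, hcre, hcim] at this
    nlinarith [this]
  have hkey : ((p * n - q * m : ℤ) : ℝ) * τ₁.im
      = ((m * τ₁.re + n) ^ 2 + (m * τ₁.im) ^ 2) * τ₂.im := by
    push_cast
    linear_combination ((n : ℝ) + m * τ₁.re) * him - (m : ℝ) * τ₁.im * hre
  have hpos : (0 : ℝ) < ((p * n - q * m : ℤ) : ℝ) := by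
    have h1 : 0 < ((p * n - q * m : ℤ) : ℝ) * τ₁.im := by
      rw [hkey]; exact mul_pos hA τ₂.im_pos
    exact (pos_iff_pos_of_mul_pos h1).mpr τ₁.im_pos
  have hpos' : 0 < p * n - q * m := by exact_mod_cast hpos
  have hdet1 : p * n - q * m = 1 := by
    rcases Int.isUnit_iff.mp (IsUnit.of_mul_eq_one _ (by rw [mul_comm]; exact hdet)) with h1 | h1
    · exact h1
    · omega
  let γ : SL(2, ℤ) := ⟨!![p, q; m, n], by rw [Matrix.det_fin_two_of]; exact hdet1⟩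
  refine ⟨γ, ?_⟩
  apply UpperHalfPlane.ext
  rw [UpperHalfPlane.coe_specialLinearGroup_apply]
  have g00 : γ 0 0 = p := rfl
  have g01 : γ 0 1 = q := rfl
  have g10 : γ 1 0 = m := rfl
  have g11 : γ 1 1 = n := rfl
  rw [g00, g01, g10, g11]
  simp only [algebraMap_int_eq, Int.coe_castRingHom, Complex.ofReal_intCast]
  rw [hpq, hmn]
  field_simp

/-- **`j` is injective modulo `SL(2, ℤ)`**, in polynomial form -/
theorem h55_exists_smul_of_E_eq (τ₁ τ₂ : ℍ)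
    (h : E₄ τ₁ ^ 3 * E₆ τ₂ ^ 2 = E₄ τ₂ ^ 3 * E₆ τ₁ ^ 2) :
    ∃ γ : SL(2, ℤ), γ • τ₁ = τ₂ := by
  obtain ⟨c, hc, h4, h6⟩ := h55_exists_scale (E₄ τ₁) (E₆ τ₁) (E₄ τ₂) (E₆ τ₂)
    (h55_E_cube_ne τ₁) (h55_E_cube_ne τ₂) h
  apply h55_exists_smul_of_lattice_eq τ₁ τ₂ c hc
  apply h55_lattice_eq_of_g_eq
  · rw [PeriodPair.g₂, PeriodPair.g₂, h55_G_pp τ₁ 1 one_ne_zero (by norm_num : 3 ≤ 4),
      h55_G_pp τ₂ c hc (by norm_num : 3 ≤ 4)]
    have h4' : ModularForm.E (by norm_num : 3 ≤ 4) τ₂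
        = c ^ 4 * ModularForm.E (by norm_num : 3 ≤ 4) τ₁ := h4
    rw [h4']
    field_simp
  · rw [PeriodPair.g₃, PeriodPair.g₃, h55_G_pp τ₁ 1 one_ne_zero (by norm_num : 3 ≤ 6),
      h55_G_pp τ₂ c hc (by norm_num : 3 ≤ 6)]
    have h6' : ModularForm.E (by norm_num : 3 ≤ 6) τ₂
        = c ^ 6 * ModularForm.E (by norm_num : 3 ≤ 6) τ₁ := h6
    rw [h6']
    field_simp

/-- `j` is injective modulo `SL(2, ℤ)` (quotient form, `Δ = ModularForm.discriminant`) -/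
theorem h55_exists_smul_of_j_eq (τ₁ τ₂ : ℍ)
    (h : E₄ τ₁ ^ 3 / ModularForm.discriminant τ₁ = E₄ τ₂ ^ 3 / ModularForm.discriminant τ₂) :
    ∃ γ : SL(2, ℤ), γ • τ₁ = τ₂ := by
  apply h55_exists_smul_of_E_eq
  have d1 := ModularForm.discriminant_ne_zero τ₁
  have d2 := ModularForm.discriminant_ne_zero τ₂
  have e1 := ModularForm.discriminant_eq_E₄_cube_sub_E₆_sq τ₁
  have e2 := ModularForm.discriminant_eq_E₄_cube_sub_E₆_sq τ₂
  rw [div_eq_div_iff d1 d2, e1, e2] at h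
  linear_combination (-1728 : ℂ) * h

theorem h55_slash_apply {k : ℤ} (f : ModularForm 𝒮ℒ k) (γ : SL(2, ℤ)) (z : ℍ) :
    f (γ • z) = UpperHalfPlane.denom γ z ^ k * f z := by
  have : SlashInvariantFormClass (ModularForm 𝒮ℒ k) (CongruenceSubgroup.Gamma 1) k :=
    CongruenceSubgroup.Gamma_one_coe_eq_SL ▸ inferInstance
  exact SlashInvariantForm.slash_action_eqn_SL'' f (CongruenceSubgroup.mem_Gamma_one γ) z

/-- the level-one form `E₆(t₀)² E₄³ - E₄(t₀)³ E₆²` vanishes exactly on the orbit of `t₀` -/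
theorem h55_zero_set_iff (t₀ τ : ℍ) :
    E₆ t₀ ^ 2 * E₄ τ ^ 3 - E₄ t₀ ^ 3 * E₆ τ ^ 2 = 0 ↔ ∃ γ : SL(2, ℤ), γ • t₀ = τ := by
  constructor
  · intro h
    apply h55_exists_smul_of_E_eq
    linear_combination -h
  · rintro ⟨γ, rfl⟩
    rw [h55_slash_apply E₄ γ t₀, h55_slash_apply E₆ γ t₀]
    have h4 : (UpperHalfPlane.denom γ t₀ ^ (4 : ℤ)) = UpperHalfPlane.denom γ t₀ ^ (4 : ℕ) := by
      norm_cast
    have h6 : (UpperHalfPlane.denom γ t₀ ^ (6 : ℤ)) = UpperHalfPlane.denom γ t₀ ^ (6 : ℕ) := by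
      norm_cast
    rw [h4, h6]
    ring

theorem h55_E₆_zero_orbit (i : ℍ) (hi : E₆ i = 0) (τ : ℍ) :
    E₆ τ = 0 ↔ ∃ γ : SL(2, ℤ), γ • i = τ := by
  rw [← h55_zero_set_iff, hi]
  have h4 : E₄ i ≠ 0 := by
    intro h0
    apply h55_E_cube_ne i
    rw [h0, hi]; norm_num
  constructor
  · intro h; rw [h]; ring
  · intro h
    have : E₄ i ^ 3 * E₆ τ ^ 2 = 0 := by linear_combination -h
    rcases mul_eq_zero.mp this with h' | h'
    · exact absurd (pow_eq_zero_iff (by norm_num) |>.mp h') h4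
    · exact pow_eq_zero_iff (by norm_num) |>.mp h'

theorem h55_E₄_zero_orbit (ρ : ℍ) (hρ : E₄ ρ = 0) (τ : ℍ) :
    E₄ τ = 0 ↔ ∃ γ : SL(2, ℤ), γ • ρ = τ := by
  rw [← h55_zero_set_iff, hρ]
  have h6 : E₆ ρ ≠ 0 := by
    intro h0
    apply h55_E_cube_ne ρ
    rw [h0, hρ]; norm_num
  constructor
  · intro h; rw [h]; ring
  · intro h
    have : E₆ ρ ^ 2 * E₄ τ ^ 3 = 0 := by linear_combination h
    rcases mul_eq_zero.mp this with h' | h'
    · exact absurd (pow_eq_zero_iff (by norm_num) |>.mp h') h6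
    · exact pow_eq_zero_iff (by norm_num) |>.mp h'

end

end Fermat.Agent.S20
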