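import Mathlib
import Fermat.Agent.S20.Bridge
import Fermat.Agent.S20.h12_NonVanish
import Fermat.Agent.S20.h55_JInj
import Fermat.Agent.S24.h39_JFun

set_option autoImplicit false

/-!
# Level-one forms nonvanishing at `i`, `ρ` and at generic points

A level-one modular form (as a function in `Lfun k`) which does not vanish at `i`, at `ρ` and at
every point where `E₄ E₆ ≠ 0` has no zero at all (the zeros of `E₆`, resp. `E₄`, form the orbit of
`i`, resp. `ρ`), hence is a nonzero constant multiple of a power of the discriminant.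
-/

namespace Fermat.Agent.S20

open UpperHalfPlane ModularForm
open scoped MatrixGroups ModularForm Manifold

/-- A level-one form which does not vanish at `i`, `ρ` and at the generic points has no zeros. -/
theorem h12_ne_zero_of_generic {k : ℤ} (f : ModularForm 𝒮ℒ k) (hI : f I ≠ 0) (hρ : f ρ ≠ 0)
    (hgen : ∀ τ : ℍ, E₄ τ ≠ 0 → E₆ τ ≠ 0 → f τ ≠ 0) (τ : ℍ) : f τ ≠ 0 := by
  by_cases h4 : E₄ τ = 0
  · obtain ⟨γ, rfl⟩ := (h55_E₄_zero_orbit ρ Fermat.Agent.S24.h39_E4_rho τ).mp h4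
    rw [h55_slash_apply f γ ρ]
    exact mul_ne_zero (zpow_ne_zero _ (UpperHalfPlane.denom_ne_zero γ ρ)) hρ
  by_cases h6 : E₆ τ = 0
  · obtain ⟨γ, rfl⟩ := (h55_E₆_zero_orbit I Fermat.Agent.S24.h39_E6_I τ).mp h6
    rw [h55_slash_apply f γ I]
    exact mul_ne_zero (zpow_ne_zero _ (UpperHalfPlane.denom_ne_zero γ I)) hI
  exact hgen τ h4 h6

/-- Bundled version: a level-one form nonvanishing at `i`, `ρ` and at the generic points is a
nonzero constant multiple of a power of the discriminant. -/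
theorem h12_eq_const_mul_discriminant_pow_of_generic' {k : ℤ} (f : ModularForm 𝒮ℒ k)
    (hI : f I ≠ 0) (hρ : f ρ ≠ 0) (hgen : ∀ τ : ℍ, E₄ τ ≠ 0 → E₆ τ ≠ 0 → f τ ≠ 0) :
    ∃ (m : ℕ) (c : ℂ), c ≠ 0 ∧ k = 12 * (m : ℤ) ∧ ∀ τ : ℍ, f τ = c * discriminant τ ^ m :=
  h12_eq_const_mul_discriminant_pow f (h12_ne_zero_of_generic f hI hρ hgen)

/-- **NONVAN** (row 72 of project S20): a level-one form (as a function) nonvanishing at `i`, `ρ`
and at the generic points is a nonzero constant multiple of a power of the discriminant. -/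
theorem h12_eq_const_mul_discriminant_pow_of_generic {k : ℤ} (F : ℍ → ℂ) (hF : F ∈ Lfun k)
    (hI : F I ≠ 0) (hρ : F ρ ≠ 0) (hgen : ∀ τ : ℍ, E₄ τ ≠ 0 → E₆ τ ≠ 0 → F τ ≠ 0) :
    ∃ (m : ℕ) (c : ℂ), c ≠ 0 ∧ k = 12 * (m : ℤ) ∧ ∀ τ : ℍ, F τ = c * discriminant τ ^ m := by
  obtain ⟨f, rfl⟩ := (mem_Lfun_iff_exists k F).mp hF
  exact h12_eq_const_mul_discriminant_pow_of_generic' f hI hρ hgen

end Fermat.Agent.S20
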