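import Mathlib

set_option autoImplicit false
set_option linter.unusedSectionVars false

/-!
# The determinant of a system of conjugates at `i∞` (abstract analytic core)

`φ x j : ℍ → ℂ` (`x ∈ X`, `j ∈ ι`, `|X| = |ι|`) holomorphic, bounded at `i∞`, and permuted by
`τ ↦ τ + 1` through a permutation `t` of `X`.  Given a diagonalisation `Z` of the permutation
(rows = eigenvectors with eigenvalues `exp (2 π i a y / w y)`, `a y < w y`,
`2 ∑ a y / w y = s`), the square of the determinant is `q ^ s` times a function with a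
limit at `i∞`; and if that limit vanishes there is a non-trivial constant combination of the
columns, all of whose "level one deformations" decay like `exp (-2 π Im τ)`.
-/

namespace Fermat.Agent.S20

open UpperHalfPlane Filter Topology Asymptotics
open scoped Manifold Real

/-- `1`-periodicity on `ℍ` gives periodicity of `f ∘ ofComplex` on `ℂ`. -/
theorem h17_periodic_comp_ofComplex {f : ℍ → ℂ} (hf : ∀ τ : ℍ, f ((1 : ℝ) +ᵥ τ) = f τ) :
    Function.Periodic (f ∘ ofComplex) ((1 : ℝ) : ℂ) := by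
  intro z
  by_cases hz : 0 < z.im
  · have hz' : 0 < (z + ((1 : ℝ) : ℂ)).im := by simpa using hz
    simp only [Function.comp_apply, ofComplex_apply_of_im_pos hz', ofComplex_apply_of_im_pos hz]
    rw [← hf ⟨z, hz⟩]
    congr 1
    ext
    simp [add_comm]
  · have hz0 : z.im ≤ 0 := not_lt.mp hz
    have hz' : (z + ((1 : ℝ) : ℂ)).im ≤ 0 := by simpa using hz0
    simp only [Function.comp_apply]
    rw [ofComplex_apply_of_im_nonpos hz', ofComplex_apply_of_im_nonpos hz0]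

theorem h17_tendsto_exp_neg_im {c : ℝ} (hc : 0 < c) :
    Tendsto (fun τ : ℍ => Real.exp (-c * τ.im)) atImInfty (𝓝 0) := by
  have h1 : Tendsto (fun τ : ℍ => c * τ.im) atImInfty atTop :=
    Tendsto.const_mul_atTop hc tendsto_comap
  have h2 := Real.tendsto_exp_neg_atTop_nhds_zero.comp h1
  refine h2.congr (fun τ => ?_)
  simp

/-- A `1`-periodic holomorphic function bounded at `i∞` tends to its value at `i∞`. -/
theorem h17_tendsto_valueAtInfty {f : ℍ → ℂ} (hhol : MDiff f)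
    (hper : ∀ τ : ℍ, f ((1 : ℝ) +ᵥ τ) = f τ) (hbdd : IsBoundedAtImInfty f) :
    Tendsto f atImInfty (𝓝 (valueAtInfty f)) := by
  have h1 := exp_decay_sub_atImInfty (h := 1) one_pos (h17_periodic_comp_ofComplex hper) hhol hbdd
  have h2 : Tendsto (fun τ : ℍ => Real.exp (-2 * π * τ.im / 1)) atImInfty (𝓝 0) := by
    have := h17_tendsto_exp_neg_im (c := 2 * π) (by positivity)
    refine this.congr (fun τ => ?_)
    congr 1
    ring
  have h3 := h1.trans_tendsto h2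
  have h4 := h3.add_const (valueAtInfty f)
  simpa using h4

/-- A `1`-periodic holomorphic function tending to `0` at `i∞` decays like `exp (-2π Im τ)`. -/
theorem h17_exp_decay {f : ℍ → ℂ} (hhol : MDiff f)
    (hper : ∀ τ : ℍ, f ((1 : ℝ) +ᵥ τ) = f τ) (h0 : Tendsto f atImInfty (𝓝 0)) :
    f =O[atImInfty] fun τ : ℍ => Real.exp (-2 * π * τ.im) := by
  have hz : IsZeroAtImInfty f := h0
  have h1 := hz.exp_decay_atImInfty (h := 1) one_pos (h17_periodic_comp_ofComplex hper) hhol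
    hz.boundedAtFilter
  refine h1.congr_right (fun τ => ?_)
  simp

/-- The real number `2 π a / w`. -/
noncomputable def h17_lam (a w : ℕ) : ℝ := 2 * π * (a : ℝ) / (w : ℝ)

theorem h17_lam_eq (a w : ℕ) :
    2 * (π : ℂ) * Complex.I * (a : ℂ) / (w : ℂ) = ((h17_lam a w : ℝ) : ℂ) * Complex.I := by
  unfold h17_lam
  push_cast
  ring

theorem h17_lam_nonneg (a w : ℕ) : 0 ≤ h17_lam a w := by
  unfold h17_lam
  positivity

theorem h17_lam_lt {a w : ℕ} (haw : a < w) : h17_lam a w < 2 * π := by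
  unfold h17_lam
  have hw : (0 : ℝ) < (w : ℝ) := by
    have : 0 < w := lt_of_le_of_lt (Nat.zero_le _) haw
    exact_mod_cast this
  rw [div_lt_iff₀ hw]
  have : (a : ℝ) < (w : ℝ) := by exact_mod_cast haw
  have hpi : (0 : ℝ) < 2 * π := by positivity
  nlinarith

theorem h17_norm_exp_mul_I (r : ℝ) (z : ℂ) :
    ‖Complex.exp ((r : ℂ) * Complex.I * z)‖ = Real.exp (-r * z.im) := by
  rw [Complex.norm_exp]
  congr 1
  simp [Complex.mul_re]

/-- Removing the twist: `B τ = exp (-(2πi a/w) τ) ψ τ`. -/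
noncomputable def h17_untwist (a w : ℕ) (ψ : ℍ → ℂ) : ℍ → ℂ :=
  fun τ => Complex.exp (-((h17_lam a w : ℝ) : ℂ) * Complex.I * (τ : ℂ)) * ψ τ

theorem h17_untwist_mul (a w : ℕ) (ψ : ℍ → ℂ) (τ : ℍ) :
    Complex.exp (((h17_lam a w : ℝ) : ℂ) * Complex.I * (τ : ℂ)) * h17_untwist a w ψ τ = ψ τ := by
  unfold h17_untwist
  rw [← mul_assoc, ← Complex.exp_add]
  have : ((h17_lam a w : ℝ) : ℂ) * Complex.I * (τ : ℂ) + -((h17_lam a w : ℝ) : ℂ) * Complex.I * (τ : ℂ) = 0 := by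
    ring
  rw [this, Complex.exp_zero, one_mul]

theorem h17_mdiff_exp_mul (c : ℂ) : MDiff (fun τ : ℍ => Complex.exp (c * (τ : ℂ))) := by
  have h1 : MDiff (fun τ : ℍ => c * (τ : ℂ)) := mdifferentiable_const.mul mdifferentiable_coe
  exact (Complex.differentiable_exp.mdifferentiable).comp h1

theorem h17_untwist_mdiff (a w : ℕ) {ψ : ℍ → ℂ} (hψ : MDiff ψ) : MDiff (h17_untwist a w ψ) :=
  (h17_mdiff_exp_mul _).mul hψ

theorem h17_coe_one_vadd (τ : ℍ) : (((1 : ℝ) +ᵥ τ : ℍ) : ℂ) = 1 + (τ : ℂ) := by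
  simp

theorem h17_untwist_periodic (a w : ℕ) {ψ : ℍ → ℂ}
    (htw : ∀ τ : ℍ, ψ ((1 : ℝ) +ᵥ τ) =
      Complex.exp (2 * (π : ℂ) * Complex.I * (a : ℂ) / (w : ℂ)) * ψ τ) (τ : ℍ) :
    h17_untwist a w ψ ((1 : ℝ) +ᵥ τ) = h17_untwist a w ψ τ := by
  unfold h17_untwist
  rw [htw τ, h17_lam_eq, h17_coe_one_vadd, ← mul_assoc, ← Complex.exp_add]
  congr 2
  ring

theorem h17_untwist_bounded {a w : ℕ} (haw : a < w) {ψ : ℍ → ℂ} (hψ : MDiff ψ)
    (hbdd : IsBoundedAtImInfty ψ)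
    (htw : ∀ τ : ℍ, ψ ((1 : ℝ) +ᵥ τ) =
      Complex.exp (2 * (π : ℂ) * Complex.I * (a : ℂ) / (w : ℂ)) * ψ τ) :
    IsBoundedAtImInfty (h17_untwist a w ψ) := by
  -- `g = q * B` is periodic, holomorphic and tends to `0`
  set r : ℝ := 2 * π - h17_lam a w with hr
  have hrpos : 0 < r := by
    have := h17_lam_lt haw
    linarith
  let g : ℍ → ℂ := fun τ => Complex.exp ((r : ℂ) * Complex.I * (τ : ℂ)) * ψ τ
  have hgB : ∀ τ : ℍ, g τ = Complex.exp (((2 * π : ℝ) : ℂ) * Complex.I * (τ : ℂ)) * h17_untwist a w ψ τ := by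
    intro τ
    show Complex.exp ((r : ℂ) * Complex.I * (τ : ℂ)) * ψ τ = _
    unfold h17_untwist
    rw [← mul_assoc, ← Complex.exp_add]
    congr 2
    rw [hr]
    push_cast
    ring
  have hghol : MDiff g := by
    have h1 : MDiff (fun τ : ℍ => Complex.exp (((r : ℂ) * Complex.I) * (τ : ℂ))) := h17_mdiff_exp_mul _
    exact h1.mul hψ
  have hgper : ∀ τ : ℍ, g ((1 : ℝ) +ᵥ τ) = g τ := by
    intro τ
    rw [hgB, hgB, h17_untwist_periodic a w htw τ, h17_coe_one_vadd]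
    congr 1
    rw [mul_add, Complex.exp_add]
    have : Complex.exp (((2 * π : ℝ) : ℂ) * Complex.I * 1) = 1 := by
      have h2 : ((2 * π : ℝ) : ℂ) * Complex.I * 1 = 2 * π * Complex.I := by push_cast; ring
      rw [h2, Complex.exp_two_pi_mul_I]
    rw [this, one_mul]
  have hg0 : Tendsto g atImInfty (𝓝 0) := by
    have h1 : g =O[atImInfty] fun τ : ℍ => Real.exp (-r * τ.im) * (1 : ℝ) := by
      have hb : ψ =O[atImInfty] (1 : ℍ → ℝ) := hbdd
      have he : (fun τ : ℍ => Complex.exp ((r : ℂ) * Complex.I * (τ : ℂ))) =O[atImInfty]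
          fun τ : ℍ => Real.exp (-r * τ.im) := by
        refine IsBigO.of_bound 1 (Eventually.of_forall fun τ => ?_)
        rw [h17_norm_exp_mul_I, one_mul, Real.norm_eq_abs, abs_of_pos (Real.exp_pos _)]
        simp
      exact he.mul hb
    have h2 : Tendsto (fun τ : ℍ => Real.exp (-r * τ.im) * (1 : ℝ)) atImInfty (𝓝 0) := by
      simpa using h17_tendsto_exp_neg_im hrpos
    exact h1.trans_tendsto h2
  have hdec := h17_exp_decay hghol hgper hg0
  -- now `B = exp (-2πi τ) g`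
  obtain ⟨C, hC⟩ := hdec.bound
  refine IsBigO.of_bound C ?_
  filter_upwards [hC] with τ hτ
  have hB : h17_untwist a w ψ τ = Complex.exp ((((-(2 * π) : ℝ)) : ℂ) * Complex.I * (τ : ℂ)) * g τ := by
    rw [hgB, ← mul_assoc, ← Complex.exp_add]
    have : (((-(2 * π) : ℝ)) : ℂ) * Complex.I * (τ : ℂ) + ((2 * π : ℝ) : ℂ) * Complex.I * (τ : ℂ) = 0 := by
      push_cast; ring
    rw [this, Complex.exp_zero, one_mul]
  rw [hB, norm_mul, h17_norm_exp_mul_I]
  have h3 : ‖(fun τ : ℍ => Real.exp (-2 * π * τ.im)) τ‖ = Real.exp (-2 * π * τ.im) := by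
    rw [Real.norm_eq_abs, abs_of_pos (Real.exp_pos _)]
  rw [h3] at hτ
  have h4 : Real.exp (-(-(2 * π)) * (τ : ℂ).im) * Real.exp (-2 * π * τ.im) = 1 := by
    rw [← Real.exp_add]
    have : -(-(2 * π)) * (τ : ℂ).im + -2 * π * τ.im = 0 := by
      simp
    rw [this, Real.exp_zero]
  calc Real.exp (-(-(2 * π)) * (τ : ℂ).im) * ‖g τ‖
      ≤ Real.exp (-(-(2 * π)) * (τ : ℂ).im) * (C * Real.exp (-2 * π * τ.im)) :=
        mul_le_mul_of_nonneg_left hτ (Real.exp_pos _).le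
    _ = C * (Real.exp (-(-(2 * π)) * (τ : ℂ).im) * Real.exp (-2 * π * τ.im)) := by ring
    _ = C * ‖(1 : ℍ → ℝ) τ‖ := by rw [h4]; simp

section core

variable {X ι : Type} [Fintype X] [DecidableEq X] [Fintype ι] [DecidableEq ι]

/-- The `Z`-transformed rows `ψ y j = ∑ x, Z y x * φ x j`. -/
noncomputable def h17_psi (Z : Matrix X X ℂ) (φ : X → ι → ℍ → ℂ) (y : X) (j : ι) : ℍ → ℂ :=
  fun τ => ∑ x, Z y x * φ x j τ

theorem h17_mdiff_sum {κ : Type} [Fintype κ] {f : κ → ℍ → ℂ} (hf : ∀ x, MDiff (f x)) :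
    MDiff (fun τ => ∑ x, f x τ) := by
  have := MDifferentiable.sum (I := 𝓘(ℂ)) (t := Finset.univ) (f := f) (fun x _ => hf x)
  convert this using 1
  ext τ
  simp

theorem h17_bdd_sum {κ : Type} [Fintype κ] {f : κ → ℍ → ℂ} (hf : ∀ x, IsBoundedAtImInfty (f x)) :
    IsBoundedAtImInfty (fun τ => ∑ x, f x τ) := by
  have h : (∑ x ∈ Finset.univ, f x) =O[atImInfty] (1 : ℍ → ℝ) :=
    IsBigO.sum (fun x _ => hf x)
  have e : (fun τ => ∑ x, f x τ) = ∑ x ∈ Finset.univ, f x := by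
    ext τ
    simp
  rw [e]
  exact h

theorem h17_psi_mdiff (Z : Matrix X X ℂ) {φ : X → ι → ℍ → ℂ} (hhol : ∀ x j, MDiff (φ x j))
    (y : X) (j : ι) : MDiff (h17_psi Z φ y j) :=
  h17_mdiff_sum (fun x => mdifferentiable_const.mul (hhol x j))

theorem h17_psi_bdd (Z : Matrix X X ℂ) {φ : X → ι → ℍ → ℂ}
    (hbdd : ∀ x j, IsBoundedAtImInfty (φ x j)) (y : X) (j : ι) :
    IsBoundedAtImInfty (h17_psi Z φ y j) :=
  h17_bdd_sum (fun x => (hbdd x j).const_mul_left (Z y x))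

theorem h17_psi_twist (t : Equiv.Perm X) (Z : Matrix X X ℂ) (a w : X → ℕ)
    (hZt : ∀ y x, Z y (t x) =
      Complex.exp (2 * (π : ℂ) * Complex.I * (a y : ℂ) / (w y : ℂ)) * Z y x)
    {φ : X → ι → ℍ → ℂ} (htr : ∀ x j (τ : ℍ), φ (t x) j ((1 : ℝ) +ᵥ τ) = φ x j τ)
    (y : X) (j : ι) (τ : ℍ) :
    h17_psi Z φ y j ((1 : ℝ) +ᵥ τ) =
      Complex.exp (2 * (π : ℂ) * Complex.I * (a y : ℂ) / (w y : ℂ)) * h17_psi Z φ y j τ := by
  unfold h17_psi
  rw [← Equiv.sum_comp t, Finset.mul_sum]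
  refine Finset.sum_congr rfl (fun x _ => ?_)
  rw [hZt, htr, mul_assoc]

/-- The untwisted rows. -/
noncomputable def h17_B (Z : Matrix X X ℂ) (a w : X → ℕ) (φ : X → ι → ℍ → ℂ) (y : X) (j : ι) :
    ℍ → ℂ :=
  h17_untwist (a y) (w y) (h17_psi Z φ y j)

/-- The matrix of leading coefficients. -/
noncomputable def h17_Lam (Z : Matrix X X ℂ) (a w : X → ℕ) (φ : X → ι → ℍ → ℂ) (y : X) (j : ι) :
    ℂ :=
  valueAtInfty (h17_B Z a w φ y j)

theorem h17_B_mdiff (Z : Matrix X X ℂ) (a w : X → ℕ) {φ : X → ι → ℍ → ℂ}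
    (hhol : ∀ x j, MDiff (φ x j)) (y : X) (j : ι) : MDiff (h17_B Z a w φ y j) :=
  h17_untwist_mdiff _ _ (h17_psi_mdiff Z hhol y j)

theorem h17_B_periodic (t : Equiv.Perm X) (Z : Matrix X X ℂ) (a w : X → ℕ)
    (hZt : ∀ y x, Z y (t x) =
      Complex.exp (2 * (π : ℂ) * Complex.I * (a y : ℂ) / (w y : ℂ)) * Z y x)
    {φ : X → ι → ℍ → ℂ} (htr : ∀ x j (τ : ℍ), φ (t x) j ((1 : ℝ) +ᵥ τ) = φ x j τ)
    (y : X) (j : ι) (τ : ℍ) :
    h17_B Z a w φ y j ((1 : ℝ) +ᵥ τ) = h17_B Z a w φ y j τ :=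
  h17_untwist_periodic _ _ (h17_psi_twist t Z a w hZt htr y j) τ

theorem h17_B_bdd (t : Equiv.Perm X) (Z : Matrix X X ℂ) (a w : X → ℕ) (haw : ∀ y, a y < w y)
    (hZt : ∀ y x, Z y (t x) =
      Complex.exp (2 * (π : ℂ) * Complex.I * (a y : ℂ) / (w y : ℂ)) * Z y x)
    {φ : X → ι → ℍ → ℂ} (hhol : ∀ x j, MDiff (φ x j))
    (hbdd : ∀ x j, IsBoundedAtImInfty (φ x j))
    (htr : ∀ x j (τ : ℍ), φ (t x) j ((1 : ℝ) +ᵥ τ) = φ x j τ)
    (y : X) (j : ι) : IsBoundedAtImInfty (h17_B Z a w φ y j) :=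
  h17_untwist_bounded (haw y) (h17_psi_mdiff Z hhol y j) (h17_psi_bdd Z hbdd y j)
    (h17_psi_twist t Z a w hZt htr y j)

theorem h17_B_tendsto (t : Equiv.Perm X) (Z : Matrix X X ℂ) (a w : X → ℕ) (haw : ∀ y, a y < w y)
    (hZt : ∀ y x, Z y (t x) =
      Complex.exp (2 * (π : ℂ) * Complex.I * (a y : ℂ) / (w y : ℂ)) * Z y x)
    {φ : X → ι → ℍ → ℂ} (hhol : ∀ x j, MDiff (φ x j))
    (hbdd : ∀ x j, IsBoundedAtImInfty (φ x j))
    (htr : ∀ x j (τ : ℍ), φ (t x) j ((1 : ℝ) +ᵥ τ) = φ x j τ)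
    (y : X) (j : ι) :
    Tendsto (h17_B Z a w φ y j) atImInfty (𝓝 (h17_Lam Z a w φ y j)) :=
  h17_tendsto_valueAtInfty (h17_B_mdiff Z a w hhol y j) (h17_B_periodic t Z a w hZt htr y j)
    (h17_B_bdd t Z a w haw hZt hhol hbdd htr y j)

theorem h17_psi_eq (Z : Matrix X X ℂ) (a w : X → ℕ) (φ : X → ι → ℍ → ℂ) (y : X) (j : ι)
    (τ : ℍ) :
    h17_psi Z φ y j τ =
      Complex.exp (((h17_lam (a y) (w y) : ℝ) : ℂ) * Complex.I * (τ : ℂ)) * h17_B Z a w φ y j τ :=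
  (h17_untwist_mul (a y) (w y) (h17_psi Z φ y j) τ).symm

theorem h17_sum_lam (a w : X → ℕ) (s : ℕ) (hs : 2 * ∑ y, (a y : ℚ) / (w y : ℚ) = s) :
    ∑ y, h17_lam (a y) (w y) = π * s := by
  have h1 : (2 : ℝ) * ∑ y, (a y : ℝ) / (w y : ℝ) = (s : ℝ) := by
    have := congrArg (fun q : ℚ => (q : ℝ)) hs
    push_cast at this
    exact this
  unfold h17_lam
  rw [← h1, Finset.mul_sum, Finset.mul_sum]
  refine Finset.sum_congr rfl (fun y _ => ?_)
  ring

/-- The determinant identity: `det(Z)² det(Φ)² = q^s det(B)²`. -/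
theorem h17_det_sq (e : ι ≃ X) (Z : Matrix X X ℂ) (a w : X → ℕ) (s : ℕ)
    (hs : 2 * ∑ y, (a y : ℚ) / (w y : ℚ) = s) (φ : X → ι → ℍ → ℂ) (τ : ℍ) :
    Z.det ^ 2 * (Matrix.det (Matrix.of fun i j => φ (e i) j τ)) ^ 2 =
      (Function.Periodic.qParam 1 (τ : ℂ)) ^ s *
        (Matrix.det (Matrix.of fun i j => h17_B Z a w φ (e i) j τ)) ^ 2 := by
  have hmat : Z.submatrix e e * (Matrix.of fun i j => φ (e i) j τ) =
      Matrix.diagonal (fun i =>
        Complex.exp (((h17_lam (a (e i)) (w (e i)) : ℝ) : ℂ) * Complex.I * (τ : ℂ))) *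
        (Matrix.of fun i j => h17_B Z a w φ (e i) j τ) := by
    ext i j
    rw [Matrix.diagonal_mul, Matrix.mul_apply]
    simp only [Matrix.submatrix_apply, Matrix.of_apply]
    rw [← h17_psi_eq]
    unfold h17_psi
    exact Equiv.sum_comp e (fun x => Z (e i) x * φ x j τ)
  have hdet := congrArg Matrix.det hmat
  rw [Matrix.det_mul, Matrix.det_mul, Matrix.det_submatrix_equiv_self, Matrix.det_diagonal] at hdet
  have hprod : (∏ i, Complex.exp (((h17_lam (a (e i)) (w (e i)) : ℝ) : ℂ) * Complex.I * (τ : ℂ))) ^ 2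
      = (Function.Periodic.qParam 1 (τ : ℂ)) ^ s := by
    rw [← Complex.exp_sum, ← Complex.exp_nat_mul, Function.Periodic.qParam, ← Complex.exp_nat_mul]
    congr 1
    rw [← Finset.sum_mul, ← Finset.sum_mul]
    have h2 : ∑ i, ((h17_lam (a (e i)) (w (e i)) : ℝ) : ℂ) = ((π * s : ℝ) : ℂ) := by
      rw [← h17_sum_lam a w s hs, ← Equiv.sum_comp e (fun y => h17_lam (a y) (w y))]
      push_cast
      rfl
    rw [h2]
    push_cast
    ring
  calc Z.det ^ 2 * (Matrix.det (Matrix.of fun i j => φ (e i) j τ)) ^ 2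
      = (Z.det * Matrix.det (Matrix.of fun i j => φ (e i) j τ)) ^ 2 := by ring
    _ = ((∏ i, Complex.exp (((h17_lam (a (e i)) (w (e i)) : ℝ) : ℂ) * Complex.I * (τ : ℂ))) *
          Matrix.det (Matrix.of fun i j => h17_B Z a w φ (e i) j τ)) ^ 2 := by rw [hdet]
    _ = _ := by rw [mul_pow, hprod]

theorem h17_norm_exp_lam_le (a w : ℕ) (τ : ℍ) :
    ‖Complex.exp (((h17_lam a w : ℝ) : ℂ) * Complex.I * (τ : ℂ))‖ ≤ 1 := by
  rw [h17_norm_exp_mul_I]
  have h1 : 0 ≤ h17_lam a w := h17_lam_nonneg a w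
  have h2 : 0 < (τ : ℂ).im := τ.im_pos
  have h3 : -h17_lam a w * (τ : ℂ).im ≤ 0 := by nlinarith
  calc Real.exp (-h17_lam a w * (τ : ℂ).im) ≤ Real.exp 0 := Real.exp_le_exp.mpr h3
    _ = 1 := Real.exp_zero

/-- **Core theorem.** Either the determinant squared has exact order `s` at `i∞`, or there is
a non-trivial constant vector `c` such that every combination `∑ j, φ x j * α j` with
`1`-periodic holomorphic `α j → c j` decays like `exp (-2π Im τ)`. -/
theorem h17_core (e : ι ≃ X) (t : Equiv.Perm X) (Z : Matrix X X ℂ) (a w : X → ℕ)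
    (hZ : Z.det ≠ 0) (haw : ∀ y, a y < w y)
    (hZt : ∀ y x, Z y (t x) =
      Complex.exp (2 * (π : ℂ) * Complex.I * (a y : ℂ) / (w y : ℂ)) * Z y x)
    (s : ℕ) (hs : 2 * ∑ y, (a y : ℚ) / (w y : ℚ) = s)
    (φ : X → ι → ℍ → ℂ) (hhol : ∀ x j, MDiff (φ x j))
    (hbdd : ∀ x j, IsBoundedAtImInfty (φ x j))
    (htr : ∀ x j (τ : ℍ), φ (t x) j ((1 : ℝ) +ᵥ τ) = φ x j τ) :
    (∃ L : ℂ, L ≠ 0 ∧ Tendsto (fun τ : ℍ =>
        (Matrix.det (Matrix.of fun i j => φ (e i) j τ)) ^ 2 /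
          (Function.Periodic.qParam 1 (τ : ℂ)) ^ s) atImInfty (𝓝 L)) ∨
    (∃ c : ι → ℂ, c ≠ 0 ∧ ∀ α : ι → ℍ → ℂ, (∀ j, MDiff (α j)) →
        (∀ j (τ : ℍ), α j ((1 : ℝ) +ᵥ τ) = α j τ) →
        (∀ j, Tendsto (α j) atImInfty (𝓝 (c j))) →
        ∀ x, (fun τ : ℍ => ∑ j, φ x j τ * α j τ) =O[atImInfty]
          (fun τ : ℍ => Real.exp (-2 * π * τ.im))) := by
  have hBt := h17_B_tendsto t Z a w haw hZt hhol hbdd htr
  by_cases hdet : Matrix.det (Matrix.of fun i j => h17_Lam Z a w φ (e i) j) = 0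
  · right
    obtain ⟨c, hc0, hc⟩ := Matrix.exists_mulVec_eq_zero_iff.mpr hdet
    have hΛc : ∀ y, ∑ j, h17_Lam Z a w φ y j * c j = 0 := by
      intro y
      have := congrFun hc (e.symm y)
      simpa [Matrix.mulVec, dotProduct] using this
    refine ⟨c, hc0, fun α hα hαper hαlim x => ?_⟩
    -- the untwisted combinations decay
    have hβ : ∀ y, (fun τ : ℍ => ∑ j, h17_B Z a w φ y j τ * α j τ) =O[atImInfty]
        (fun τ : ℍ => Real.exp (-2 * π * τ.im)) := by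
      intro y
      refine h17_exp_decay (h17_mdiff_sum (fun j => (h17_B_mdiff Z a w hhol y j).mul (hα j)))
        (fun τ => ?_) ?_
      · refine Finset.sum_congr rfl (fun j _ => ?_)
        rw [h17_B_periodic t Z a w hZt htr y j τ, hαper j τ]
      · rw [← hΛc y]
        exact tendsto_finsetSum _ (fun j _ => (hBt y j).mul (hαlim j))
    -- hence the `Z`-transformed combinations decay
    have hZh : ∀ y, (fun τ : ℍ => ∑ x', Z y x' * ∑ j, φ x' j τ * α j τ) =O[atImInfty]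
        (fun τ : ℍ => Real.exp (-2 * π * τ.im)) := by
      intro y
      have hE : (fun τ : ℍ =>
          Complex.exp (((h17_lam (a y) (w y) : ℝ) : ℂ) * Complex.I * (τ : ℂ))) =O[atImInfty]
          (1 : ℍ → ℝ) :=
        IsBigO.of_bound 1 (Eventually.of_forall fun τ => by
          simpa using h17_norm_exp_lam_le (a y) (w y) τ)
      have h1 := hE.mul (hβ y)
      have h2 : (fun τ : ℍ => ∑ x', Z y x' * ∑ j, φ x' j τ * α j τ) =
          fun τ : ℍ => Complex.exp (((h17_lam (a y) (w y) : ℝ) : ℂ) * Complex.I * (τ : ℂ)) *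
            ∑ j, h17_B Z a w φ y j τ * α j τ := by
        funext τ
        rw [Finset.mul_sum]
        simp_rw [Finset.mul_sum]
        rw [Finset.sum_comm]
        refine Finset.sum_congr rfl (fun j _ => ?_)
        rw [← mul_assoc, ← h17_psi_eq]
        unfold h17_psi
        rw [Finset.sum_mul]
        refine Finset.sum_congr rfl (fun x' _ => ?_)
        ring
      rw [h2]
      refine h1.congr_right (fun τ => ?_)
      simp
    -- invert `Z`
    have hinv : ∀ τ : ℍ, (∑ j, φ x j τ * α j τ) =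
        ∑ y, Z⁻¹ x y * ∑ x', Z y x' * ∑ j, φ x' j τ * α j τ := by
      intro τ
      have h1 : Z⁻¹ * Z = 1 := Matrix.nonsing_inv_mul Z (Ne.isUnit hZ)
      have h2 := congrFun (congrArg (fun M : Matrix X X ℂ =>
        M.mulVec (fun x' => ∑ j, φ x' j τ * α j τ)) h1) x
      simp only [Matrix.one_mulVec] at h2
      rw [← h2, ← Matrix.mulVec_mulVec]
      simp [Matrix.mulVec, dotProduct]
    have hfun : (fun τ : ℍ => ∑ j, φ x j τ * α j τ) =
        ∑ y ∈ Finset.univ, fun τ : ℍ => Z⁻¹ x y * ∑ x', Z y x' * ∑ j, φ x' j τ * α j τ := by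
      funext τ
      rw [hinv τ]
      simp
    rw [hfun]
    exact IsBigO.sum (fun y _ => (hZh y).const_mul_left _)
  · left
    refine ⟨(Matrix.det (Matrix.of fun i j => h17_Lam Z a w φ (e i) j)) ^ 2 / Z.det ^ 2,
      div_ne_zero (pow_ne_zero 2 hdet) (pow_ne_zero 2 hZ), ?_⟩
    have hmat : Tendsto (fun τ : ℍ => (Matrix.of fun i j => h17_B Z a w φ (e i) j τ :
        Matrix ι ι ℂ)) atImInfty (𝓝 (Matrix.of fun i j => h17_Lam Z a w φ (e i) j)) := by
      refine tendsto_pi_nhds.mpr (fun i => tendsto_pi_nhds.mpr (fun j => ?_))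
      exact hBt (e i) j
    have hdetc : Continuous (fun A : Matrix ι ι ℂ => A.det) := continuous_id.matrix_det
    have hlim := (hdetc.tendsto _).comp hmat
    have hlim2 := (hlim.pow 2).div_const (Z.det ^ 2)
    refine hlim2.congr (fun τ => ?_)
    have hq : Function.Periodic.qParam 1 (τ : ℂ) ≠ 0 := Function.Periodic.qParam_ne_zero _
    have hid := h17_det_sq e Z a w s hs φ τ
    simp only [Function.comp_apply]
    rw [div_eq_div_iff (pow_ne_zero 2 hZ) (pow_ne_zero s hq)]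
    rw [mul_comm (Z.det ^ 2)] at hid
    rw [hid]
    ring

end core

end Fermat.Agent.S20
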