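import Mathlib

/-!
# PERM-DIAG (helper34, for helper17's DET-INF block of S20)

A permutation action of a single group element `g` on a finite set `X` is diagonalised
by an explicit invertible matrix `Z` (a block-diagonal matrix of discrete Fourier / Vandermonde
blocks, one per `⟨g⟩`-orbit), with eigenvalues `exp (2 π i a / w)`, `a < w`, and
`2 * ∑ a / w = |X| - #orbits`.

Main result: `Fermat.Agent.S20.h17_perm_diag`.
-/

namespace Fermat.Agent.S20

/-- Abstract version: `X` is cut into cycles `Fin (n ω)` on which `f` acts by `+ 1`. -/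
theorem h34_perm_diag_abstract {X Ω : Type*} [Fintype X] [DecidableEq X] [Fintype Ω]
    [DecidableEq Ω] (n : Ω → ℕ) [∀ ω, NeZero (n ω)] (e : (Σ ω : Ω, Fin (n ω)) ≃ X) (f : X → X)
    (hf : ∀ p : (Σ ω : Ω, Fin (n ω)), f (e p) = e ⟨p.1, p.2 + 1⟩) :
    ∃ (Z : Matrix X X ℂ) (a w : X → ℕ), Z.det ≠ 0 ∧ (∀ y, a y < w y) ∧
      (∀ y x, Z y (f x) =
        Complex.exp (2 * Real.pi * Complex.I * (a y : ℂ) / (w y : ℂ)) * Z y x) ∧
      2 * ∑ y, (a y : ℚ) / (w y : ℚ) = (Fintype.card X : ℚ) - (Fintype.card Ω : ℚ) := by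
  have hprim : ∀ ω, IsPrimitiveRoot (Complex.exp (2 * Real.pi * Complex.I / (n ω : ℂ))) (n ω) :=
    fun ω => Complex.isPrimitiveRoot_exp (n ω) (NeZero.ne _)
  set M : ∀ ω, Matrix (Fin (n ω)) (Fin (n ω)) ℂ := fun ω =>
    Matrix.vandermonde (fun i => Complex.exp (2 * Real.pi * Complex.I / (n ω : ℂ)) ^ (i : ℕ))
    with hM
  have hdet : ∀ ω, (M ω).det ≠ 0 := by
    intro ω
    rw [hM]
    simp only
    rw [Matrix.det_vandermonde_ne_zero_iff]
    intro i j hij
    exact Fin.ext ((hprim ω).pow_inj i.2 j.2 hij)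
  refine ⟨Matrix.reindex e e (Matrix.blockDiagonal' M), fun y => ((e.symm y).2 : ℕ),
    fun y => n (e.symm y).1, ?_, ?_, ?_, ?_⟩
  · rw [Matrix.det_reindex_self]
    have h1 : Matrix.blockDiagonal' M * Matrix.blockDiagonal' (fun ω => (M ω)⁻¹) = 1 := by
      rw [← Matrix.blockDiagonal'_mul]
      have h2 : (fun ω => M ω * (M ω)⁻¹) = (1 : ∀ ω, Matrix (Fin (n ω)) (Fin (n ω)) ℂ) := by
        funext ω
        exact Matrix.mul_nonsing_inv _ (Ne.isUnit (hdet ω))
      rw [h2]
      exact Matrix.blockDiagonal'_one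
    have h3 := congrArg Matrix.det h1
    rw [Matrix.det_mul, Matrix.det_one] at h3
    exact left_ne_zero_of_mul_eq_one h3
  · intro y
    exact (e.symm y).2.2
  · intro y x
    have hx : f x = e ⟨(e.symm x).1, (e.symm x).2 + 1⟩ := by
      have h0 := hf (e.symm x)
      rwa [Equiv.apply_symm_apply] at h0
    rw [hx]
    simp only [Matrix.reindex_apply, Matrix.submatrix_apply, Equiv.symm_apply_apply]
    generalize e.symm y = p
    generalize e.symm x = q
    obtain ⟨ω, i⟩ := p
    obtain ⟨ω', j⟩ := q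
    by_cases h : ω = ω'
    · subst h
      simp only [Matrix.blockDiagonal'_apply_eq, hM, Matrix.vandermonde_apply]
      have hpow : (Complex.exp (2 * Real.pi * Complex.I / (n ω : ℂ)) ^ (i : ℕ)) ^ (n ω) = 1 := by
        rw [← pow_mul, Nat.mul_comm, pow_mul, (hprim ω).pow_eq_one, one_pow]
      have hval : ((j + 1 : Fin (n ω)) : ℕ) = ((j : ℕ) + 1) % n ω := by
        rw [Fin.val_add, Fin.val_one', Nat.add_mod_mod]
      rw [hval, ← pow_eq_pow_mod _ hpow, pow_succ, mul_comm]
      congr 1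
      rw [← Complex.exp_nat_mul]
      congr 1
      ring
    · rw [Matrix.blockDiagonal'_apply_ne _ _ _ h, Matrix.blockDiagonal'_apply_ne _ _ _ h,
        mul_zero]
  · have hsum : ∀ k : ℕ, ∑ i ∈ Finset.range k, (i : ℚ) = (k : ℚ) * ((k : ℚ) - 1) / 2 := by
      intro k
      induction k with
      | zero => simp
      | succ k ih =>
        rw [Finset.sum_range_succ, ih]
        push_cast
        ring
    have hcard : (Fintype.card X : ℚ) = ∑ ω, (n ω : ℚ) := by
      rw [← Fintype.card_congr e, Fintype.card_sigma]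
      push_cast
      simp
    have h1 : ∑ y, (((e.symm y).2 : ℕ) : ℚ) / ((n (e.symm y).1 : ℕ) : ℚ)
        = ∑ p : (Σ ω : Ω, Fin (n ω)), ((p.2 : ℕ) : ℚ) / ((n p.1 : ℕ) : ℚ) :=
      Equiv.sum_comp e.symm (fun p : (Σ ω : Ω, Fin (n ω)) => ((p.2 : ℕ) : ℚ) / ((n p.1 : ℕ) : ℚ))
    rw [h1, Fintype.sum_sigma, hcard, Finset.mul_sum, Finset.card_univ.symm.trans rfl]
    have h2 : ∀ ω, 2 * ∑ i : Fin (n ω), ((i : ℕ) : ℚ) / ((n ω : ℕ) : ℚ) = (n ω : ℚ) - 1 := by
      intro ω
      rw [Fin.sum_univ_eq_sum_range (fun i => (i : ℚ) / ((n ω : ℕ) : ℚ)) (n ω),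
        ← Finset.sum_div, hsum]
      have hn : ((n ω : ℕ) : ℚ) ≠ 0 := Nat.cast_ne_zero.2 (NeZero.ne _)
      field_simp
    rw [Finset.sum_congr rfl (fun ω _ => h2 ω), Finset.sum_sub_distrib]
    simp

/-- Iterates of `g • ·` stay in the same `⟨g⟩`-orbit. -/
theorem h34_mk_iterate {G X : Type*} [Group G] [MulAction G X] (g : G) (k : ℕ) (x : X) :
    (Quotient.mk (MulAction.orbitRel (Subgroup.zpowers g) X) ((fun y : X => g • y)^[k] x)) =
      Quotient.mk (MulAction.orbitRel (Subgroup.zpowers g) X) x := by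
  apply Quotient.sound
  show (fun y : X => g • y)^[k] x ∈ MulAction.orbit (Subgroup.zpowers g) x
  rw [smul_iterate_apply]
  exact ⟨⟨g ^ k, Subgroup.pow_mem _ (Subgroup.mem_zpowers g) k⟩, rfl⟩

/-- The map `(ω, i) ↦ g ^ i • (representative of ω)`. -/
noncomputable def h34_orbMap {G X : Type*} [Group G] [MulAction G X] (g : G) :
    (Σ ω : MulAction.orbitRel.Quotient (Subgroup.zpowers g) X,
      Fin (Function.minimalPeriod (fun y : X => g • y) (Quotient.out ω))) → X :=
  fun p => (fun y : X => g • y)^[(p.2 : ℕ)] (Quotient.out p.1)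

theorem h34_orbMap_injective {G X : Type*} [Group G] [MulAction G X] (g : G) :
    Function.Injective (h34_orbMap (X := X) g) := by
  rintro ⟨ω, i⟩ ⟨ω', j⟩ h
  simp only [h34_orbMap] at h
  have hω : ω = ω' := by
    have h1 := h34_mk_iterate g (i : ℕ) (Quotient.out ω)
    have h2 := h34_mk_iterate g (j : ℕ) (Quotient.out ω')
    rw [h, h2] at h1
    rw [Quotient.out_eq, Quotient.out_eq] at h1
    exact h1.symm
  subst hω
  have h3 := (Function.iterate_eq_iterate_iff_of_lt_minimalPeriod i.2 j.2).1 h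
  have h4 : i = j := Fin.ext h3
  rw [h4]

theorem h34_orbMap_surjective {G X : Type*} [Group G] [MulAction G X] [Finite X] (g : G) :
    Function.Surjective (h34_orbMap (X := X) g) := by
  intro x
  have h1 : x ∈ MulAction.orbit (Subgroup.zpowers g)
      (Quotient.out (Quotient.mk (MulAction.orbitRel (Subgroup.zpowers g) X) x)) := by
    have h0 := Quotient.mk_out (s := MulAction.orbitRel (Subgroup.zpowers g) X) x
    exact MulAction.orbitRel_apply.1 ((MulAction.orbitRel (Subgroup.zpowers g) X).symm' h0)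
  obtain ⟨⟨h, hh⟩, hx⟩ := h1
  obtain ⟨k, rfl⟩ := Subgroup.mem_zpowers_iff.1 hh
  have hx' : g ^ k • (Quotient.out (Quotient.mk (MulAction.orbitRel (Subgroup.zpowers g) X) x))
      = x := hx
  have hn : Function.minimalPeriod (fun y : X => g • y)
      (Quotient.out (Quotient.mk (MulAction.orbitRel (Subgroup.zpowers g) X) x)) ≠ 0 :=
    NeZero.ne _
  have hpos : (0 : ℤ) < (Function.minimalPeriod (fun y : X => g • y)
      (Quotient.out (Quotient.mk (MulAction.orbitRel (Subgroup.zpowers g) X) x)) : ℕ) := by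
    exact_mod_cast Nat.pos_of_ne_zero hn
  have hlt := Int.emod_lt_of_pos k hpos
  have hnn := Int.emod_nonneg k hpos.ne'
  refine ⟨⟨Quotient.mk (MulAction.orbitRel (Subgroup.zpowers g) X) x,
    ⟨(k % ((Function.minimalPeriod (fun y : X => g • y)
      (Quotient.out (Quotient.mk (MulAction.orbitRel (Subgroup.zpowers g) X) x)) : ℕ) : ℤ)).toNat,
      by omega⟩⟩, ?_⟩
  simp only [h34_orbMap]
  rw [smul_iterate_apply, ← zpow_natCast, Int.toNat_of_nonneg hnn,
    MulAction.zpow_smul_mod_minimalPeriod]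
  exact hx'

theorem h34_orbMap_bijective {G X : Type*} [Group G] [MulAction G X] [Finite X] (g : G) :
    Function.Bijective (h34_orbMap (X := X) g) :=
  ⟨h34_orbMap_injective g, h34_orbMap_surjective g⟩

/-- **PERM-DIAG.** -/
theorem h17_perm_diag {G X : Type*} [Group G] [MulAction G X] [Fintype X] [DecidableEq X]
    (g : G) :
    ∃ (Z : Matrix X X ℂ) (a w : X → ℕ), Z.det ≠ 0 ∧ (∀ y, a y < w y) ∧
      (∀ y x, Z y (g • x) =
        Complex.exp (2 * Real.pi * Complex.I * (a y : ℂ) / (w y : ℂ)) * Z y x) ∧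
      2 * ∑ y, (a y : ℚ) / (w y : ℚ) = (Fintype.card X : ℚ) -
        (Nat.card (MulAction.orbitRel.Quotient (Subgroup.zpowers g) X) : ℚ) := by
  classical
  have : Fintype (MulAction.orbitRel.Quotient (Subgroup.zpowers g) X) := Fintype.ofFinite _
  have key := h34_perm_diag_abstract (X := X)
    (Ω := MulAction.orbitRel.Quotient (Subgroup.zpowers g) X)
    (fun ω => Function.minimalPeriod (fun y : X => g • y) (Quotient.out ω))
    (Equiv.ofBijective (h34_orbMap (X := X) g) (h34_orbMap_bijective g))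
    (fun y : X => g • y) (by
      rintro ⟨ω, i⟩
      simp only [Equiv.ofBijective_apply, h34_orbMap]
      have hval : ((i + 1 : Fin (Function.minimalPeriod (fun y : X => g • y) (Quotient.out ω)))
          : ℕ) = ((i : ℕ) + 1) % (Function.minimalPeriod (fun y : X => g • y) (Quotient.out ω)) := by
        rw [Fin.val_add, Fin.val_one', Nat.add_mod_mod]
      rw [hval, Function.iterate_mod_minimalPeriod_eq, Function.iterate_succ_apply'])
  rw [Nat.card_eq_fintype_card]
  exact key

end Fermat.Agent.S20
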