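import Mathlib
import Fermat.Agent.S20.Defs
import Fermat.Agent.S20.h84_CuspTrace

set_option autoImplicit false

/-!
# Project S20 + S21 : bridges

* `Mfun N k`, `Sfun N k`, `Lfun l` (function spaces of `Defs.lean`) versus Mathlib's bundled
  `ModularForm (Gamma0 N) k`, `CuspForm (Gamma0 N) k`, `ModularForm 𝒮ℒ l`;
* the conjugates `cj N k f q` versus Mathlib's `SlashInvariantForm.quotientFunc`.
-/

namespace Fermat.Agent.S20

open UpperHalfPlane ModularForm Filter Topology CongruenceSubgroup Matrix.SpecialLinearGroup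
open scoped MatrixGroups Pointwise Manifold ModularForm

section Membership

variable {N : ℕ} {k : ℤ}

/-- Slash invariance of a bundled slash invariant form on `Γ₀(N)`, for the `SL(2, ℤ)`-action. -/
theorem h84_slash_eq_of_mem {F : Type*} [FunLike F ℍ ℂ]
    [SlashInvariantFormClass F (Gamma0 N : Subgroup (GL (Fin 2) ℝ)) k] (f : F)
    {γ : SL(2, ℤ)} (hγ : γ ∈ Gamma0 N) : (⇑f : ℍ → ℂ) ∣[k] γ = ⇑f := by
  rw [ModularForm.SL_slash]
  exact SlashInvariantFormClass.slash_action_eq f _ ⟨γ, hγ, rfl⟩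

/-- A function with a limit at `i∞` is bounded at `i∞`. -/
theorem h84_isBoundedAtImInfty_of_tendsto {F : ℍ → ℂ} {L : ℂ} (h : Tendsto F atImInfty (𝓝 L)) :
    IsBoundedAtImInfty F :=
  h.isBigO_one ℝ

/-- The function underlying a bundled modular form on `Γ₀(N)` lies in `Mfun N k`. -/
theorem h84_coe_mem_Mfun [NeZero N] (F : ModularForm (Gamma0 N) k) :
    (⇑F : ℍ → ℂ) ∈ Mfun N k := by
  refine ⟨F.holo', fun γ hγ => h84_slash_eq_of_mem F hγ, fun σ => ?_⟩
  exact h84_isBoundedAtImInfty_of_tendsto (h84_tendsto_slash F σ)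

/-- Every element of `Mfun N k` is (the function underlying) a bundled modular form. -/
theorem h84_exists_modularForm {f : ℍ → ℂ} (hf : f ∈ Mfun N k) :
    ∃ F : ModularForm (Gamma0 N) k, (⇑F : ℍ → ℂ) = f := by
  obtain ⟨h1, h2, h3⟩ := hf
  refine ⟨{ toFun := f, slash_action_eq' := ?_, holo' := h1, bdd_at_cusps' := ?_ }, rfl⟩
  · rintro _ ⟨γ, hγ, rfl⟩
    have := h2 γ hγ
    rw [ModularForm.SL_slash] at this
    exact this
  · intro c hc
    have hc' : IsCusp c 𝒮ℒ := hc.mono (Subgroup.map_le_range _ _)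
    rw [OnePoint.isBoundedAt_iff_forall_SL2Z hc']
    intro γ _
    exact h3 γ

/-- The function underlying a bundled cusp form on `Γ₀(N)` lies in `Sfun N k`. -/
theorem h84_coe_mem_Sfun [NeZero N] (F : CuspForm (Gamma0 N) k) :
    (⇑F : ℍ → ℂ) ∈ Sfun N k := by
  refine ⟨F.holo', fun γ hγ => h84_slash_eq_of_mem F hγ, fun σ => ?_⟩
  have hc' : IsCusp (mapGL ℝ σ • OnePoint.infty) 𝒮ℒ := isCusp_SL2Z_iff'.mpr ⟨σ, rfl⟩
  have hc : IsCusp (mapGL ℝ σ • OnePoint.infty) (Gamma0 N : Subgroup (GL (Fin 2) ℝ)) :=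
    (Subgroup.IsArithmetic.isCusp_iff_isCusp_SL2Z _).mpr hc'
  have h := CuspFormClass.zero_at_cusps F hc
  rw [OnePoint.isZeroAt_iff_forall_SL2Z hc'] at h
  exact h σ rfl

/-- Every element of `Sfun N k` is (the function underlying) a bundled cusp form. -/
theorem h84_exists_cuspForm {f : ℍ → ℂ} (hf : f ∈ Sfun N k) :
    ∃ F : CuspForm (Gamma0 N) k, (⇑F : ℍ → ℂ) = f := by
  obtain ⟨h1, h2, h3⟩ := hf
  refine ⟨{ toFun := f, slash_action_eq' := ?_, holo' := h1, zero_at_cusps' := ?_ }, rfl⟩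
  · rintro _ ⟨γ, hγ, rfl⟩
    have := h2 γ hγ
    rw [ModularForm.SL_slash] at this
    exact this
  · intro c hc
    have hc' : IsCusp c 𝒮ℒ := hc.mono (Subgroup.map_le_range _ _)
    rw [OnePoint.isZeroAt_iff_forall_SL2Z hc']
    intro γ _
    exact h3 γ

/-- The function underlying a bundled level one modular form lies in `Lfun l`. -/
theorem h84_coe_mem_Lfun {l : ℤ} (F : ModularForm 𝒮ℒ l) : (⇑F : ℍ → ℂ) ∈ Lfun l := by
  refine ⟨F.holo', fun γ => ?_, ?_⟩
  · rw [ModularForm.SL_slash]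
    exact SlashInvariantFormClass.slash_action_eq F _ ⟨γ, rfl⟩
  · exact ModularFormClass.bdd_at_infty F

/-- Every element of `Lfun l` is (the function underlying) a bundled level one modular form. -/
theorem h84_exists_levelOne {l : ℤ} {F : ℍ → ℂ} (hF : F ∈ Lfun l) :
    ∃ G : ModularForm 𝒮ℒ l, (⇑G : ℍ → ℂ) = F := by
  obtain ⟨h1, h2, h3⟩ := hF
  refine ⟨{ toFun := F, slash_action_eq' := ?_, holo' := h1, bdd_at_cusps' := ?_ }, rfl⟩
  · rintro _ ⟨γ, rfl⟩
    have := h2 γ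
    rw [ModularForm.SL_slash] at this
    exact this
  · intro c hc
    rw [OnePoint.isBoundedAt_iff_forall_SL2Z hc]
    intro γ _
    rw [h2 γ]
    exact h3

/-- Level one forms are forms on `Γ₀(N)`. -/
theorem h84_Lfun_le_Mfun (N : ℕ) (k : ℤ) : Lfun k ≤ Mfun N k := by
  rintro F ⟨h1, h2, h3⟩
  refine ⟨h1, fun γ _ => h2 γ, fun σ => ?_⟩
  rw [h2 σ]
  exact h3

end Membership

section Equivs

variable (N : ℕ) [NeZero N] (k : ℤ)

/-- Bundled modular forms on `Γ₀(N)` are the same as `Mfun N k`. -/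
noncomputable def h84_MfunEquiv : ModularForm (Gamma0 N) k ≃ₗ[ℂ] Mfun N k :=
  LinearEquiv.ofBijective
    { toFun := fun F => ⟨⇑F, h84_coe_mem_Mfun F⟩
      map_add' := fun _ _ => rfl
      map_smul' := fun _ _ => rfl }
    ⟨fun F G h => DFunLike.coe_injective (congrArg Subtype.val h),
     fun f => by
      obtain ⟨F, hF⟩ := h84_exists_modularForm f.2
      exact ⟨F, Subtype.ext hF⟩⟩

theorem h84_MfunEquiv_apply (F : ModularForm (Gamma0 N) k) :
    ((h84_MfunEquiv N k F : Mfun N k) : ℍ → ℂ) = ⇑F := rfl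

/-- Bundled cusp forms on `Γ₀(N)` are the same as `Sfun N k`. -/
noncomputable def h84_SfunEquiv : CuspForm (Gamma0 N) k ≃ₗ[ℂ] Sfun N k :=
  LinearEquiv.ofBijective
    { toFun := fun F => ⟨⇑F, h84_coe_mem_Sfun F⟩
      map_add' := fun _ _ => rfl
      map_smul' := fun _ _ => rfl }
    ⟨fun F G h => DFunLike.coe_injective (congrArg Subtype.val h),
     fun f => by
      obtain ⟨F, hF⟩ := h84_exists_cuspForm f.2
      exact ⟨F, Subtype.ext hF⟩⟩

theorem h84_SfunEquiv_apply (F : CuspForm (Gamma0 N) k) :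
    ((h84_SfunEquiv N k F : Sfun N k) : ℍ → ℂ) = ⇑F := rfl

/-- `mdim` is the dimension of the bundled space of modular forms. -/
theorem h84_mdim_eq : mdim N k = Module.finrank ℂ (ModularForm (Gamma0 N) k) :=
  (LinearEquiv.finrank_eq (h84_MfunEquiv N k)).symm

theorem h84_finrank_Sfun :
    Module.finrank ℂ (Sfun N k) = Module.finrank ℂ (CuspForm (Gamma0 N) k) :=
  (LinearEquiv.finrank_eq (h84_SfunEquiv N k)).symm

/-- `Mfun N k` is finite-dimensional. -/
theorem h84_finite_Mfun : FiniteDimensional ℂ (Mfun N k) :=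
  have := h84_finiteDimensional_modularForm N k
  LinearEquiv.finiteDimensional (h84_MfunEquiv N k)

/-- `Sfun N k` is finite-dimensional. -/
theorem h84_finite_Sfun : FiniteDimensional ℂ (Sfun N k) :=
  have := h84_finite_Mfun N k
  Submodule.finiteDimensional_of_le (Sfun_le_Mfun N k)

/-- Bundled cusp forms on `Γ₀(N)` form a finite-dimensional space. -/
theorem h84_finiteDimensional_cuspForm : FiniteDimensional ℂ (CuspForm (Gamma0 N) k) :=
  have := h84_finite_Sfun N k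
  LinearEquiv.finiteDimensional (h84_SfunEquiv N k).symm

/-- Step (E) in the language of `Defs.lean`. -/
theorem h84_mdim_two_le :
    mdim N 2 + 1 ≤ Module.finrank ℂ (CuspForm (Gamma0 N) 2) + orbT N := by
  rw [h84_mdim_eq]
  exact h84_finrank_modularForm_two_le N

/-- Step (E) with `Sfun`. -/
theorem h84_mdim_two_le' :
    mdim N 2 + 1 ≤ Module.finrank ℂ (Sfun N 2) + orbT N := by
  rw [h84_finrank_Sfun]
  exact h84_mdim_two_le N

set_option linter.unusedVariables false in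
/-- Row CUSP-TRACE of the S20 task table, in its exact requested form (the finiteness hypothesis
is not needed: see `h84_mdim_two_le'`). -/
theorem mdim_two_le (hfin : FiniteDimensional ℂ (Mfun N 2)) :
    mdim N 2 + 1 ≤ Module.finrank ℂ (Sfun N 2) + orbT N :=
  h84_mdim_two_le' N

end Equivs

section Conj

variable {N : ℕ} {k : ℤ}

/-- The conjugate attached to the coset of `g` is `f ∣[k] g⁻¹`. -/
theorem h84_cj_mk {f : ℍ → ℂ} (hf : ∀ γ ∈ Gamma0 N, f ∣[k] γ = f) (g : SL(2, ℤ)) :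
    cj N k f (QuotientGroup.mk g) = f ∣[k] g⁻¹ := by
  obtain ⟨γ, hγ⟩ := QuotientGroup.mk_out_eq_mul (Gamma0 N) g
  unfold cj
  have h1 : (Quotient.out (QuotientGroup.mk g : SL(2, ℤ) ⧸ Gamma0 N) : SL(2, ℤ)) = g * γ := hγ
  rw [h1, mul_inv_rev, SlashAction.slash_mul, hf _ (inv_mem γ.2)]

/-- Conjugates and the action of `SL(2, ℤ)` on the cosets. -/
theorem h84_cj_smul {f : ℍ → ℂ} (hf : ∀ γ ∈ Gamma0 N, f ∣[k] γ = f) (g : SL(2, ℤ))
    (q : SL(2, ℤ) ⧸ Gamma0 N) : cj N k f (g • q) = cj N k f q ∣[k] g⁻¹ := by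
  induction q using QuotientGroup.induction_on with
  | H a =>
    rw [MulAction.Quotient.smul_mk, h84_cj_mk hf, h84_cj_mk hf, smul_eq_mul, mul_inv_rev,
      SlashAction.slash_mul]

/-- `cj` for a bundled form is Mathlib's `quotientFunc` across the bridge `h84_quotEquiv`. -/
theorem h84_cj_eq_quotientFunc (F : ModularForm (Gamma0 N) k) (q : SL(2, ℤ) ⧸ Gamma0 N) :
    cj N k ⇑F q = SlashInvariantForm.quotientFunc F (h84_quotEquiv (Gamma0 N) q) := by
  induction q using QuotientGroup.induction_on with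
  | H a =>
    rw [h84_cj_mk (fun γ hγ => h84_slash_eq_of_mem F hγ), h84_quotEquiv_mk,
      h84_quotientFunc_toSL]

/-- Conjugates of a form are holomorphic. -/
theorem h84_mdiff_cj {f : ℍ → ℂ} (hf : MDiff f) (q : SL(2, ℤ) ⧸ Gamma0 N) :
    MDiff (cj N k f q) := by
  unfold cj
  rw [ModularForm.SL_slash]
  exact hf.slash k _

/-- Conjugates of an element of `Mfun N k` are bounded at `i∞`. -/
theorem h84_isBoundedAtImInfty_cj {f : ℍ → ℂ} (hf : f ∈ Mfun N k) (q : SL(2, ℤ) ⧸ Gamma0 N) :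
    IsBoundedAtImInfty (cj N k f q) :=
  hf.2.2 _

/-- Conjugates of an element of `Sfun N k` vanish at `i∞`. -/
theorem h84_isZeroAtImInfty_cj {f : ℍ → ℂ} (hf : f ∈ Sfun N k) (q : SL(2, ℤ) ⧸ Gamma0 N) :
    IsZeroAtImInfty (cj N k f q) :=
  hf.2.2 _

/-- Conjugates of an element of `Mfun N k` have a limit at `i∞`. -/
theorem h84_tendsto_cj [NeZero N] {f : ℍ → ℂ} (hf : f ∈ Mfun N k) (q : SL(2, ℤ) ⧸ Gamma0 N) :
    Tendsto (cj N k f q) atImInfty (𝓝 (valueAtInfty (cj N k f q))) := by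
  obtain ⟨F, rfl⟩ := h84_exists_modularForm hf
  exact h84_tendsto_slash F _

/-- Translation by one permutes the conjugates through `T⁻¹`. -/
theorem h84_cj_T_inv_smul {f : ℍ → ℂ} (hf : ∀ γ ∈ Gamma0 N, f ∣[k] γ = f)
    (q : SL(2, ℤ) ⧸ Gamma0 N) (τ : ℍ) :
    cj N k f (ModularGroup.T⁻¹ • q) τ = cj N k f q ((1 : ℝ) +ᵥ τ) := by
  rw [h84_cj_smul hf, inv_inv, ModularForm.SL_slash_apply]
  have h2 : ModularGroup.T • τ = (1 : ℝ) +ᵥ τ := by
    apply UpperHalfPlane.ext
    have := ModularGroup.coe_T_zpow_smul_eq (z := τ) (n := 1)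
    rw [zpow_one] at this
    rw [this, UpperHalfPlane.coe_vadd]
    push_cast
    ring
  rw [h2]
  have h3 : denom (toGL ((Matrix.SpecialLinearGroup.map (Int.castRingHom ℝ))
      ModularGroup.T)) (τ : ℂ) = 1 := by
    simp [UpperHalfPlane.denom, ModularGroup.coe_T]
  rw [h3]
  simp

/-- Translation by minus one permutes the conjugates through `T`. -/
theorem h84_cj_T_smul {f : ℍ → ℂ} (hf : ∀ γ ∈ Gamma0 N, f ∣[k] γ = f)
    (q : SL(2, ℤ) ⧸ Gamma0 N) (τ : ℍ) :
    cj N k f (ModularGroup.T • q) τ = cj N k f q ((-1 : ℝ) +ᵥ τ) := by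
  have h := h84_cj_T_inv_smul hf (ModularGroup.T • q) ((-1 : ℝ) +ᵥ τ)
  rw [inv_smul_smul] at h
  rw [h]
  congr 1
  apply UpperHalfPlane.ext
  simp

end Conj

end Fermat.Agent.S20
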