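import Mathlib
import Fermat.Agent.S20.Defs
import Fermat.Agent.S20.h84_Bridge
import Fermat.Agent.S20.h17_PermDiag
import Fermat.Agent.S20.h17_DetCore
import Fermat.Agent.S20.h12_NonVanish2

set_option autoImplicit false
set_option linter.unusedSectionVars false

/-!
# The determinant of the conjugates of a generating family: sum of the weights

`D τ = det (c_j ∣ g_x) (τ)`; `D²` is a level one form of weight `2 ∑ w_j`, without zeros on `ℍ`
(linear independence of the fibre vectors), and of exact order `idx N - orbT N` at `i∞`.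
Hence `∑ w_j = 6 (idx N - orbT N)`.
-/

namespace Fermat.Agent.S20

open UpperHalfPlane CongruenceSubgroup Filter Topology Asymptotics ModularForm
open scoped MatrixGroups ModularForm Manifold Real

theorem h17_mdiff_prod {κ : Type} [Fintype κ] {f : κ → ℍ → ℂ} (hf : ∀ x, MDiff (f x)) :
    MDiff (fun τ => ∏ x, f x τ) := by
  classical
  have key : ∀ s : Finset κ, MDiff (fun τ => ∏ x ∈ s, f x τ) := by
    intro s
    induction s using Finset.induction_on with
    | empty =>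
      simp only [Finset.prod_empty]
      exact mdifferentiable_const
    | insert a s ha ih =>
      simp only [Finset.prod_insert ha]
      exact (hf a).mul ih
  exact key Finset.univ

theorem h17_bdd_prod {κ : Type} [Fintype κ] {f : κ → ℍ → ℂ}
    (hf : ∀ x, IsBoundedAtImInfty (f x)) : IsBoundedAtImInfty (fun τ => ∏ x, f x τ) := by
  classical
  have key : ∀ s : Finset κ, IsBoundedAtImInfty (fun τ => ∏ x ∈ s, f x τ) := by
    intro s
    induction s using Finset.induction_on with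
    | empty =>
      simp only [Finset.prod_empty]
      exact Filter.const_boundedAtFilter atImInfty (1 : ℂ)
    | insert a s ha ih =>
      have h := (hf a).mul ih
      simp only [Finset.prod_insert ha]
      exact h
  exact key Finset.univ

theorem h17_prod_zpow {κ : Type} [Fintype κ] (d : ℂ) (hd : d ≠ 0) (w : κ → ℤ) :
    ∏ j, d ^ (w j) = d ^ (∑ j, w j) := by
  classical
  have key : ∀ s : Finset κ, ∏ j ∈ s, d ^ (w j) = d ^ (∑ j ∈ s, w j) := by
    intro s
    induction s using Finset.induction_on with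
    | empty => simp
    | insert a s ha ih => rw [Finset.prod_insert ha, Finset.sum_insert ha, zpow_add₀ hd, ih]
  exact key Finset.univ

theorem h17_alg1 (c0 x Q : ℂ) (hQ : Q ≠ 0) (m d : ℕ) :
    c0 * (x / Q) ^ m = c0 * x ^ m / Q ^ (m + d + 1) * Q ^ (d + 1) := by
  have h1 : Q ^ (m + d + 1) = Q ^ m * Q ^ (d + 1) := by ring
  rw [h1, div_pow]
  have h2 : Q ^ m ≠ 0 := pow_ne_zero _ hQ
  have h3 : Q ^ (d + 1) ≠ 0 := pow_ne_zero _ hQ
  field_simp

theorem h17_alg2 (c0 x Q : ℂ) (hQ : Q ≠ 0) (s d : ℕ) :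
    c0 * ((x / Q) ^ s * x ^ (d + 1)) = c0 * x ^ (s + d + 1) / Q ^ s := by
  have h1 : x ^ (s + d + 1) = x ^ s * x ^ (d + 1) := by ring
  rw [h1, div_pow]
  have h2 : Q ^ s ≠ 0 := pow_ne_zero _ hQ
  field_simp

section det

variable {N : ℕ} {J : Type} [Fintype J] [DecidableEq J]

/-- The matrix of conjugates of the family `c`. -/
noncomputable def h17_A (N : ℕ) (e : J ≃ (SL(2, ℤ) ⧸ Gamma0 N)) (w : J → ℤ) (c : J → ℍ → ℂ)
    (τ : ℍ) : Matrix J J ℂ :=
  Matrix.of fun i j => cj N (w j) (c j) (e i) τ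

/-- The determinant of the conjugates. -/
noncomputable def h17_D (N : ℕ) (e : J ≃ (SL(2, ℤ) ⧸ Gamma0 N)) (w : J → ℤ) (c : J → ℍ → ℂ)
    (τ : ℍ) : ℂ :=
  (h17_A N e w c τ).det

theorem h17_D_eq (e : J ≃ (SL(2, ℤ) ⧸ Gamma0 N)) (w : J → ℤ) (c : J → ℍ → ℂ) (τ : ℍ) :
    h17_D N e w c τ =
      ∑ σ : Equiv.Perm J, ((Equiv.Perm.sign σ : ℤ) : ℂ) * ∏ i, cj N (w i) (c i) (e (σ i)) τ := by
  unfold h17_D
  rw [Matrix.det_apply']
  rfl

theorem h17_D_mdiff (e : J ≃ (SL(2, ℤ) ⧸ Gamma0 N)) (w : J → ℤ) (c : J → ℍ → ℂ)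
    (hc : ∀ j, c j ∈ Mfun N (w j)) : MDiff (h17_D N e w c) := by
  have h : h17_D N e w c = fun τ =>
      ∑ σ : Equiv.Perm J, ((Equiv.Perm.sign σ : ℤ) : ℂ) * ∏ i, cj N (w i) (c i) (e (σ i)) τ := by
    funext τ
    exact h17_D_eq e w c τ
  rw [h]
  exact h17_mdiff_sum (fun σ => mdifferentiable_const.mul
    (h17_mdiff_prod (fun i => h84_mdiff_cj (hc i).1 _)))

theorem h17_D_bdd (e : J ≃ (SL(2, ℤ) ⧸ Gamma0 N)) (w : J → ℤ) (c : J → ℍ → ℂ)
    (hc : ∀ j, c j ∈ Mfun N (w j)) : IsBoundedAtImInfty (h17_D N e w c) := by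
  have h : h17_D N e w c = fun τ =>
      ∑ σ : Equiv.Perm J, ((Equiv.Perm.sign σ : ℤ) : ℂ) * ∏ i, cj N (w i) (c i) (e (σ i)) τ := by
    funext τ
    exact h17_D_eq e w c τ
  rw [h]
  exact h17_bdd_sum (fun σ => (h17_bdd_prod
    (fun i => h84_isBoundedAtImInfty_cj (hc i) _)).const_mul_left _)

/-- Transformation of a conjugate under `SL(2, ℤ)`. -/
theorem h17_cj_smul_apply {k : ℤ} {f : ℍ → ℂ} (hf : ∀ γ ∈ Gamma0 N, f ∣[k] γ = f)
    (γ : SL(2, ℤ)) (q : SL(2, ℤ) ⧸ Gamma0 N) (τ : ℍ) :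
    cj N k f q (γ • τ) =
      denom (Matrix.SpecialLinearGroup.toGL ((Matrix.SpecialLinearGroup.map (Int.castRingHom ℝ)) γ))
        (τ : ℂ) ^ k * cj N k f (γ⁻¹ • q) τ := by
  have h1 := h84_cj_smul hf γ⁻¹ q
  rw [inv_inv] at h1
  rw [h1, ModularForm.SL_slash_apply, mul_comm, mul_assoc, ← zpow_add₀ (denom_ne_zero _ _)]
  simp

/-- The permutation of the index set induced by `γ⁻¹` acting on the cosets. -/
noncomputable def h17_perm (N : ℕ) (e : J ≃ (SL(2, ℤ) ⧸ Gamma0 N)) (γ : SL(2, ℤ)) :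
    Equiv.Perm J :=
  e.trans ((MulAction.toPerm γ⁻¹).trans e.symm)

theorem h17_perm_apply (e : J ≃ (SL(2, ℤ) ⧸ Gamma0 N)) (γ : SL(2, ℤ)) (i : J) :
    e (h17_perm N e γ i) = γ⁻¹ • e i := by
  simp [h17_perm]

theorem h17_sign_sq (σ : Equiv.Perm J) : (((Equiv.Perm.sign σ : ℤˣ) : ℤ) : ℂ) ^ 2 = 1 := by
  rcases Int.units_eq_one_or (Equiv.Perm.sign σ) with h | h <;> simp [h]

/-- Transformation law of the determinant: `D (γ τ) = ± (cτ + d)^{∑ w} D τ`. -/
theorem h17_D_smul (e : J ≃ (SL(2, ℤ) ⧸ Gamma0 N)) (w : J → ℤ) (c : J → ℍ → ℂ)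
    (hc : ∀ j, c j ∈ Mfun N (w j)) (γ : SL(2, ℤ)) (τ : ℍ) :
    h17_D N e w c (γ • τ) ^ 2 =
      denom (Matrix.SpecialLinearGroup.toGL ((Matrix.SpecialLinearGroup.map (Int.castRingHom ℝ)) γ))
        (τ : ℂ) ^ (2 * ∑ j, w j) * h17_D N e w c τ ^ 2 := by
  set d : ℂ := denom (Matrix.SpecialLinearGroup.toGL
    ((Matrix.SpecialLinearGroup.map (Int.castRingHom ℝ)) γ)) (τ : ℂ) with hd
  have hd0 : d ≠ 0 := denom_ne_zero _ _
  have hA : h17_A N e w c (γ • τ) =
      Matrix.of fun i j => d ^ (w j) * ((h17_A N e w c τ).submatrix (h17_perm N e γ) id) i j := by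
    ext i j
    simp only [h17_A, Matrix.of_apply, Matrix.submatrix_apply, id]
    rw [h17_cj_smul_apply (hc j).2.1 γ (e i) τ, h17_perm_apply]
  unfold h17_D
  rw [hA, Matrix.det_mul_row, Matrix.det_permute, mul_pow, mul_pow, h17_sign_sq, one_mul]
  congr 1
  rw [h17_prod_zpow d hd0, ← zpow_natCast, ← zpow_mul]
  congr 1
  push_cast
  ring

theorem h17_Dsq_mem_Lfun (e : J ≃ (SL(2, ℤ) ⧸ Gamma0 N)) (w : J → ℤ) (c : J → ℍ → ℂ)
    (hc : ∀ j, c j ∈ Mfun N (w j)) :
    (fun τ => h17_D N e w c τ ^ 2) ∈ Lfun (2 * ∑ j, w j) := by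
  have hsq : (fun τ => h17_D N e w c τ ^ 2) = fun τ => h17_D N e w c τ * h17_D N e w c τ := by
    funext τ
    ring
  refine ⟨?_, fun γ => ?_, ?_⟩
  · rw [hsq]
    exact (h17_D_mdiff e w c hc).mul (h17_D_mdiff e w c hc)
  · funext τ
    rw [ModularForm.SL_slash_apply, h17_D_smul e w c hc γ τ, mul_comm, ← mul_assoc,
      ← zpow_add₀ (denom_ne_zero _ _)]
    simp
  · rw [hsq]
    exact (h17_D_bdd e w c hc).mul (h17_D_bdd e w c hc)

theorem h17_D_ne_zero (e : J ≃ (SL(2, ℤ) ⧸ Gamma0 N)) (w : J → ℤ) (c : J → ℍ → ℂ) (τ : ℍ)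
    (hli : LinearIndependent ℂ (fun j => evX N (w j) τ (c j))) : h17_D N e w c τ ≠ 0 := by
  have h1 : LinearIndependent ℂ
      (fun j => (LinearEquiv.funCongrLeft ℂ ℂ e) (evX N (w j) τ (c j))) :=
    hli.map' _ (LinearEquiv.ker _)
  have h2 : (h17_A N e w c τ).col =
      fun j => (LinearEquiv.funCongrLeft ℂ ℂ e) (evX N (w j) τ (c j)) := by
    funext j i
    simp [h17_A, Matrix.col, evX_apply, LinearEquiv.funCongrLeft_apply, LinearMap.funLeft_apply]
  rw [← h2] at h1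
  have h3 := Matrix.linearIndependent_cols_iff_isUnit.mp h1
  have h4 := (Matrix.isUnit_iff_isUnit_det _).mp h3
  exact h4.ne_zero

end det

/-- **Sum of the weights** of a generating family whose fibre vectors are independent at
`i`, `ρ`, the generic points and at `i∞`:  `∑ w_j + 6 orbT = 6 idx`. -/
theorem sum_weights_eq (N : ℕ) [NeZero N] {J : Type} [Fintype J] [DecidableEq J]
    (e : J ≃ (SL(2, ℤ) ⧸ Gamma0 N)) (w : J → ℤ) (c : J → ℍ → ℂ)
    (hc : ∀ j, c j ∈ Mfun N (w j))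
    (hI : LinearIndependent ℂ (fun j => evX N (w j) I (c j)))
    (hρ : LinearIndependent ℂ (fun j => evX N (w j) ρ (c j)))
    (hgen : ∀ τ₀ : ℍ, E₄ τ₀ ≠ 0 → E₆ τ₀ ≠ 0 →
      LinearIndependent ℂ (fun j => evX N (w j) τ₀ (c j)))
    (hinf : ∀ l : J → ℂ, (∀ q : SL(2, ℤ) ⧸ Gamma0 N,
      (fun τ : ℍ => ∑ j, l j * cj N (w j) (c j) q τ) =O[atImInfty]
        (fun τ : ℍ => Real.exp (-2 * Real.pi * τ.im))) → l = 0) :
    ∑ j, w j + 6 * (orbT N : ℤ) = 6 * (idx N : ℤ) := by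
  classical
  haveI : Finite (SL(2, ℤ) ⧸ Gamma0 N) := Finite.of_equiv J e
  letI : Fintype (SL(2, ℤ) ⧸ Gamma0 N) := Fintype.ofFinite _
  -- `D²` is a constant times a power of `Δ`
  obtain ⟨m, c0, hc0, hk, hDm⟩ := h12_eq_const_mul_discriminant_pow_of_generic
    (fun τ => h17_D N e w c τ ^ 2) (h17_Dsq_mem_Lfun e w c hc)
    (pow_ne_zero 2 (h17_D_ne_zero e w c I hI)) (pow_ne_zero 2 (h17_D_ne_zero e w c ρ hρ))
    (fun τ h4 h6 => pow_ne_zero 2 (h17_D_ne_zero e w c τ (hgen τ h4 h6)))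
  -- diagonalise the action of `T` on the cosets
  obtain ⟨Z, a, wv, hZ, haw, hZt, hsum⟩ :=
    h17_perm_diag (X := SL(2, ℤ) ⧸ Gamma0 N) ModularGroup.T
  have hcard : (Fintype.card (SL(2, ℤ) ⧸ Gamma0 N) : ℚ) = idx N := by
    unfold idx
    rw [Nat.card_eq_fintype_card]
  have hsum' : 2 * ∑ y, (a y : ℚ) / (wv y : ℚ) = (idx N : ℚ) - (orbT N : ℚ) := by
    rw [← hcard]
    exact hsum
  have hle : orbT N ≤ idx N := by
    have h0 : (0 : ℚ) ≤ 2 * ∑ y, (a y : ℚ) / (wv y : ℚ) := by positivity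
    rw [hsum'] at h0
    have : (orbT N : ℚ) ≤ idx N := by linarith
    exact_mod_cast this
  set s : ℕ := idx N - orbT N with hs
  have hs' : 2 * ∑ y, (a y : ℚ) / (wv y : ℚ) = (s : ℚ) := by
    rw [hsum', hs, Nat.cast_sub hle]
  have hcore := h17_core e (MulAction.toPerm ModularGroup.T) Z a wv hZ haw
    (fun y x => by rw [MulAction.toPerm_apply]; exact hZt y x) s hs'
    (fun x j => cj N (w j) (c j) x)
    (fun x j => h84_mdiff_cj (hc j).1 x) (fun x j => h84_isBoundedAtImInfty_cj (hc j) x)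
    (fun x j τ => by
      rw [MulAction.toPerm_apply]
      have := h84_cj_T_inv_smul (hc j).2.1 (ModularGroup.T • x) τ
      rw [inv_smul_smul] at this
      exact this.symm)
  rcases hcore with ⟨L, hL, hlim⟩ | ⟨cc, hcc, hdec⟩
  · -- exact order at `i∞`
    have hlim' : Tendsto (fun τ : ℍ =>
        c0 * discriminant τ ^ m / (Function.Periodic.qParam 1 (τ : ℂ)) ^ s) atImInfty (𝓝 L) := by
      refine hlim.congr (fun τ => ?_)
      rw [← hDm τ]
      rfl
    have hq : Tendsto (fun τ : ℍ => Function.Periodic.qParam 1 (τ : ℂ)) atImInfty (𝓝 0) :=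
      UpperHalfPlane.qParam_tendsto_atImInfty one_pos
    have hq0 : ∀ τ : ℍ, Function.Periodic.qParam 1 (τ : ℂ) ≠ 0 :=
      fun τ => Function.Periodic.qParam_ne_zero _
    have hr : Tendsto (fun τ : ℍ => discriminant τ / Function.Periodic.qParam 1 (τ : ℂ))
        atImInfty (𝓝 1) := by
      refine tendsto_atImInfty_tprod_one_sub_eta_q_pow.congr (fun τ => ?_)
      rw [discriminant_eq_q_prod, mul_div_cancel_left₀ _ (hq0 τ)]
    have hΔ0 : Tendsto (fun τ : ℍ => discriminant τ) atImInfty (𝓝 0) :=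
      discriminant_isZeroAtImInfty
    have hms : m = s := by
      rcases lt_trichotomy m s with hlt | heq | hgt
      · exfalso
        obtain ⟨d, hd⟩ := Nat.exists_eq_add_of_lt hlt
        -- multiply by `q^(d+1)`
        have h1 : Tendsto (fun τ : ℍ =>
            c0 * discriminant τ ^ m / (Function.Periodic.qParam 1 (τ : ℂ)) ^ s *
              (Function.Periodic.qParam 1 (τ : ℂ)) ^ (d + 1)) atImInfty (𝓝 (L * 0 ^ (d + 1))) :=
          hlim'.mul (hq.pow (d + 1))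
        have h2 : Tendsto (fun τ : ℍ =>
            c0 * discriminant τ ^ m / (Function.Periodic.qParam 1 (τ : ℂ)) ^ s *
              (Function.Periodic.qParam 1 (τ : ℂ)) ^ (d + 1)) atImInfty (𝓝 (c0 * 1 ^ m)) := by
          refine ((hr.pow m).const_mul c0).congr (fun τ => ?_)
          rw [hd]
          exact h17_alg1 c0 _ _ (hq0 τ) m d
        have h3 := tendsto_nhds_unique h1 h2
        simp at h3
        exact hc0 h3.symm
      · exact heq
      · exfalso
        obtain ⟨d, hd⟩ := Nat.exists_eq_add_of_lt hgt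
        have h2 : Tendsto (fun τ : ℍ =>
            c0 * discriminant τ ^ m / (Function.Periodic.qParam 1 (τ : ℂ)) ^ s) atImInfty
            (𝓝 (c0 * (1 ^ s * 0 ^ (d + 1)))) := by
          refine (((hr.pow s).mul (hΔ0.pow (d + 1))).const_mul c0).congr (fun τ => ?_)
          rw [hd]
          exact h17_alg2 c0 _ _ (hq0 τ) s d
        have h3 := tendsto_nhds_unique hlim' h2
        simp at h3
        exact hL h3
    have h5 : (idx N : ℤ) = (s : ℤ) + orbT N := by
      rw [hs, Nat.cast_sub hle]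
      ring
    rw [h5, ← hms]
    linarith
  · exfalso
    apply hcc
    apply hinf cc
    intro q
    have h := hdec (fun j _ => cc j) (fun j => mdifferentiable_const) (fun j τ => rfl)
      (fun j => tendsto_const_nhds) q
    refine h.congr_left (fun τ => ?_)
    exact Finset.sum_congr rfl (fun j _ => mul_comm _ _)

end Fermat.Agent.S20
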