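import Mathlib

namespace Fermat.Agent.S20

open UpperHalfPlane Filter Complex Function
open scoped Real Topology Manifold MatrixGroups

set_option linter.unusedSectionVars false

/-! ### Part 1: one-variable analytic lemmas -/

/-- Periodicity of `h ∘ ofComplex` from the functional equation on `ℍ`. -/
lemma h40_periodic_of_vadd {h : ℍ → ℂ} (hh : ∀ τ : ℍ, h ((1 : ℝ) +ᵥ τ) = h τ) :
    Periodic (h ∘ ofComplex) ((1 : ℝ) : ℂ) := by
  intro w
  by_cases hw : 0 < w.im
  · have hw' : 0 < (w + ((1 : ℝ) : ℂ)).im := by simpa using hw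
    simp only [comp_apply, ofComplex_apply_of_im_pos hw', ofComplex_apply_of_im_pos hw]
    rw [← hh ⟨w, hw⟩]
    congr 1
    ext
    simp [add_comm]
  · have hw0 : w.im ≤ 0 := not_lt.mp hw
    have hw' : (w + ((1 : ℝ) : ℂ)).im ≤ 0 := by simpa using hw0
    show h (ofComplex (w + ((1 : ℝ) : ℂ))) = h (ofComplex w)
    rw [ofComplex_apply_eq_of_im_nonpos hw' hw0]

/-- A `1`-periodic holomorphic function on `ℍ` bounded at `i∞` tends to its value at infinity. -/
lemma h40_tendsto_valueAtInfty {h : ℍ → ℂ} (hper : Periodic (h ∘ ofComplex) ((1 : ℝ) : ℂ))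
    (hhol : MDiff h) (hbdd : IsBoundedAtImInfty h) :
    Tendsto h atImInfty (𝓝 (valueAtInfty h)) := by
  have han := analyticAt_cuspFunction_zero one_pos hper hhol hbdd
  have hcomp : (cuspFunction 1 h ∘ fun τ : ℍ => Periodic.qParam 1 τ) = h := by
    funext τ
    simpa using eq_cuspFunction τ one_ne_zero hper
  have h1 := han.continuousAt.tendsto.comp (qParam_tendsto_atImInfty one_pos)
  rw [hcomp, cuspFunction_apply_zero one_pos han hper] at h1
  exact h1

/-- `‖exp(c * τ)‖` for `c = i * a`, `a` real. -/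
lemma h40_norm_cexp_I_mul (a : ℝ) (τ : ℍ) :
    ‖cexp (Complex.I * (a : ℂ) * (τ : ℂ))‖ = Real.exp (-(a * τ.im)) := by
  rw [Complex.norm_exp]
  congr 1
  simp [Complex.mul_re, Complex.mul_im]

/-- Multiplying a holomorphic function on `ℍ` by `exp (c τ)` keeps it holomorphic. -/
lemma h40_mdiff_cexp_mul (c : ℂ) {g : ℍ → ℂ} (hg : MDiff g) :
    MDiff (fun τ : ℍ => cexp (c * (τ : ℂ)) * g τ) := by
  rw [UpperHalfPlane.mdifferentiable_iff] at hg ⊢
  have h1 : DifferentiableOn ℂ (fun z : ℂ => cexp (c * z) * (g ∘ ofComplex) z) {z | 0 < z.im} :=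
    (by fun_prop : Differentiable ℂ fun z : ℂ => cexp (c * z)).differentiableOn.mul hg
  refine h1.congr fun z hz => ?_
  simp only [comp_apply]
  rw [ofComplex_apply_of_im_pos hz]

/-- `τ ↦ exp(-(c * Im τ))` tends to `0` at `i∞` for `c > 0`. -/
lemma h40_tendsto_exp_neg_im {c : ℝ} (hc : 0 < c) :
    Tendsto (fun τ : ℍ => Real.exp (-(c * τ.im))) atImInfty (𝓝 0) := by
  have h1 : Tendsto (fun τ : ℍ => -(c * τ.im)) atImInfty atBot := by
    have : Tendsto (fun τ : ℍ => (-c) * τ.im) atImInfty atBot :=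
      (tendsto_id.const_mul_atTop_of_neg (neg_lt_zero.mpr hc)).comp tendsto_comap
    refine this.congr fun τ => by ring
  exact Real.tendsto_exp_atBot.comp h1

/-- **Untwisting.** If `g` is holomorphic and bounded at `i∞` and `g (τ + 1) = exp(-i a) g(τ)` with
`-2π ≤ a` (and `g → 0` at `i∞` in the boundary case `a = -2π`), then `τ ↦ exp(i a τ) g(τ)` is
`1`-periodic, holomorphic and bounded at `i∞`. -/
lemma h40_untwist {g : ℍ → ℂ} (hg : MDiff g) (hb : IsBoundedAtImInfty g) {a : ℝ}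
    (ha : -(2 * π) ≤ a) (hz : a = -(2 * π) → IsZeroAtImInfty g)
    (hshift : ∀ τ : ℍ, g ((1 : ℝ) +ᵥ τ) = cexp (-(Complex.I * (a : ℂ))) * g τ) :
    Periodic ((fun τ : ℍ => cexp (Complex.I * (a : ℂ) * (τ : ℂ)) * g τ) ∘ ofComplex)
        ((1 : ℝ) : ℂ) ∧
      MDiff (fun τ : ℍ => cexp (Complex.I * (a : ℂ) * (τ : ℂ)) * g τ) ∧
      IsBoundedAtImInfty (fun τ : ℍ => cexp (Complex.I * (a : ℂ) * (τ : ℂ)) * g τ) := by
  set h : ℍ → ℂ := fun τ : ℍ => cexp (Complex.I * (a : ℂ) * (τ : ℂ)) * g τ with hh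
  have hper1 : ∀ τ : ℍ, h ((1 : ℝ) +ᵥ τ) = h τ := by
    intro τ
    simp only [hh, hshift, coe_vadd]
    rw [← mul_assoc, ← Complex.exp_add]
    congr 2
    push_cast
    ring
  have hper : Periodic (h ∘ ofComplex) ((1 : ℝ) : ℂ) := h40_periodic_of_vadd hper1
  have hhol : MDiff h := h40_mdiff_cexp_mul _ hg
  refine ⟨hper, hhol, ?_⟩
  -- k = q * h
  set k : ℍ → ℂ := fun τ : ℍ => cexp (Complex.I * ((2 * π : ℝ) : ℂ) * (τ : ℂ)) * h τ with hk
  have hkper1 : ∀ τ : ℍ, k ((1 : ℝ) +ᵥ τ) = k τ := by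
    intro τ
    simp only [hk, hper1, coe_vadd]
    congr 1
    have : Complex.I * ((2 * π : ℝ) : ℂ) * (((1 : ℝ) : ℂ) + (τ : ℂ)) =
        Complex.I * ((2 * π : ℝ) : ℂ) * (τ : ℂ) + 2 * π * Complex.I := by push_cast; ring
    rw [this, Complex.exp_add, Complex.exp_two_pi_mul_I, mul_one]
  have hkper : Periodic (k ∘ ofComplex) ((1 : ℝ) : ℂ) := h40_periodic_of_vadd hkper1
  have hkhol : MDiff k := h40_mdiff_cexp_mul _ hhol
  have hkeq : ∀ τ : ℍ, k τ = cexp (Complex.I * ((2 * π + a : ℝ) : ℂ) * (τ : ℂ)) * g τ := by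
    intro τ
    simp only [hk, hh]
    rw [← mul_assoc, ← Complex.exp_add]
    congr 2
    push_cast
    ring
  have hkzero : IsZeroAtImInfty k := by
    rcases ha.eq_or_lt with ha0 | ha1
    · have hkg : k = g := by
        funext τ
        rw [hkeq, ← ha0]
        simp
      rw [hkg]
      exact hz ha0.symm
    · have hpos : 0 < 2 * π + a := by linarith
      have hkO : k =O[atImInfty] fun τ : ℍ => Real.exp (-((2 * π + a) * τ.im)) * (1 : ℝ) := by
        have h1 : (fun τ : ℍ => cexp (Complex.I * ((2 * π + a : ℝ) : ℂ) * (τ : ℂ))) =O[atImInfty]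
            fun τ : ℍ => Real.exp (-((2 * π + a) * τ.im)) := by
          refine Asymptotics.IsBigO.of_norm_le fun τ => ?_
          rw [h40_norm_cexp_I_mul]
        have h2 : g =O[atImInfty] fun _ : ℍ => (1 : ℝ) := hb
        exact (h1.mul h2).congr_left fun τ => (hkeq τ).symm
      have : Tendsto (fun τ : ℍ => Real.exp (-((2 * π + a) * τ.im)) * (1 : ℝ)) atImInfty (𝓝 0) := by
        simpa using h40_tendsto_exp_neg_im hpos
      exact hkO.trans_tendsto this
  have hkbdd : IsBoundedAtImInfty k := hkzero.boundedAtFilter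
  have hkdecay := hkzero.exp_decay_atImInfty one_pos hkper hkhol hkbdd
  -- h = q⁻¹ * k
  have hheq : ∀ τ : ℍ, h τ = cexp (Complex.I * ((-(2 * π) : ℝ) : ℂ) * (τ : ℂ)) * k τ := by
    intro τ
    simp only [hk]
    rw [← mul_assoc, ← Complex.exp_add]
    have : Complex.I * ((-(2 * π) : ℝ) : ℂ) * (τ : ℂ) + Complex.I * ((2 * π : ℝ) : ℂ) * (τ : ℂ) = 0 := by
      push_cast; ring
    rw [this, Complex.exp_zero, one_mul]
  have h1 : (fun τ : ℍ => cexp (Complex.I * ((-(2 * π) : ℝ) : ℂ) * (τ : ℂ))) =O[atImInfty]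
      fun τ : ℍ => Real.exp (2 * π * τ.im) := by
    refine Asymptotics.IsBigO.of_norm_le fun τ => ?_
    rw [h40_norm_cexp_I_mul]
    apply le_of_eq; congr 1; ring
  have h3 := (h1.mul hkdecay).congr_left fun τ => (hheq τ).symm
  refine h3.trans (Asymptotics.IsBigO.of_norm_le fun τ => ?_)
  rw [← Real.exp_add]
  have : 2 * π * τ.im + -2 * π * τ.im / 1 = 0 := by ring
  rw [this, Real.exp_zero]
  simp

/-- Limit form of `h40_untwist`. -/
lemma h40_untwist_tendsto {g : ℍ → ℂ} (hg : MDiff g) (hb : IsBoundedAtImInfty g) {a : ℝ}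
    (ha : -(2 * π) ≤ a) (hz : a = -(2 * π) → IsZeroAtImInfty g)
    (hshift : ∀ τ : ℍ, g ((1 : ℝ) +ᵥ τ) = cexp (-(Complex.I * (a : ℂ))) * g τ) :
    Tendsto (fun τ : ℍ => cexp (Complex.I * (a : ℂ) * (τ : ℂ)) * g τ) atImInfty
      (𝓝 (valueAtInfty (fun τ : ℍ => cexp (Complex.I * (a : ℂ) * (τ : ℂ)) * g τ))) := by
  obtain ⟨h1, h2, h3⟩ := h40_untwist hg hb ha hz hshift
  exact h40_tendsto_valueAtInfty h1 h2 h3

/-! ### Part 2: cycle bookkeeping for a permutation of a finite type -/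

section Orbit

variable {X : Type*} [Finite X] (σ : Equiv.Perm X)

/-- Base point of the cycle of `x`. -/
noncomputable def h40_base (x : X) : X :=
  (Quotient.mk (Equiv.Perm.SameCycle.setoid σ) x).out

/-- Length of the cycle through `x`. -/
noncomputable def h40_len (x : X) : ℕ := Function.minimalPeriod σ (h40_base σ x)

/-- Position of `x` in its cycle, counted from the base point. -/
noncomputable def h40_pos (x : X) : ℕ := sInf {i : ℕ | σ^[i] (h40_base σ x) = x}

lemma h40_mem_periodicPts (x : X) : x ∈ periodicPts σ := by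
  refine mk_mem_periodicPts (orderOf_pos σ) ?_
  show σ^[orderOf σ] x = x
  rw [Equiv.Perm.iterate_eq_pow, pow_orderOf_eq_one]
  rfl

lemma h40_len_pos (x : X) : 0 < h40_len σ x :=
  minimalPeriod_pos_of_mem_periodicPts (h40_mem_periodicPts σ _)

lemma h40_len_dvd (x : X) : h40_len σ x ∣ orderOf σ := by
  refine IsPeriodicPt.minimalPeriod_dvd ?_
  show σ^[orderOf σ] _ = _
  rw [Equiv.Perm.iterate_eq_pow, pow_orderOf_eq_one]
  rfl

lemma h40_len_le (x : X) : h40_len σ x ≤ orderOf σ :=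
  Nat.le_of_dvd (orderOf_pos σ) (h40_len_dvd σ x)

lemma h40_pos_nonempty (x : X) : {i : ℕ | σ^[i] (h40_base σ x) = x}.Nonempty := by
  have h : Equiv.Perm.SameCycle σ (h40_base σ x) x :=
    Quotient.mk_out (s := Equiv.Perm.SameCycle.setoid σ) x
  obtain ⟨i, hi⟩ := h.exists_nat_pow_eq
  exact ⟨i, by show σ^[i] _ = x; rw [Equiv.Perm.iterate_eq_pow]; exact hi⟩

lemma h40_iterate_pos (x : X) : σ^[h40_pos σ x] (h40_base σ x) = x :=
  Nat.sInf_mem (h40_pos_nonempty σ x)

lemma h40_pos_lt (x : X) : h40_pos σ x < h40_len σ x := by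
  have h1 : σ^[h40_pos σ x % h40_len σ x] (h40_base σ x) = x := by
    unfold h40_len
    rw [iterate_mod_minimalPeriod_eq]
    exact h40_iterate_pos σ x
  have h2 : h40_pos σ x ≤ h40_pos σ x % h40_len σ x := Nat.sInf_le h1
  exact lt_of_le_of_lt h2 (Nat.mod_lt _ (h40_len_pos σ x))

lemma h40_base_base (x : X) : h40_base σ (h40_base σ x) = h40_base σ x := by
  unfold h40_base
  rw [Quotient.out_eq]

lemma h40_base_iterate (x : X) (i : ℕ) : h40_base σ (σ^[i] x) = h40_base σ x := by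
  unfold h40_base
  congr 1
  apply Quotient.sound
  show Equiv.Perm.SameCycle σ (σ^[i] x) x
  rw [Equiv.Perm.iterate_eq_pow, Equiv.Perm.sameCycle_pow_left]

lemma h40_base_iterate_base (x : X) (i : ℕ) :
    h40_base σ (σ^[i] (h40_base σ x)) = h40_base σ x := by
  rw [h40_base_iterate, h40_base_base]

lemma h40_len_iterate_base (x : X) (i : ℕ) :
    h40_len σ (σ^[i] (h40_base σ x)) = h40_len σ x := by
  unfold h40_len
  rw [h40_base_iterate_base]

lemma h40_pos_iterate_base (x : X) {i : ℕ} (hi : i < h40_len σ x) :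
    h40_pos σ (σ^[i] (h40_base σ x)) = i := by
  set y := σ^[i] (h40_base σ x) with hy
  have hb : h40_base σ y = h40_base σ x := h40_base_iterate_base σ x i
  have h1 : σ^[h40_pos σ y] (h40_base σ x) = σ^[i] (h40_base σ x) := by
    have h0 := h40_iterate_pos σ y
    rw [hb] at h0
    exact h0
  have h2 : h40_pos σ y < h40_len σ x := by
    have := h40_pos_lt σ y
    rwa [hy, h40_len_iterate_base] at this
  exact (iterate_eq_iterate_iff_of_lt_minimalPeriod h2 hi).mp h1

/-- Summation over `X` cycle by cycle. -/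
lemma h40_sum_cycles [Fintype X] [Fintype (Quotient (Equiv.Perm.SameCycle.setoid σ))]
    {M : Type*} [AddCommMonoid M] (G : X → M) :
    ∑ x, G x = ∑ q : Quotient (Equiv.Perm.SameCycle.setoid σ),
      ∑ i ∈ Finset.range (minimalPeriod σ q.out), G (σ^[i] q.out) := by
  classical
  rw [← Finset.sum_fiberwise Finset.univ
    (fun x => Quotient.mk (Equiv.Perm.SameCycle.setoid σ) x) G]
  refine Finset.sum_congr rfl fun q _ => ?_
  have hq : h40_base σ q.out = q.out := by
    unfold h40_base; rw [Quotient.out_eq]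
  have hlen : h40_len σ q.out = minimalPeriod σ q.out := by
    unfold h40_len; rw [hq]
  refine Finset.sum_nbij' (fun x => h40_pos σ x) (fun i => σ^[i] q.out) ?_ ?_ ?_ ?_ ?_
  · intro x hx
    simp only [Finset.mem_filter, Finset.mem_univ, true_and] at hx
    have hbx : h40_base σ x = q.out := by unfold h40_base; rw [hx]
    have := h40_pos_lt σ x
    unfold h40_len at this
    rw [hbx] at this
    exact Finset.mem_range.mpr this
  · intro i _
    simp only [Finset.mem_filter, Finset.mem_univ, true_and]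
    have := h40_base_iterate σ q.out i
    unfold h40_base at this
    rw [Quotient.out_eq] at this
    have h2 := congrArg (Quotient.mk (Equiv.Perm.SameCycle.setoid σ)) this
    rwa [Quotient.out_eq, Quotient.out_eq] at h2
  · intro x hx
    simp only [Finset.mem_filter, Finset.mem_univ, true_and] at hx
    have hbx : h40_base σ x = q.out := by unfold h40_base; rw [hx]
    have := h40_iterate_pos σ x
    rwa [hbx] at this
  · intro i hi
    have hi' : i < h40_len σ q.out := by rw [hlen]; exact Finset.mem_range.mp hi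
    have := h40_pos_iterate_base σ q.out hi'
    rwa [hq] at this
  · intro x hx
    simp only [Finset.mem_filter, Finset.mem_univ, true_and] at hx
    have hbx : h40_base σ x = q.out := by unfold h40_base; rw [hx]
    have := h40_iterate_pos σ x
    rw [hbx] at this
    rw [this]

lemma h40_sum_range_cast (n : ℕ) :
    ∑ i ∈ Finset.range n, (i : ℂ) = (n : ℂ) * ((n : ℂ) - 1) / 2 := by
  induction n with
  | zero => simp
  | succ n ih => rw [Finset.sum_range_succ, ih]; push_cast; ring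

/-- The sum of the frequencies `(pos x + δ) / len x` over `X`. -/
lemma h40_sum_freq [Fintype X] (δ : ℂ) :
    ∑ x, (((h40_pos σ x : ℂ) + δ) / (h40_len σ x : ℂ)) =
      ((Fintype.card X : ℂ) - (Nat.card (Quotient (Equiv.Perm.SameCycle.setoid σ)) : ℂ)) / 2 +
        δ * (Nat.card (Quotient (Equiv.Perm.SameCycle.setoid σ)) : ℂ) := by
  classical
  let _ : Fintype (Quotient (Equiv.Perm.SameCycle.setoid σ)) := Fintype.ofFinite _
  have hq : ∀ q : Quotient (Equiv.Perm.SameCycle.setoid σ), h40_base σ q.out = q.out := by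
    intro q; unfold h40_base; rw [Quotient.out_eq]
  have hlen : ∀ q : Quotient (Equiv.Perm.SameCycle.setoid σ),
      h40_len σ q.out = minimalPeriod σ q.out := by
    intro q; unfold h40_len; rw [hq]
  have h1 : (Fintype.card X : ℂ) =
      ∑ q : Quotient (Equiv.Perm.SameCycle.setoid σ), (minimalPeriod σ q.out : ℂ) := by
    have := h40_sum_cycles σ (fun _ : X => (1 : ℂ))
    simpa using this
  rw [h40_sum_cycles σ]
  have h2 : ∀ q : Quotient (Equiv.Perm.SameCycle.setoid σ),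
      ∑ i ∈ Finset.range (minimalPeriod σ q.out),
        ((h40_pos σ (σ^[i] q.out) : ℂ) + δ) / (h40_len σ (σ^[i] q.out) : ℂ) =
      ((minimalPeriod σ q.out : ℂ) - 1) / 2 + δ := by
    intro q
    have hw : (minimalPeriod σ q.out : ℂ) ≠ 0 := by
      rw [← hlen]; exact_mod_cast (h40_len_pos σ _).ne'
    have h3 : ∀ i ∈ Finset.range (minimalPeriod σ q.out),
        ((h40_pos σ (σ^[i] q.out) : ℂ) + δ) / (h40_len σ (σ^[i] q.out) : ℂ) =
          ((i : ℂ) + δ) / (minimalPeriod σ q.out : ℂ) := by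
      intro i hi
      have hi' : i < h40_len σ q.out := by rw [hlen]; exact Finset.mem_range.mp hi
      have e1 := h40_pos_iterate_base σ q.out hi'
      have e2 := h40_len_iterate_base σ q.out i
      rw [hq] at e1 e2
      rw [e1, e2, hlen]
    rw [Finset.sum_congr rfl h3, ← Finset.sum_div, Finset.sum_add_distrib, h40_sum_range_cast]
    simp only [Finset.sum_const, Finset.card_range, nsmul_eq_mul]
    field_simp
  rw [Finset.sum_congr rfl fun q _ => h2 q, Finset.sum_add_distrib, ← Finset.sum_div,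
    Finset.sum_sub_distrib, ← h1]
  simp only [Finset.sum_const, Finset.card_univ, nsmul_eq_mul, mul_one, Nat.card_eq_fintype_card]
  ring

end Orbit

/-! ### Part 3: isotypic projections along the cycles -/

section Proj

variable {X : Type*} [Finite X] (σ : Equiv.Perm X) (δ : ℕ)

/-- The real twist parameter `a_x = -2π (pos x + δ) / len x`. -/
noncomputable def h40_tw (x : X) : ℝ :=
  -(2 * π * ((h40_pos σ x : ℝ) + δ) / (h40_len σ x : ℝ))

/-- The root of unity `exp(i a_x)`. -/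
noncomputable def h40_eps (x : X) : ℂ := cexp (Complex.I * (h40_tw σ δ x : ℂ))

lemma h40_eps_eq (x : X) : h40_eps σ δ x =
    cexp (-(2 * π * Complex.I * ((h40_pos σ x : ℂ) + δ) / (h40_len σ x : ℂ))) := by
  unfold h40_eps h40_tw
  congr 1
  push_cast
  ring

lemma h40_eps_ne_zero (x : X) : h40_eps σ δ x ≠ 0 := Complex.exp_ne_zero _

lemma h40_eps_pow_len (x : X) : h40_eps σ δ x ^ h40_len σ x = 1 := by
  rw [h40_eps_eq, ← Complex.exp_nat_mul]
  have hn : (h40_len σ x : ℂ) ≠ 0 := by exact_mod_cast (h40_len_pos σ x).ne'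
  have : (h40_len σ x : ℂ) * -(2 * π * Complex.I * ((h40_pos σ x : ℂ) + δ) / (h40_len σ x : ℂ)) =
      ((-((h40_pos σ x : ℤ) + δ) : ℤ) : ℂ) * (2 * π * Complex.I) := by
    push_cast; field_simp
  rw [this, Complex.exp_int_mul_two_pi_mul_I]

/-- The isotypic projection of the vector `g` attached to `x`. -/
noncomputable def h40_proj (g : X → ℍ → ℂ) (x : X) (τ : ℍ) : ℂ :=
  (h40_len σ x : ℂ)⁻¹ *
    ∑ i ∈ Finset.range (h40_len σ x), h40_eps σ δ x ^ i * g (σ^[i] (h40_base σ x)) τ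

/-- The untwisted isotypic projection. -/
noncomputable def h40_ut (g : X → ℍ → ℂ) (x : X) (τ : ℍ) : ℂ :=
  cexp (Complex.I * (h40_tw σ δ x : ℂ) * (τ : ℂ)) * h40_proj σ δ g x τ

lemma h40_proj_eq_ut (g : X → ℍ → ℂ) (x : X) (τ : ℍ) :
    h40_proj σ δ g x τ = cexp (-(Complex.I * (h40_tw σ δ x : ℂ) * (τ : ℂ))) * h40_ut σ δ g x τ := by
  unfold h40_ut
  rw [← mul_assoc, ← Complex.exp_add, neg_add_cancel, Complex.exp_zero, one_mul]

lemma h40_proj_vadd {g : X → ℍ → ℂ} (hshift : ∀ x (τ : ℍ), g x ((1 : ℝ) +ᵥ τ) = g (σ x) τ)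
    (x : X) (τ : ℍ) :
    h40_proj σ δ g x ((1 : ℝ) +ᵥ τ) =
      cexp (-(Complex.I * (h40_tw σ δ x : ℂ))) * h40_proj σ δ g x τ := by
  unfold h40_proj
  set w := h40_len σ x with hw
  set b := h40_base σ x with hb
  set ε := h40_eps σ δ x with hε
  have hε0 : ε ≠ 0 := h40_eps_ne_zero σ δ x
  have hεinv : cexp (-(Complex.I * (h40_tw σ δ x : ℂ))) = ε⁻¹ := by
    rw [hε, h40_eps, Complex.exp_neg]
  have hc : ∀ i : ℕ, ε ^ i * g (σ^[i] b) ((1 : ℝ) +ᵥ τ) =
      ε⁻¹ * (ε ^ (i + 1) * g (σ^[i + 1] b) τ) := by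
    intro i
    rw [hshift, iterate_succ_apply', pow_succ]
    field_simp
  have hwrap : ε ^ w * g (σ^[w] b) τ = ε ^ 0 * g (σ^[0] b) τ := by
    have h1 : σ^[w] b = b := by
      rw [hw, hb]; unfold h40_len; exact iterate_minimalPeriod
    rw [h1, hε, hw, h40_eps_pow_len]
    simp
  rw [Finset.sum_congr rfl fun i _ => hc i, ← Finset.mul_sum, hεinv]
  have h2 := Finset.sum_range_succ' (fun i => ε ^ i * g (σ^[i] b) τ) w
  have h3 := Finset.sum_range_succ (fun i => ε ^ i * g (σ^[i] b) τ) w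
  have h4 : ∑ i ∈ Finset.range w, ε ^ (i + 1) * g (σ^[i + 1] b) τ =
      ∑ i ∈ Finset.range w, ε ^ i * g (σ^[i] b) τ := by
    have := h2.symm.trans h3
    rw [hwrap] at this
    exact add_right_cancel this
  rw [h4]
  ring

lemma h40_mdiff_sum {ι : Type*} (s : Finset ι) (c : ι → ℂ) (g : ι → ℍ → ℂ)
    (hg : ∀ i ∈ s, MDiff (g i)) : MDiff (fun τ : ℍ => ∑ i ∈ s, c i * g i τ) := by
  rw [UpperHalfPlane.mdifferentiable_iff]
  have : ((fun τ : ℍ => ∑ i ∈ s, c i * g i τ) ∘ ofComplex) =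
      fun z => ∑ i ∈ s, c i * (g i ∘ ofComplex) z := rfl
  rw [this]
  exact DifferentiableOn.fun_sum fun i hi =>
    (UpperHalfPlane.mdifferentiable_iff.mp (hg i hi)).const_mul (c i)

lemma h40_bdd_sum {ι : Type*} (s : Finset ι) (c : ι → ℂ) (g : ι → ℍ → ℂ)
    (hg : ∀ i ∈ s, IsBoundedAtImInfty (g i)) :
    IsBoundedAtImInfty (fun τ : ℍ => ∑ i ∈ s, c i * g i τ) := by
  have h1 : (fun τ : ℍ => ∑ i ∈ s, c i * g i τ) = ∑ i ∈ s, fun τ => c i * g i τ := by
    funext τ; simp
  rw [h1]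
  exact Asymptotics.IsBigO.sum fun i hi =>
    (show g i =O[atImInfty] (1 : ℍ → ℝ) from hg i hi).const_mul_left (c i)

lemma h40_zero_sum {ι : Type*} (s : Finset ι) (c : ι → ℂ) (g : ι → ℍ → ℂ)
    (hg : ∀ i ∈ s, IsZeroAtImInfty (g i)) :
    IsZeroAtImInfty (fun τ : ℍ => ∑ i ∈ s, c i * g i τ) := by
  have h1 : Tendsto (fun τ : ℍ => ∑ i ∈ s, c i * g i τ) atImInfty (𝓝 (∑ i ∈ s, c i * 0)) :=
    tendsto_finsetSum s fun i hi =>
      (show Tendsto (g i) atImInfty (𝓝 0) from hg i hi).const_mul (c i)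
  have h2 : Tendsto (fun τ : ℍ => ∑ i ∈ s, c i * g i τ) atImInfty (𝓝 0) := by simpa using h1
  exact h2

lemma h40_proj_eq_sum (g : X → ℍ → ℂ) (x : X) :
    h40_proj σ δ g x = fun τ : ℍ => ∑ i ∈ Finset.range (h40_len σ x),
      ((h40_len σ x : ℂ)⁻¹ * h40_eps σ δ x ^ i) * g (σ^[i] (h40_base σ x)) τ := by
  funext τ
  unfold h40_proj
  rw [Finset.mul_sum]
  refine Finset.sum_congr rfl fun i _ => by ring

lemma h40_tw_ge (hδ : δ ≤ 1) (x : X) : -(2 * π) ≤ h40_tw σ δ x := by
  unfold h40_tw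
  have h1 := h40_pos_lt σ x
  have h2 : (0 : ℝ) < h40_len σ x := by exact_mod_cast h40_len_pos σ x
  have h3 : ((h40_pos σ x : ℝ) + δ) / (h40_len σ x : ℝ) ≤ 1 := by
    rw [div_le_one h2]
    have : h40_pos σ x + δ ≤ h40_len σ x := by omega
    exact_mod_cast this
  have h4 : 2 * π * ((h40_pos σ x : ℝ) + δ) / (h40_len σ x : ℝ) =
      2 * π * (((h40_pos σ x : ℝ) + δ) / (h40_len σ x : ℝ)) := by ring
  rw [h4]
  nlinarith [Real.pi_pos]

lemma h40_tw_ne (x : X) (h : h40_tw σ δ x = -(2 * π)) : δ ≠ 0 := by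
  rintro rfl
  unfold h40_tw at h
  have h1 := h40_pos_lt σ x
  have h2 : (0 : ℝ) < h40_len σ x := by exact_mod_cast h40_len_pos σ x
  have h3 : ((h40_pos σ x : ℝ) + (0 : ℕ)) / (h40_len σ x : ℝ) < 1 := by
    rw [div_lt_one h2]
    have : (h40_pos σ x : ℝ) < h40_len σ x := by exact_mod_cast h1
    simpa using this
  have h4 : 2 * π * ((h40_pos σ x : ℝ) + (0 : ℕ)) / (h40_len σ x : ℝ) =
      2 * π * (((h40_pos σ x : ℝ) + (0 : ℕ)) / (h40_len σ x : ℝ)) := by ring
  rw [h4] at h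
  nlinarith [Real.pi_pos]

/-- The untwisted projections are `1`-periodic, holomorphic and bounded at `i∞`. -/
lemma h40_ut_props (hδ : δ ≤ 1) {g : X → ℍ → ℂ} (hhol : ∀ y, MDiff (g y))
    (hbdd : ∀ y, IsBoundedAtImInfty (g y)) (hzero : δ ≠ 0 → ∀ y, IsZeroAtImInfty (g y))
    (hshift : ∀ y (τ : ℍ), g y ((1 : ℝ) +ᵥ τ) = g (σ y) τ) (x : X) :
    Periodic ((h40_ut σ δ g x) ∘ ofComplex) ((1 : ℝ) : ℂ) ∧ MDiff (h40_ut σ δ g x) ∧
      IsBoundedAtImInfty (h40_ut σ δ g x) := by
  have hmd : MDiff (h40_proj σ δ g x) := by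
    rw [h40_proj_eq_sum]; exact h40_mdiff_sum _ _ _ fun i _ => hhol _
  have hbd : IsBoundedAtImInfty (h40_proj σ δ g x) := by
    rw [h40_proj_eq_sum]; exact h40_bdd_sum _ _ _ fun i _ => hbdd _
  have hz : h40_tw σ δ x = -(2 * π) → IsZeroAtImInfty (h40_proj σ δ g x) := by
    intro h
    rw [h40_proj_eq_sum]
    exact h40_zero_sum _ _ _ fun i _ => hzero (h40_tw_ne σ δ x h) _
  exact h40_untwist hmd hbd (h40_tw_ge σ δ hδ x) hz (h40_proj_vadd σ δ hshift x)

lemma h40_proj_lin {ι : Type*} (s : Finset ι) (c : ι → ℂ) (f : ι → X → ℍ → ℂ) (x : X) (τ : ℍ) :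
    h40_proj σ δ (fun y τ => ∑ j ∈ s, c j * f j y τ) x τ =
      ∑ j ∈ s, c j * h40_proj σ δ (f j) x τ := by
  unfold h40_proj
  simp only [Finset.mul_sum]
  rw [Finset.sum_comm]
  refine Finset.sum_congr rfl fun j _ => Finset.sum_congr rfl fun i _ => by ring

lemma h40_ut_lin {ι : Type*} (s : Finset ι) (c : ι → ℂ) (f : ι → X → ℍ → ℂ) (x : X) (τ : ℍ) :
    h40_ut σ δ (fun y τ => ∑ j ∈ s, c j * f j y τ) x τ =
      ∑ j ∈ s, c j * h40_ut σ δ (f j) x τ := by
  unfold h40_ut
  rw [h40_proj_lin, Finset.mul_sum]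
  refine Finset.sum_congr rfl fun j _ => by ring

/-- Orthogonality of the characters of `ℤ/n`. -/
lemma h40_orth {n : ℕ} (hn : 0 < n) (δ : ℕ) {i p : ℕ} (hi : i < n) (hp : p < n) :
    ∑ k ∈ Finset.range n,
      (cexp (-(2 * π * Complex.I * ((k : ℂ) + δ) / n)))⁻¹ ^ p *
        cexp (-(2 * π * Complex.I * ((k : ℂ) + δ) / n)) ^ i = if i = p then (n : ℂ) else 0 := by
  have hnC : (n : ℂ) ≠ 0 := by exact_mod_cast hn.ne'
  set η : ℂ := cexp (2 * π * Complex.I * ((p : ℂ) - i) / n) with hη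
  have hterm : ∀ k : ℕ, (cexp (-(2 * π * Complex.I * ((k : ℂ) + δ) / n)))⁻¹ ^ p *
      cexp (-(2 * π * Complex.I * ((k : ℂ) + δ) / n)) ^ i = η ^ δ * η ^ k := by
    intro k
    rw [← Complex.exp_neg, ← Complex.exp_nat_mul, ← Complex.exp_nat_mul, ← Complex.exp_add, hη,
      ← Complex.exp_nat_mul, ← Complex.exp_nat_mul, ← Complex.exp_add]
    congr 1
    field_simp
    ring
  rw [Finset.sum_congr rfl fun k _ => hterm k, ← Finset.mul_sum]
  have hpow : η ^ n = 1 := by
    rw [hη, ← Complex.exp_nat_mul]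
    have : (n : ℂ) * (2 * π * Complex.I * ((p : ℂ) - i) / n) =
        (((p : ℤ) - i : ℤ) : ℂ) * (2 * π * Complex.I) := by
      push_cast; field_simp
    rw [this, Complex.exp_int_mul_two_pi_mul_I]
  split_ifs with h
  · subst h
    have h1 : η = 1 := by simp [hη]
    simp [h1]
  · have hne : η ≠ 1 := by
      intro h1
      rw [hη, Complex.exp_eq_one_iff] at h1
      obtain ⟨m, hm⟩ := h1
      have h2 : ((p : ℂ) - i) = m * n := by
        have hpi : (2 * π * Complex.I : ℂ) ≠ 0 := Complex.two_pi_I_ne_zero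
        field_simp at hm
        linear_combination hm
      have h3 : (p : ℤ) - i = m * n := by exact_mod_cast h2
      have h4 : (p : ℤ) - i = 0 := by
        refine Int.eq_zero_of_abs_lt_dvd (m := (n : ℤ)) ⟨m, by rw [h3]; ring⟩ ?_
        rw [abs_lt]; constructor <;> omega
      omega
    rw [geom_sum_eq hne, hpow, sub_self, zero_div, mul_zero]

/-- Fourier inversion along the cycle of `x`. -/
lemma h40_inversion (g : X → ℍ → ℂ) (x : X) (τ : ℍ) :
    g x τ = ∑ k ∈ Finset.range (h40_len σ x),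
      (h40_eps σ δ (σ^[k] (h40_base σ x)))⁻¹ ^ (h40_pos σ x) *
        h40_proj σ δ g (σ^[k] (h40_base σ x)) τ := by
  have hn0 : 0 < h40_len σ x := h40_len_pos σ x
  have hpn : h40_pos σ x < h40_len σ x := h40_pos_lt σ x
  have hnC : (h40_len σ x : ℂ) ≠ 0 := by exact_mod_cast hn0.ne'
  have hk : ∀ k ∈ Finset.range (h40_len σ x),
      (h40_eps σ δ (σ^[k] (h40_base σ x)))⁻¹ ^ (h40_pos σ x) *
        h40_proj σ δ g (σ^[k] (h40_base σ x)) τ =
      ∑ i ∈ Finset.range (h40_len σ x), (h40_len σ x : ℂ)⁻¹ *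
        ((cexp (-(2 * π * Complex.I * ((k : ℂ) + δ) / (h40_len σ x : ℂ))))⁻¹ ^ (h40_pos σ x) *
          cexp (-(2 * π * Complex.I * ((k : ℂ) + δ) / (h40_len σ x : ℂ))) ^ i) *
        g (σ^[i] (h40_base σ x)) τ := by
    intro k hk
    have hk' : k < h40_len σ x := Finset.mem_range.mp hk
    have e1 : h40_base σ (σ^[k] (h40_base σ x)) = h40_base σ x := h40_base_iterate_base σ x k
    have e2 : h40_len σ (σ^[k] (h40_base σ x)) = h40_len σ x := h40_len_iterate_base σ x k
    have e3 : h40_pos σ (σ^[k] (h40_base σ x)) = k := h40_pos_iterate_base σ x hk'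
    have e4 : h40_eps σ δ (σ^[k] (h40_base σ x)) =
        cexp (-(2 * π * Complex.I * ((k : ℂ) + δ) / (h40_len σ x : ℂ))) := by
      rw [h40_eps_eq, e2, e3]
    unfold h40_proj
    rw [e1, e2, e4, Finset.mul_sum, Finset.mul_sum]
    refine Finset.sum_congr rfl fun i _ => by ring
  rw [Finset.sum_congr rfl hk, Finset.sum_comm]
  have hi : ∀ i ∈ Finset.range (h40_len σ x),
      ∑ k ∈ Finset.range (h40_len σ x), (h40_len σ x : ℂ)⁻¹ *
        ((cexp (-(2 * π * Complex.I * ((k : ℂ) + δ) / (h40_len σ x : ℂ))))⁻¹ ^ (h40_pos σ x) *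
          cexp (-(2 * π * Complex.I * ((k : ℂ) + δ) / (h40_len σ x : ℂ))) ^ i) *
        g (σ^[i] (h40_base σ x)) τ =
      if i = h40_pos σ x then g (σ^[i] (h40_base σ x)) τ else 0 := by
    intro i hi
    rw [← Finset.sum_mul, ← Finset.mul_sum, h40_orth hn0 δ (Finset.mem_range.mp hi) hpn]
    split_ifs
    · rw [inv_mul_cancel₀ hnC, one_mul]
    · simp
  rw [Finset.sum_congr rfl hi, Finset.sum_ite_eq', if_pos (Finset.mem_range.mpr hpn),
    h40_iterate_pos]

lemma h40_tw_le (x : X) : h40_tw σ δ x ≤ -(2 * π * ((δ : ℝ) / orderOf σ)) := by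
  unfold h40_tw
  have h2 : (0 : ℝ) < h40_len σ x := by exact_mod_cast h40_len_pos σ x
  have h3 : (h40_len σ x : ℝ) ≤ orderOf σ := by exact_mod_cast h40_len_le σ x
  have h5 : (0 : ℝ) < orderOf σ := lt_of_lt_of_le h2 h3
  have h6 : (0 : ℝ) ≤ h40_pos σ x := Nat.cast_nonneg _
  have h7 : (0 : ℝ) ≤ δ := Nat.cast_nonneg _
  have h8 : (δ : ℝ) / orderOf σ ≤ ((h40_pos σ x : ℝ) + δ) / (h40_len σ x : ℝ) := by
    rw [div_le_div_iff₀ h5 h2]
    nlinarith
  have h4 : 2 * π * ((h40_pos σ x : ℝ) + δ) / (h40_len σ x : ℝ) =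
      2 * π * (((h40_pos σ x : ℝ) + δ) / (h40_len σ x : ℝ)) := by ring
  rw [h4]
  nlinarith [Real.pi_pos]

lemma h40_tw_ge' (hδ : δ ≤ 1) (x : X) :
    -(2 * π * (1 - (1 - (δ : ℝ)) / orderOf σ)) ≤ h40_tw σ δ x := by
  unfold h40_tw
  have h1 : (h40_pos σ x : ℝ) + 1 ≤ h40_len σ x := by exact_mod_cast h40_pos_lt σ x
  have h2 : (0 : ℝ) < h40_len σ x := by exact_mod_cast h40_len_pos σ x
  have h3 : (h40_len σ x : ℝ) ≤ orderOf σ := by exact_mod_cast h40_len_le σ x
  have h5 : (0 : ℝ) < orderOf σ := lt_of_lt_of_le h2 h3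
  have h7 : (δ : ℝ) ≤ 1 := by exact_mod_cast hδ
  have h8 : ((h40_pos σ x : ℝ) + δ) / (h40_len σ x : ℝ) ≤ 1 - (1 - (δ : ℝ)) / orderOf σ := by
    rw [div_le_iff₀ h2, sub_mul, div_mul_eq_mul_div, le_sub_iff_add_le, ← le_sub_iff_add_le',
      div_le_iff₀ h5]
    nlinarith
  have h4 : 2 * π * ((h40_pos σ x : ℝ) + δ) / (h40_len σ x : ℝ) =
      2 * π * (((h40_pos σ x : ℝ) + δ) / (h40_len σ x : ℝ)) := by ring
  rw [h4]
  nlinarith [Real.pi_pos]

end Proj

/-! ### Part 4: the determinant at the cusp -/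

section Core

variable {X : Type*} [Fintype X] [DecidableEq X] (σ : Equiv.Perm X) (δ : ℕ)

/-- The constant change-of-basis matrix (block discrete Fourier transform). -/
noncomputable def h40_M : Matrix X X ℂ :=
  Matrix.of fun x' x => (h40_len σ x' : ℂ)⁻¹ *
    ∑ i ∈ Finset.range (h40_len σ x'),
      if σ^[i] (h40_base σ x') = x then h40_eps σ δ x' ^ i else 0

lemma h40_M_mul (g : X → X → ℍ → ℂ) (τ : ℍ) :
    h40_M σ δ * (Matrix.of fun x j => g j x τ) =
      Matrix.of fun x j => h40_proj σ δ (g j) x τ := by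
  ext x j
  simp only [Matrix.mul_apply, h40_M, Matrix.of_apply, h40_proj]
  simp only [mul_assoc, ← Finset.mul_sum]
  congr 1
  simp only [Finset.sum_mul]
  rw [Finset.sum_comm]
  refine Finset.sum_congr rfl fun i _ => ?_
  simp only [ite_mul, zero_mul]
  rw [Finset.sum_ite_eq]
  simp

lemma h40_det_identity (f : X → X → ℍ → ℂ) (τ : ℍ) :
    (h40_M σ δ).det * (Matrix.of fun x j => f j x τ).det =
      cexp (π * Complex.I * ((Fintype.card X : ℂ) -
          (Nat.card (Quotient (Equiv.Perm.SameCycle.setoid σ)) : ℂ) +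
          2 * δ * (Nat.card (Quotient (Equiv.Perm.SameCycle.setoid σ)) : ℂ)) * (τ : ℂ)) *
        (Matrix.of fun x j => h40_ut σ δ (f j) x τ).det := by
  rw [← Matrix.det_mul, h40_M_mul]
  have h1 : (Matrix.of fun x j => h40_proj σ δ (f j) x τ) =
      Matrix.of fun x j => cexp (-(Complex.I * (h40_tw σ δ x : ℂ) * (τ : ℂ))) *
        (Matrix.of fun x j => h40_ut σ δ (f j) x τ) x j := by
    ext x j
    simp only [Matrix.of_apply]
    exact h40_proj_eq_ut σ δ (f j) x τ
  rw [h1, Matrix.det_mul_column, ← Complex.exp_sum]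
  congr 2
  have h2 := h40_sum_freq σ (δ : ℂ)
  have h3 : ∀ x, -(Complex.I * (h40_tw σ δ x : ℂ) * (τ : ℂ)) =
      (2 * π * Complex.I * τ) * (((h40_pos σ x : ℂ) + δ) / (h40_len σ x : ℂ)) := by
    intro x; unfold h40_tw; push_cast; ring
  rw [Finset.sum_congr rfl fun x _ => h3 x, ← Finset.mul_sum, h2]
  ring

/-- **Core cusp-determinant dichotomy** (`δ = 0`: forms bounded at the cusp; `δ = 1`: forms
vanishing at the cusp). -/
theorem h40_cusp_det_core (hδ : δ ≤ 1) (f : X → X → ℍ → ℂ)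
    (hhol : ∀ j x, MDiff (f j x)) (hbdd : ∀ j x, IsBoundedAtImInfty (f j x))
    (hzero : δ ≠ 0 → ∀ j x, IsZeroAtImInfty (f j x))
    (hshift : ∀ j x (τ : ℍ), f j x ((1 : ℝ) +ᵥ τ) = f j (σ x) τ) :
    (∃ L : ℂ, L ≠ 0 ∧
        Tendsto (fun τ : ℍ => cexp (-(π * Complex.I * ((Fintype.card X : ℂ) -
            (Nat.card (Quotient (Equiv.Perm.SameCycle.setoid σ)) : ℂ) +
            2 * δ * (Nat.card (Quotient (Equiv.Perm.SameCycle.setoid σ)) : ℂ)) * (τ : ℂ))) *
          Matrix.det (Matrix.of fun x j => f j x τ)) atImInfty (𝓝 L) ∧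
        ∀ j x, (fun τ : ℍ => (Matrix.of fun x j => f j x τ)⁻¹ j x) =O[atImInfty]
          fun τ : ℍ => Real.exp (2 * π * (1 - (1 - (δ : ℝ)) / orderOf σ) * τ.im)) ∨
    (∃ c : X → ℂ, c ≠ 0 ∧ ∀ x, (fun τ : ℍ => ∑ j, c j * f j x τ) =O[atImInfty]
          fun τ : ℍ => Real.exp (-(2 * π * (1 + (δ : ℝ) / orderOf σ)) * τ.im)) := by
  set K : ℂ := (Fintype.card X : ℂ) -
      (Nat.card (Quotient (Equiv.Perm.SameCycle.setoid σ)) : ℂ) +
      2 * δ * (Nat.card (Quotient (Equiv.Perm.SameCycle.setoid σ)) : ℂ) with hK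
  set H : ℍ → Matrix X X ℂ := fun τ => Matrix.of fun x j => h40_ut σ δ (f j) x τ with hHdef
  set A : Matrix X X ℂ := Matrix.of fun x j => valueAtInfty (h40_ut σ δ (f j) x) with hA
  have hprops := fun j x =>
    h40_ut_props σ δ hδ (hhol j) (hbdd j) (fun h => hzero h j) (hshift j) x
  have hlim : ∀ x j, Tendsto (fun τ => h40_ut σ δ (f j) x τ) atImInfty (𝓝 (A x j)) :=
    fun x j => h40_tendsto_valueAtInfty (hprops j x).1 (hprops j x).2.1 (hprops j x).2.2
  have hH : Tendsto H atImInfty (𝓝 A) :=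
    tendsto_pi_nhds.2 fun x => tendsto_pi_nhds.2 fun j => hlim x j
  have hdetH : Tendsto (fun τ : ℍ => (H τ).det) atImInfty (𝓝 A.det) :=
    ((continuous_id.matrix_det).tendsto A).comp hH
  have hid : ∀ τ : ℍ, (h40_M σ δ).det * (Matrix.of fun x j => f j x τ).det =
      cexp (π * Complex.I * K * (τ : ℂ)) * (H τ).det := fun τ => h40_det_identity σ δ f τ
  by_cases hA0 : A.det = 0
  · right
    obtain ⟨c, hc0, hc⟩ := Matrix.exists_mulVec_eq_zero_iff.mpr hA0
    refine ⟨c, hc0, fun x => ?_⟩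
    set F : X → ℍ → ℂ := fun y τ => ∑ j, c j * f j y τ with hF
    have hFhol : ∀ y, MDiff (F y) := fun y => h40_mdiff_sum _ _ _ fun j _ => hhol j y
    have hFbdd : ∀ y, IsBoundedAtImInfty (F y) := fun y => h40_bdd_sum _ _ _ fun j _ => hbdd j y
    have hFzero : δ ≠ 0 → ∀ y, IsZeroAtImInfty (F y) :=
      fun h y => h40_zero_sum _ _ _ fun j _ => hzero h j y
    have hFshift : ∀ y (τ : ℍ), F y ((1 : ℝ) +ᵥ τ) = F (σ y) τ := by
      intro y τ; simp only [hF, hshift]
    have hFprops := fun y => h40_ut_props σ δ hδ hFhol hFbdd hFzero hFshift y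
    have hFlim : ∀ y, Tendsto (h40_ut σ δ F y) atImInfty (𝓝 0) := by
      intro y
      have h1 : Tendsto (fun τ => ∑ j, c j * h40_ut σ δ (f j) y τ) atImInfty
          (𝓝 (∑ j, c j * A y j)) :=
        tendsto_finsetSum _ fun j _ => (hlim y j).const_mul (c j)
      have h2 : ∑ j, c j * A y j = 0 := by
        have := congrFun hc y
        simp only [Matrix.mulVec, dotProduct, Pi.zero_apply] at this
        rw [← this]
        exact Finset.sum_congr rfl fun j _ => mul_comm _ _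
      rw [h2] at h1
      refine h1.congr fun τ => ?_
      exact (h40_ut_lin σ δ Finset.univ c f y τ).symm
    have hFdecay : ∀ y, h40_ut σ δ F y =O[atImInfty]
        fun τ : ℍ => Real.exp (-2 * π * τ.im / 1) := fun y =>
      IsZeroAtImInfty.exp_decay_atImInfty (hFlim y) one_pos (hFprops y).1 (hFprops y).2.1
        (hFprops y).2.2
    have hproj : ∀ y, h40_proj σ δ F y =O[atImInfty]
        fun τ : ℍ => Real.exp (-(2 * π * (1 + (δ : ℝ) / orderOf σ)) * τ.im) := by
      intro y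
      have h1 : (fun τ : ℍ => cexp (-(Complex.I * (h40_tw σ δ y : ℂ) * (τ : ℂ)))) =O[atImInfty]
          fun τ : ℍ => Real.exp (-(2 * π * ((δ : ℝ) / orderOf σ)) * τ.im) := by
        refine Asymptotics.IsBigO.of_norm_le fun τ => ?_
        have h0 : -(Complex.I * (h40_tw σ δ y : ℂ) * (τ : ℂ)) =
            Complex.I * ((-(h40_tw σ δ y) : ℝ) : ℂ) * (τ : ℂ) := by push_cast; ring
        rw [h0, h40_norm_cexp_I_mul]
        apply Real.exp_le_exp.mpr
        have ha := h40_tw_le σ δ y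
        nlinarith [τ.im_pos]
      have h2 := (h1.mul (hFdecay y)).congr_left fun τ => (h40_proj_eq_ut σ δ F y τ).symm
      refine h2.trans (Asymptotics.IsBigO.of_norm_le fun τ => ?_)
      rw [← Real.exp_add, Real.norm_eq_abs, abs_of_pos (Real.exp_pos _)]
      apply le_of_eq
      congr 1
      ring
    have hinv : (fun τ : ℍ => ∑ j, c j * f j x τ) = ∑ k ∈ Finset.range (h40_len σ x),
        fun τ : ℍ => (h40_eps σ δ (σ^[k] (h40_base σ x)))⁻¹ ^ (h40_pos σ x) *
          h40_proj σ δ F (σ^[k] (h40_base σ x)) τ := by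
      funext τ
      rw [Finset.sum_apply]
      exact h40_inversion σ δ F x τ
    rw [hinv]
    exact Asymptotics.IsBigO.sum fun k _ => (hproj _).const_mul_left _
  · left
    have hM0 : (h40_M σ δ).det ≠ 0 := by
      intro hM
      have h1 : ∀ τ : ℍ, (H τ).det = 0 := by
        intro τ
        have := hid τ
        rw [hM, zero_mul] at this
        exact (mul_eq_zero.mp this.symm).resolve_left (Complex.exp_ne_zero _)
      have h2 : Tendsto (fun τ : ℍ => (H τ).det) atImInfty (𝓝 0) := by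
        simp only [h1]; exact tendsto_const_nhds
      exact hA0 (tendsto_nhds_unique hdetH h2)
    refine ⟨A.det / (h40_M σ δ).det, div_ne_zero hA0 hM0, ?_, ?_⟩
    · have h1 : ∀ τ : ℍ, cexp (-(π * Complex.I * K * (τ : ℂ))) *
          (Matrix.of fun x j => f j x τ).det = (H τ).det / (h40_M σ δ).det := by
        intro τ
        rw [eq_div_iff hM0]
        calc cexp (-(π * Complex.I * K * (τ : ℂ))) * (Matrix.of fun x j => f j x τ).det *
              (h40_M σ δ).det
            = cexp (-(π * Complex.I * K * (τ : ℂ))) *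
                ((h40_M σ δ).det * (Matrix.of fun x j => f j x τ).det) := by ring
          _ = (H τ).det := by
              rw [hid τ, ← mul_assoc, ← Complex.exp_add, neg_add_cancel, Complex.exp_zero, one_mul]
      refine (hdetH.div_const _).congr fun τ => (h1 τ).symm
    · intro j x
      have hev : ∀ᶠ τ in atImInfty, (H τ).det ≠ 0 := hdetH.eventually_ne hA0
      have hHinv : ∀ x', (fun τ => (H τ)⁻¹ j x') =O[atImInfty] fun _ : ℍ => (1 : ℝ) := by
        intro x'
        have h1 : Tendsto (fun τ => (H τ)⁻¹ j x') atImInfty (𝓝 ((A.det)⁻¹ * A.adjugate j x')) := by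
          have hadj : Tendsto (fun τ => (H τ).adjugate j x') atImInfty (𝓝 (A.adjugate j x')) := by
            have := ((continuous_id.matrix_adjugate).tendsto A).comp hH
            exact (tendsto_pi_nhds.1 (tendsto_pi_nhds.1 this j) x')
          have hinv := (hdetH.inv₀ hA0).mul hadj
          simp only [Matrix.inv_def, Ring.inverse_eq_inv', Matrix.smul_apply, smul_eq_mul]
          exact hinv
        exact h1.isBigO_one ℝ
      have hform : ∀ᶠ τ in atImInfty, (Matrix.of fun x j => f j x τ)⁻¹ j x =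
          ∑ x', (H τ)⁻¹ j x' *
            (h40_M σ δ x' x * cexp (Complex.I * (h40_tw σ δ x' : ℂ) * (τ : ℂ))) := by
        filter_upwards [hev] with τ hτ
        have hBA : ((H τ)⁻¹ *
            Matrix.diagonal (fun x' => cexp (Complex.I * (h40_tw σ δ x' : ℂ) * (τ : ℂ))) *
              h40_M σ δ) * (Matrix.of fun x j => f j x τ) = 1 := by
          rw [Matrix.mul_assoc, h40_M_mul]
          have h1 : (Matrix.of fun x j => h40_proj σ δ (f j) x τ) =
              Matrix.diagonal (fun x' => cexp (-(Complex.I * (h40_tw σ δ x' : ℂ) * (τ : ℂ)))) *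
                H τ := by
            ext x j
            rw [Matrix.diagonal_mul]
            exact h40_proj_eq_ut σ δ (f j) x τ
          rw [h1, Matrix.mul_assoc, ← Matrix.mul_assoc (Matrix.diagonal _) (Matrix.diagonal _),
            Matrix.diagonal_mul_diagonal]
          have h2 : (Matrix.diagonal fun i => cexp (Complex.I * (h40_tw σ δ i : ℂ) * (τ : ℂ)) *
              cexp (-(Complex.I * (h40_tw σ δ i : ℂ) * (τ : ℂ)))) = (1 : Matrix X X ℂ) := by
            rw [← Matrix.diagonal_one]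
            congr 1
            funext i
            rw [← Complex.exp_add, add_neg_cancel, Complex.exp_zero]
          rw [h2, Matrix.one_mul, Matrix.nonsing_inv_mul _ (isUnit_iff_ne_zero.mpr hτ)]
        rw [Matrix.inv_eq_left_inv hBA, Matrix.mul_apply]
        refine Finset.sum_congr rfl fun x' _ => ?_
        rw [Matrix.mul_diagonal]
        ring
      refine Asymptotics.IsBigO.congr' ?_ (hform.mono fun τ h => h.symm)
        (Filter.EventuallyEq.refl _ _)
      have hsum : (fun τ : ℍ => ∑ x', (H τ)⁻¹ j x' *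
            (h40_M σ δ x' x * cexp (Complex.I * (h40_tw σ δ x' : ℂ) * (τ : ℂ)))) =
          ∑ x', fun τ : ℍ => (H τ)⁻¹ j x' *
            (h40_M σ δ x' x * cexp (Complex.I * (h40_tw σ δ x' : ℂ) * (τ : ℂ))) := by
        funext τ
        rw [Finset.sum_apply]
      rw [hsum]
      refine Asymptotics.IsBigO.sum fun x' _ => ?_
      have hd : (fun τ : ℍ => cexp (Complex.I * (h40_tw σ δ x' : ℂ) * (τ : ℂ))) =O[atImInfty]
          fun τ : ℍ => Real.exp (2 * π * (1 - (1 - (δ : ℝ)) / orderOf σ) * τ.im) := by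
        refine Asymptotics.IsBigO.of_norm_le fun τ => ?_
        rw [h40_norm_cexp_I_mul]
        apply Real.exp_le_exp.mpr
        have ha := h40_tw_ge' σ δ hδ x'
        nlinarith [τ.im_pos]
      have h3 := (hHinv x').mul (hd.const_mul_left (h40_M σ δ x' x))
      simpa using h3

end Core

/-! ### Part 5: public statements -/

/-- `exp(-(a+b) y) = o(exp(-a y))` at `i∞` for `b > 0`. -/
lemma h40_isLittleO_exp {a b : ℝ} (hb : 0 < b) :
    (fun τ : ℍ => Real.exp (-(a + b) * τ.im)) =o[atImInfty] fun τ : ℍ => Real.exp (-a * τ.im) := by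
  refine Asymptotics.isLittleO_of_tendsto' (Eventually.of_forall fun τ h => ?_) ?_
  · exact absurd h (Real.exp_pos _).ne'
  · refine (h40_tendsto_exp_neg_im hb).congr fun τ => ?_
    rw [← Real.exp_sub]
    congr 1
    ring

/-- **Cusp determinant, modular case, with the bound on the inverse matrix.** -/
theorem h40_cusp_det_inv {X : Type*} [Fintype X] [DecidableEq X] (σ : Equiv.Perm X)
    (f : X → X → ℍ → ℂ)
    (hhol : ∀ j x, MDiff (f j x)) (hbdd : ∀ j x, IsBoundedAtImInfty (f j x))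
    (hshift : ∀ j x (τ : ℍ), f j x ((1 : ℝ) +ᵥ τ) = f j (σ x) τ) :
    (∃ L : ℂ, L ≠ 0 ∧
        Tendsto (fun τ : ℍ => Complex.exp (-(π * Complex.I * ((Fintype.card X : ℂ) -
            (Nat.card (Quotient (Equiv.Perm.SameCycle.setoid σ)) : ℂ)) * (τ : ℂ))) *
          Matrix.det (Matrix.of fun x j => f j x τ)) atImInfty (𝓝 L) ∧
        ∀ j x, (fun τ : ℍ => (Matrix.of fun x j => f j x τ)⁻¹ j x) =o[atImInfty]
          fun τ : ℍ => Real.exp (2 * π * τ.im)) ∨
    (∃ c : X → ℂ, c ≠ 0 ∧ ∀ x, (fun τ : ℍ => ∑ j, c j * f j x τ) =O[atImInfty]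
          fun τ : ℍ => Real.exp (-2 * π * τ.im)) := by
  have hN : (0 : ℝ) < orderOf σ := by exact_mod_cast orderOf_pos σ
  rcases h40_cusp_det_core σ 0 (Nat.zero_le 1) f hhol hbdd (fun h => absurd rfl h) hshift with
    ⟨L, hL, hlim, hinv⟩ | ⟨c, hc, hO⟩
  · left
    refine ⟨L, hL, ?_, fun j x => ?_⟩
    · refine hlim.congr fun τ => ?_
      simp
    · refine (hinv j x).trans_isLittleO ?_
      have h1 := h40_isLittleO_exp (a := -(2 * π)) (b := 2 * π / orderOf σ) (by positivity)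
      refine h1.congr (fun τ => ?_) (fun τ => ?_)
      · congr 1
        simp only [Nat.cast_zero, sub_zero]
        ring
      · congr 1
        ring
  · right
    refine ⟨c, hc, fun x => ?_⟩
    refine (hO x).congr_right fun τ => ?_
    congr 1
    simp

/-- **Cusp determinant, modular case.** `X` indexes the conjugates, `σ` is the permutation induced
by `τ ↦ τ + 1`, `f j x` is the `x`-th conjugate of the `j`-th form.  Either the determinant has
exact order `(|X| - #cycles)/2` in `q` at `i∞`, or some non-trivial combination of the forms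
decays like `q` along all conjugates. -/
theorem h40_cusp_det {X : Type*} [Fintype X] [DecidableEq X] (σ : Equiv.Perm X)
    (f : X → X → ℍ → ℂ)
    (hhol : ∀ j x, MDiff (f j x)) (hbdd : ∀ j x, IsBoundedAtImInfty (f j x))
    (hshift : ∀ j x (τ : ℍ), f j x ((1 : ℝ) +ᵥ τ) = f j (σ x) τ) :
    (∃ L : ℂ, L ≠ 0 ∧
        Tendsto (fun τ : ℍ => Complex.exp (-(π * Complex.I * ((Fintype.card X : ℂ) -
            (Nat.card (Quotient (Equiv.Perm.SameCycle.setoid σ)) : ℂ)) * (τ : ℂ))) *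
          Matrix.det (Matrix.of fun x j => f j x τ)) atImInfty (𝓝 L)) ∨
    (∃ c : X → ℂ, c ≠ 0 ∧ ∀ x, (fun τ : ℍ => ∑ j, c j * f j x τ) =O[atImInfty]
          fun τ : ℍ => Real.exp (-2 * π * τ.im)) := by
  rcases h40_cusp_det_inv σ f hhol hbdd hshift with ⟨L, hL, hlim, -⟩ | h
  · exact Or.inl ⟨L, hL, hlim⟩
  · exact Or.inr h

/-- **Cusp determinant, cuspidal case.** If all `f j x` vanish at `i∞`, either the determinant
has exact order `(|X| + #cycles)/2` in `q` at `i∞` (and then the inverse matrix is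
`O(exp(2π Im τ))`), or some non-trivial combination of the forms is `o(q)` along all conjugates. -/
theorem h40_cusp_det_cusp {X : Type*} [Fintype X] [DecidableEq X] (σ : Equiv.Perm X)
    (f : X → X → ℍ → ℂ)
    (hhol : ∀ j x, MDiff (f j x)) (hzero : ∀ j x, IsZeroAtImInfty (f j x))
    (hshift : ∀ j x (τ : ℍ), f j x ((1 : ℝ) +ᵥ τ) = f j (σ x) τ) :
    (∃ L : ℂ, L ≠ 0 ∧
        Tendsto (fun τ : ℍ => Complex.exp (-(π * Complex.I * ((Fintype.card X : ℂ) +
            (Nat.card (Quotient (Equiv.Perm.SameCycle.setoid σ)) : ℂ)) * (τ : ℂ))) *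
          Matrix.det (Matrix.of fun x j => f j x τ)) atImInfty (𝓝 L) ∧
        ∀ j x, (fun τ : ℍ => (Matrix.of fun x j => f j x τ)⁻¹ j x) =O[atImInfty]
          fun τ : ℍ => Real.exp (2 * π * τ.im)) ∨
    (∃ c : X → ℂ, c ≠ 0 ∧ ∀ x, (fun τ : ℍ => ∑ j, c j * f j x τ) =o[atImInfty]
          fun τ : ℍ => Real.exp (-2 * π * τ.im)) := by
  have hN : (0 : ℝ) < orderOf σ := by exact_mod_cast orderOf_pos σ
  rcases h40_cusp_det_core σ 1 le_rfl f hhol (fun j x => (hzero j x).boundedAtFilter)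
    (fun _ => hzero) hshift with ⟨L, hL, hlim, hinv⟩ | ⟨c, hc, hO⟩
  · left
    refine ⟨L, hL, ?_, fun j x => ?_⟩
    · refine hlim.congr fun τ => ?_
      congr 3
      push_cast
      ring
    · refine (hinv j x).congr_right fun τ => ?_
      congr 1
      simp
  · right
    refine ⟨c, hc, fun x => ?_⟩
    refine (hO x).trans_isLittleO ?_
    have h1 := h40_isLittleO_exp (a := 2 * π) (b := 2 * π / orderOf σ) (by positivity)
    refine h1.congr (fun τ => ?_) (fun τ => ?_)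
    · congr 1
      push_cast
      ring
    · congr 1
      ring

/-- Norm of the discriminant: exponential factor times the norm of the eta product. -/
lemma h40_norm_disc (τ : ℍ) :
    ‖ModularForm.discriminant τ‖ =
      Real.exp (-2 * π * τ.im) * ‖∏' n : ℕ, (1 - ModularForm.eta_q n (τ : ℂ)) ^ 24‖ := by
  rw [ModularForm.discriminant_eq_q_prod, norm_mul]
  congr 1
  simp [Function.Periodic.qParam, Complex.norm_exp]

/-- **Reading off the exponent.** If `D² = c₀ Δ^m` and `exp(-π i κ τ) D(τ)` has a non-zero limit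
at `i∞`, then `m = κ`. -/
theorem h40_exponent_eq_of_cusp_limit (D : ℍ → ℂ) (c0 : ℂ) (m : ℕ) (κ : ℝ)
    (hD : ∀ τ, D τ ^ 2 = c0 * ModularForm.discriminant τ ^ m) (L : ℂ) (hL : L ≠ 0)
    (hlim : Tendsto (fun τ : ℍ => Complex.exp (-(π * Complex.I * (κ : ℂ) * (τ : ℂ))) * D τ)
      atImInfty (𝓝 L)) : (m : ℝ) = κ := by
  set P : ℍ → ℂ := fun x => ∏' (n : ℕ), (1 - ModularForm.eta_q n (x : ℂ)) ^ 24 with hP
  have hPt : Tendsto P atImInfty (𝓝 1) := ModularForm.tendsto_atImInfty_tprod_one_sub_eta_q_pow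
  have hN : Tendsto (fun τ => ‖P τ‖ ^ m) atImInfty (𝓝 1) := by simpa using (hPt.norm).pow m
  have hLpos : 0 < ‖L‖ := norm_pos_iff.mpr hL
  have hexp : ∀ τ : ℍ, ‖cexp (-(π * Complex.I * (κ : ℂ) * (τ : ℂ)))‖ = Real.exp (π * κ * τ.im) := by
    intro τ
    have : -(π * Complex.I * (κ : ℂ) * (τ : ℂ)) = Complex.I * ((-(π * κ) : ℝ) : ℂ) * (τ : ℂ) := by
      push_cast; ring
    rw [this, h40_norm_cexp_I_mul]
    congr 1
    ring
  have key : ∀ τ : ℍ, ‖cexp (-(π * Complex.I * (κ : ℂ) * (τ : ℂ))) * D τ‖ ^ 2 =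
      ‖c0‖ * Real.exp (2 * π * (κ - m) * τ.im) * ‖P τ‖ ^ m := by
    intro τ
    rw [norm_mul, mul_pow, ← norm_pow (D τ), hD, norm_mul, norm_pow,
      h40_norm_disc, hexp, mul_pow, ← Real.exp_nat_mul,
      ← Real.exp_nat_mul]
    have : Real.exp (2 * π * (κ - m) * τ.im) =
        Real.exp (((2 : ℕ) : ℝ) * (π * κ * τ.im)) * Real.exp ((m : ℝ) * (-2 * π * τ.im)) := by
      rw [← Real.exp_add]; congr 1; push_cast; ring
    rw [this]
    ring
  have hsq : Tendsto (fun τ : ℍ => ‖cexp (-(π * Complex.I * (κ : ℂ) * (τ : ℂ))) * D τ‖ ^ 2)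
      atImInfty (𝓝 (‖L‖ ^ 2)) := (hlim.norm).pow 2
  have hc0 : c0 ≠ 0 := by
    rintro rfl
    have h0 : ∀ τ : ℍ, ‖cexp (-(π * Complex.I * (κ : ℂ) * (τ : ℂ))) * D τ‖ ^ 2 = 0 := by
      intro τ; rw [key]; simp
    simp only [h0] at hsq
    have := tendsto_nhds_unique hsq tendsto_const_nhds
    have h2 : 0 < ‖L‖ ^ 2 := by positivity
    linarith
  have hc0pos : 0 < ‖c0‖ := norm_pos_iff.mpr hc0
  have hE : Tendsto (fun τ : ℍ => Real.exp (2 * π * (κ - m) * τ.im)) atImInfty
      (𝓝 (‖L‖ ^ 2 / ‖c0‖)) := by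
    have h1 : Tendsto (fun τ : ℍ => ‖cexp (-(π * Complex.I * (κ : ℂ) * (τ : ℂ))) * D τ‖ ^ 2 /
        ‖P τ‖ ^ m / ‖c0‖) atImInfty (𝓝 (‖L‖ ^ 2 / 1 / ‖c0‖)) :=
      (hsq.div hN one_ne_zero).div_const _
    rw [div_one] at h1
    refine h1.congr' ?_
    have hne : ∀ᶠ τ in atImInfty, ‖P τ‖ ^ m ≠ 0 := hN.eventually_ne one_ne_zero
    filter_upwards [hne] with τ hτ
    rw [key τ]
    field_simp
  by_contra hne
  rcases lt_or_gt_of_ne hne with hlt | hgt
  · have hk : 0 < 2 * π * (κ - m) := by have := Real.pi_pos; nlinarith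
    have hT : Tendsto (fun τ : ℍ => Real.exp (2 * π * (κ - m) * τ.im)) atImInfty atTop :=
      Real.tendsto_exp_atTop.comp ((tendsto_id.const_mul_atTop hk).comp tendsto_comap)
    exact not_tendsto_nhds_of_tendsto_atTop hT _ hE
  · have hk : 2 * π * (κ - m) < 0 := by have := Real.pi_pos; nlinarith
    have hT : Tendsto (fun τ : ℍ => Real.exp (2 * π * (κ - m) * τ.im)) atImInfty (𝓝 0) :=
      Real.tendsto_exp_atBot.comp ((tendsto_id.const_mul_atTop_of_neg hk).comp tendsto_comap)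
    have h3 := tendsto_nhds_unique hE hT
    have h4 : 0 < ‖L‖ ^ 2 / ‖c0‖ := by positivity
    linarith

/-- Natural-number form of `h40_exponent_eq_of_cusp_limit`. -/
theorem h40_pow_eq_of_cusp_limit (D : ℍ → ℂ) (c0 : ℂ) (m k : ℕ)
    (hD : ∀ τ, D τ ^ 2 = c0 * ModularForm.discriminant τ ^ m) (L : ℂ) (hL : L ≠ 0)
    (hlim : Tendsto (fun τ : ℍ => Complex.exp (-(π * Complex.I * (k : ℂ) * (τ : ℂ))) * D τ)
      atImInfty (𝓝 L)) : m = k := by
  have h := h40_exponent_eq_of_cusp_limit D c0 m (k : ℝ) hD L hL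
    (by simpa using hlim)
  exact_mod_cast h

/-- **Modular case, final form.** If moreover `det² = c₀ Δ^m`, then either
`m + #cycles = |X|`, or some non-trivial combination of the forms decays like `q` along all
conjugates. -/
theorem h40_cusp_det_exponent {X : Type*} [Fintype X] [DecidableEq X] (σ : Equiv.Perm X)
    (f : X → X → ℍ → ℂ)
    (hhol : ∀ j x, MDiff (f j x)) (hbdd : ∀ j x, IsBoundedAtImInfty (f j x))
    (hshift : ∀ j x (τ : ℍ), f j x ((1 : ℝ) +ᵥ τ) = f j (σ x) τ) (c0 : ℂ) (m : ℕ)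
    (hD : ∀ τ : ℍ, Matrix.det (Matrix.of fun x j => f j x τ) ^ 2 =
      c0 * ModularForm.discriminant τ ^ m) :
    m + Nat.card (Quotient (Equiv.Perm.SameCycle.setoid σ)) = Fintype.card X ∨
    (∃ c : X → ℂ, c ≠ 0 ∧ ∀ x, (fun τ : ℍ => ∑ j, c j * f j x τ) =O[atImInfty]
          fun τ : ℍ => Real.exp (-2 * π * τ.im)) := by
  rcases h40_cusp_det σ f hhol hbdd hshift with ⟨L, hL, hlim⟩ | h
  · left
    have h := h40_exponent_eq_of_cusp_limit _ c0 m
      ((Fintype.card X : ℝ) - (Nat.card (Quotient (Equiv.Perm.SameCycle.setoid σ)) : ℝ)) hD L hL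
      (by
        refine hlim.congr fun τ => ?_
        push_cast
        rfl)
    have h2 : ((m + Nat.card (Quotient (Equiv.Perm.SameCycle.setoid σ)) : ℕ) : ℝ) =
        (Fintype.card X : ℝ) := by
      push_cast; linarith
    exact_mod_cast h2
  · exact Or.inr h

/-- **Cuspidal case, final form.** If all `f j x` vanish at `i∞` and `det² = c₀ Δ^m`, then either
`m = |X| + #cycles` (and the inverse matrix is `O(exp(2π Im τ))`), or some non-trivial combination
of the forms is `o(q)` along all conjugates. -/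
theorem h40_cusp_det_cusp_exponent {X : Type*} [Fintype X] [DecidableEq X] (σ : Equiv.Perm X)
    (f : X → X → ℍ → ℂ)
    (hhol : ∀ j x, MDiff (f j x)) (hzero : ∀ j x, IsZeroAtImInfty (f j x))
    (hshift : ∀ j x (τ : ℍ), f j x ((1 : ℝ) +ᵥ τ) = f j (σ x) τ) (c0 : ℂ) (m : ℕ)
    (hD : ∀ τ : ℍ, Matrix.det (Matrix.of fun x j => f j x τ) ^ 2 =
      c0 * ModularForm.discriminant τ ^ m) :
    (m = Fintype.card X + Nat.card (Quotient (Equiv.Perm.SameCycle.setoid σ)) ∧
        ∀ j x, (fun τ : ℍ => (Matrix.of fun x j => f j x τ)⁻¹ j x) =O[atImInfty]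
          fun τ : ℍ => Real.exp (2 * π * τ.im)) ∨
    (∃ c : X → ℂ, c ≠ 0 ∧ ∀ x, (fun τ : ℍ => ∑ j, c j * f j x τ) =o[atImInfty]
          fun τ : ℍ => Real.exp (-2 * π * τ.im)) := by
  rcases h40_cusp_det_cusp σ f hhol hzero hshift with ⟨L, hL, hlim, hinv⟩ | h
  · left
    refine ⟨?_, hinv⟩
    have h := h40_exponent_eq_of_cusp_limit _ c0 m
      ((Fintype.card X : ℝ) + (Nat.card (Quotient (Equiv.Perm.SameCycle.setoid σ)) : ℝ)) hD L hL
      (by
        refine hlim.congr fun τ => ?_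
        push_cast
        rfl)
    exact_mod_cast h
  · exact Or.inr h

end Fermat.Agent.S20
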