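import Mathlib
import Fermat.Agent.S20.Defs

set_option autoImplicit false

/-!
# S20, row DET, carrier-level part: the matrix of conjugates of a family of forms

`h96_Phi N e w c τ` is the matrix `(c_j ∣ g_{j'}⁻¹)(τ)` (rows = forms, columns = cosets).
* `h96_Phi_smul`, `h96_det_smul` : behaviour under `τ ↦ g • τ` (`g ∈ SL(2,ℤ)`);
* `h96_detSq_mem_Lfun` : the square of the determinant is a level-one form of weight `2 * ∑ w`;
* `h96_det_ne_zero_of_linearIndependent` : the determinant does not vanish where the values of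
  the family are linearly independent.
-/

namespace Fermat.Agent.S20

open UpperHalfPlane CongruenceSubgroup Filter Matrix
open scoped MatrixGroups ModularForm Manifold Topology

/-! ### Conjugates -/

theorem h96_cj_mk (N : ℕ) (k : ℤ) {f : ℍ → ℂ} (hf : ∀ γ ∈ Gamma0 N, f ∣[k] γ = f)
    (g : SL(2, ℤ)) : cj N k f (g : SL(2, ℤ) ⧸ Gamma0 N) = f ∣[k] g⁻¹ := by
  obtain ⟨h, hh⟩ := QuotientGroup.mk_out_eq_mul (Gamma0 N) g
  unfold cj
  rw [hh, _root_.mul_inv_rev, SlashAction.slash_mul, hf _ (inv_mem h.2)]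

theorem h96_cj_slash (N : ℕ) (k : ℤ) {f : ℍ → ℂ} (hf : ∀ γ ∈ Gamma0 N, f ∣[k] γ = f)
    (g : SL(2, ℤ)) (q : SL(2, ℤ) ⧸ Gamma0 N) :
    cj N k f q ∣[k] g = cj N k f (g⁻¹ • q) := by
  induction q using QuotientGroup.induction_on with
  | H h =>
    rw [MulAction.Quotient.smul_mk, h96_cj_mk N k hf, h96_cj_mk N k hf, ← SlashAction.slash_mul]
    congr 1
    simp [_root_.mul_inv_rev]

theorem h96_cj_smul_apply (N : ℕ) (k : ℤ) {f : ℍ → ℂ} (hf : ∀ γ ∈ Gamma0 N, f ∣[k] γ = f)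
    (g : SL(2, ℤ)) (q : SL(2, ℤ) ⧸ Gamma0 N) (τ : ℍ) :
    cj N k f q (g • τ) = denom g τ ^ k * cj N k f (g⁻¹ • q) τ := by
  have h := congrFun (h96_cj_slash N k hf g q) τ
  rw [ModularForm.SL_slash_apply] at h
  rw [← h, mul_comm, mul_assoc, ← zpow_add₀ (denom_ne_zero g τ)]
  simp

theorem h96_cj_one (N : ℕ) (k : ℤ) {f : ℍ → ℂ} (hf : ∀ γ ∈ Gamma0 N, f ∣[k] γ = f) :
    cj N k f ((1 : SL(2, ℤ)) : SL(2, ℤ) ⧸ Gamma0 N) = f := by
  rw [h96_cj_mk N k hf, inv_one, SlashAction.slash_one]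

theorem h96_cj_mdiff (N : ℕ) (k : ℤ) {f : ℍ → ℂ} (hf : MDiff f) (q : SL(2, ℤ) ⧸ Gamma0 N) :
    MDiff (cj N k f q) := by
  unfold cj
  exact hf.slash k _

theorem h96_cj_isBounded (N : ℕ) (k : ℤ) {f : ℍ → ℂ} (hf : f ∈ Mfun N k)
    (q : SL(2, ℤ) ⧸ Gamma0 N) : IsBoundedAtImInfty (cj N k f q) :=
  hf.2.2 _

theorem h96_cj_isZero (N : ℕ) (k : ℤ) {f : ℍ → ℂ} (hf : f ∈ Sfun N k)
    (q : SL(2, ℤ) ⧸ Gamma0 N) : IsZeroAtImInfty (cj N k f q) :=
  hf.2.2 _

/-- The conjugates are permuted by `τ ↦ τ + 1`. -/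
theorem h96_cj_vadd_one (N : ℕ) (k : ℤ) {f : ℍ → ℂ} (hf : ∀ γ ∈ Gamma0 N, f ∣[k] γ = f)
    (q : SL(2, ℤ) ⧸ Gamma0 N) (τ : ℍ) :
    cj N k f q ((1 : ℝ) +ᵥ τ) = cj N k f (ModularGroup.T⁻¹ • q) τ := by
  have h := h96_cj_smul_apply N k hf ModularGroup.T q τ
  rw [UpperHalfPlane.modular_T_smul] at h
  rw [h]
  have : denom (ModularGroup.T : SL(2, ℤ)) τ = 1 := by
    simp [UpperHalfPlane.denom, ModularGroup.coe_T]
  rw [this, _root_.one_zpow, one_mul]

/-! ### Subalgebras of functions on `ℍ` and determinants -/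

/-- Holomorphic functions on `ℍ`, as a subalgebra of `ℍ → ℂ`. -/
def h96_holo : Subalgebra ℂ (ℍ → ℂ) where
  carrier := {f | MDiff f}
  mul_mem' hf hg := hf.mul hg
  add_mem' hf hg := hf.add hg
  algebraMap_mem' _ := mdifferentiable_const

theorem h96_mem_holo {f : ℍ → ℂ} : f ∈ h96_holo ↔ MDiff f := Iff.rfl

theorem h96_mem_bdd {f : ℍ → ℂ} :
    f ∈ boundedAtImInftySubalgebra ℂ ↔ IsBoundedAtImInfty f := Iff.rfl

/-- The determinant of a matrix with entries in a subalgebra lies in the subalgebra. -/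
theorem h96_det_mem {J : Type} [Fintype J] [DecidableEq J] (S : Subalgebra ℂ (ℍ → ℂ))
    (M : Matrix J J (ℍ → ℂ)) (h : ∀ i j, M i j ∈ S) : M.det ∈ S := by
  rw [Matrix.det_apply]
  refine S.sum_mem fun σ _ => ?_
  rw [Units.smul_def]
  exact S.zsmul_mem (S.prod_mem fun i _ => h _ _) _

/-- Evaluation commutes with determinants of matrices of functions. -/
theorem h96_det_eval {J : Type} [Fintype J] [DecidableEq J] (M : Matrix J J (ℍ → ℂ)) (τ : ℍ) :
    M.det τ = (Matrix.of fun i j => M i j τ).det := by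
  have h := RingHom.map_det (Pi.evalRingHom (fun _ : ℍ => ℂ) τ) M
  exact h

/-! ### The matrix of conjugates -/

section Phi

variable (N : ℕ) {J : Type} [Fintype J] [DecidableEq J] (e : J ≃ (SL(2, ℤ) ⧸ Gamma0 N))
  (w : J → ℤ) (c : J → ℍ → ℂ)

/-- The matrix of conjugates at `τ`: rows = forms, columns = cosets. -/
noncomputable def h96_Phi (τ : ℍ) : Matrix J J ℂ :=
  Matrix.of fun j j' => cj N (w j) (c j) (e j') τ

omit [Fintype J] [DecidableEq J] in
theorem h96_Phi_apply (τ : ℍ) (j j' : J) :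
    h96_Phi N e w c τ j j' = cj N (w j) (c j) (e j') τ := rfl

/-- The permutation of the index set induced by `g⁻¹` acting on the cosets. -/
noncomputable def h96_perm (g : SL(2, ℤ)) : Equiv.Perm J :=
  e.trans ((MulAction.toPerm g⁻¹).trans e.symm)

omit [Fintype J] [DecidableEq J] in
theorem h96_perm_apply (g : SL(2, ℤ)) (j : J) : h96_perm N e g j = e.symm (g⁻¹ • e j) := rfl

theorem h96_Phi_smul (hc : ∀ j, ∀ γ ∈ Gamma0 N, c j ∣[w j] γ = c j) (g : SL(2, ℤ)) (τ : ℍ) :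
    h96_Phi N e w c (g • τ) = Matrix.diagonal (fun j => denom g τ ^ w j) *
      (h96_Phi N e w c τ).submatrix id (h96_perm N e g) := by
  ext j j'
  rw [Matrix.diagonal_mul, Matrix.submatrix_apply, h96_Phi_apply, h96_Phi_apply, h96_perm_apply,
    Equiv.apply_symm_apply, id]
  exact h96_cj_smul_apply N (w j) (hc j) g (e j') τ

theorem h96_prod_zpow {J : Type} (s : Finset J) (x : ℂ) (hx : x ≠ 0) (w : J → ℤ) :
    ∏ j ∈ s, x ^ w j = x ^ ∑ j ∈ s, w j := by
  classical
  induction s using Finset.induction_on with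
  | empty => simp
  | insert a s ha ih => rw [Finset.prod_insert ha, Finset.sum_insert ha, ih, zpow_add₀ hx]

theorem h96_det_smul (hc : ∀ j, ∀ γ ∈ Gamma0 N, c j ∣[w j] γ = c j) (g : SL(2, ℤ)) (τ : ℍ) :
    (h96_Phi N e w c (g • τ)).det =
      ((Equiv.Perm.sign (h96_perm N e g) : ℤˣ) : ℂ) * denom g τ ^ (∑ j, w j) *
        (h96_Phi N e w c τ).det := by
  rw [h96_Phi_smul N e w c hc, Matrix.det_mul, Matrix.det_diagonal, Matrix.det_permute',
    h96_prod_zpow _ _ (denom_ne_zero g τ)]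
  ring

theorem h96_sign_sq (σ : Equiv.Perm J) : (((Equiv.Perm.sign σ : ℤˣ) : ℤ) : ℂ) ^ 2 = 1 := by
  rcases Int.units_eq_one_or (Equiv.Perm.sign σ) with h | h <;> simp [h]

theorem h96_detSq_smul (hc : ∀ j, ∀ γ ∈ Gamma0 N, c j ∣[w j] γ = c j) (g : SL(2, ℤ)) (τ : ℍ) :
    (h96_Phi N e w c (g • τ)).det ^ 2 =
      denom g τ ^ (2 * ∑ j, w j) * (h96_Phi N e w c τ).det ^ 2 := by
  rw [h96_det_smul N e w c hc, mul_pow, mul_pow]
  have h1 := h96_sign_sq (h96_perm N e g)
  have h2 : (denom g τ ^ (∑ j, w j)) ^ 2 = denom g τ ^ (2 * ∑ j, w j) := by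
    rw [← zpow_natCast, ← _root_.zpow_mul, mul_comm]; rfl
  rw [h2, h1, one_mul]

/-- The function-valued matrix of conjugates. -/
noncomputable def h96_PhiF : Matrix J J (ℍ → ℂ) :=
  Matrix.of fun j j' => cj N (w j) (c j) (e j')

theorem h96_PhiF_det (τ : ℍ) : (h96_PhiF N e w c).det τ = (h96_Phi N e w c τ).det :=
  h96_det_eval _ τ

theorem h96_det_mdiff (hc : ∀ j, MDiff (c j)) : MDiff (fun τ => (h96_Phi N e w c τ).det) := by
  have h : (h96_PhiF N e w c).det ∈ h96_holo :=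
    h96_det_mem h96_holo _ fun j j' => h96_cj_mdiff N (w j) (hc j) (e j')
  have h2 : (fun τ => (h96_Phi N e w c τ).det) = (h96_PhiF N e w c).det :=
    funext fun τ => (h96_PhiF_det N e w c τ).symm
  rw [h2]; exact h

theorem h96_det_isBounded (hc : ∀ j, c j ∈ Mfun N (w j)) :
    IsBoundedAtImInfty (fun τ => (h96_Phi N e w c τ).det) := by
  have h : (h96_PhiF N e w c).det ∈ boundedAtImInftySubalgebra ℂ :=
    h96_det_mem _ _ fun j j' => h96_cj_isBounded N (w j) (hc j) (e j')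
  have h2 : (fun τ => (h96_Phi N e w c τ).det) = (h96_PhiF N e w c).det :=
    funext fun τ => (h96_PhiF_det N e w c τ).symm
  rw [h2]; exact h

/-- **(D1)** The square of the determinant of the conjugates of a family of forms on `Γ₀(N)`
is a level-one form of weight `2 * ∑ w`. -/
theorem h96_detSq_mem_Lfun (hc : ∀ j, c j ∈ Mfun N (w j)) :
    (fun τ => (h96_Phi N e w c τ).det ^ 2) ∈ Lfun (2 * ∑ j, w j) := by
  refine ⟨?_, fun γ => ?_, ?_⟩
  · exact (h96_det_mdiff N e w c fun j => (hc j).1).pow 2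
  · funext τ
    rw [ModularForm.SL_slash_apply, h96_detSq_smul N e w c (fun j => (hc j).2.1), mul_comm,
      ← mul_assoc, ← zpow_add₀ (denom_ne_zero γ τ)]
    simp
  · have h := (h96_det_isBounded N e w c hc).mul (h96_det_isBounded N e w c hc)
    have h2 : (fun τ => (h96_Phi N e w c τ).det ^ 2) =
        (fun τ => (h96_Phi N e w c τ).det) * (fun τ => (h96_Phi N e w c τ).det) := by
      funext τ; simp [pow_two]
    rw [h2]; exact h

/-- **(D2)** The determinant does not vanish at a point where the values of the family (all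
conjugates) are linearly independent. -/
theorem h96_det_ne_zero_of_linearIndependent (τ : ℍ)
    (h : LinearIndependent ℂ (fun j => evX N (w j) τ (c j))) :
    (h96_Phi N e w c τ).det ≠ 0 := by
  have h1 : LinearIndependent ℂ (h96_Phi N e w c τ).row := by
    have h2 := h.map' (LinearEquiv.funCongrLeft ℂ ℂ e).toLinearMap
      (LinearEquiv.ker _)
    exact h2
  have h3 := (Matrix.linearIndependent_rows_iff_isUnit).1 h1
  exact ((Matrix.isUnit_iff_isUnit_det _).1 h3).ne_zero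

omit [DecidableEq J] in
/-- The same determinant written on the coset space itself, rows = cosets, columns = forms
(the shape of the abstract cusp-determinant lemma). -/
theorem h96_det_reindex [Fintype (SL(2, ℤ) ⧸ Gamma0 N)] [DecidableEq (SL(2, ℤ) ⧸ Gamma0 N)]
    [DecidableEq J] (τ : ℍ) :
    Matrix.det (Matrix.of fun (x j : SL(2, ℤ) ⧸ Gamma0 N) =>
      cj N (w (e.symm j)) (c (e.symm j)) x τ) = (h96_Phi N e w c τ).det := by
  have h : (Matrix.of fun (x j : SL(2, ℤ) ⧸ Gamma0 N) =>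
      cj N (w (e.symm j)) (c (e.symm j)) x τ) =
      ((h96_Phi N e w c τ).submatrix e.symm e.symm)ᵀ := by
    ext x j
    simp [h96_Phi_apply]
  rw [h, Matrix.det_transpose, Matrix.det_submatrix_equiv_self]

/-- Converse of **(D2)**. -/
theorem h96_linearIndependent_of_det_ne_zero (τ : ℍ) (h : (h96_Phi N e w c τ).det ≠ 0) :
    LinearIndependent ℂ (fun j => evX N (w j) τ (c j)) := by
  have h1 : LinearIndependent ℂ (h96_Phi N e w c τ).row :=
    (Matrix.linearIndependent_rows_iff_isUnit).2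
      ((Matrix.isUnit_iff_isUnit_det _).2 (isUnit_iff_ne_zero.2 h))
  have h2 : LinearIndependent ℂ
      ((LinearEquiv.funCongrLeft ℂ ℂ e).toLinearMap ∘ fun j => evX N (w j) τ (c j)) := h1
  exact LinearIndependent.of_comp _ h2

end Phi

end Fermat.Agent.S20
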