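import Mathlib
import Fermat.Agent.S20.Defs2
import Fermat.Agent.S20.Conj
import Fermat.Agent.S20.h96_DetForm
import Fermat.Agent.S20.h40_CuspDet
import Fermat.Agent.S20.h12_NonVanish2
import Fermat.Agent.S24.h47_Ree
import Fermat.Agent.S20.h17_DetInf

set_option autoImplicit false

/-!
# S20, row DET: the sum of the weights of a generator family

If the values of the conjugates of a family `c j ∈ M_{w j}(Γ₀(N))`, indexed by a set in bijection
with the cosets, are linearly independent at `i`, at `ρ`, at every generic point and "at `∞`",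
then `∑ w j + 6 * orbT N = 6 * idx N`.

The row statement under its official name `sum_weights_eq` is in `h17_DetInf.lean` (imported
here, so `import Fermat.Agent.S20.Det` provides it as well); this file contains an independent
proof `h19_sum_weights_eq` of the same statement from the cusp determinant lemma `h40_cusp_det`.
-/

namespace Fermat.Agent.S20

open UpperHalfPlane CongruenceSubgroup ModularForm Filter Topology
open scoped MatrixGroups ModularForm Manifold

/-- The number of cycles of `T⁻¹` on the cosets is `orbT N`. -/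
theorem det_card_cycles_T (N : ℕ) :
    Nat.card (Quotient (Equiv.Perm.SameCycle.setoid
      (MulAction.toPerm (ModularGroup.T⁻¹ : SL(2, ℤ)) : Equiv.Perm (SL(2, ℤ) ⧸ Gamma0 N)))) =
      orbT N := by
  rw [← Fermat.Agent.S24.h47_orbCount_eq_card_sameCycle]
  unfold Fermat.Agent.S24.h47_orbCount orbT
  rw [Subgroup.zpowers_inv]
  rfl

/-- **DET.** The sum of the weights of a family of forms whose conjugates are independent at
`i`, `ρ`, the generic points and at infinity. -/
theorem h19_sum_weights_eq (N : ℕ) [NeZero N] {J : Type} [Fintype J] [DecidableEq J]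
    (e : J ≃ (SL(2, ℤ) ⧸ Gamma0 N)) (w : J → ℤ) (c : J → ℍ → ℂ)
    (hc : ∀ j, c j ∈ Mfun N (w j))
    (hI : LinearIndependent ℂ (fun j => evX N (w j) I (c j)))
    (hρ : LinearIndependent ℂ (fun j => evX N (w j) ρ (c j)))
    (hgen : ∀ τ₀ : ℍ, E₄ τ₀ ≠ 0 → E₆ τ₀ ≠ 0 →
      LinearIndependent ℂ (fun j => evX N (w j) τ₀ (c j)))
    (hinf : ∀ l : J → ℂ, (∀ q : SL(2, ℤ) ⧸ Gamma0 N,
      (fun τ : ℍ => ∑ j, l j * cj N (w j) (c j) q τ) =O[atImInfty]
        (fun τ : ℍ => Real.exp (-2 * Real.pi * τ.im))) → l = 0) :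
    ∑ j, w j + 6 * (orbT N : ℤ) = 6 * (idx N : ℤ) := by
  classical
  have hfin : Finite (SL(2, ℤ) ⧸ Gamma0 N) := Finite.of_equiv J e
  let _ : Fintype (SL(2, ℤ) ⧸ Gamma0 N) := Fintype.ofFinite _
  -- the square of the determinant is a level-one form without zeros
  have hF := h96_detSq_mem_Lfun N e w c hc
  have hne : ∀ τ : ℍ, LinearIndependent ℂ (fun j => evX N (w j) τ (c j)) →
      (fun τ => (h96_Phi N e w c τ).det ^ 2) τ ≠ 0 := fun τ h =>
    pow_ne_zero 2 (h96_det_ne_zero_of_linearIndependent N e w c τ h)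
  obtain ⟨m, c0, -, hm, hFm⟩ := h12_eq_const_mul_discriminant_pow_of_generic
    (fun τ => (h96_Phi N e w c τ).det ^ 2) hF (hne I hI) (hne ρ hρ)
    (fun τ h4 h6 => hne τ (hgen τ h4 h6))
  -- the cusp determinant lemma
  have hcusp := h40_cusp_det_exponent
    (MulAction.toPerm (ModularGroup.T⁻¹ : SL(2, ℤ)) : Equiv.Perm (SL(2, ℤ) ⧸ Gamma0 N))
    (fun (j x : SL(2, ℤ) ⧸ Gamma0 N) => cj N (w (e.symm j)) (c (e.symm j)) x)
    (fun j x => cj_mdiff N _ (hc _).1 x)
    (fun j x => cj_isBounded (hc _) x)
    (fun j x τ => (cj_T (hc _).2.1 x τ).symm)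
    c0 m
    (fun τ => by
      rw [h96_det_reindex N e w c τ]
      exact hFm τ)
  rcases hcusp with h | ⟨c', hc'0, hc'⟩
  · rw [det_card_cycles_T N] at h
    have hcard : Fintype.card (SL(2, ℤ) ⧸ Gamma0 N) = idx N := by
      rw [idx, Nat.card_eq_fintype_card]
    rw [hcard] at h
    have h' : (m : ℤ) + (orbT N : ℤ) = (idx N : ℤ) := by exact_mod_cast h
    linarith
  · exfalso
    apply hc'0
    have hl : (fun j => c' (e j)) = 0 := by
      apply hinf
      intro q
      have hsum : (fun τ : ℍ => ∑ j, c' (e j) * cj N (w j) (c j) q τ) =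
          fun τ : ℍ => ∑ x, c' x * cj N (w (e.symm x)) (c (e.symm x)) q τ := by
        funext τ
        rw [← Equiv.sum_comp e]
        simp
      rw [hsum]
      exact hc' q
    funext x
    have := congrFun hl (e.symm x)
    simpa using this

end Fermat.Agent.S20
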