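import Mathlib

set_option autoImplicit false

/-!
# A graded module with a regular sequence is free (by hand)

Abstract form of the "free module theorem" used for `S20`: `S k` (cusp forms, or modular forms,
of weight `k` on `Γ₀(N)`, as functions) is a graded module over `A w` (level-one forms), and
`x = E₄`, `y = E₆` is a regular sequence on it.  Then homogeneous lifts of bases of
`S k / (x S (k-4) + y S (k-6))` generate freely.  No `DirectSum`, no algebraic independence.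
-/

namespace Fermat.Agent.S20

section GradedFree

universe u v

variable {𝕜 : Type u} {R : Type v} [Field 𝕜] [CommRing R] [Algebra 𝕜 R]

/-- The "decomposable part" `x • S (k-4) + y • S (k-6)` of the weight-`k` piece. -/
def h38_dec (S : ℤ → Submodule 𝕜 R) (x y : R) (k : ℤ) : Submodule 𝕜 R :=
  (S (k - 4)).map (LinearMap.mulLeft 𝕜 x) ⊔ (S (k - 6)).map (LinearMap.mulLeft 𝕜 y)

theorem h38_mem_dec {S : ℤ → Submodule 𝕜 R} {x y : R} {k : ℤ} {f g : R}
    (hf : f ∈ S (k - 4)) (hg : g ∈ S (k - 6)) : x * f + y * g ∈ h38_dec S x y k :=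
  Submodule.add_mem_sup ⟨f, hf, rfl⟩ ⟨g, hg, rfl⟩

theorem h38_exists_of_mem_dec {S : ℤ → Submodule 𝕜 R} {x y : R} {k : ℤ} {v : R}
    (hv : v ∈ h38_dec S x y k) : ∃ f ∈ S (k - 4), ∃ g ∈ S (k - 6), v = x * f + y * g := by
  obtain ⟨u, hu, w, hw, rfl⟩ := Submodule.mem_sup.mp hv
  obtain ⟨f, hf, rfl⟩ := hu
  obtain ⟨g, hg, rfl⟩ := hw
  exact ⟨f, hf, g, hg, rfl⟩

theorem h38_pow_mul_mem {S A : ℤ → Submodule 𝕜 R} {y : R}
    (hAS : ∀ (w k : ℤ) (a f : R), a ∈ A w → f ∈ S k → a * f ∈ S (w + k)) (hy : y ∈ A 6)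
    (n : ℕ) (k : ℤ) (f : R) (hf : f ∈ S k) : y ^ n * f ∈ S (6 * n + k) := by
  induction n with
  | zero => simpa using hf
  | succ n ih =>
    have h := hAS 6 (6 * n + k) y (y ^ n * f) hy ih
    have e : (6 : ℤ) + (6 * n + k) = 6 * ((n + 1 : ℕ) : ℤ) + k := by push_cast; ring
    rw [e] at h
    rw [pow_succ, mul_comm (y ^ n) y, mul_assoc]
    exact h

/-- Finset form of the independence hypothesis. -/
theorem h38_hind_finset {S : ℤ → Submodule 𝕜 R} {x y : R} {J : Type*} (κ : J → ℤ) (c : J → R)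
    (hind : ∀ (k : ℤ) (l : J →₀ 𝕜), (∀ j ∈ l.support, κ j = k) →
      (l.sum fun j r => r • c j) ∈ h38_dec S x y k → l = 0)
    (k : ℤ) (s : Finset J) (l : J → 𝕜) (hs : ∀ j ∈ s, κ j = k)
    (hmem : ∑ j ∈ s, l j • c j ∈ h38_dec S x y k) : ∀ j ∈ s, l j = 0 := by
  classical
  have hfin : ∀ j, (fun j => if j ∈ s then l j else 0) j ≠ 0 → j ∈ s := by
    intro j hj
    by_contra h
    simp [h] at hj
  set L : J →₀ 𝕜 := Finsupp.onFinset s (fun j => if j ∈ s then l j else 0) hfin with hL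
  have hsum : (L.sum fun j r => r • c j) = ∑ j ∈ s, l j • c j := by
    rw [hL, Finsupp.onFinset_sum _ (fun j => zero_smul 𝕜 (c j))]
    exact Finset.sum_congr rfl (fun j hj => by simp [hj])
  have hL0 : L = 0 := by
    apply hind k L
    · intro j hj
      exact hs j (Finsupp.support_onFinset_subset hj)
    · rw [hsum]; exact hmem
  intro j hj
  have h1 := DFunLike.congr_fun hL0 j
  simpa [hL, hj] using h1

theorem h38_weight_gt {S : ℤ → Submodule 𝕜 R} {x y : R} {k₀ : ℤ}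
    (hS0 : ∀ k ≤ k₀, S k = ⊥)
    {J : Type*} (κ : J → ℤ) (c : J → R) (hc : ∀ j, c j ∈ S (κ j))
    (hind' : ∀ (k : ℤ) (s : Finset J) (l : J → 𝕜), (∀ j ∈ s, κ j = k) →
      ∑ j ∈ s, l j • c j ∈ h38_dec S x y k → ∀ j ∈ s, l j = 0)
    (j : J) : k₀ < κ j := by
  by_contra h
  rw [not_lt] at h
  have h0 : c j = 0 := by
    have h1 := hc j
    rw [hS0 _ h] at h1
    simpa using h1
  have h2 := hind' (κ j) {j} (fun _ => 1) (by simp) (by simp [h0]) j (by simp)
  exact one_ne_zero h2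

theorem h38_free_aux (S A : ℤ → Submodule 𝕜 R) (x y : R) (k₀ : ℤ)
    (hS0 : ∀ k ≤ k₀, S k = ⊥)
    (hAS : ∀ (w k : ℤ) (a f : R), a ∈ A w → f ∈ S k → a * f ∈ S (w + k))
    (hy : y ∈ A 6)
    (hyreg : ∀ (k : ℤ), ∀ f ∈ S k, ∀ h ∈ S (k + 2), y * f = x * h → ∃ f' ∈ S (k - 4), f = x * f')
    {J : Type*} (κ : J → ℤ) (c : J → R) (hc : ∀ j, c j ∈ S (κ j))
    (hind' : ∀ (k : ℤ) (s : Finset J) (l : J → 𝕜), (∀ j ∈ s, κ j = k) →
      ∑ j ∈ s, l j • c j ∈ h38_dec S x y k → ∀ j ∈ s, l j = 0)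
    (n : ℕ) : ∀ (K : ℤ), K ≤ k₀ + n → ∀ (s : Finset J) (l : J → 𝕜) (e : J → ℕ),
      (∀ j ∈ s, (6 * e j : ℤ) = K - κ j) →
      (∑ j ∈ s, l j • (y ^ e j * c j)) ∈ (S (K - 4)).map (LinearMap.mulLeft 𝕜 x) →
      ∀ j ∈ s, l j = 0 := by
  classical
  induction n with
  | zero =>
    intro K hK s l e he _ j hj
    exfalso
    have h1 := h38_weight_gt hS0 κ c hc hind' j
    have h2 := he j hj
    have h3 : (0 : ℤ) ≤ 6 * (e j : ℤ) := by positivity
    simp only [Nat.cast_zero, add_zero] at hK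
    linarith
  | succ n ih =>
    intro K hK s l e he hmem j hj
    obtain ⟨m, hm, hxm⟩ := hmem
    have hxm' : x * m = ∑ j ∈ s, l j • (y ^ e j * c j) := hxm
    set s₀ := s.filter (fun j => e j = 0) with hs₀
    set s₁ := s.filter (fun j => ¬ e j = 0) with hs₁
    set f : R := ∑ j ∈ s₁, l j • (y ^ (e j - 1) * c j) with hf_def
    have hsplit : ∑ j ∈ s, l j • (y ^ e j * c j)
        = ∑ j ∈ s₀, l j • c j + y * f := by
      rw [← Finset.sum_filter_add_sum_filter_not s (fun j => e j = 0)]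
      congr 1
      · apply Finset.sum_congr rfl
        intro i hi
        have hi0 : e i = 0 := (Finset.mem_filter.mp hi).2
        rw [hi0, pow_zero, one_mul]
      · rw [hf_def, Finset.mul_sum]
        apply Finset.sum_congr rfl
        intro i hi
        have hi0 : ¬ e i = 0 := (Finset.mem_filter.mp hi).2
        have hpow : y ^ e i = y * y ^ (e i - 1) := by
          rw [← pow_succ']
          congr 1
          omega
        rw [hpow, mul_assoc, mul_smul_comm]
    have hf : f ∈ S (K - 6) := by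
      rw [hf_def]
      apply Submodule.sum_mem
      intro i hi
      apply Submodule.smul_mem
      have hi' := Finset.mem_filter.mp hi
      have h1 := h38_pow_mul_mem hAS hy (e i - 1) (κ i) (c i) (hc i)
      have h2 := he i hi'.1
      have h3 : ¬ e i = 0 := hi'.2
      have e1 : (6 : ℤ) * ((e i - 1 : ℕ) : ℤ) + κ i = K - 6 := by
        have : ((e i - 1 : ℕ) : ℤ) = (e i : ℤ) - 1 := by omega
        rw [this]; linarith
      rw [e1] at h1
      exact h1
    -- the weight-K part is decomposable, hence zero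
    have hdec0 : ∑ j ∈ s₀, l j • c j ∈ h38_dec S x y K := by
      have h1 : ∑ j ∈ s₀, l j • c j = x * m + y * (-f) := by
        have := hsplit
        rw [← hxm'] at this
        linear_combination -this
      rw [h1]
      exact h38_mem_dec hm (Submodule.neg_mem _ hf)
    have hl0 : ∀ j ∈ s₀, l j = 0 := by
      apply hind' K s₀ l _ hdec0
      intro i hi
      have hi' := Finset.mem_filter.mp hi
      have h2 := he i hi'.1
      rw [hi'.2] at h2
      simp at h2
      linarith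
    have hzero : ∑ j ∈ s₀, l j • c j = 0 := by
      apply Finset.sum_eq_zero
      intro i hi
      rw [hl0 i hi, zero_smul]
    have hyf : y * f = x * m := by
      rw [hxm', hsplit, hzero, zero_add]
    have hm' : m ∈ S (K - 6 + 2) := by
      have : K - 6 + 2 = K - 4 := by ring
      rw [this]; exact hm
    obtain ⟨f', hf', hff'⟩ := hyreg (K - 6) f hf m hm' hyf
    have hl1 : ∀ j ∈ s₁, l j = 0 := by
      apply ih (K - 6) (by push_cast at hK; linarith) s₁ l (fun j => e j - 1)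
      · intro i hi
        have hi' := Finset.mem_filter.mp hi
        have h2 := he i hi'.1
        have h3 : ¬ e i = 0 := hi'.2
        have : ((e i - 1 : ℕ) : ℤ) = (e i : ℤ) - 1 := by omega
        rw [this]; linarith
      · exact ⟨f', hf', hff'.symm⟩
    by_cases hej : e j = 0
    · exact hl0 j (Finset.mem_filter.mpr ⟨hj, hej⟩)
    · exact hl1 j (Finset.mem_filter.mpr ⟨hj, hej⟩)

theorem h38_free_finset (S A : ℤ → Submodule 𝕜 R) (x y : R) (k₀ : ℤ)
    (hS0 : ∀ k ≤ k₀, S k = ⊥)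
    (hA0 : ∀ w < 0, A w = ⊥)
    (hAS : ∀ (w k : ℤ) (a f : R), a ∈ A w → f ∈ S k → a * f ∈ S (w + k))
    (hy : y ∈ A 6)
    (hdec : ∀ (w : ℤ), ∀ a ∈ A w, ∃ a' ∈ A (w - 4), ∃ (l : 𝕜) (n : ℕ),
      a = x * a' + l • y ^ n ∧ (l ≠ 0 → (6 * n : ℤ) = w))
    (hxreg : ∀ (k : ℤ), ∀ f ∈ S k, x * f = 0 → f = 0)
    (hyreg : ∀ (k : ℤ), ∀ f ∈ S k, ∀ h ∈ S (k + 2), y * f = x * h → ∃ f' ∈ S (k - 4), f = x * f')
    {J : Type*} (κ : J → ℤ) (c : J → R) (hc : ∀ j, c j ∈ S (κ j))
    (hind' : ∀ (k : ℤ) (s : Finset J) (l : J → 𝕜), (∀ j ∈ s, κ j = k) →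
      ∑ j ∈ s, l j • c j ∈ h38_dec S x y k → ∀ j ∈ s, l j = 0)
    (n : ℕ) : ∀ (K : ℤ), K ≤ k₀ + n → ∀ (s : Finset J) (a : J → R),
      (∀ j ∈ s, a j ∈ A (K - κ j)) → ∑ j ∈ s, a j * c j = 0 → ∀ j ∈ s, a j = 0 := by
  classical
  induction n with
  | zero =>
    intro K hK s a ha _ j hj
    have h1 := h38_weight_gt hS0 κ c hc hind' j
    have h2 := ha j hj
    simp only [Nat.cast_zero, add_zero] at hK
    rw [hA0 (K - κ j) (by linarith)] at h2
    simpa using h2
  | succ n ih =>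
    intro K hK s a ha hrel
    have H : ∀ j, ∃ (a' : R) (l : 𝕜) (e : ℕ), j ∈ s →
        (a' ∈ A (K - κ j - 4) ∧ a j = x * a' + l • y ^ e ∧ (l ≠ 0 → (6 * e : ℤ) = K - κ j)) := by
      intro j
      by_cases hj : j ∈ s
      · obtain ⟨a', ha', l, e, h1, h2⟩ := hdec (K - κ j) (a j) (ha j hj)
        exact ⟨a', l, e, fun _ => ⟨ha', h1, h2⟩⟩
      · exact ⟨0, 0, 0, fun h => absurd h hj⟩
    choose a' l e H using H
    set m : R := ∑ j ∈ s, a' j * c j with hm_def
    have hm : m ∈ S (K - 4) := by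
      rw [hm_def]
      apply Submodule.sum_mem
      intro i hi
      have h1 := hAS (K - κ i - 4) (κ i) (a' i) (c i) (H i hi).1 (hc i)
      have e1 : K - κ i - 4 + κ i = K - 4 := by ring
      rw [e1] at h1
      exact h1
    have hexp : ∑ j ∈ s, a j * c j = x * m + ∑ j ∈ s, l j • (y ^ e j * c j) := by
      rw [hm_def, Finset.mul_sum, ← Finset.sum_add_distrib]
      apply Finset.sum_congr rfl
      intro i hi
      rw [(H i hi).2.1, add_mul, mul_assoc, smul_mul_assoc]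
    have hl : ∀ j ∈ s, l j = 0 := by
      intro j hj
      by_contra hne
      have hfilter : ∑ j ∈ s.filter (fun j => l j ≠ 0), l j • (y ^ e j * c j)
          = ∑ j ∈ s, l j • (y ^ e j * c j) := by
        apply Finset.sum_filter_of_ne
        intro i _ hi hli
        apply hi
        rw [hli, zero_smul]
      have hmem : ∑ j ∈ s.filter (fun j => l j ≠ 0), l j • (y ^ e j * c j)
          ∈ (S (K - 4)).map (LinearMap.mulLeft 𝕜 x) := by
        refine ⟨-m, Submodule.neg_mem _ hm, ?_⟩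
        rw [hfilter]
        have h1 := hexp
        rw [hrel] at h1
        change x * -m = _
        linear_combination h1
      have h2 := h38_free_aux S A x y k₀ hS0 hAS hy hyreg κ c hc hind' (n + 1) K hK
        (s.filter (fun j => l j ≠ 0)) l e
        (fun i hi => by
          have hi' := Finset.mem_filter.mp hi
          exact (H i hi'.1).2.2 hi'.2) hmem j (Finset.mem_filter.mpr ⟨hj, hne⟩)
      exact hne h2
    have hxm : x * m = 0 := by
      have h1 := hexp
      rw [hrel] at h1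
      have h2 : ∑ j ∈ s, l j • (y ^ e j * c j) = 0 := by
        apply Finset.sum_eq_zero
        intro i hi
        rw [hl i hi, zero_smul]
      rw [h2, add_zero] at h1
      exact h1.symm
    have hm0 : m = 0 := hxreg (K - 4) m hm hxm
    have ha' : ∀ j ∈ s, a' j = 0 := by
      apply ih (K - 4) (by push_cast at hK; linarith) s a'
      · intro i hi
        have h1 := (H i hi).1
        have e1 : K - κ i - 4 = K - 4 - κ i := by ring
        rw [e1] at h1
        exact h1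
      · rw [← hm_def]; exact hm0
    intro j hj
    rw [(H j hj).2.1, ha' j hj, hl j hj, mul_zero, zero_smul, add_zero]

/-- FREENESS: if `x` is a non-zero-divisor on `S`, `y` is a non-zero-divisor on `S` modulo `x`,
every element of `A w` is `x * a' + l • y ^ n`, and the weight-`k` members of `c` are linearly
independent modulo `x • S (k-4) + y • S (k-6)`, then a homogeneous `A`-relation between the `c j`
has all coefficients zero. -/
theorem h38_free (S A : ℤ → Submodule 𝕜 R) (x y : R) (k₀ : ℤ)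
    (hS0 : ∀ k ≤ k₀, S k = ⊥)
    (hA0 : ∀ w < 0, A w = ⊥)
    (hAS : ∀ (w k : ℤ) (a f : R), a ∈ A w → f ∈ S k → a * f ∈ S (w + k))
    (hy : y ∈ A 6)
    (hdec : ∀ (w : ℤ), ∀ a ∈ A w, ∃ a' ∈ A (w - 4), ∃ (l : 𝕜) (n : ℕ),
      a = x * a' + l • y ^ n ∧ (l ≠ 0 → (6 * n : ℤ) = w))
    (hxreg : ∀ (k : ℤ), ∀ f ∈ S k, x * f = 0 → f = 0)
    (hyreg : ∀ (k : ℤ), ∀ f ∈ S k, ∀ h ∈ S (k + 2), y * f = x * h → ∃ f' ∈ S (k - 4), f = x * f')
    {J : Type*} (κ : J → ℤ) (c : J → R) (hc : ∀ j, c j ∈ S (κ j))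
    (hind : ∀ (k : ℤ) (l : J →₀ 𝕜), (∀ j ∈ l.support, κ j = k) →
      (l.sum fun j r => r • c j) ∈ h38_dec S x y k → l = 0)
    (K : ℤ) (a : J →₀ R) (ha : ∀ j, a j ∈ A (K - κ j))
    (hrel : a.sum (fun j r => r * c j) = 0) : a = 0 := by
  have hind' := h38_hind_finset κ c hind
  have h := h38_free_finset S A x y k₀ hS0 hA0 hAS hy hdec hxreg hyreg κ c hc hind'
    (K - k₀).toNat K (by have := Int.self_le_toNat (K - k₀); linarith) a.support a
    (fun j _ => ha j) hrel
  rw [← Finsupp.support_eq_empty]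
  apply Finset.eq_empty_of_forall_notMem
  intro j hj
  exact (Finsupp.mem_support_iff.mp hj) (h j hj)

/-- GENERATION: if the weight-`k` members of the family `c` span `S k` modulo
`x • S (k-4) + y • S (k-6)` for every `k`, then every element of `S K` is an `A`-combination
of the `c j` with homogeneous coefficients. -/
theorem h38_gen (S A : ℤ → Submodule 𝕜 R) (x y : R) (k₀ : ℤ)
    (hS0 : ∀ k ≤ k₀, S k = ⊥)
    (hone : (1 : R) ∈ A 0) (hx : x ∈ A 4) (hy : y ∈ A 6)
    (hAA : ∀ (w w' : ℤ) (a a' : R), a ∈ A w → a' ∈ A w' → a * a' ∈ A (w + w'))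
    {J : Type*} (κ : J → ℤ) (c : J → R)
    (hspan : ∀ k, S k ≤ Submodule.span 𝕜 (c '' {j | κ j = k}) ⊔ h38_dec S x y k)
    (K : ℤ) (F : R) (hF : F ∈ S K) :
    ∃ a : J →₀ R, (∀ j, a j ∈ A (K - κ j)) ∧ F = a.sum (fun j r => r * c j) := by
  suffices H : ∀ n : ℕ, ∀ K : ℤ, K ≤ k₀ + n → ∀ F ∈ S K,
      ∃ a : J →₀ R, (∀ j, a j ∈ A (K - κ j)) ∧ F = Finsupp.linearCombination R c a by
    obtain ⟨a, ha, hFa⟩ := H (K - k₀).toNat K
      (by have := Int.self_le_toNat (K - k₀); linarith) F hF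
    exact ⟨a, ha, by rw [hFa, Finsupp.linearCombination_apply]; rfl⟩
  intro n
  induction n with
  | zero =>
    intro K hK F hF
    simp only [Nat.cast_zero, add_zero] at hK
    rw [hS0 K hK] at hF
    refine ⟨0, fun j => by simp, ?_⟩
    rw [(Submodule.mem_bot 𝕜).mp hF]; simp
  | succ n ih =>
    intro K hK F hF
    obtain ⟨u, hu, v, hv, rfl⟩ := Submodule.mem_sup.mp (hspan K hF)
    obtain ⟨f, hf, g, hg, rfl⟩ := h38_exists_of_mem_dec hv
    obtain ⟨af, haf, rfl⟩ := ih (K - 4) (by push_cast at hK; linarith) f hf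
    obtain ⟨ag, hag, rfl⟩ := ih (K - 6) (by push_cast at hK; linarith) g hg
    obtain ⟨l, hl, rfl⟩ := (Finsupp.mem_span_image_iff_linearCombination 𝕜).mp hu
    refine ⟨l.mapRange (algebraMap 𝕜 R) (map_zero _) + x • af + y • ag, ?_, ?_⟩
    · intro j
      simp only [Finsupp.add_apply, Finsupp.mapRange_apply, Finsupp.smul_apply, smul_eq_mul]
      refine Submodule.add_mem _ (Submodule.add_mem _ ?_ ?_) ?_
      · by_cases hj : l j = 0
        · rw [hj, map_zero]; exact Submodule.zero_mem _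
        · have hjs : κ j = K :=
            (Finsupp.mem_supported 𝕜 l).mp hl (Finset.mem_coe.mpr (Finsupp.mem_support_iff.mpr hj))
          rw [hjs, sub_self, Algebra.algebraMap_eq_smul_one]
          exact Submodule.smul_mem _ _ hone
      · have h1 := hAA 4 (K - 4 - κ j) x (af j) hx (haf j)
        have e1 : (4 : ℤ) + (K - 4 - κ j) = K - κ j := by ring
        rw [e1] at h1; exact h1
      · have h1 := hAA 6 (K - 6 - κ j) y (ag j) hy (hag j)
        have e1 : (6 : ℤ) + (K - 6 - κ j) = K - κ j := by ring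
        rw [e1] at h1; exact h1
    · have h0 : Finsupp.linearCombination 𝕜 c l
          = Finsupp.linearCombination R c (l.mapRange (algebraMap 𝕜 R) (map_zero _)) := by
        rw [Finsupp.linearCombination_apply, Finsupp.linearCombination_apply,
          Finsupp.sum_mapRange_index (by simp)]
        simp [Algebra.smul_def]
      rw [map_add, map_add, map_smul, map_smul, smul_eq_mul, smul_eq_mul, h0, add_assoc]

/-- EXISTENCE of a homogeneous family of free generators: the members of weight `k` form a basis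
of `S k` modulo `x • S (k-4) + y • S (k-6)`; the family generates (`gen`) and is free (`free`). -/
theorem h38_exists_generators (S A : ℤ → Submodule 𝕜 R) (x y : R) (k₀ : ℤ)
    (hS0 : ∀ k ≤ k₀, S k = ⊥)
    (hA0 : ∀ w < 0, A w = ⊥)
    (hone : (1 : R) ∈ A 0) (hx : x ∈ A 4) (hy : y ∈ A 6)
    (hAA : ∀ (w w' : ℤ) (a a' : R), a ∈ A w → a' ∈ A w' → a * a' ∈ A (w + w'))
    (hAS : ∀ (w k : ℤ) (a f : R), a ∈ A w → f ∈ S k → a * f ∈ S (w + k))
    (hdec : ∀ (w : ℤ), ∀ a ∈ A w, ∃ a' ∈ A (w - 4), ∃ (l : 𝕜) (n : ℕ),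
      a = x * a' + l • y ^ n ∧ (l ≠ 0 → (6 * n : ℤ) = w))
    (hxreg : ∀ (k : ℤ), ∀ f ∈ S k, x * f = 0 → f = 0)
    (hyreg : ∀ (k : ℤ), ∀ f ∈ S k, ∀ h ∈ S (k + 2), y * f = x * h → ∃ f' ∈ S (k - 4), f = x * f') :
    ∃ (J : Type v) (κ : J → ℤ) (c : J → R),
      (∀ j, c j ∈ S (κ j)) ∧
      (∀ k, S k ≤ Submodule.span 𝕜 (c '' {j | κ j = k}) ⊔ h38_dec S x y k) ∧
      (∀ (k : ℤ) (l : J →₀ 𝕜), (∀ j ∈ l.support, κ j = k) →
        (l.sum fun j r => r • c j) ∈ h38_dec S x y k → l = 0) ∧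
      (∀ (K : ℤ) (F : R), F ∈ S K →
        ∃ a : J →₀ R, (∀ j, a j ∈ A (K - κ j)) ∧ F = a.sum (fun j r => r * c j)) ∧
      (∀ (K : ℤ) (a : J →₀ R), (∀ j, a j ∈ A (K - κ j)) →
        a.sum (fun j r => r * c j) = 0 → a = 0) := by
  classical
  have hdecle : ∀ k, h38_dec S x y k ≤ S k := by
    intro k v hv
    obtain ⟨f, hf, g, hg, rfl⟩ := h38_exists_of_mem_dec hv
    have h1 := hAS 4 (k - 4) x f hx hf
    have h2 := hAS 6 (k - 6) y g hy hg
    rw [show (4 : ℤ) + (k - 4) = k by ring] at h1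
    rw [show (6 : ℤ) + (k - 6) = k by ring] at h2
    exact Submodule.add_mem _ h1 h2
  have hW : ∀ k, ∃ W : Submodule 𝕜 R,
      W ≤ S k ∧ W ⊓ h38_dec S x y k = ⊥ ∧ S k ≤ W ⊔ h38_dec S x y k := by
    intro k
    obtain ⟨W', hW'⟩ := Submodule.exists_isCompl (h38_dec S x y k)
    refine ⟨W' ⊓ S k, inf_le_right, ?_, ?_⟩
    · rw [eq_bot_iff]
      calc W' ⊓ S k ⊓ h38_dec S x y k ≤ W' ⊓ h38_dec S x y k :=
            inf_le_inf_right _ inf_le_left
        _ = ⊥ := by rw [inf_comm]; exact hW'.inf_eq_bot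
    · intro f hf
      have hmem : f ∈ h38_dec S x y k ⊔ W' := by rw [hW'.sup_eq_top]; trivial
      obtain ⟨u, hu, w, hw, rfl⟩ := Submodule.mem_sup.mp hmem
      have hwS : w ∈ S k := by
        have h1 := Submodule.sub_mem _ hf (hdecle k hu)
        simpa using h1
      exact Submodule.mem_sup.mpr ⟨w, ⟨hw, hwS⟩, u, hu, by rw [add_comm]⟩
  choose W hWle hWdisj hWsup using hW
  let J := Σ k : ℤ, Module.Basis.ofVectorSpaceIndex 𝕜 (W k)
  let κ : J → ℤ := Sigma.fst
  let c : J → R := fun j => ((Module.Basis.ofVectorSpace 𝕜 (W j.1) j.2 : W j.1) : R)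
  have hcW : ∀ j : J, c j ∈ W (κ j) := fun j => (Module.Basis.ofVectorSpace 𝕜 (W j.1) j.2).2
  have hc : ∀ j, c j ∈ S (κ j) := fun j => hWle _ (hcW j)
  have hspan : ∀ k, S k ≤ Submodule.span 𝕜 (c '' {j | κ j = k}) ⊔ h38_dec S x y k := by
    intro k
    refine (hWsup k).trans (sup_le_sup_right ?_ _)
    intro w hw
    have h1 := (Module.Basis.ofVectorSpace 𝕜 (W k)).linearCombination_repr ⟨w, hw⟩
    have h2 : w = ((Finsupp.linearCombination 𝕜 (Module.Basis.ofVectorSpace 𝕜 (W k))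
        ((Module.Basis.ofVectorSpace 𝕜 (W k)).repr ⟨w, hw⟩) : W k) : R) := by rw [h1]
    rw [h2, Finsupp.linearCombination_apply, Finsupp.sum, Submodule.coe_sum]
    apply Submodule.sum_mem
    intro i _
    rw [Submodule.coe_smul]
    apply Submodule.smul_mem
    exact Submodule.subset_span ⟨⟨k, i⟩, rfl, rfl⟩
  have hind : ∀ (k : ℤ) (l : J →₀ 𝕜), (∀ j ∈ l.support, κ j = k) →
      (l.sum fun j r => r • c j) ∈ h38_dec S x y k → l = 0 := by
    intro k l hl hmem
    have hsplit : ∀ i, i ≠ k → Finsupp.split l i = 0 := by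
      intro i hi
      ext a
      rw [Finsupp.split_apply]
      by_contra h
      exact hi (hl ⟨i, a⟩ (Finsupp.mem_support_iff.mpr h))
    have hsum : (l.sum fun j r => r • c j)
        = (((Finsupp.linearCombination 𝕜 (Module.Basis.ofVectorSpace 𝕜 (W k)))
            (Finsupp.split l k) : W k) : R) := by
      rw [Finsupp.sigma_sum, Finset.sum_eq_single k]
      · rw [Finsupp.linearCombination_apply, Finsupp.sum, Finsupp.sum, Submodule.coe_sum]
        rfl
      · intro i _ hi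
        rw [hsplit i hi]; simp
      · intro hk
        rw [Finsupp.mem_splitSupport_iff_nonzero, not_not] at hk
        rw [hk]; simp
    have h0 : (Finsupp.linearCombination 𝕜 (Module.Basis.ofVectorSpace 𝕜 (W k)))
        (Finsupp.split l k) = 0 := by
      apply Subtype.ext
      have hmemW : (((Finsupp.linearCombination 𝕜 (Module.Basis.ofVectorSpace 𝕜 (W k)))
          (Finsupp.split l k) : W k) : R) ∈ W k ⊓ h38_dec S x y k :=
        ⟨Subtype.property _, hsum ▸ hmem⟩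
      rw [hWdisj k] at hmemW
      simpa using hmemW
    have h1 : Finsupp.split l k = 0 :=
      (linearIndependent_iff.mp (Module.Basis.ofVectorSpace 𝕜 (W k)).linearIndependent) _ h0
    ext ⟨i, a⟩
    by_cases hi : i = k
    · subst hi
      have h2 := DFunLike.congr_fun h1 a
      rwa [Finsupp.split_apply] at h2
    · have h2 := DFunLike.congr_fun (hsplit i hi) a
      rwa [Finsupp.split_apply] at h2
  exact ⟨J, κ, c, hc, hspan, hind,
    fun K F hF => h38_gen S A x y k₀ hS0 hone hx hy hAA κ c hspan K F hF,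
    fun K a ha hrel => h38_free S A x y k₀ hS0 hA0 hAS hy hdec hxreg hyreg κ c hc hind K a ha hrel⟩

/-- `Fintype` form of generation: plain sums over `J`. -/
theorem h38_gen_fintype (S A : ℤ → Submodule 𝕜 R) (x y : R) (k₀ : ℤ)
    (hS0 : ∀ k ≤ k₀, S k = ⊥)
    (hone : (1 : R) ∈ A 0) (hx : x ∈ A 4) (hy : y ∈ A 6)
    (hAA : ∀ (w w' : ℤ) (a a' : R), a ∈ A w → a' ∈ A w' → a * a' ∈ A (w + w'))
    {J : Type*} [Fintype J] (κ : J → ℤ) (c : J → R)
    (hspan : ∀ k, S k ≤ Submodule.span 𝕜 (c '' {j | κ j = k}) ⊔ h38_dec S x y k)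
    (K : ℤ) (F : R) (hF : F ∈ S K) :
    ∃ a : J → R, (∀ j, a j ∈ A (K - κ j)) ∧ F = ∑ j, a j * c j := by
  obtain ⟨a, ha, hFa⟩ := h38_gen S A x y k₀ hS0 hone hx hy hAA κ c hspan K F hF
  refine ⟨a, ha, ?_⟩
  rw [hFa, Finsupp.sum_fintype]
  intro i
  exact zero_mul _

/-- `Fintype` form of freeness: plain sums over `J`. -/
theorem h38_free_fintype (S A : ℤ → Submodule 𝕜 R) (x y : R) (k₀ : ℤ)
    (hS0 : ∀ k ≤ k₀, S k = ⊥)
    (hA0 : ∀ w < 0, A w = ⊥)
    (hAS : ∀ (w k : ℤ) (a f : R), a ∈ A w → f ∈ S k → a * f ∈ S (w + k))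
    (hy : y ∈ A 6)
    (hdec : ∀ (w : ℤ), ∀ a ∈ A w, ∃ a' ∈ A (w - 4), ∃ (l : 𝕜) (n : ℕ),
      a = x * a' + l • y ^ n ∧ (l ≠ 0 → (6 * n : ℤ) = w))
    (hxreg : ∀ (k : ℤ), ∀ f ∈ S k, x * f = 0 → f = 0)
    (hyreg : ∀ (k : ℤ), ∀ f ∈ S k, ∀ h ∈ S (k + 2), y * f = x * h → ∃ f' ∈ S (k - 4), f = x * f')
    {J : Type*} [Fintype J] (κ : J → ℤ) (c : J → R) (hc : ∀ j, c j ∈ S (κ j))
    (hind : ∀ (k : ℤ) (l : J →₀ 𝕜), (∀ j ∈ l.support, κ j = k) →
      (l.sum fun j r => r • c j) ∈ h38_dec S x y k → l = 0)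
    (K : ℤ) (a : J → R) (ha : ∀ j, a j ∈ A (K - κ j))
    (hrel : ∑ j, a j * c j = 0) : ∀ j, a j = 0 := by
  have hind' := h38_hind_finset κ c hind
  intro j
  exact h38_free_finset S A x y k₀ hS0 hA0 hAS hy hdec hxreg hyreg κ c hc hind'
    (K - k₀).toNat K (by have := Int.self_le_toNat (K - k₀); linarith) Finset.univ a
    (fun j _ => ha j) hrel j (Finset.mem_univ j)

/-- If every `A w` is spanned by the monomials `x ^ a * y ^ b` with `4 a + 6 b = w`, then the
decomposition hypothesis `hdec` holds. -/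
theorem h38_hdec_of_span (A : ℤ → Submodule 𝕜 R) (x y : R)
    (hA : ∀ w : ℤ, A w = Submodule.span 𝕜
      {m : R | ∃ a b : ℕ, (4 * a + 6 * b : ℤ) = w ∧ m = x ^ a * y ^ b}) :
    ∀ (w : ℤ), ∀ a ∈ A w, ∃ a' ∈ A (w - 4), ∃ (l : 𝕜) (n : ℕ),
      a = x * a' + l • y ^ n ∧ (l ≠ 0 → (6 * n : ℤ) = w) := by
  intro w a ha
  rw [hA w] at ha
  induction ha using Submodule.span_induction with
  | mem m hm =>
    obtain ⟨i, b, hw, rfl⟩ := hm
    rcases Nat.eq_zero_or_pos i with hi | hi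
    · subst hi
      refine ⟨0, Submodule.zero_mem _, 1, b, by simp, fun _ => ?_⟩
      rw [← hw]; push_cast; ring
    · refine ⟨x ^ (i - 1) * y ^ b, ?_, 0, 0, ?_, fun h => absurd rfl h⟩
      · rw [hA (w - 4)]
        apply Submodule.subset_span
        refine ⟨i - 1, b, ?_, rfl⟩
        have : ((i - 1 : ℕ) : ℤ) = (i : ℤ) - 1 := by omega
        rw [this, ← hw]; ring
      · rw [zero_smul, add_zero, ← mul_assoc, ← pow_succ']
        congr 2
        omega
  | zero => exact ⟨0, Submodule.zero_mem _, 0, 0, by simp, fun h => absurd rfl h⟩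
  | add u v _ _ hu hv =>
    obtain ⟨u', hu', lu, nu, hu1, hu2⟩ := hu
    obtain ⟨v', hv', lv, nv, hv1, hv2⟩ := hv
    by_cases hlu : lu = 0
    · refine ⟨u' + v', Submodule.add_mem _ hu' hv', lv, nv, ?_, hv2⟩
      rw [hu1, hv1, hlu, zero_smul]; ring
    · by_cases hlv : lv = 0
      · refine ⟨u' + v', Submodule.add_mem _ hu' hv', lu, nu, ?_, hu2⟩
        rw [hu1, hv1, hlv, zero_smul]; ring
      · have hn : nu = nv := by
          have h1 := hu2 hlu
          have h2 := hv2 hlv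
          omega
        subst hn
        refine ⟨u' + v', Submodule.add_mem _ hu' hv', lu + lv, nu, ?_, fun _ => hu2 hlu⟩
        rw [hu1, hv1, add_smul]; ring
  | smul t u _ hu =>
    obtain ⟨u', hu', lu, nu, hu1, hu2⟩ := hu
    refine ⟨t • u', Submodule.smul_mem _ _ hu', t * lu, nu, ?_, fun h => hu2 ?_⟩
    · rw [hu1, smul_add, mul_smul_comm, mul_smul]
    · intro h0
      apply h
      rw [h0, mul_zero]

end GradedFree

end Fermat.Agent.S20
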