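import Mathlib
import Fermat.Agent.S20.Defs

set_option autoImplicit false

/-!
# Project S20 : the row REGULAR

Products with level-one forms, the regular-sequence / division lemma for `E₄, E₆`
(if `E₆ f = E₄ g` then `f / E₄ = g / E₆` is a modular form), and division by `Δ`
(a form all of whose conjugates decay like `exp (-2π im τ)` is `Δ` times a form).
Everything is phrased in the `Mfun / Sfun / Lfun` language of `Defs.lean`.
-/

namespace Fermat.Agent.S20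

open UpperHalfPlane CongruenceSubgroup ModularForm Filter Topology Asymptotics
open scoped MatrixGroups ModularForm Manifold Real

/-! ### level-one forms as elements of `Lfun` -/

/-- A bundled level-one modular form lies in `Lfun`. -/
theorem h77_coe_mem_Lfun {l : ℤ} (F : ModularForm 𝒮ℒ l) : (F : ℍ → ℂ) ∈ Lfun l :=
  ⟨ModularFormClass.holo F,
    fun γ => SlashInvariantFormClass.slash_action_eq F (γ : GL (Fin 2) ℝ) ⟨γ, rfl⟩,
    ModularFormClass.bdd_at_infty F⟩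

theorem h77_E4_mem_Lfun : (E₄ : ℍ → ℂ) ∈ Lfun 4 := h77_coe_mem_Lfun E₄

theorem h77_E6_mem_Lfun : (E₆ : ℍ → ℂ) ∈ Lfun 6 := h77_coe_mem_Lfun E₆

theorem h77_discriminant_slash (γ : SL(2, ℤ)) :
    (discriminant : ℍ → ℂ) ∣[(12 : ℤ)] γ = discriminant :=
  SlashInvariantFormClass.slash_action_eq CuspForm.discriminant (γ : GL (Fin 2) ℝ) ⟨γ, rfl⟩

theorem h77_discriminant_mdiff : MDiff (discriminant : ℍ → ℂ) := CuspForm.discriminant.holo'

theorem h77_discriminant_mem_Lfun : (discriminant : ℍ → ℂ) ∈ Lfun 12 :=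
  ⟨h77_discriminant_mdiff, h77_discriminant_slash,
    discriminant_isZeroAtImInfty.boundedAtFilter⟩

/-- A level-one modular form tends to the constant coefficient of its `q`-expansion. -/
theorem h77_tendsto_levelOne {k : ℤ} (f : ModularForm 𝒮ℒ k) :
    Tendsto f atImInfty (𝓝 ((qExpansion 1 f).coeff 0)) := by
  have hanal := ModularFormClass.analyticAt_cuspFunction_zero f one_pos one_mem_strictPeriods_SL
  have hper := SlashInvariantFormClass.periodic_comp_ofComplex f one_mem_strictPeriods_SL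
  have h0 : (qExpansion 1 f).coeff 0 = cuspFunction 1 f 0 := by
    rw [qExpansion_coeff_zero one_pos hanal hper, cuspFunction_apply_zero one_pos hanal hper]
  rw [h0]
  exact (hanal.continuousAt.tendsto.comp (qParam_tendsto_atImInfty one_pos)).congr
    (fun τ ↦ SlashInvariantFormClass.eq_cuspFunction f τ one_mem_strictPeriods_SL one_ne_zero)

theorem h77_tendsto_E4 : Tendsto (E₄ : ℍ → ℂ) atImInfty (𝓝 1) := by
  have h := h77_tendsto_levelOne E₄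
  have h1 := EisensteinSeries.E_qExpansion_coeff_zero (k := 4) (by norm_num) ⟨2, rfl⟩
  rwa [show (qExpansion 1 E₄).coeff 0 = 1 from h1] at h

theorem h77_tendsto_E6 : Tendsto (E₆ : ℍ → ℂ) atImInfty (𝓝 1) := by
  have h := h77_tendsto_levelOne E₆
  have h1 := EisensteinSeries.E_qExpansion_coeff_zero (k := 6) (by norm_num) ⟨3, rfl⟩
  rwa [show (qExpansion 1 E₆).coeff 0 = 1 from h1] at h

/-- `E₄` and `E₆` have no common zero. -/
theorem h77_E4_E6_ne_zero (τ : ℍ) : E₄ τ ≠ 0 ∨ E₆ τ ≠ 0 := by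
  by_contra hcon
  rw [not_or, not_not, not_not] at hcon
  have h' := ModularForm.discriminant_eq_E₄_cube_sub_E₆_sq τ
  rw [hcon.1, hcon.2] at h'
  exact ModularForm.discriminant_ne_zero τ (by simpa using h')

/-! ### products -/

/-- (R0) level-one form times a form on `Γ₀(N)`. -/
theorem h77_Lfun_mul_Mfun {N : ℕ} {l k m : ℤ} (hm : m = l + k) {F f : ℍ → ℂ}
    (hF : F ∈ Lfun l) (hf : f ∈ Mfun N k) : F * f ∈ Mfun N m := by
  subst hm
  refine ⟨hF.1.mul hf.1, fun γ hγ => ?_, fun σ => ?_⟩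
  · rw [mul_slash_SL2, hF.2.1 γ, hf.2.1 γ hγ]
  · rw [mul_slash_SL2, hF.2.1 σ]
    exact hF.2.2.mul (hf.2.2 σ)

/-- (R0) level-one form times a cusp form on `Γ₀(N)`. -/
theorem h77_Lfun_mul_Sfun {N : ℕ} {l k m : ℤ} (hm : m = l + k) {F f : ℍ → ℂ}
    (hF : F ∈ Lfun l) (hf : f ∈ Sfun N k) : F * f ∈ Sfun N m := by
  subst hm
  refine ⟨hF.1.mul hf.1, fun γ hγ => ?_, fun σ => ?_⟩
  · rw [mul_slash_SL2, hF.2.1 γ, hf.2.1 γ hγ]
  · rw [mul_slash_SL2, hF.2.1 σ]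
    exact hF.2.2.mul_zeroAtFilter (hf.2.2 σ)

/-- (R0) a level-one form vanishing at `i∞` times a form on `Γ₀(N)` is a cusp form. -/
theorem h77_cuspLfun_mul_Mfun {N : ℕ} {l k m : ℤ} (hm : m = l + k) {F f : ℍ → ℂ}
    (hF : F ∈ Lfun l) (hF0 : IsZeroAtImInfty F) (hf : f ∈ Mfun N k) : F * f ∈ Sfun N m := by
  subst hm
  refine ⟨hF.1.mul hf.1, fun γ hγ => ?_, fun σ => ?_⟩
  · rw [mul_slash_SL2, hF.2.1 γ, hf.2.1 γ hγ]
  · rw [mul_slash_SL2, hF.2.1 σ]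
    exact hF0.mul_boundedAtFilter (hf.2.2 σ)

theorem h77_E4_mul_mem_Mfun {N : ℕ} {k : ℤ} {f : ℍ → ℂ} (hf : f ∈ Mfun N k) :
    (fun τ => E₄ τ * f τ) ∈ Mfun N (k + 4) :=
  h77_Lfun_mul_Mfun (add_comm k 4) h77_E4_mem_Lfun hf

theorem h77_E6_mul_mem_Mfun {N : ℕ} {k : ℤ} {f : ℍ → ℂ} (hf : f ∈ Mfun N k) :
    (fun τ => E₆ τ * f τ) ∈ Mfun N (k + 6) :=
  h77_Lfun_mul_Mfun (add_comm k 6) h77_E6_mem_Lfun hf

theorem h77_E4_mul_mem_Sfun {N : ℕ} {k : ℤ} {f : ℍ → ℂ} (hf : f ∈ Sfun N k) :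
    (fun τ => E₄ τ * f τ) ∈ Sfun N (k + 4) :=
  h77_Lfun_mul_Sfun (add_comm k 4) h77_E4_mem_Lfun hf

theorem h77_E6_mul_mem_Sfun {N : ℕ} {k : ℤ} {f : ℍ → ℂ} (hf : f ∈ Sfun N k) :
    (fun τ => E₆ τ * f τ) ∈ Sfun N (k + 6) :=
  h77_Lfun_mul_Sfun (add_comm k 6) h77_E6_mem_Lfun hf

theorem h77_discriminant_mul_mem_Sfun {N : ℕ} {k : ℤ} {f : ℍ → ℂ} (hf : f ∈ Mfun N k) :
    (fun τ => discriminant τ * f τ) ∈ Sfun N (k + 12) :=
  h77_cuspLfun_mul_Mfun (add_comm k 12) h77_discriminant_mem_Lfun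
    discriminant_isZeroAtImInfty hf

/-! ### the division lemma -/

/-- Holomorphic core of the division lemma: if `A, B` have no common zero and `B f = A g`
then `f / A = g / B` extends to a holomorphic function `u`. -/
theorem h77_div_core {A B f g : ℍ → ℂ} (hA : MDiff A) (hB : MDiff B) (hf : MDiff f)
    (hg : MDiff g) (h0 : ∀ τ, A τ ≠ 0 ∨ B τ ≠ 0) (h : ∀ τ, B τ * f τ = A τ * g τ) :
    ∃ u : ℍ → ℂ, MDiff u ∧ (∀ τ, f τ = A τ * u τ) ∧ (∀ τ, g τ = B τ * u τ) := by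
  classical
  let u : ℍ → ℂ := fun τ => if A τ = 0 then g τ / B τ else f τ / A τ
  have hu1 : ∀ τ, f τ = A τ * u τ := by
    intro τ
    by_cases hAτ : A τ = 0
    · have hBτ : B τ ≠ 0 := (h0 τ).resolve_left (not_not.mpr hAτ)
      have := h τ
      rw [hAτ, zero_mul] at this
      rw [hAτ, zero_mul]
      exact (mul_eq_zero.mp this).resolve_left hBτ
    · simp only [u, if_neg hAτ]
      field_simp
  have hu2 : ∀ τ, g τ = B τ * u τ := by
    intro τ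
    by_cases hAτ : A τ = 0
    · have hBτ : B τ ≠ 0 := (h0 τ).resolve_left (not_not.mpr hAτ)
      simp only [u, if_pos hAτ]
      field_simp
    · simp only [u, if_neg hAτ]
      have := h τ
      field_simp
      linear_combination -this
  refine ⟨u, ?_, hu1, hu2⟩
  intro τ
  rw [mdifferentiableAt_iff]
  have hAd := mdifferentiableAt_iff.mp (hA τ)
  have hBd := mdifferentiableAt_iff.mp (hB τ)
  have hfd := mdifferentiableAt_iff.mp (hf τ)
  have hgd := mdifferentiableAt_iff.mp (hg τ)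
  rcases h0 τ with hAτ | hBτ
  · have hne : (A ∘ ofComplex) (τ : ℂ) ≠ 0 := by simpa using hAτ
    have hev : ∀ᶠ z in 𝓝 (τ : ℂ), (A ∘ ofComplex) z ≠ 0 :=
      hAd.continuousAt.eventually_ne hne
    refine (hfd.div hAd hne).congr_of_eventuallyEq ?_
    filter_upwards [hev] with z hz
    have := hu1 (ofComplex z)
    simp only [Function.comp_apply, Pi.div_apply] at hz ⊢
    rw [this]
    field_simp
  · have hne : (B ∘ ofComplex) (τ : ℂ) ≠ 0 := by simpa using hBτ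
    have hev : ∀ᶠ z in 𝓝 (τ : ℂ), (B ∘ ofComplex) z ≠ 0 :=
      hBd.continuousAt.eventually_ne hne
    refine (hgd.div hBd hne).congr_of_eventuallyEq ?_
    filter_upwards [hev] with z hz
    have := hu2 (ofComplex z)
    simp only [Function.comp_apply, Pi.div_apply] at hz ⊢
    rw [this]
    field_simp

/-- Cancelling a level-one factor in a slash: if `f = A * u` with `A ∣[a] γ = A`, then
`f ∣[k + a] γ = A * (u ∣[k] γ)`. -/
theorem h77_slash_factor {a k ka : ℤ} (hka : ka = k + a) {A u f : ℍ → ℂ} (γ : SL(2, ℤ))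
    (hAγ : A ∣[a] γ = A) (hfu : ∀ τ, f τ = A τ * u τ) : f ∣[ka] γ = A * (u ∣[k] γ) := by
  subst hka
  have : f = A * u := funext hfu
  rw [this, add_comm k a, mul_slash_SL2, hAγ]

/-- (R1), general form: `A ∈ Lfun a`, `B ∈ Lfun b` without common zeros, `A` with a nonzero
limit at `i∞`; if `B f = A g` with `f ∈ M_{k+a}(Γ₀(N))`, `g ∈ M_{k+b}(Γ₀(N))`, then
`f = A u`, `g = B u` with `u ∈ M_k(Γ₀(N))`. -/
theorem h77_div_pair_Mfun {N : ℕ} {a b k ka kb : ℤ} (hka : ka = k + a) (hkb : kb = k + b)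
    {A B f g : ℍ → ℂ} (hA : A ∈ Lfun a) (hB : B ∈ Lfun b) (h0 : ∀ τ, A τ ≠ 0 ∨ B τ ≠ 0)
    (hAinf : ∃ c : ℂ, c ≠ 0 ∧ Tendsto A atImInfty (𝓝 c))
    (hf : f ∈ Mfun N ka) (hg : g ∈ Mfun N kb) (h : ∀ τ, B τ * f τ = A τ * g τ) :
    ∃ u ∈ Mfun N k, (∀ τ, f τ = A τ * u τ) ∧ (∀ τ, g τ = B τ * u τ) := by
  obtain ⟨u, hu, hu1, hu2⟩ := h77_div_core hA.1 hB.1 hf.1 hg.1 h0 h
  refine ⟨u, ⟨hu, fun γ hγ => ?_, fun σ => ?_⟩, hu1, hu2⟩
  · have e1 := h77_slash_factor hka γ (hA.2.1 γ) hu1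
    have e2 := h77_slash_factor hkb γ (hB.2.1 γ) hu2
    rw [hf.2.1 γ hγ] at e1
    rw [hg.2.1 γ hγ] at e2
    funext τ
    have e1τ := congrFun e1 τ
    have e2τ := congrFun e2 τ
    rw [Pi.mul_apply] at e1τ e2τ
    rcases h0 τ with hAτ | hBτ
    · exact (mul_left_cancel₀ hAτ ((hu1 τ).symm.trans e1τ)).symm
    · exact (mul_left_cancel₀ hBτ ((hu2 τ).symm.trans e2τ)).symm
  · obtain ⟨c, hc, hAc⟩ := hAinf
    have e1 := h77_slash_factor hka σ (hA.2.1 σ) hu1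
    have hbd := hf.2.2 σ
    have hev : ∀ᶠ τ in atImInfty, A τ ≠ 0 := hAc.eventually_ne hc
    have hinv : IsBoundedAtImInfty (fun τ => (A τ)⁻¹) :=
      (hAc.inv₀ hc).isBigO_one ℝ
    have hprod : IsBoundedAtImInfty ((f ∣[ka] σ) * fun τ => (A τ)⁻¹) := hbd.mul hinv
    refine hprod.congr' ?_ EventuallyEq.rfl
    filter_upwards [hev] with τ hτ
    rw [e1]
    simp only [Pi.mul_apply]
    field_simp

/-- (R1) for cusp forms, general form. -/
theorem h77_div_pair_Sfun {N : ℕ} {a b k ka kb : ℤ} (hka : ka = k + a) (hkb : kb = k + b)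
    {A B f g : ℍ → ℂ} (hA : A ∈ Lfun a) (hB : B ∈ Lfun b) (h0 : ∀ τ, A τ ≠ 0 ∨ B τ ≠ 0)
    (hAinf : ∃ c : ℂ, c ≠ 0 ∧ Tendsto A atImInfty (𝓝 c))
    (hf : f ∈ Sfun N ka) (hg : g ∈ Sfun N kb) (h : ∀ τ, B τ * f τ = A τ * g τ) :
    ∃ u ∈ Sfun N k, (∀ τ, f τ = A τ * u τ) ∧ (∀ τ, g τ = B τ * u τ) := by
  obtain ⟨u, hu, hu1, hu2⟩ := h77_div_pair_Mfun hka hkb hA hB h0 hAinf
    (Sfun_le_Mfun N ka hf) (Sfun_le_Mfun N kb hg) h
  refine ⟨u, ⟨hu.1, hu.2.1, fun σ => ?_⟩, hu1, hu2⟩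
  obtain ⟨c, hc, hAc⟩ := hAinf
  have e1 := h77_slash_factor hka σ (hA.2.1 σ) hu1
  have hz : Tendsto (f ∣[ka] σ) atImInfty (𝓝 0) := hf.2.2 σ
  have hev : ∀ᶠ τ in atImInfty, A τ ≠ 0 := hAc.eventually_ne hc
  have hprod : Tendsto (fun τ => (f ∣[ka] σ) τ * (A τ)⁻¹) atImInfty (𝓝 0) := by
    simpa using hz.mul (hAc.inv₀ hc)
  refine hprod.congr' ?_
  filter_upwards [hev] with τ hτ
  rw [e1]
  simp only [Pi.mul_apply]
  field_simp

/-- (R1) REGULAR SEQUENCE `E₄, E₆` on `⨁ M_k(Γ₀(N))`: if `E₆ f = E₄ g` then `f = E₄ u` and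
`g = E₆ u` for a form `u` of weight `k`. -/
theorem h77_regular_Mfun {N : ℕ} {k kf kg : ℤ} (hkf : kf = k + 4) (hkg : kg = k + 6)
    {f g : ℍ → ℂ} (hf : f ∈ Mfun N kf) (hg : g ∈ Mfun N kg)
    (h : ∀ τ, E₆ τ * f τ = E₄ τ * g τ) :
    ∃ u ∈ Mfun N k, (∀ τ, f τ = E₄ τ * u τ) ∧ (∀ τ, g τ = E₆ τ * u τ) :=
  h77_div_pair_Mfun hkf hkg h77_E4_mem_Lfun h77_E6_mem_Lfun h77_E4_E6_ne_zero
    ⟨1, one_ne_zero, h77_tendsto_E4⟩ hf hg h

/-- (R1) REGULAR SEQUENCE `E₄, E₆` on `⨁ S_k(Γ₀(N))`. -/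
theorem h77_regular_Sfun {N : ℕ} {k kf kg : ℤ} (hkf : kf = k + 4) (hkg : kg = k + 6)
    {f g : ℍ → ℂ} (hf : f ∈ Sfun N kf) (hg : g ∈ Sfun N kg)
    (h : ∀ τ, E₆ τ * f τ = E₄ τ * g τ) :
    ∃ u ∈ Sfun N k, (∀ τ, f τ = E₄ τ * u τ) ∧ (∀ τ, g τ = E₆ τ * u τ) :=
  h77_div_pair_Sfun hkf hkg h77_E4_mem_Lfun h77_E6_mem_Lfun h77_E4_E6_ne_zero
    ⟨1, one_ne_zero, h77_tendsto_E4⟩ hf hg h

/-! ### injectivity of multiplication -/

theorem h77_E4_mul_injective {u v : ℍ → ℂ} (h : ∀ τ, E₄ τ * u τ = E₄ τ * v τ)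
    (hu : MDiff u) (hv : MDiff v) : u = v := by
  have hfrm : ∀ τ, (E₄ τ) * (u τ - v τ) = 0 := fun τ => by rw [mul_sub, h τ, sub_self]
  have h2 : (E₄ : ℍ → ℂ) * (u - v) = 0 := funext hfrm
  have hE : (E₄ : ℍ → ℂ) ≠ 0 := by
    intro h0
    have h1 : ∀ᶠ τ in atImInfty, E₄ τ ≠ 0 := h77_tendsto_E4.eventually_ne one_ne_zero
    obtain ⟨τ, hτ⟩ := h1.exists
    exact hτ (congrFun h0 τ)
  rcases (UpperHalfPlane.mul_eq_zero_iff (ModularFormClass.holo E₄) (hu.sub hv)).mp h2 with h3 | h3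
  · exact absurd h3 hE
  · exact sub_eq_zero.mp h3

theorem h77_E6_mul_injective {u v : ℍ → ℂ} (h : ∀ τ, E₆ τ * u τ = E₆ τ * v τ)
    (hu : MDiff u) (hv : MDiff v) : u = v := by
  have hfrm : ∀ τ, (E₆ τ) * (u τ - v τ) = 0 := fun τ => by rw [mul_sub, h τ, sub_self]
  have h2 : (E₆ : ℍ → ℂ) * (u - v) = 0 := funext hfrm
  have hE : (E₆ : ℍ → ℂ) ≠ 0 := by
    intro h0
    have h1 : ∀ᶠ τ in atImInfty, E₆ τ ≠ 0 := h77_tendsto_E6.eventually_ne one_ne_zero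
    obtain ⟨τ, hτ⟩ := h1.exists
    exact hτ (congrFun h0 τ)
  rcases (UpperHalfPlane.mul_eq_zero_iff (ModularFormClass.holo E₆) (hu.sub hv)).mp h2 with h3 | h3
  · exact absurd h3 hE
  · exact sub_eq_zero.mp h3

theorem h77_discriminant_mul_injective {u v : ℍ → ℂ}
    (h : ∀ τ, discriminant τ * u τ = discriminant τ * v τ) : u = v :=
  funext fun τ => mul_left_cancel₀ (discriminant_ne_zero τ) (h τ)

/-! ### division by `Δ` -/

/-- `Δ = O(exp (-2π im τ))` at `i∞`. -/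
theorem h77_discriminant_isBigO :
    (discriminant : ℍ → ℂ) =O[atImInfty] fun τ => Real.exp (-2 * π * τ.im) := by
  have h := CuspFormClass.exp_decay_atImInfty (h := 1) CuspForm.discriminant one_pos
    one_mem_strictPeriods_SL
  simpa using h

/-- (R2) DIVISION BY `Δ`: a form on `Γ₀(N)` all of whose `SL(2,ℤ)`-translates are
`O(exp (-2π im τ))` at `i∞` is `Δ` times a form of weight `k - 12`. -/
theorem h77_div_discriminant_Mfun {N : ℕ} {k m : ℤ} (hm : k = m + 12) {f : ℍ → ℂ}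
    (hf : f ∈ Mfun N k)
    (hdecay : ∀ σ : SL(2, ℤ), (f ∣[k] σ) =O[atImInfty] fun τ => Real.exp (-2 * π * τ.im)) :
    ∃ u ∈ Mfun N m, ∀ τ, f τ = discriminant τ * u τ := by
  have hu1 : ∀ τ, f τ = discriminant τ * (f τ / discriminant τ) := fun τ => by
    have := discriminant_ne_zero τ
    field_simp
  refine ⟨fun τ => f τ / discriminant τ,
    ⟨hf.1.div h77_discriminant_mdiff discriminant_ne_zero, fun γ hγ => ?_, fun σ => ?_⟩, hu1⟩
  · have e1 := h77_slash_factor hm γ (h77_discriminant_slash γ) hu1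
    rw [hf.2.1 γ hγ] at e1
    funext τ
    have e1τ := congrFun e1 τ
    rw [Pi.mul_apply] at e1τ
    exact (mul_left_cancel₀ (discriminant_ne_zero τ) ((hu1 τ).symm.trans e1τ)).symm
  · have e1 := h77_slash_factor hm σ (h77_discriminant_slash σ) hu1
    have hO : (f ∣[k] σ) =O[atImInfty] (discriminant : ℍ → ℂ) :=
      (hdecay σ).trans exp_isBigO_discriminant
    have hO2 : (fun τ => (f ∣[k] σ) τ * (discriminant τ)⁻¹) =O[atImInfty]
        (fun τ => discriminant τ * (discriminant τ)⁻¹) :=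
      hO.mul (isBigO_refl _ _)
    have hO3 : (fun τ => (f ∣[k] σ) τ * (discriminant τ)⁻¹) =O[atImInfty] (1 : ℍ → ℝ) := by
      refine hO2.trans (IsBigO.of_bound 1 (Eventually.of_forall fun τ => ?_))
      rw [mul_inv_cancel₀ (discriminant_ne_zero τ)]
      simp
    refine hO3.congr_left fun τ => ?_
    rw [e1]
    have := discriminant_ne_zero τ
    simp only [Pi.mul_apply]
    field_simp

/-- Converse of (R2): the translates of `Δ * u` are `O(exp (-2π im τ))`. -/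
theorem h77_discriminant_mul_decay {N : ℕ} {k m : ℤ} (hm : k = m + 12) {u : ℍ → ℂ}
    (hu : u ∈ Mfun N m) (σ : SL(2, ℤ)) :
    ((fun τ => discriminant τ * u τ) ∣[k] σ) =O[atImInfty]
      fun τ => Real.exp (-2 * π * τ.im) := by
  have e1 := h77_slash_factor (f := fun τ => discriminant τ * u τ) hm σ
    (h77_discriminant_slash σ) (fun τ => rfl)
  rw [e1]
  have h1 := h77_discriminant_isBigO.mul (hu.2.2 σ)
  refine h1.congr (fun τ => rfl) (fun τ => ?_)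
  simp

/-- (R2) for cusp forms: if all translates are `o(exp (-2π im τ))` then `f = Δ u` with `u`
a cusp form of weight `k - 12`. -/
theorem h77_div_discriminant_Sfun {N : ℕ} {k m : ℤ} (hm : k = m + 12) {f : ℍ → ℂ}
    (hf : f ∈ Mfun N k)
    (hdecay : ∀ σ : SL(2, ℤ), (f ∣[k] σ) =o[atImInfty] fun τ => Real.exp (-2 * π * τ.im)) :
    ∃ u ∈ Sfun N m, ∀ τ, f τ = discriminant τ * u τ := by
  obtain ⟨u, hu, hu1⟩ := h77_div_discriminant_Mfun hm hf (fun σ => (hdecay σ).isBigO)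
  refine ⟨u, ⟨hu.1, hu.2.1, fun σ => ?_⟩, hu1⟩
  have e1 := h77_slash_factor hm σ (h77_discriminant_slash σ) hu1
  have hO : (f ∣[k] σ) =o[atImInfty] (discriminant : ℍ → ℂ) :=
    (hdecay σ).trans_isBigO exp_isBigO_discriminant
  have hO2 : (fun τ => (f ∣[k] σ) τ * (discriminant τ)⁻¹) =o[atImInfty]
      (fun τ => discriminant τ * (discriminant τ)⁻¹) :=
    hO.mul_isBigO (isBigO_refl _ _)
  have hO3 : (fun τ => (f ∣[k] σ) τ * (discriminant τ)⁻¹) =o[atImInfty] (fun _ : ℍ => (1 : ℂ)) := by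
    refine hO2.congr_right fun τ => ?_
    rw [mul_inv_cancel₀ (discriminant_ne_zero τ)]
  have hz : Tendsto (fun τ => (f ∣[k] σ) τ * (discriminant τ)⁻¹) atImInfty (𝓝 0) :=
    (isLittleO_one_iff ℂ).mp hO3
  refine hz.congr fun τ => ?_
  rw [e1]
  have := discriminant_ne_zero τ
  simp only [Pi.mul_apply]
  field_simp

/-! ### Koszul exactness -/

/-- Koszul exactness for `E₄, E₆` on `⨁ M_k(Γ₀(N))`: a relation `E₄ a + E₆ b = 0` is
`(a, b) = (-E₆ c, E₄ c)`. -/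
theorem h77_koszul_Mfun {N : ℕ} {k ka kb : ℤ} (hka : ka = k + 6) (hkb : kb = k + 4)
    {a b : ℍ → ℂ} (ha : a ∈ Mfun N ka) (hb : b ∈ Mfun N kb)
    (h : ∀ τ, E₄ τ * a τ + E₆ τ * b τ = 0) :
    ∃ c ∈ Mfun N k, (∀ τ, a τ = -(E₆ τ * c τ)) ∧ (∀ τ, b τ = E₄ τ * c τ) := by
  obtain ⟨u, hu, hu1, hu2⟩ := h77_regular_Mfun (f := b) (g := -a) hkb hka hb
    ((Mfun N ka).neg_mem ha) (fun τ => by
      simp only [Pi.neg_apply]
      linear_combination h τ)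
  exact ⟨u, hu, fun τ => by rw [← hu2 τ]; simp, hu1⟩

/-- Koszul exactness for `E₄, E₆` on `⨁ S_k(Γ₀(N))`. -/
theorem h77_koszul_Sfun {N : ℕ} {k ka kb : ℤ} (hka : ka = k + 6) (hkb : kb = k + 4)
    {a b : ℍ → ℂ} (ha : a ∈ Sfun N ka) (hb : b ∈ Sfun N kb)
    (h : ∀ τ, E₄ τ * a τ + E₆ τ * b τ = 0) :
    ∃ c ∈ Sfun N k, (∀ τ, a τ = -(E₆ τ * c τ)) ∧ (∀ τ, b τ = E₄ τ * c τ) := by
  obtain ⟨u, hu, hu1, hu2⟩ := h77_regular_Sfun (f := b) (g := -a) hkb hka hb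
    ((Sfun N ka).neg_mem ha) (fun τ => by
      simp only [Pi.neg_apply]
      linear_combination h τ)
  exact ⟨u, hu, fun τ => by rw [← hu2 τ]; simp, hu1⟩

end Fermat.Agent.S20
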