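import Mathlib
import Fermat.Agent.S20.Defs2
import Fermat.Agent.S20.h38_GradedFree
import Fermat.Agent.S20.h77_Regular
import Fermat.Agent.S20.h84_Bridge

set_option autoImplicit false

/-!
# Project S20 : the row GENS

`⨁ M_k(Γ₀(N))` has a family of homogeneous free generators over the ring of level-one forms
(`IsGenFamily`).  Instantiation of the abstract free-graded-module theorem `h38_GradedFree` with
`S = Mfun N`, `A = Lfun`, `x = E₄`, `y = E₆`; the regular-sequence inputs are helper77's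
`h77_Regular`, the bridges are helper84's `h84_Bridge`, and the level-one decomposition
`a = E₄ * a' + l • E₆ ^ n` is proved here (`h38_hdec_Lfun`).
-/

namespace Fermat.Agent.S20

open UpperHalfPlane CongruenceSubgroup ModularForm Filter Topology
open scoped MatrixGroups ModularForm Manifold

local notation "Δ" => ModularForm.discriminant

/-! ### closure properties of `Lfun` -/

theorem h38_Lfun_cast {l l' : ℤ} (h : l = l') {F : ℍ → ℂ} (hF : F ∈ Lfun l) : F ∈ Lfun l' :=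
  h ▸ hF

theorem h38_one_mem_Lfun : (1 : ℍ → ℂ) ∈ Lfun 0 := by
  refine ⟨?_, fun γ => ?_, ?_⟩
  · exact (mdifferentiable_const : MDiff (fun _ : ℍ => (1 : ℂ)))
  · simp [SL_slash]
  · exact Filter.const_boundedAtFilter _ (1 : ℂ)

theorem h38_Lfun_mul {l l' : ℤ} {F G : ℍ → ℂ} (hF : F ∈ Lfun l) (hG : G ∈ Lfun l') :
    F * G ∈ Lfun (l + l') := by
  refine ⟨hF.1.mul hG.1, fun γ => ?_, hF.2.2.mul hG.2.2⟩
  rw [mul_slash_SL2, hF.2.1 γ, hG.2.1 γ]

theorem h38_Lfun_pow {l : ℤ} {F : ℍ → ℂ} (hF : F ∈ Lfun l) (n : ℕ) : F ^ n ∈ Lfun (n * l) := by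
  induction n with
  | zero => simpa using h38_one_mem_Lfun
  | succ n ih =>
    rw [pow_succ]
    exact h38_Lfun_cast (by push_cast; ring) (h38_Lfun_mul ih hF)

theorem h38_mono_mem (x y : ℕ) :
    (⇑E₄ : ℍ → ℂ) ^ x * (⇑E₆ : ℍ → ℂ) ^ y ∈ Lfun (4 * x + 6 * y) :=
  h38_Lfun_cast (by ring)
    (h38_Lfun_mul (h38_Lfun_pow h77_E4_mem_Lfun x) (h38_Lfun_pow h77_E6_mem_Lfun y))

theorem h38_Lfun_eq_bot_of_neg {l : ℤ} (hl : l < 0) : Lfun l = ⊥ := by
  rw [eq_bot_iff]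
  intro F hF
  obtain ⟨G, rfl⟩ := h84_exists_levelOne hF
  rw [Submodule.mem_bot]
  exact ModularFormClass.levelOne_neg_weight_eq_zero hl G

theorem h38_Mfun_eq_bot_of_neg (N : ℕ) [NeZero N] {k : ℤ} (hk : k < 0) : Mfun N k = ⊥ := by
  rw [eq_bot_iff]
  intro f hf
  obtain ⟨F, rfl⟩ := h84_exists_modularForm hf
  rw [Submodule.mem_bot, ModularForm.isZero_of_neg_weight hk F]
  rfl

theorem h38_coeff_zero_of_tendsto {w : ℤ} (u : ModularForm 𝒮ℒ w) {c : ℂ}
    (h : Tendsto (u : ℍ → ℂ) atImInfty (𝓝 c)) : (qExpansion 1 u).coeff 0 = c :=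
  tendsto_nhds_unique (h77_tendsto_levelOne u) h

/-! ### the level-one decomposition `a = E₄ * a' + l • E₆ ^ n` -/

/-- One step: subtract the constant term times a monomial and divide by `Δ`. -/
theorem h38_step {w : ℤ} (G : ModularForm 𝒮ℒ w) (x y : ℕ) (hxy : (4 * x + 6 * y : ℤ) = w)
    (ih : ∀ a ∈ Lfun (w - 12), ∃ a' ∈ Lfun (w - 12 - 4), ∃ (l : ℂ) (n : ℕ),
      a = (⇑E₄ : ℍ → ℂ) * a' + l • (⇑E₆ : ℍ → ℂ) ^ n ∧ (l ≠ 0 → (6 * n : ℤ) = w - 12)) :
    ∃ (a₀ : ℂ) (c' : ℍ → ℂ) (l' : ℂ) (n' : ℕ), c' ∈ Lfun (w - 12 - 4) ∧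
      (l' ≠ 0 → (6 * n' : ℤ) = w - 12) ∧
      ∀ τ, G τ = a₀ * (E₄ τ ^ x * E₆ τ ^ y) + Δ τ * (E₄ τ * c' τ + l' * E₆ τ ^ n') := by
  have hmono := h38_Lfun_cast hxy (h38_mono_mem x y)
  obtain ⟨M, hM⟩ := h84_exists_levelOne hmono
  have hM' : ∀ τ, M τ = E₄ τ ^ x * E₆ τ ^ y := fun τ => by
    have := congrFun hM τ
    simpa using this
  have hM1 : (qExpansion 1 M).coeff 0 = 1 := by
    apply h38_coeff_zero_of_tendsto
    have h := (h77_tendsto_E4.pow x).mul (h77_tendsto_E6.pow y)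
    simp only [one_pow, mul_one] at h
    exact h.congr fun τ => (hM' τ).symm
  obtain ⟨g, hg⟩ := ModularForm.sub_smul_isCuspForm G M hM1
  have hg' : ∀ τ, g τ = G τ - (qExpansion 1 G).coeff 0 * M τ := fun τ => by
    have := DFunLike.congr_fun hg τ
    simpa using this
  set c : ModularForm 𝒮ℒ (w - 12) := CuspForm.discriminantEquiv g with hcdef
  have hc : ∀ τ, Δ τ * c τ = g τ := fun τ => discriminant_mul_discriminantEquiv_apply g τ
  obtain ⟨c', hc', l', n', hdec, hl'⟩ := ih (⇑c) (h84_coe_mem_Lfun c)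
  refine ⟨(qExpansion 1 G).coeff 0, c', l', n', hc', hl', fun τ => ?_⟩
  have h1 := hg' τ
  have h2 := hc τ
  have h3 := congrFun hdec τ
  have h4 := hM' τ
  simp only [Pi.add_apply, Pi.mul_apply, Pi.smul_apply, Pi.pow_apply, smul_eq_mul] at h3
  linear_combination (-1 : ℂ) * h1 - h2 + (qExpansion 1 G).coeff 0 * h4 + Δ τ * h3

theorem h38_hdec_Lfun_aux (m : ℕ) : ∀ w : ℤ, w < m → ∀ a ∈ Lfun w,
    ∃ a' ∈ Lfun (w - 4), ∃ (l : ℂ) (n : ℕ),
      a = (⇑E₄ : ℍ → ℂ) * a' + l • (⇑E₆ : ℍ → ℂ) ^ n ∧ (l ≠ 0 → (6 * n : ℤ) = w) := by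
  induction m with
  | zero =>
    intro w hw a ha
    rw [h38_Lfun_eq_bot_of_neg (by simpa using hw), Submodule.mem_bot] at ha
    exact ⟨0, Submodule.zero_mem _, 0, 0, by simp [ha], fun h => absurd rfl h⟩
  | succ m ih =>
    intro w hw a ha
    by_cases hwm : w < m
    · exact ih w hwm a ha
    have hwe : w = m := by push_cast at hw; omega
    obtain ⟨G, rfl⟩ := h84_exists_levelOne ha
    by_cases hodd : Odd w
    · have hG : G = 0 := ModularForm.levelOne_odd_weight_eq_zero hodd G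
      refine ⟨0, Submodule.zero_mem _, 0, 0, ?_, fun h => absurd rfl h⟩
      rw [hG]
      simp
    have hev : Even w := Int.not_odd_iff_even.mp hodd
    have hevn : Even m := by
      rw [hwe] at hev
      exact_mod_cast hev
    by_cases hw0 : w = 0
    · subst hw0
      obtain ⟨c, hc⟩ := ModularFormClass.levelOne_weight_zero_const G
      refine ⟨0, Submodule.zero_mem _, c, 0, ?_, fun _ => by simp⟩
      rw [hc]
      funext τ
      simp
    by_cases hw2 : w = 2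
    · subst hw2
      have hG : G = 0 := rank_zero_iff_forall_zero.mp levelOne_weight_two_rank_zero G
      refine ⟨0, Submodule.zero_mem _, 0, 0, ?_, fun h => absurd rfl h⟩
      rw [hG]
      simp
    have hm4 : 4 ≤ m := by
      obtain ⟨t, ht⟩ := hevn
      omega
    have ih' : ∀ a ∈ Lfun (w - 12), ∃ a' ∈ Lfun (w - 12 - 4), ∃ (l : ℂ) (n : ℕ),
        a = (⇑E₄ : ℍ → ℂ) * a' + l • (⇑E₆ : ℍ → ℂ) ^ n ∧ (l ≠ 0 → (6 * n : ℤ) = w - 12) :=
      ih (w - 12) (by omega)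
    have hΔmem : (Δ : ℍ → ℂ) ∈ Lfun 12 := h77_discriminant_mem_Lfun
    -- choose the monomial
    have hcases : (∃ y : ℕ, (6 * y : ℤ) = w) ∨
        (∃ x' y : ℕ, x' ≤ 1 ∧ (4 * ((x' + 1 : ℕ) : ℤ) + 6 * y : ℤ) = w) := by
      have h6 : m % 6 = 0 ∨ m % 6 = 2 ∨ m % 6 = 4 := by
        obtain ⟨t, ht⟩ := hevn
        omega
      rcases h6 with h6 | h6 | h6
      · exact Or.inl ⟨m / 6, by omega⟩
      · exact Or.inr ⟨1, (m - 8) / 6, le_refl _, by omega⟩
      · exact Or.inr ⟨0, (m - 4) / 6, by omega, by omega⟩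
    rcases hcases with ⟨y, hy⟩ | ⟨x', y, hx', hxy⟩
    · -- weight divisible by 6: monomial E₆ ^ y
      obtain ⟨a₀, c', l', n', hc', hl', hG⟩ := h38_step G 0 y (by simpa using hy) ih'
      by_cases hl0 : l' = 0
      · refine ⟨Δ * c', h38_Lfun_cast (by ring) (h38_Lfun_mul hΔmem hc'), a₀, y, ?_,
          fun _ => hy⟩
        funext τ
        simp only [Pi.add_apply, Pi.mul_apply, Pi.smul_apply, Pi.pow_apply, smul_eq_mul]
        rw [hG τ, hl0]
        ring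
      · have hn' := hl' hl0
        have hyn : y = n' + 2 := by omega
        subst hyn
        refine ⟨Δ * c' + (l' / 1728) • ((⇑E₄ : ℍ → ℂ) ^ 2 * (⇑E₆ : ℍ → ℂ) ^ n'),
          Submodule.add_mem _ (h38_Lfun_cast (by ring) (h38_Lfun_mul hΔmem hc'))
            (Submodule.smul_mem _ _ (h38_Lfun_cast (by push_cast; linarith) (h38_mono_mem 2 n'))),
          a₀ - l' / 1728, n' + 2, ?_, fun _ => hy⟩
        funext τ
        have hΔ := ModularForm.discriminant_eq_E₄_cube_sub_E₆_sq τ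
        simp only [Pi.add_apply, Pi.mul_apply, Pi.smul_apply, Pi.pow_apply, smul_eq_mul]
        rw [hG τ]
        linear_combination (l' * E₆ τ ^ n') * hΔ
    · -- weight not divisible by 6: the monomial is divisible by E₄
      obtain ⟨a₀, c', l', n', hc', hl', hG⟩ := h38_step G (x' + 1) y hxy ih'
      have hl0 : l' = 0 := by
        by_contra h
        have hn' := hl' h
        push_cast at hxy
        omega
      refine ⟨a₀ • ((⇑E₄ : ℍ → ℂ) ^ x' * (⇑E₆ : ℍ → ℂ) ^ y) + Δ * c',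
        Submodule.add_mem _
          (Submodule.smul_mem _ _ (h38_Lfun_cast (by push_cast at hxy ⊢; linarith)
            (h38_mono_mem x' y)))
          (h38_Lfun_cast (by ring) (h38_Lfun_mul hΔmem hc')),
        0, 0, ?_, fun h => absurd rfl h⟩
      funext τ
      simp only [Pi.add_apply, Pi.mul_apply, Pi.smul_apply, Pi.pow_apply, smul_eq_mul]
      rw [hG τ, hl0]
      ring

/-- LEVEL-ONE DECOMPOSITION: every level-one form of weight `w` is `E₄ * a' + l • E₆ ^ n` with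
`a'` of weight `w - 4` (and `6 n = w` when `l ≠ 0`). -/
theorem h38_hdec_Lfun : ∀ (w : ℤ), ∀ a ∈ Lfun w, ∃ a' ∈ Lfun (w - 4), ∃ (l : ℂ) (n : ℕ),
    a = (⇑E₄ : ℍ → ℂ) * a' + l • (⇑E₆ : ℍ → ℂ) ^ n ∧ (l ≠ 0 → (6 * n : ℤ) = w) :=
  fun w a ha => h38_hdec_Lfun_aux (w.toNat + 1) w (by omega) a ha

/-! ### the generating family -/

/-- **GENS**: `⨁ M_k(Γ₀(N))` has a homogeneous family of free generators over the level-one
forms. -/
theorem exists_genFamily (N : ℕ) [NeZero N] :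
    ∃ (J : Type) (w : J → ℤ) (c : J → ℍ → ℂ), IsGenFamily N w c := by
  have hS0 : ∀ k ≤ (-1 : ℤ), Mfun N k = ⊥ := fun k hk => h38_Mfun_eq_bot_of_neg N (by omega)
  have hA0 : ∀ w < (0 : ℤ), Lfun w = ⊥ := fun w hw => h38_Lfun_eq_bot_of_neg hw
  have hAA : ∀ (w w' : ℤ) (a a' : ℍ → ℂ), a ∈ Lfun w → a' ∈ Lfun w' → a * a' ∈ Lfun (w + w') :=
    fun w w' a a' ha ha' => h38_Lfun_mul ha ha'
  have hAS : ∀ (w k : ℤ) (a f : ℍ → ℂ), a ∈ Lfun w → f ∈ Mfun N k → a * f ∈ Mfun N (w + k) :=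
    fun w k a f ha hf => h77_Lfun_mul_Mfun rfl ha hf
  have hxreg : ∀ (k : ℤ), ∀ f ∈ Mfun N k, (⇑E₄ : ℍ → ℂ) * f = 0 → f = 0 := by
    intro k f hf h
    apply h77_E4_mul_injective (v := 0) _ hf.1 (Mfun N k).zero_mem.1
    intro τ
    have := congrFun h τ
    simpa using this
  have hyreg : ∀ (k : ℤ), ∀ f ∈ Mfun N k, ∀ h ∈ Mfun N (k + 2),
      (⇑E₆ : ℍ → ℂ) * f = ⇑E₄ * h → ∃ f' ∈ Mfun N (k - 4), f = ⇑E₄ * f' := by
    intro k f hf h hh e
    obtain ⟨u, hu, hfu, _⟩ := h77_regular_Mfun (k := k - 4) (by ring) (by ring) hf hh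
      (fun τ => congrFun e τ)
    exact ⟨u, hu, funext hfu⟩
  obtain ⟨J, κ, c, hc, hspan, hind, hgen, -⟩ :=
    h38_exists_generators (Mfun N) Lfun (⇑E₄ : ℍ → ℂ) (⇑E₆ : ℍ → ℂ) (-1) hS0 hA0
      h38_one_mem_Lfun h77_E4_mem_Lfun h77_E6_mem_Lfun hAA hAS h38_hdec_Lfun hxreg hyreg
  refine ⟨J, κ, c, hc, ?_, ?_⟩
  · intro K f hf
    obtain ⟨a, ha, hfa⟩ := hgen K f hf
    exact ⟨a.support, a, fun j _ => ha j, hfa⟩
  · intro K s a ha hrel
    exact h38_free_finset (Mfun N) Lfun (⇑E₄ : ℍ → ℂ) (⇑E₆ : ℍ → ℂ) (-1) hS0 hA0 hAS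
      h77_E6_mem_Lfun h38_hdec_Lfun hxreg hyreg κ c hc (h38_hind_finset κ c hind)
      (K + 1).toNat K (by have := Int.self_le_toNat (K + 1); linarith) s a ha hrel

end Fermat.Agent.S20
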