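import Mathlib
import Fermat.Agent.S20.Defs
import Fermat.Agent.S20.h77_Regular
import Fermat.Agent.S20.h84_Bridge

set_option autoImplicit false

/-!
# Project S20 : row REGULAR in the exact target shape of the task table

Thin wrappers around `h77_Regular.lean` (mathematics) and `h84_Bridge.lean` (conjugates).
-/

namespace Fermat.Agent.S20

open UpperHalfPlane CongruenceSubgroup ModularForm Filter Topology Asymptotics
open scoped MatrixGroups ModularForm Manifold Real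

/-- Multiplication by a nonzero level-one form is injective on holomorphic functions. -/
theorem Lfun_mul_left_cancel {l : ℤ} {F : ℍ → ℂ} (hF : F ∈ Lfun l) (hF0 : F ≠ 0)
    {f g : ℍ → ℂ} (hf : MDiff f) (hg : MDiff g) (h : F * f = F * g) : f = g := by
  have h2 : F * (f - g) = 0 := by rw [mul_sub, h, sub_self]
  rcases (UpperHalfPlane.mul_eq_zero_iff hF.1 (hf.sub hg)).mp h2 with h3 | h3
  · exact absurd h3 hF0
  · exact sub_eq_zero.mp h3

theorem h77_E4_ne_zero : (⇑E₄ : ℍ → ℂ) ≠ 0 := by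
  intro h0
  have h1 : ∀ᶠ τ in atImInfty, E₄ τ ≠ 0 := h77_tendsto_E4.eventually_ne one_ne_zero
  obtain ⟨τ, hτ⟩ := h1.exists
  exact hτ (congrFun h0 τ)

theorem h77_E6_ne_zero : (⇑E₆ : ℍ → ℂ) ≠ 0 := by
  intro h0
  have h1 : ∀ᶠ τ in atImInfty, E₆ τ ≠ 0 := h77_tendsto_E6.eventually_ne one_ne_zero
  obtain ⟨τ, hτ⟩ := h1.exists
  exact hτ (congrFun h0 τ)

theorem E4_mul_eq_zero {N : ℕ} {k : ℤ} {f : ℍ → ℂ} (hf : f ∈ Mfun N k)
    (h : (⇑E₄ : ℍ → ℂ) * f = 0) : f = 0 := by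
  rcases (UpperHalfPlane.mul_eq_zero_iff h77_E4_mem_Lfun.1 hf.1).mp h with h3 | h3
  · exact absurd h3 h77_E4_ne_zero
  · exact h3

theorem h77_E6_mul_eq_zero {N : ℕ} {k : ℤ} {f : ℍ → ℂ} (hf : f ∈ Mfun N k)
    (h : (⇑E₆ : ℍ → ℂ) * f = 0) : f = 0 := by
  rcases (UpperHalfPlane.mul_eq_zero_iff h77_E6_mem_Lfun.1 hf.1).mp h with h3 | h3
  · exact absurd h3 h77_E6_ne_zero
  · exact h3

/-- REGULAR SEQUENCE: `E₆ f = E₄ h` in `⨁ M_k(Γ₀(N))` implies `E₄ ∣ f`. -/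
theorem regular_E4_E6 (N : ℕ) [NeZero N] {n : ℤ} {f h : ℍ → ℂ} (hf : f ∈ Mfun N n)
    (hh : h ∈ Mfun N (n + 2)) (e : (⇑E₆ : ℍ → ℂ) * f = ⇑E₄ * h) :
    ∃ f' ∈ Mfun N (n - 4), f = ⇑E₄ * f' := by
  obtain ⟨u, hu, hu1, -⟩ := h77_regular_Mfun (k := n - 4) (kf := n) (kg := n + 2)
    (by ring) (by ring) hf hh (fun τ => congrFun e τ)
  exact ⟨u, hu, funext hu1⟩

/-- REGULAR SEQUENCE with both quotients: `E₆ f = E₄ h` implies `f = E₄ u`, `h = E₆ u`. -/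
theorem h77_regular_E4_E6' (N : ℕ) {n : ℤ} {f h : ℍ → ℂ} (hf : f ∈ Mfun N n)
    (hh : h ∈ Mfun N (n + 2)) (e : (⇑E₆ : ℍ → ℂ) * f = ⇑E₄ * h) :
    ∃ u ∈ Mfun N (n - 4), f = ⇑E₄ * u ∧ h = ⇑E₆ * u := by
  obtain ⟨u, hu, hu1, hu2⟩ := h77_regular_Mfun (k := n - 4) (kf := n) (kg := n + 2)
    (by ring) (by ring) hf hh (fun τ => congrFun e τ)
  exact ⟨u, hu, funext hu1, funext hu2⟩

/-- REGULAR SEQUENCE for cusp forms. -/
theorem h77_regular_E4_E6_Sfun (N : ℕ) {n : ℤ} {f h : ℍ → ℂ} (hf : f ∈ Sfun N n)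
    (hh : h ∈ Sfun N (n + 2)) (e : (⇑E₆ : ℍ → ℂ) * f = ⇑E₄ * h) :
    ∃ u ∈ Sfun N (n - 4), f = ⇑E₄ * u ∧ h = ⇑E₆ * u := by
  obtain ⟨u, hu, hu1, hu2⟩ := h77_regular_Sfun (k := n - 4) (kf := n) (kg := n + 2)
    (by ring) (by ring) hf hh (fun τ => congrFun e τ)
  exact ⟨u, hu, funext hu1, funext hu2⟩

/-- Every `SL(2,ℤ)`-translate of a `Γ₀(N)`-invariant function is one of the conjugates `cj`. -/
theorem h77_slash_eq_cj {N : ℕ} {k : ℤ} {f : ℍ → ℂ} (hf : ∀ γ ∈ Gamma0 N, f ∣[k] γ = f)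
    (σ : SL(2, ℤ)) : f ∣[k] σ = cj N k f (QuotientGroup.mk σ⁻¹) := by
  rw [h84_cj_mk hf σ⁻¹, inv_inv]

/-- DIVISION BY `Δ`, hypothesis `O(exp (-2π im τ))` on the conjugates. -/
theorem h77_exists_div_delta_of_isBigO (N : ℕ) {k : ℤ} {f : ℍ → ℂ}
    (hf : f ∈ Mfun N (k + 12))
    (hdec : ∀ q : SL(2, ℤ) ⧸ Gamma0 N,
      cj N (k + 12) f q =O[atImInfty] fun τ : ℍ => Real.exp (-2 * π * τ.im)) :
    ∃ g ∈ Mfun N k, f = discriminant * g := by
  obtain ⟨u, hu, hu1⟩ := h77_div_discriminant_Mfun (N := N) (k := k + 12) (m := k) rfl hf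
    (fun σ => by rw [h77_slash_eq_cj hf.2.1 σ]; exact hdec _)
  exact ⟨u, hu, funext hu1⟩

/-- DIVISION BY `Δ` (row REGULAR): if every conjugate divided by `Δ` is bounded at `i∞`,
then `f = Δ * g` with `g` a form of weight `k`. -/
theorem exists_div_delta (N : ℕ) [NeZero N] {k : ℤ} {f : ℍ → ℂ} (hf : f ∈ Mfun N (k + 12))
    (hdec : ∀ q : SL(2, ℤ) ⧸ Gamma0 N,
      IsBoundedAtImInfty (fun τ => cj N (k + 12) f q τ / discriminant τ)) :
    ∃ g ∈ Mfun N k, f = discriminant * g := by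
  refine h77_exists_div_delta_of_isBigO N hf fun q => ?_
  have h1 := IsBigO.mul (hdec q) h77_discriminant_isBigO
  refine h1.congr (fun τ => ?_) (fun τ => ?_)
  · have := discriminant_ne_zero τ
    field_simp
  · simp

/-- DIVISION BY `Δ` for cusp forms: if every conjugate is `o(exp (-2π im τ))` at `i∞`, then
`f = Δ * g` with `g` a cusp form of weight `k`. -/
theorem h77_exists_div_delta_Sfun_of_isLittleO (N : ℕ) {k : ℤ} {f : ℍ → ℂ}
    (hf : f ∈ Mfun N (k + 12))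
    (hdec : ∀ q : SL(2, ℤ) ⧸ Gamma0 N,
      cj N (k + 12) f q =o[atImInfty] fun τ : ℍ => Real.exp (-2 * π * τ.im)) :
    ∃ g ∈ Sfun N k, f = discriminant * g := by
  obtain ⟨u, hu, hu1⟩ := h77_div_discriminant_Sfun (N := N) (k := k + 12) (m := k) rfl hf
    (fun σ => by rw [h77_slash_eq_cj hf.2.1 σ]; exact hdec _)
  exact ⟨u, hu, funext hu1⟩

/-- DIVISION BY `Δ` for cusp forms: if every conjugate divided by `Δ` tends to `0` at `i∞`,
then `f = Δ * g` with `g` a cusp form of weight `k`. -/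
theorem h77_exists_div_delta_Sfun (N : ℕ) {k : ℤ} {f : ℍ → ℂ} (hf : f ∈ Mfun N (k + 12))
    (hdec : ∀ q : SL(2, ℤ) ⧸ Gamma0 N,
      IsZeroAtImInfty (fun τ => cj N (k + 12) f q τ / discriminant τ)) :
    ∃ g ∈ Sfun N k, f = discriminant * g := by
  refine h77_exists_div_delta_Sfun_of_isLittleO N hf fun q => ?_
  have h0 : (fun τ => cj N (k + 12) f q τ / discriminant τ) =o[atImInfty]
      (fun _ : ℍ => (1 : ℝ)) := (isLittleO_one_iff ℝ).mpr (hdec q)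
  have h1 := h0.mul_isBigO h77_discriminant_isBigO
  refine h1.congr (fun τ => ?_) (fun τ => ?_)
  · have := discriminant_ne_zero τ
    field_simp
  · simp

/-- A level-one form that does not vanish at `i∞` tends to a nonzero limit. -/
theorem h77_Lfun_tendsto_ne_zero {l : ℤ} {F : ℍ → ℂ} (hF : F ∈ Lfun l)
    (hFinf : ¬ IsZeroAtImInfty F) : ∃ c : ℂ, c ≠ 0 ∧ Tendsto F atImInfty (𝓝 c) := by
  obtain ⟨G, rfl⟩ := h84_exists_levelOne hF
  refine ⟨(qExpansion 1 G).coeff 0, fun h0 => hFinf ?_, h77_tendsto_levelOne G⟩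
  have := h77_tendsto_levelOne G
  rw [h0] at this
  exact this

/-- DIVISION BY A LEVEL-ONE FORM not vanishing at `i∞` (row REGULAR): a holomorphic quotient
`G = f / F` of a form on `Γ₀(N)` by such a level-one form is a form on `Γ₀(N)`. -/
theorem div_mem_Mfun (N : ℕ) [NeZero N] {k l : ℤ} {F f G : ℍ → ℂ} (hF : F ∈ Lfun l)
    (hFinf : ¬ IsZeroAtImInfty F) (hf : f ∈ Mfun N (k + l)) (hG : MDiff G) (h : f = F * G) :
    G ∈ Mfun N k := by
  obtain ⟨c, hc, hFc⟩ := h77_Lfun_tendsto_ne_zero hF hFinf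
  have hF0 : F ≠ 0 := by
    intro h0
    apply hFinf
    rw [h0]
    exact zero_zeroAtFilter _
  have hfu : ∀ τ, f τ = F τ * G τ := fun τ => by rw [h]; rfl
  refine ⟨hG, fun γ hγ => ?_, fun σ => ?_⟩
  · have e1 := h77_slash_factor (ka := k + l) rfl γ (hF.2.1 γ) hfu
    rw [hf.2.1 γ hγ, h] at e1
    have hGγ : MDiff (G ∣[k] γ) := by
      rw [ModularForm.SL_slash]
      exact hG.slash k _
    exact (Lfun_mul_left_cancel hF hF0 hG hGγ e1).symm
  · have e1 := h77_slash_factor (ka := k + l) rfl σ (hF.2.1 σ) hfu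
    have hbd := hf.2.2 σ
    have hev : ∀ᶠ τ in atImInfty, F τ ≠ 0 := hFc.eventually_ne hc
    have hinv : IsBoundedAtImInfty (fun τ => (F τ)⁻¹) := (hFc.inv₀ hc).isBigO_one ℝ
    have hprod : IsBoundedAtImInfty ((f ∣[k + l] σ) * fun τ => (F τ)⁻¹) := hbd.mul hinv
    refine hprod.congr' ?_ EventuallyEq.rfl
    filter_upwards [hev] with τ hτ
    rw [e1]
    simp only [Pi.mul_apply]
    field_simp

/-- Cusp-form version of `div_mem_Mfun`. -/
theorem h77_div_mem_Sfun (N : ℕ) {k l : ℤ} {F f G : ℍ → ℂ} (hF : F ∈ Lfun l)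
    (hFinf : ¬ IsZeroAtImInfty F) (hf : f ∈ Sfun N (k + l)) (hG : MDiff G) (h : f = F * G) :
    G ∈ Sfun N k := by
  obtain ⟨c, hc, hFc⟩ := h77_Lfun_tendsto_ne_zero hF hFinf
  have hF0 : F ≠ 0 := by
    intro h0
    apply hFinf
    rw [h0]
    exact zero_zeroAtFilter _
  have hfu : ∀ τ, f τ = F τ * G τ := fun τ => by rw [h]; rfl
  refine ⟨hG, fun γ hγ => ?_, fun σ => ?_⟩
  · have e1 := h77_slash_factor (ka := k + l) rfl γ (hF.2.1 γ) hfu
    rw [hf.2.1 γ hγ, h] at e1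
    have hGγ : MDiff (G ∣[k] γ) := by
      rw [ModularForm.SL_slash]
      exact hG.slash k _
    exact (Lfun_mul_left_cancel hF hF0 hG hGγ e1).symm
  · have e1 := h77_slash_factor (ka := k + l) rfl σ (hF.2.1 σ) hfu
    have hz : Tendsto (f ∣[k + l] σ) atImInfty (𝓝 0) := hf.2.2 σ
    have hev : ∀ᶠ τ in atImInfty, F τ ≠ 0 := hFc.eventually_ne hc
    have hprod : Tendsto (fun τ => (f ∣[k + l] σ) τ * (F τ)⁻¹) atImInfty (𝓝 0) := by
      simpa using hz.mul (hFc.inv₀ hc)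
    refine hprod.congr' ?_
    filter_upwards [hev] with τ hτ
    rw [e1]
    simp only [Pi.mul_apply]
    field_simp

end Fermat.Agent.S20
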