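import Mathlib
import Fermat.Agent.S20.Defs
import Fermat.Agent.S24.h29_Elliptic
import Fermat.Agent.S24.h29_Index
import Fermat.Agent.S24.h33_Cusps
import Fermat.Agent.S24.h39_JFun

set_option autoImplicit false

namespace Fermat.Agent.S20

open UpperHalfPlane
open scoped MatrixGroups ModularForm

section eigen

variable {X : Type*}

/-- The permutation operator `v ↦ v ∘ σ` on `X → ℂ`. -/
noncomputable def h60_permOp (σ : Equiv.Perm X) : Module.End ℂ (X → ℂ) :=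
  LinearMap.funLeft ℂ ℂ σ

@[simp]
theorem h60_permOp_apply (σ : Equiv.Perm X) (v : X → ℂ) (x : X) :
    h60_permOp σ v x = v (σ x) := rfl

theorem h60_permOp_one : h60_permOp (1 : Equiv.Perm X) = 1 := by
  ext v x; simp

theorem h60_permOp_pow (σ : Equiv.Perm X) (m : ℕ) : h60_permOp σ ^ m = h60_permOp (σ ^ m) := by
  induction m with
  | zero => simp [h60_permOp_one]
  | succ m ih =>
    rw [pow_succ', ih]
    refine LinearMap.ext fun v => funext fun x => ?_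
    simp [pow_succ]

/-- The `ζ`-eigenspace of the permutation operator `v ↦ v ∘ σ`. -/
noncomputable def h60_eigen (σ : Equiv.Perm X) (ζ : ℂ) : Submodule ℂ (X → ℂ) :=
  Module.End.eigenspace (h60_permOp σ) ζ

theorem h60_mem_eigen {σ : Equiv.Perm X} {ζ : ℂ} {v : X → ℂ} :
    v ∈ h60_eigen σ ζ ↔ ∀ x, v (σ x) = ζ * v x := by
  rw [h60_eigen, Module.End.mem_eigenspace_iff]
  constructor
  · intro h x
    have := congrFun h x
    simpa using this
  · intro h
    ext x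
    simpa using h x

theorem h60_eigen_iSupIndep (σ : Equiv.Perm X) : iSupIndep (h60_eigen σ) :=
  Module.End.eigenspaces_iSupIndep (h60_permOp σ)

variable [Fintype X] [DecidableEq X]

theorem h60_permOp_eq_toLin' (σ : Equiv.Perm X) :
    h60_permOp σ = Matrix.toLin' (σ.permMatrix ℂ) := by
  refine LinearMap.ext fun v => funext fun x => ?_
  rw [Matrix.toLin'_apply, Matrix.permMatrix_mulVec]
  rfl

theorem h60_trace_permOp (σ : Equiv.Perm X) :
    LinearMap.trace ℂ (X → ℂ) (h60_permOp σ) = (Fintype.card {x // σ x = x} : ℂ) := by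
  rw [h60_permOp_eq_toLin', Matrix.trace_toLin'_eq, Matrix.trace_permutation]
  congr 1
  rw [← Nat.card_eq_fintype_card, ← Nat.card_coe_set_eq]
  rfl

theorem h60_fixed_pow {σ : Equiv.Perm X} {p : ℕ} (hp : p.Prime) (hσ : σ ^ p = 1) {m : ℕ}
    (hm0 : 0 < m) (hmp : m < p) (x : X) : (σ ^ m) x = x ↔ σ x = x := by
  constructor
  · intro h
    have h1 : Function.IsPeriodicPt σ m x := by
      rw [Function.IsPeriodicPt, Function.IsFixedPt, Equiv.Perm.iterate_eq_pow]; exact h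
    have h2 : Function.IsPeriodicPt σ p x := by
      rw [Function.IsPeriodicPt, Function.IsFixedPt, Equiv.Perm.iterate_eq_pow, hσ]; rfl
    have h3 := h1.gcd h2
    have h4 : Nat.gcd m p = 1 :=
      Nat.Coprime.symm ((Nat.Prime.coprime_iff_not_dvd hp).2 (Nat.not_dvd_of_pos_of_lt hm0 hmp))
    rw [h4] at h3
    simpa [Function.IsPeriodicPt, Function.IsFixedPt] using h3
  · intro h
    exact Function.IsFixedPt.perm_pow h m

theorem h60_card_fixed_pow {σ : Equiv.Perm X} {p : ℕ} (hp : p.Prime) (hσ : σ ^ p = 1) {m : ℕ}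
    (hm0 : 0 < m) (hmp : m < p) :
    Fintype.card {x // (σ ^ m) x = x} = Fintype.card {x // σ x = x} :=
  Fintype.card_congr (Equiv.subtypeEquivRight fun x => h60_fixed_pow hp hσ hm0 hmp x)

/-- The averaging projector onto the `ζ`-eigenspace. -/
noncomputable def h60_proj (σ : Equiv.Perm X) (p : ℕ) (ζ : ℂ) : Module.End ℂ (X → ℂ) :=
  (p : ℂ)⁻¹ • ∑ m ∈ Finset.range p, (ζ⁻¹) ^ m • h60_permOp σ ^ m

theorem h60_proj_isProj (σ : Equiv.Perm X) (p : ℕ) (hp : p ≠ 0) (hσ : σ ^ p = 1) (ζ : ℂ)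
    (hζ : ζ ^ p = 1) : LinearMap.IsProj (h60_eigen σ ζ) (h60_proj σ p ζ) := by
  have hζ0 : ζ ≠ 0 := by
    rintro rfl
    simp [zero_pow hp] at hζ
  have hp0 : (p : ℂ) ≠ 0 := Nat.cast_ne_zero.mpr hp
  constructor
  · intro v
    rw [h60_eigen, Module.End.mem_eigenspace_iff]
    have key : h60_permOp σ * ∑ m ∈ Finset.range p, (ζ⁻¹) ^ m • h60_permOp σ ^ m =
        ζ • ∑ m ∈ Finset.range p, (ζ⁻¹) ^ m • h60_permOp σ ^ m := by
      have h1 : h60_permOp σ * ∑ m ∈ Finset.range p, (ζ⁻¹) ^ m • h60_permOp σ ^ m =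
          ∑ m ∈ Finset.range p, (ζ • (ζ⁻¹) ^ (m + 1)) • h60_permOp σ ^ (m + 1) := by
        rw [Finset.mul_sum]
        refine Finset.sum_congr rfl fun m _ => ?_
        have e : ζ • (ζ⁻¹) ^ (m + 1) = (ζ⁻¹) ^ m := by
          rw [smul_eq_mul, pow_succ, mul_comm, mul_assoc, inv_mul_cancel₀ hζ0, mul_one]
        rw [e, mul_smul_comm, ← pow_succ']
      have h2 : ζ • ∑ m ∈ Finset.range p, (ζ⁻¹) ^ m • h60_permOp σ ^ m =
          ∑ m ∈ Finset.range p, (ζ • (ζ⁻¹) ^ m) • h60_permOp σ ^ m := by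
        rw [Finset.smul_sum]
        exact Finset.sum_congr rfl fun m _ => by rw [smul_smul, smul_eq_mul]
      rw [h1, h2]
      have h3 := Finset.sum_range_succ (fun m => (ζ • (ζ⁻¹) ^ m) • h60_permOp σ ^ m) p
      have h4 := Finset.sum_range_succ' (fun m => (ζ • (ζ⁻¹) ^ m) • h60_permOp σ ^ m) p
      have h5 : (ζ • (ζ⁻¹) ^ p) • h60_permOp σ ^ p = (ζ • (ζ⁻¹) ^ 0) • h60_permOp σ ^ 0 := by
        rw [h60_permOp_pow, hσ, h60_permOp_one, inv_pow, hζ]
        simp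
      rw [h4, h5] at h3
      exact add_right_cancel h3
    simp only [h60_proj, LinearMap.smul_apply, map_smul]
    rw [← Module.End.mul_apply, key, LinearMap.smul_apply, smul_comm]
  · intro v hv
    rw [h60_eigen, Module.End.mem_eigenspace_iff] at hv
    have hpow : ∀ m : ℕ, (h60_permOp σ ^ m) v = ζ ^ m • v := by
      intro m
      induction m with
      | zero => simp
      | succ m ih =>
        rw [pow_succ, Module.End.mul_apply, hv, map_smul, ih, smul_smul, pow_succ, mul_comm]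
    simp only [h60_proj, LinearMap.smul_apply, LinearMap.sum_apply, hpow, smul_smul]
    have : ∀ m : ℕ, (ζ⁻¹) ^ m * ζ ^ m = 1 := fun m => by
      rw [← mul_pow, inv_mul_cancel₀ hζ0, one_pow]
    simp only [this, one_smul, Finset.sum_const, Finset.card_range]
    rw [← Nat.cast_smul_eq_nsmul ℂ, smul_smul, inv_mul_cancel₀ hp0, one_smul]

theorem h60_geom_sum_inv (p : ℕ) (ζ : ℂ) (hζ : ζ ^ p = 1) :
    ∑ m ∈ Finset.range p, (ζ⁻¹) ^ m = if ζ = 1 then (p : ℂ) else 0 := by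
  split_ifs with h
  · subst h; simp
  · have h1 : ζ⁻¹ - 1 ≠ 0 := by
      intro h2
      apply h
      have : ζ⁻¹ = 1 := sub_eq_zero.mp h2
      simpa using congrArg (fun z => z⁻¹) this
    have h2 := geom_sum_mul (ζ⁻¹) p
    rw [inv_pow, hζ, inv_one, sub_self] at h2
    exact (mul_eq_zero.mp h2).resolve_right h1

theorem h60_trace_proj (σ : Equiv.Perm X) (p : ℕ) [hp : Fact p.Prime] (hσ : σ ^ p = 1) (ζ : ℂ)
    (hζ : ζ ^ p = 1) :
    (p : ℂ) * LinearMap.trace ℂ (X → ℂ) (h60_proj σ p ζ) =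
      (Fintype.card X : ℂ) +
        (if ζ = 1 then (p : ℂ) - 1 else -1) * (Fintype.card {x // σ x = x} : ℂ) := by
  have hp0 : (p : ℂ) ≠ 0 := Nat.cast_ne_zero.mpr hp.out.ne_zero
  have h1 : LinearMap.trace ℂ (X → ℂ) (h60_proj σ p ζ) =
      (p : ℂ)⁻¹ * ∑ m ∈ Finset.range p, (ζ⁻¹) ^ m * (Fintype.card {x // (σ ^ m) x = x} : ℂ) := by
    simp only [h60_proj, map_smul, map_sum, h60_permOp_pow, h60_trace_permOp, smul_eq_mul]
  rw [h1, ← mul_assoc, mul_inv_cancel₀ hp0, one_mul]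
  obtain ⟨p', rfl⟩ := Nat.exists_eq_succ_of_ne_zero hp.out.ne_zero
  rw [Finset.sum_range_succ']
  have h2 : ∀ m ∈ Finset.range p', (ζ⁻¹) ^ (m + 1) * (Fintype.card {x // (σ ^ (m + 1)) x = x} : ℂ)
      = (ζ⁻¹) ^ (m + 1) * (Fintype.card {x // σ x = x} : ℂ) := by
    intro m hm
    rw [h60_card_fixed_pow hp.out hσ (Nat.succ_pos m)
      (Nat.succ_lt_succ (Finset.mem_range.mp hm))]
  rw [Finset.sum_congr rfl h2, ← Finset.sum_mul]
  have h3 := h60_geom_sum_inv (p' + 1) ζ hζ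
  rw [Finset.sum_range_succ'] at h3
  have h4 : ∑ m ∈ Finset.range p', (ζ⁻¹) ^ (m + 1) =
      (if ζ = 1 then ((p' + 1 : ℕ) : ℂ) else 0) - 1 := by
    rw [← h3]; simp
  rw [h4]
  have h5 : (Fintype.card {x // (σ ^ 0) x = x} : ℂ) = (Fintype.card X : ℂ) := by
    congr 1
    exact Fintype.card_congr (Equiv.subtypeUnivEquiv fun x => by simp)
  rw [h5]
  split_ifs <;> simp <;> ring

/-- Dimension of the eigenspaces of a permutation of prime order `p` (or trivial) in terms of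
the number of fixed points. -/
theorem h60_finrank_eigen (σ : Equiv.Perm X) (p : ℕ) [hp : Fact p.Prime] (hσ : σ ^ p = 1) (ζ : ℂ)
    (hζ : ζ ^ p = 1) :
    (p : ℤ) * (Module.finrank ℂ (h60_eigen σ ζ) : ℤ) =
      (Fintype.card X : ℤ) +
        (if ζ = 1 then (p : ℤ) - 1 else -1) * (Fintype.card {x // σ x = x} : ℤ) := by
  have h1 := (h60_proj_isProj σ p hp.out.ne_zero hσ ζ hζ).trace
  have h2 := h60_trace_proj σ p hσ ζ hζ
  rw [h1] at h2
  split_ifs at h2 ⊢ with h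
  · exact_mod_cast h2
  · exact_mod_cast h2

end eigen

section evX

open CongruenceSubgroup

variable {N : ℕ} {k : ℤ}

/-- For a `Γ₀(N)`-invariant `f`, the conjugate attached to the coset of `g` is `f ∣[k] g⁻¹`. -/
theorem h60_cj_mk {f : ℍ → ℂ} (hf : ∀ γ ∈ Gamma0 N, f ∣[k] γ = f) (g : SL(2, ℤ)) :
    cj N k f (g : SL(2, ℤ) ⧸ Gamma0 N) = f ∣[k] g⁻¹ := by
  obtain ⟨h, hh⟩ := QuotientGroup.mk_out_eq_mul (Gamma0 N) g
  rw [cj, hh, mul_inv_rev, SlashAction.slash_mul, hf _ (inv_mem h.2)]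

theorem h60_cj_smul {f : ℍ → ℂ} (hf : ∀ γ ∈ Gamma0 N, f ∣[k] γ = f) (γ : SL(2, ℤ))
    (q : SL(2, ℤ) ⧸ Gamma0 N) : cj N k f (γ • q) = (cj N k f q) ∣[k] γ⁻¹ := by
  induction q using QuotientGroup.induction_on with
  | H g =>
    rw [show γ • (g : SL(2, ℤ) ⧸ Gamma0 N) = ((γ * g : SL(2, ℤ)) : SL(2, ℤ) ⧸ Gamma0 N) from rfl,
      h60_cj_mk hf, h60_cj_mk hf, mul_inv_rev, SlashAction.slash_mul]

/-- If `γ` fixes `τ`, the vector of conjugates at `τ` is an eigenvector of the permutation of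
the cosets induced by `γ`, with eigenvalue `denom γ τ ^ k`. -/
theorem h60_evX_smul_of_fixed {f : ℍ → ℂ} (hf : ∀ γ ∈ Gamma0 N, f ∣[k] γ = f) (γ : SL(2, ℤ))
    (τ : ℍ) (hγ : γ • τ = τ) (q : SL(2, ℤ) ⧸ Gamma0 N) :
    evX N k τ f (γ • q) = denom γ τ ^ k * evX N k τ f q := by
  rw [evX_apply, evX_apply]
  have h1 : (cj N k f (γ • q)) ∣[k] γ = cj N k f q := by
    rw [h60_cj_smul hf, ← SlashAction.slash_mul, inv_mul_cancel, SlashAction.slash_one]
  have h2 := congrFun h1 τ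
  rw [ModularForm.SL_slash_apply, hγ] at h2
  have hd : denom γ τ ≠ 0 := denom_ne_zero γ τ
  rw [← h2, mul_comm, mul_assoc, ← zpow_add₀ hd]
  simp

theorem h60_evX_mem_eigen {f : ℍ → ℂ} (hf : ∀ γ ∈ Gamma0 N, f ∣[k] γ = f) (γ : SL(2, ℤ))
    (τ : ℍ) (hγ : γ • τ = τ) :
    evX N k τ f ∈ h60_eigen (MulAction.toPerm γ : Equiv.Perm (SL(2, ℤ) ⧸ Gamma0 N))
      (denom γ τ ^ k) :=
  h60_mem_eigen.mpr fun q => h60_evX_smul_of_fixed hf γ τ hγ q

/-- At `τ = i` the vector of conjugates lies in the `i^k`-eigenspace of `S`. -/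
theorem h60_evX_I_mem_eigen {f : ℍ → ℂ} (hf : ∀ γ ∈ Gamma0 N, f ∣[k] γ = f) :
    evX N k UpperHalfPlane.I f ∈
      h60_eigen (MulAction.toPerm ModularGroup.S : Equiv.Perm (SL(2, ℤ) ⧸ Gamma0 N))
        (Complex.I ^ k) := by
  have h := h60_evX_mem_eigen hf ModularGroup.S UpperHalfPlane.I Fermat.Agent.S24.h39_S_smul_I
  rwa [ModularGroup.denom_S] at h

/-- At `τ = ρ` the vector of conjugates lies in the `(ρ + 1)^k`-eigenspace of `S * T`. -/
theorem h60_evX_rho_mem_eigen {f : ℍ → ℂ} (hf : ∀ γ ∈ Gamma0 N, f ∣[k] γ = f) :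
    evX N k ρ f ∈
      h60_eigen (MulAction.toPerm (ModularGroup.S * ModularGroup.T) :
        Equiv.Perm (SL(2, ℤ) ⧸ Gamma0 N)) (((ρ : ℂ) + 1) ^ k) := by
  have h := h60_evX_mem_eigen hf (ModularGroup.S * ModularGroup.T) ρ
    Fermat.Agent.S24.h39_ST_smul_rho
  have hd : ∀ g : SL(2, ℤ), g 1 0 = 1 → g 1 1 = 1 → denom g ρ = (ρ : ℂ) + 1 := by
    intro g h10 h11
    rw [ModularGroup.denom_apply, h10, h11]
    simp
  rw [hd _ Fermat.Agent.S24.h29_ST_10 Fermat.Agent.S24.h29_ST_11] at h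
  exact h

end evX

section dims

open CongruenceSubgroup Fermat.Agent.S24

variable (N : ℕ) [NeZero N]

theorem h60_toPerm_S_sq :
    (MulAction.toPerm ModularGroup.S : Equiv.Perm (SL(2, ℤ) ⧸ Gamma0 N)) ^ 2 = 1 := by
  ext x
  rw [pow_two, Equiv.Perm.mul_apply, MulAction.toPerm_apply, MulAction.toPerm_apply,
    ← mul_smul, ← pow_two, h29_S_sq, h29_neg_one_smul]
  rfl

theorem h60_toPerm_U_cube :
    (MulAction.toPerm (ModularGroup.S * ModularGroup.T) :
      Equiv.Perm (SL(2, ℤ) ⧸ Gamma0 N)) ^ 3 = 1 := by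
  ext x
  rw [pow_succ, pow_two, Equiv.Perm.mul_apply, Equiv.Perm.mul_apply, MulAction.toPerm_apply,
    MulAction.toPerm_apply, MulAction.toPerm_apply, ← mul_smul, ← mul_smul, ← pow_two,
    ← pow_succ, h29_ST_cube, h29_neg_one_smul]
  rfl

theorem h60_idx_eq : idx N = ModularCurve.dedekindPsi N := h29_card_quotient_Gamma0 N

theorem h60_fixS_eq : fixS N = ModularCurve.nuTwo N := h29_card_fixedBy_S N

theorem h60_fixU_eq : fixU N = ModularCurve.nuThree N := h29_card_fixedBy_ST N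

theorem h60_orbT_eq : orbT N = ModularCurve.cuspCount N := h33_orbits_T N

theorem h60_genusQ_eq : genusQ N = ModularCurve.genusFormula N := by
  rw [genusQ, ModularCurve.genusFormula, h60_idx_eq, h60_fixS_eq, h60_fixU_eq, h60_orbT_eq]

/-- Eigenspace dimensions for `S` acting on `ℂ^X`, `X = SL(2,ℤ)/Γ₀(N)`. -/
theorem h60_finrank_eigen_S (ζ : ℂ) (hζ : ζ ^ 2 = 1) :
    (2 : ℤ) * (Module.finrank ℂ
      (h60_eigen (MulAction.toPerm ModularGroup.S : Equiv.Perm (SL(2, ℤ) ⧸ Gamma0 N)) ζ) : ℤ) =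
      (idx N : ℤ) + (if ζ = 1 then 1 else -1) * (fixS N : ℤ) := by
  classical
  letI : Fintype (SL(2, ℤ) ⧸ Gamma0 N) := Fintype.ofFinite _
  haveI : Fact (Nat.Prime 2) := ⟨Nat.prime_two⟩
  have h := h60_finrank_eigen (MulAction.toPerm ModularGroup.S :
    Equiv.Perm (SL(2, ℤ) ⧸ Gamma0 N)) 2 (h60_toPerm_S_sq N) ζ hζ
  have h1 : Fintype.card (SL(2, ℤ) ⧸ Gamma0 N) = idx N := by
    rw [idx, Nat.card_eq_fintype_card]
  have h2 : Fintype.card {x : SL(2, ℤ) ⧸ Gamma0 N //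
      (MulAction.toPerm ModularGroup.S : Equiv.Perm (SL(2, ℤ) ⧸ Gamma0 N)) x = x} = fixS N := by
    rw [fixS, Nat.card_eq_fintype_card]
    exact Fintype.card_congr (Equiv.subtypeEquivRight fun x => Iff.rfl)
  rw [h1, h2] at h
  split_ifs at h ⊢ with hz
  · simpa using h
  · simpa using h

/-- Eigenspace dimensions for `U = S * T` acting on `ℂ^X`, `X = SL(2,ℤ)/Γ₀(N)`. -/
theorem h60_finrank_eigen_U (ζ : ℂ) (hζ : ζ ^ 3 = 1) :
    (3 : ℤ) * (Module.finrank ℂ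
      (h60_eigen (MulAction.toPerm (ModularGroup.S * ModularGroup.T) :
        Equiv.Perm (SL(2, ℤ) ⧸ Gamma0 N)) ζ) : ℤ) =
      (idx N : ℤ) + (if ζ = 1 then 2 else -1) * (fixU N : ℤ) := by
  classical
  letI : Fintype (SL(2, ℤ) ⧸ Gamma0 N) := Fintype.ofFinite _
  haveI : Fact (Nat.Prime 3) := ⟨Nat.prime_three⟩
  have h := h60_finrank_eigen (MulAction.toPerm (ModularGroup.S * ModularGroup.T) :
    Equiv.Perm (SL(2, ℤ) ⧸ Gamma0 N)) 3 (h60_toPerm_U_cube N) ζ hζ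
  have h1 : Fintype.card (SL(2, ℤ) ⧸ Gamma0 N) = idx N := by
    rw [idx, Nat.card_eq_fintype_card]
  have h2 : Fintype.card {x : SL(2, ℤ) ⧸ Gamma0 N //
      (MulAction.toPerm (ModularGroup.S * ModularGroup.T) :
        Equiv.Perm (SL(2, ℤ) ⧸ Gamma0 N)) x = x} = fixU N := by
    rw [fixU, Nat.card_eq_fintype_card]
    exact Fintype.card_congr (Equiv.subtypeEquivRight fun x => Iff.rfl)
  rw [h1, h2] at h
  split_ifs at h ⊢ with hz
  · have : ((3 : ℕ) : ℤ) - 1 = 2 := by norm_num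
    rw [this] at h
    simpa using h
  · simpa using h

theorem h60_I_zpow (K : ℤ) (hK : Even K) :
    Complex.I ^ K = if K % 4 = 0 then 1 else -1 := by
  obtain ⟨m, rfl⟩ := hK
  have h1 : Complex.I ^ (m + m) = (-1 : ℂ) ^ m := by
    rw [← two_mul, zpow_mul, zpow_ofNat, Complex.I_sq]
  rw [h1]
  rcases Int.even_or_odd m with hm | hm
  · rw [hm.neg_one_zpow, if_pos (by obtain ⟨r, rfl⟩ := hm; omega)]
  · rw [hm.neg_one_zpow, if_neg (by obtain ⟨r, rfl⟩ := hm; omega)]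

theorem h60_rho_add_one_sq : ((ρ : ℂ) + 1) ^ 2 = (ρ : ℂ) := by
  have h := UpperHalfPlane.ρ_sq
  linear_combination h

theorem h60_rho_cube : (ρ : ℂ) ^ 3 = 1 := by
  have h := UpperHalfPlane.ρ_sq
  linear_combination ((ρ : ℂ) - 1) * h

theorem h60_rho_ne_one : (ρ : ℂ) ≠ 1 := by
  intro h
  have h2 := congrArg Complex.re h
  simp [UpperHalfPlane.ρ] at h2
  norm_num at h2

theorem h60_rho_sq_ne_one : (ρ : ℂ) ^ 2 ≠ 1 := by
  intro h
  rw [UpperHalfPlane.ρ_sq] at h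
  have h2 := congrArg Complex.re h
  simp [UpperHalfPlane.ρ] at h2
  norm_num at h2

theorem h60_rho_ne_zero : (ρ : ℂ) ≠ 0 := by
  intro h
  have h2 := h60_rho_cube
  rw [h] at h2
  norm_num at h2

theorem h60_rho_add_one_zpow (K : ℤ) (hK : Even K) :
    (((ρ : ℂ) + 1) ^ K) ^ 3 = 1 ∧ ((((ρ : ℂ) + 1) ^ K = 1) ↔ K % 6 = 0) := by
  obtain ⟨m, rfl⟩ := hK
  have h1 : ((ρ : ℂ) + 1) ^ (m + m) = (ρ : ℂ) ^ m := by
    rw [← two_mul, zpow_mul, zpow_ofNat, h60_rho_add_one_sq]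
  rw [h1]
  have h3 : ∀ n : ℤ, (ρ : ℂ) ^ (3 * n) = 1 := fun n => by
    rw [zpow_mul, zpow_ofNat, h60_rho_cube, one_zpow]
  constructor
  · rw [← zpow_natCast, ← zpow_mul, mul_comm]
    exact h3 m
  · have hm : m = 3 * (m / 3) + m % 3 := (Int.mul_ediv_add_emod m 3).symm
    have h4 : (ρ : ℂ) ^ m = (ρ : ℂ) ^ (m % 3) := by
      conv_lhs => rw [hm, zpow_add₀ h60_rho_ne_zero, h3, one_mul]
    rw [h4]
    have hlt : m % 3 < 3 := Int.emod_lt_of_pos m (by norm_num)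
    have hge : 0 ≤ m % 3 := Int.emod_nonneg m (by norm_num)
    have hcases : m % 3 = 0 ∨ m % 3 = 1 ∨ m % 3 = 2 := by omega
    rcases hcases with h | h | h
    · rw [h]; simp; omega
    · rw [h, zpow_one]
      constructor
      · intro h5; exact absurd h5 h60_rho_ne_one
      · intro h5; omega
    · rw [h]
      constructor
      · intro h5; exact absurd (by simpa using h5) h60_rho_sq_ne_one
      · intro h5; omega

/-- The rank of the fibre map at `i` on `M_K(Γ₀(N))` is at most the dimension of the relevant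
eigenspace of `S`. -/
theorem h60_finrank_map_evX_I_le (K : ℤ) (hK : Even K) :
    (2 : ℤ) * (Module.finrank ℂ ((Mfun N K).map (evX N K UpperHalfPlane.I)) : ℤ) ≤
      (idx N : ℤ) + (if K % 4 = 0 then 1 else -1) * (fixS N : ℤ) := by
  have hle : (Mfun N K).map (evX N K UpperHalfPlane.I) ≤
      h60_eigen (MulAction.toPerm ModularGroup.S : Equiv.Perm (SL(2, ℤ) ⧸ Gamma0 N))
        (Complex.I ^ K) := by
    rintro _ ⟨f, hf, rfl⟩
    exact h60_evX_I_mem_eigen hf.2.1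
  have h1 := Submodule.finrank_mono hle
  have hz : (Complex.I ^ K) ^ 2 = 1 := by
    rw [h60_I_zpow K hK]; split_ifs <;> norm_num
  have h2 := h60_finrank_eigen_S N (Complex.I ^ K) hz
  have h3 : (Complex.I ^ K = 1) ↔ K % 4 = 0 := by
    rw [h60_I_zpow K hK]
    split_ifs with h
    · simp [h]
    · simp only [h, iff_false]; norm_num
  simp only [h3] at h2
  rw [← h2]
  have : (Module.finrank ℂ ((Mfun N K).map (evX N K UpperHalfPlane.I)) : ℤ) ≤
      (Module.finrank ℂ (h60_eigen (MulAction.toPerm ModularGroup.S :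
        Equiv.Perm (SL(2, ℤ) ⧸ Gamma0 N)) (Complex.I ^ K)) : ℤ) := by exact_mod_cast h1
  linarith

/-- The rank of the fibre map at `ρ` on `M_K(Γ₀(N))` is at most the dimension of the relevant
eigenspace of `S * T`. -/
theorem h60_finrank_map_evX_rho_le (K : ℤ) (hK : Even K) :
    (3 : ℤ) * (Module.finrank ℂ ((Mfun N K).map (evX N K ρ)) : ℤ) ≤
      (idx N : ℤ) + (if K % 6 = 0 then 2 else -1) * (fixU N : ℤ) := by
  have hle : (Mfun N K).map (evX N K ρ) ≤
      h60_eigen (MulAction.toPerm (ModularGroup.S * ModularGroup.T) :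
        Equiv.Perm (SL(2, ℤ) ⧸ Gamma0 N)) (((ρ : ℂ) + 1) ^ K) := by
    rintro _ ⟨f, hf, rfl⟩
    exact h60_evX_rho_mem_eigen hf.2.1
  have h1 := Submodule.finrank_mono hle
  obtain ⟨hz, h3⟩ := h60_rho_add_one_zpow K hK
  have h2 := h60_finrank_eigen_U N (((ρ : ℂ) + 1) ^ K) hz
  simp only [h3] at h2
  rw [← h2]
  have : (Module.finrank ℂ ((Mfun N K).map (evX N K ρ)) : ℤ) ≤
      (Module.finrank ℂ (h60_eigen (MulAction.toPerm (ModularGroup.S * ModularGroup.T) :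
        Equiv.Perm (SL(2, ℤ) ⧸ Gamma0 N)) (((ρ : ℂ) + 1) ^ K)) : ℤ) := by exact_mod_cast h1
  linarith

end dims

end Fermat.Agent.S20
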