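import Mathlib
import Fermat.Agent.S20.Defs2
import Fermat.Agent.S20.h77_Regular
import Fermat.Agent.S20.h84_Bridge
import Fermat.Agent.S20.Regular

set_option autoImplicit false

/-!
# Project S20 : row INDEP, core

From a free homogeneous generating family (`IsGenFamily`) and a fibre (division) lemma, the
values of the generators are linearly independent. All external inputs that are not yet on
main are explicit hypotheses; `Indep.lean` plugs them in.
-/

namespace Fermat.Agent.S20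

open UpperHalfPlane CongruenceSubgroup ModularForm Filter Topology Asymptotics
open scoped MatrixGroups ModularForm Manifold Real

/-! ### small facts about `Lfun`, `cj`, `evX` -/

theorem h65_one_mem_Lfun : (1 : ℍ → ℂ) ∈ Lfun 0 :=
  ⟨mdifferentiable_const, fun γ => ModularForm.is_invariant_one γ,
    Filter.const_boundedAtFilter _ 1⟩

theorem h65_Lfun_mul {l l' m : ℤ} (hm : m = l + l') {F G : ℍ → ℂ} (hF : F ∈ Lfun l)
    (hG : G ∈ Lfun l') : F * G ∈ Lfun m := by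
  subst hm
  refine ⟨hF.1.mul hG.1, fun γ => ?_, hF.2.2.mul hG.2.2⟩
  rw [mul_slash_SL2, hF.2.1 γ, hG.2.1 γ]

theorem h65_Lfun_pow {l : ℤ} {F : ℍ → ℂ} (hF : F ∈ Lfun l) (n : ℕ) : F ^ n ∈ Lfun (n * l) := by
  induction n with
  | zero => simpa using h65_one_mem_Lfun
  | succ n ih =>
    rw [pow_succ]
    exact h65_Lfun_mul (by push_cast; ring) ih hF

theorem h65_mono_mem (a b : ℕ) {d : ℤ} (hd : d = 4 * a + 6 * b) :
    (⇑E₄ : ℍ → ℂ) ^ a * (⇑E₆ : ℍ → ℂ) ^ b ∈ Lfun d :=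
  h65_Lfun_mul (by rw [hd]; ring) (h65_Lfun_pow h77_E4_mem_Lfun a) (h65_Lfun_pow h77_E6_mem_Lfun b)

theorem h65_cj_mul {N : ℕ} {k l m : ℤ} (hm : m = l + k) {F : ℍ → ℂ} (hF : F ∈ Lfun l)
    (f : ℍ → ℂ) (q : SL(2, ℤ) ⧸ Gamma0 N) : cj N m (F * f) q = F * cj N k f q := by
  subst hm
  unfold cj
  rw [mul_slash_SL2, hF.2.1]

theorem h65_evX_mul {N : ℕ} {k l m : ℤ} (hm : m = l + k) {F : ℍ → ℂ} (hF : F ∈ Lfun l)
    (f : ℍ → ℂ) (τ : ℍ) : evX N m τ (F * f) = F τ • evX N k τ f := by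
  funext q
  rw [evX_apply, h65_cj_mul hm hF, Pi.smul_apply, evX_apply, Pi.mul_apply, smul_eq_mul]

/-! ### the algebraic core -/

section Core

variable {N : ℕ} {J : Type} {w : J → ℤ} {c : J → ℍ → ℂ}

/-- If `∑ a j * c j = G * H` with `G` of level one, then every `a j` is divisible by `G`
in the ring of level-one forms. -/
theorem h65_core (hG : IsGenFamily N w c) {K g : ℤ} {G : ℍ → ℂ} (hGm : G ∈ Lfun g)
    (s : Finset J) (a : J → ℍ → ℂ) (ha : ∀ j ∈ s, a j ∈ Lfun (K - w j)) {H : ℍ → ℂ}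
    (hH : H ∈ Mfun N (K - g)) (hFH : ∑ j ∈ s, a j * c j = G * H) :
    ∀ j ∈ s, ∃ h ∈ Lfun (K - g - w j), a j = G * h := by
  classical
  obtain ⟨s', h, hh, hHs⟩ := hG.gen (K - g) H hH
  set b : J → ℍ → ℂ := fun j => (if j ∈ s then a j else 0) - G * (if j ∈ s' then h j else 0)
    with hb
  have hbmem : ∀ j ∈ s ∪ s', b j ∈ Lfun (K - w j) := by
    intro j _
    refine Submodule.sub_mem _ ?_ ?_
    · by_cases hj : j ∈ s
      · rw [if_pos hj]; exact ha j hj
      · rw [if_neg hj]; exact Submodule.zero_mem _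
    · by_cases hj : j ∈ s'
      · rw [if_pos hj]; exact h65_Lfun_mul (by ring) hGm (hh j hj)
      · rw [if_neg hj, mul_zero]; exact Submodule.zero_mem _
  have hsum : ∑ j ∈ s ∪ s', b j * c j = 0 := by
    have h1 : ∑ j ∈ s ∪ s', (if j ∈ s then a j else 0) * c j = ∑ j ∈ s, a j * c j := by
      rw [← Finset.sum_subset (Finset.subset_union_left (s₂ := s'))]
      · exact Finset.sum_congr rfl fun j hj => by rw [if_pos hj]
      · intro j _ hj; rw [if_neg hj, zero_mul]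
    have h2 : ∑ j ∈ s ∪ s', (if j ∈ s' then h j else 0) * c j = ∑ j ∈ s', h j * c j := by
      rw [← Finset.sum_subset (Finset.subset_union_right (s₁ := s))]
      · exact Finset.sum_congr rfl fun j hj => by rw [if_pos hj]
      · intro j _ hj; rw [if_neg hj, zero_mul]
    have h3 : ∀ j, b j * c j = (if j ∈ s then a j else 0) * c j
        - G * ((if j ∈ s' then h j else 0) * c j) := fun j => by rw [hb]; ring
    rw [Finset.sum_congr rfl fun j _ => h3 j, Finset.sum_sub_distrib, ← Finset.mul_sum, h1, h2,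
      hFH, ← hHs, sub_self]
  have hzero := hG.free K (s ∪ s') b hbmem hsum
  intro j hj
  have hbj := hzero j (Finset.mem_union_left _ hj)
  rw [hb] at hbj
  simp only [if_pos hj] at hbj
  refine ⟨if j ∈ s' then h j else 0, ?_, sub_eq_zero.mp hbj⟩
  by_cases hj' : j ∈ s'
  · rw [if_pos hj']; exact hh j hj'
  · rw [if_neg hj']; exact Submodule.zero_mem _

/-- Fibre independence for one finite family with normalising level-one factors. -/
theorem h65_indep_class (hG : IsGenFamily N w c) {τ₀ : ℍ} {g : ℤ} {G : ℍ → ℂ}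
    (hGm : G ∈ Lfun g) (hG0 : G τ₀ = 0)
    (hfib : ∀ (K : ℤ) (F : ℍ → ℂ), F ∈ Mfun N K → evX N K τ₀ F = 0 →
      ∃ H ∈ Mfun N (K - g), F = G * H)
    (K : ℤ) (s : Finset J) (u : J → ℍ → ℂ) (hu : ∀ j ∈ s, u j ∈ Lfun (K - w j))
    (hu1 : ∀ j ∈ s, u j τ₀ = 1) (l : J → ℂ)
    (hl : ∑ j ∈ s, l j • evX N (w j) τ₀ (c j) = 0) : ∀ j ∈ s, l j = 0 := by
  have ha : ∀ j ∈ s, l j • u j ∈ Lfun (K - w j) := fun j hj =>
    Submodule.smul_mem _ _ (hu j hj)
  have hFmem : ∑ j ∈ s, (l j • u j) * c j ∈ Mfun N K :=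
    Submodule.sum_mem _ fun j hj => h77_Lfun_mul_Mfun (by ring) (ha j hj) (hG.mem j)
  have hev : evX N K τ₀ (∑ j ∈ s, (l j • u j) * c j) = 0 := by
    rw [map_sum, ← hl]
    refine Finset.sum_congr rfl fun j hj => ?_
    rw [h65_evX_mul (k := w j) (l := K - w j) (by ring) (ha j hj), Pi.smul_apply, hu1 j hj,
      smul_eq_mul, mul_one]
  obtain ⟨H, hH, hFH⟩ := hfib K _ hFmem hev
  intro j hj
  obtain ⟨h, _, hh⟩ := h65_core hG hGm s (fun j => l j • u j) ha hH hFH j hj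
  have := congrFun hh τ₀
  rw [Pi.smul_apply, hu1 j hj, Pi.mul_apply, hG0, zero_mul, smul_eq_mul, mul_one] at this
  exact this

end Core

/-! ### parity of the weights, normalising factors -/

/-- A form of odd weight on `Γ₀(N)` vanishes (`-1 ∈ Γ₀(N)`). -/
theorem h65_Mfun_odd {N : ℕ} {k : ℤ} (hk : Odd k) {f : ℍ → ℂ} (hf : f ∈ Mfun N k) : f = 0 := by
  funext τ
  have hmem : (-1 : SL(2, ℤ)) ∈ Gamma0 N := by
    rw [Gamma0_mem]; simp
  have h := congrFun (hf.2.1 (-1) hmem) τ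
  rw [ModularForm.SL_slash_apply] at h
  have h1 : (-1 : SL(2, ℤ)) • τ = τ := by
    rw [ModularGroup.SL_neg_smul, one_smul]
  have h2 : denom ((-1 : SL(2, ℤ)) : GL (Fin 2) ℝ) τ = -1 := by
    simp [denom]
  rw [h1, h2, (Odd.neg hk).neg_one_zpow] at h
  have h3 : (2 : ℂ) * f τ = 0 := by linear_combination -h
  simpa using h3

theorem h65_exists_46 (n : ℤ) (hn : Even n) (h4 : 4 ≤ n) : ∃ a b : ℕ, n = 4 * a + 6 * b := by
  obtain ⟨m, rfl⟩ := hn
  rcases Int.even_or_odd m with ⟨r, rfl⟩ | ⟨r, rfl⟩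
  · exact ⟨r.toNat, 0, by omega⟩
  · exact ⟨(r - 1).toNat, 1, by omega⟩

/-- A level-one form of weight `4a + 6b` taking the value `1` at `τ₀`. -/
theorem h65_normaliser {τ₀ : ℍ} (a b : ℕ) (h : E₄ τ₀ ^ a * E₆ τ₀ ^ b ≠ 0) {n : ℤ}
    (hn : n = 4 * a + 6 * b) : ∃ u ∈ Lfun n, u τ₀ = 1 :=
  ⟨(E₄ τ₀ ^ a * E₆ τ₀ ^ b)⁻¹ • ((⇑E₄ : ℍ → ℂ) ^ a * (⇑E₆ : ℍ → ℂ) ^ b),
    Submodule.smul_mem _ _ (h65_mono_mem a b hn), by
      simp only [Pi.smul_apply, Pi.mul_apply, Pi.pow_apply, smul_eq_mul]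
      exact inv_mul_cancel₀ h⟩

theorem h65_Gt_mem (τ₀ : ℍ) :
    (fun τ => E₆ τ₀ ^ 2 * E₄ τ ^ 3 - E₄ τ₀ ^ 3 * E₆ τ ^ 2) ∈ Lfun 12 := by
  have h1 : (⇑E₄ : ℍ → ℂ) ^ 3 * (⇑E₆ : ℍ → ℂ) ^ 0 ∈ Lfun 12 := h65_mono_mem 3 0 (by norm_num)
  have h2 : (⇑E₄ : ℍ → ℂ) ^ 0 * (⇑E₆ : ℍ → ℂ) ^ 2 ∈ Lfun 12 := h65_mono_mem 0 2 (by norm_num)
  have h3 := Submodule.sub_mem _ (Submodule.smul_mem _ (E₆ τ₀ ^ 2) h1)
    (Submodule.smul_mem _ (E₄ τ₀ ^ 3) h2)
  convert h3 using 1
  funext τ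
  simp

theorem h65_Lfun_sub_isBigO {l : ℤ} {F : ℍ → ℂ} (hF : F ∈ Lfun l) {L : ℂ}
    (hL : Tendsto F atImInfty (𝓝 L)) :
    (fun τ => F τ - L) =O[atImInfty] fun τ : ℍ => Real.exp (-2 * π * τ.im) := by
  obtain ⟨G, rfl⟩ := h84_exists_levelOne hF
  have h := UpperHalfPlane.exp_decay_sub_atImInfty (h := 1) one_pos
    (SlashInvariantFormClass.periodic_comp_ofComplex G one_mem_strictPeriods_SL)
    (ModularFormClass.holo G) (ModularFormClass.bdd_at_infty G)
  rw [show valueAtInfty (⇑G) = L from hL.limUnder_eq] at h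
  simpa using h

theorem h65_tendsto_discriminant : Tendsto (discriminant : ℍ → ℂ) atImInfty (𝓝 0) := by
  have h : IsZeroAtImInfty (discriminant : ℍ → ℂ) := by
    simpa using CuspFormClass.zero_at_infty CuspForm.discriminant
  exact h

section Core2

variable {N : ℕ} {J : Type} {w : J → ℤ} {c : J → ℍ → ℂ}

theorem h65_gen_ne_zero (hG : IsGenFamily N w c) (j : J) : c j ≠ 0 := by
  intro h0
  have h := hG.free (w j) {j} (fun _ => 1) (fun i hi => by
      rw [Finset.mem_singleton] at hi; subst hi; rw [sub_self]; exact h65_one_mem_Lfun)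
    (by rw [Finset.sum_singleton, h0, mul_zero]) j (Finset.mem_singleton_self j)
  have := congrFun h UpperHalfPlane.I
  simp at this

theorem h65_weight_even (hG : IsGenFamily N w c) (j : J) : Even (w j) := by
  by_contra hodd
  exact h65_gen_ne_zero hG j (h65_Mfun_odd (Int.not_even_iff_odd.mp hodd) (hG.mem j))

/-- Fibre independence from a fibre lemma, an independent family of subspaces of `ℂ^X`
containing the values (the eigenspaces of a stabiliser), and normalising factors inside each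
class. -/
theorem h65_indep_of_eigen (hG : IsGenFamily N w c) {τ₀ : ℍ} {g : ℤ} {G : ℍ → ℂ}
    (hGm : G ∈ Lfun g) (hG0 : G τ₀ = 0)
    (hfib : ∀ (K : ℤ) (F : ℍ → ℂ), F ∈ Mfun N K → evX N K τ₀ F = 0 →
      ∃ H ∈ Mfun N (K - g), F = G * H)
    (E : ℂ → Submodule ℂ ((SL(2, ℤ) ⧸ Gamma0 N) → ℂ)) (hE : iSupIndep E) (ε : ℤ → ℂ)
    (hmem : ∀ j, evX N (w j) τ₀ (c j) ∈ E (ε (w j)))
    (hnorm : ∀ (s : Finset J) (j₀ : J), ∃ K : ℤ, ∀ j ∈ s, ε (w j) = ε (w j₀) →
      ∃ u ∈ Lfun (K - w j), u τ₀ = 1) :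
    LinearIndependent ℂ (fun j => evX N (w j) τ₀ (c j)) := by
  classical
  rw [linearIndependent_iff']
  intro s l hl j₀ hj₀
  set s₀ := s.filter (fun j => ε (w j) = ε (w j₀)) with hs₀
  set x := ∑ j ∈ s₀, l j • evX N (w j) τ₀ (c j) with hx
  set y := ∑ j ∈ s.filter (fun j => ¬ ε (w j) = ε (w j₀)), l j • evX N (w j) τ₀ (c j) with hy
  have hxy : x + y = 0 := by
    rw [hx, hy, hs₀, Finset.sum_filter_add_sum_filter_not]; exact hl
  have hxm : x ∈ E (ε (w j₀)) := by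
    refine Submodule.sum_mem _ fun j hj => Submodule.smul_mem _ _ ?_
    have := (Finset.mem_filter.mp hj).2
    rw [← this]; exact hmem j
  have hym : y ∈ ⨆ (ζ) (_ : ζ ≠ ε (w j₀)), E ζ := by
    refine Submodule.sum_mem _ fun j hj => Submodule.smul_mem _ _ ?_
    have := (Finset.mem_filter.mp hj).2
    exact (le_iSup₂_of_le (ε (w j)) this le_rfl : E (ε (w j)) ≤ _) (hmem j)
  have hx0 : x = 0 := by
    have hyx : x = -y := eq_neg_of_add_eq_zero_left hxy
    exact Submodule.disjoint_def.mp (hE (ε (w j₀))) x hxm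
      (by rw [hyx]; exact Submodule.neg_mem _ hym)
  obtain ⟨K, hK⟩ := hnorm s j₀
  have hK' : ∀ j, ∃ u : ℍ → ℂ, j ∈ s₀ → u ∈ Lfun (K - w j) ∧ u τ₀ = 1 := by
    intro j
    by_cases hj : j ∈ s₀
    · obtain ⟨u, hu, hu1⟩ := hK j (Finset.mem_filter.mp hj).1 (Finset.mem_filter.mp hj).2
      exact ⟨u, fun _ => ⟨hu, hu1⟩⟩
    · exact ⟨0, fun h => absurd h hj⟩
  choose u hu using hK'
  exact h65_indep_class hG hGm hG0 hfib K s₀ u (fun j hj => (hu j hj).1)
    (fun j hj => (hu j hj).2) l hx0 j₀ (Finset.mem_filter.mpr ⟨hj₀, rfl⟩)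

/-- Generic point: no classes are needed. -/
theorem h65_indep_generic (hG : IsGenFamily N w c) {τ₀ : ℍ} (h4 : E₄ τ₀ ≠ 0) (h6 : E₆ τ₀ ≠ 0)
    (hfib : ∀ (K : ℤ) (F : ℍ → ℂ), F ∈ Mfun N K → evX N K τ₀ F = 0 →
      ∃ H ∈ Mfun N (K - 12),
        F = (fun τ => E₆ τ₀ ^ 2 * E₄ τ ^ 3 - E₄ τ₀ ^ 3 * E₆ τ ^ 2) * H) :
    LinearIndependent ℂ (fun j => evX N (w j) τ₀ (c j)) := by
  classical
  rw [linearIndependent_iff']
  intro s l hl
  set T : ℤ := ∑ j ∈ s, |w j| with hT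
  have hK' : ∀ j, ∃ u : ℍ → ℂ, j ∈ s → u ∈ Lfun (2 * T + 4 - w j) ∧ u τ₀ = 1 := by
    intro j
    by_cases hj : j ∈ s
    · have hle : |w j| ≤ T := Finset.single_le_sum (fun i _ => abs_nonneg (w i)) hj
      have h1 := le_abs_self (w j)
      have h0 := abs_nonneg (w j)
      obtain ⟨a, b, hab⟩ := h65_exists_46 (2 * T + 4 - w j)
        (((even_two_mul T).add (by decide)).sub (h65_weight_even hG j)) (by omega)
      obtain ⟨u, hu, hu1⟩ := h65_normaliser (τ₀ := τ₀) a b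
        (mul_ne_zero (pow_ne_zero _ h4) (pow_ne_zero _ h6)) hab
      exact ⟨u, fun _ => ⟨hu, hu1⟩⟩
    · exact ⟨0, fun h => absurd h hj⟩
  choose u hu using hK'
  exact h65_indep_class hG (h65_Gt_mem τ₀) (by ring) hfib (2 * T + 4) s u
    (fun j hj => (hu j hj).1) (fun j hj => (hu j hj).2) l hl

/-- The cusp `i∞`: a combination of the generators all of whose conjugates decay like
`exp (-2π im τ)` is trivial. -/
theorem h65_indep_infty [Fintype J] (hG : IsGenFamily N w c) (l : J → ℂ)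
    (hl : ∀ q : SL(2, ℤ) ⧸ Gamma0 N,
      (fun τ : ℍ => ∑ j, l j * cj N (w j) (c j) q τ) =O[atImInfty]
        (fun τ : ℍ => Real.exp (-2 * π * τ.im))) : l = 0 := by
  classical
  set T : ℤ := ∑ j, |w j| with hT
  set K : ℤ := 2 * T + 4 with hK
  have hab : ∀ j, ∃ a b : ℕ, K - w j = 4 * a + 6 * b := by
    intro j
    have hle : |w j| ≤ T :=
      Finset.single_le_sum (fun i _ => abs_nonneg (w i)) (Finset.mem_univ j)
    have h1 := le_abs_self (w j)
    have h0 := abs_nonneg (w j)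
    exact h65_exists_46 _ (((even_two_mul T).add (by decide)).sub (h65_weight_even hG j))
      (by omega)
  choose a b hab using hab
  set u : J → ℍ → ℂ := fun j => (⇑E₄ : ℍ → ℂ) ^ a j * (⇑E₆ : ℍ → ℂ) ^ b j with hu
  have hum : ∀ j, u j ∈ Lfun (K - w j) := fun j => h65_mono_mem (a j) (b j) (hab j)
  have hu1 : ∀ j, Tendsto (u j) atImInfty (𝓝 1) := by
    intro j
    have := (h77_tendsto_E4.pow (a j)).mul (h77_tendsto_E6.pow (b j))
    show Tendsto (fun x => E₄ x ^ a j * E₆ x ^ b j) atImInfty (𝓝 1)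
    simpa using this
  have huO : ∀ j, (fun τ => u j τ - 1) =O[atImInfty]
      fun τ : ℍ => Real.exp (-2 * π * τ.im) :=
    fun j => h65_Lfun_sub_isBigO (hum j) (hu1 j)
  have ha : ∀ j, l j • u j ∈ Lfun (K - w j) := fun j => Submodule.smul_mem _ _ (hum j)
  set F : ℍ → ℂ := ∑ j, (l j • u j) * c j with hF
  have hFm : F ∈ Mfun N (K - 12 + 12) := by
    rw [sub_add_cancel]
    exact Submodule.sum_mem _ fun j _ => h77_Lfun_mul_Mfun (by ring) (ha j) (hG.mem j)
  have hcj : ∀ q τ, cj N (K - 12 + 12) F q τ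
      = ∑ j, l j * (u j τ - 1) * cj N (w j) (c j) q τ + ∑ j, l j * cj N (w j) (c j) q τ := by
    intro q τ
    rw [← evX_apply, hF, map_sum, Finset.sum_apply, ← Finset.sum_add_distrib]
    refine Finset.sum_congr rfl fun j _ => ?_
    rw [h65_evX_mul (k := w j) (l := K - w j) (by ring) (ha j), Pi.smul_apply, evX_apply,
      Pi.smul_apply, smul_eq_mul, smul_eq_mul]
    ring
  have hdec : ∀ q : SL(2, ℤ) ⧸ Gamma0 N, cj N (K - 12 + 12) F q =O[atImInfty]
      fun τ : ℍ => Real.exp (-2 * π * τ.im) := by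
    intro q
    have h1 : (fun τ => ∑ j, l j * (u j τ - 1) * cj N (w j) (c j) q τ) =O[atImInfty]
        fun τ : ℍ => Real.exp (-2 * π * τ.im) := by
      refine IsBigO.fun_sum fun j _ => ?_
      have hb : IsBoundedAtImInfty (cj N (w j) (c j) q) :=
        h84_isBoundedAtImInfty_cj (hG.mem j) q
      have := ((huO j).mul hb).const_mul_left (l j)
      simpa [mul_assoc] using this
    exact (h1.add (hl q)).congr_left fun τ => (hcj q τ).symm
  obtain ⟨H, hH, hFH⟩ := h77_exists_div_delta_of_isBigO N hFm hdec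
  have hcore := h65_core hG h77_discriminant_mem_Lfun Finset.univ (fun j => l j • u j)
    (fun j _ => ha j) hH hFH
  funext j
  obtain ⟨h, hh, hhe⟩ := hcore j (Finset.mem_univ j)
  have hlim1 : Tendsto (fun τ => l j * u j τ) atImInfty (𝓝 (l j * 1)) :=
    (hu1 j).const_mul (l j)
  have hlim2 : Tendsto (fun τ => discriminant τ * h τ) atImInfty (𝓝 0) := by
    have hb : h =O[atImInfty] (1 : ℍ → ℝ) := hh.2.2
    have := (isBigO_norm_right.mpr (isBigO_refl (discriminant : ℍ → ℂ) atImInfty)).mul hb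
    refine this.trans_tendsto ?_
    simpa using h65_tendsto_discriminant.norm
  have heq : (fun τ => l j * u j τ) = fun τ => discriminant τ * h τ := by
    funext τ
    have := congrFun hhe τ
    simpa using this
  rw [heq] at hlim1
  have := tendsto_nhds_unique hlim1 hlim2
  simpa using this

end Core2

end Fermat.Agent.S20
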