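import Mathlib
import Fermat.Agent.S23.h96_CharPoly
import Fermat.Agent.S23.h97_Quot

set_option autoImplicit false

open UpperHalfPlane ModularForm SlashInvariantForm Filter Topology
open scoped MatrixGroups ModularForm Manifold

namespace Fermat.Agent.S20

open Fermat.Agent.S23

/-- The order of vanishing at a point of `ℍ` of a function on `ℍ`. -/
noncomputable def h97_ord (f : ℍ → ℂ) (t : ℍ) : ℕ∞ := analyticOrderAt (f ∘ ofComplex) (t : ℂ)

theorem h97_analyticAt {f : ℍ → ℂ} (hf : MDiff f) (t : ℍ) :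
    AnalyticAt ℂ (f ∘ ofComplex) (t : ℂ) :=
  (UpperHalfPlane.mdifferentiable_iff.mp hf).analyticAt
    (isOpen_upperHalfPlaneSet.mem_nhds t.im_pos)

theorem h97_one_le_ord_iff {f : ℍ → ℂ} (hf : MDiff f) (t : ℍ) :
    1 ≤ h97_ord f t ↔ f t = 0 := by
  rw [h97_ord, Order.one_le_iff_ne_zero, (h97_analyticAt hf t).analyticOrderAt_ne_zero]
  simp

theorem h97_ord_mul {f g : ℍ → ℂ} (hf : MDiff f) (hg : MDiff g) (t : ℍ) :
    h97_ord (f * g) t = h97_ord f t + h97_ord g t :=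
  analyticOrderAt_mul (h97_analyticAt hf t) (h97_analyticAt hg t)

theorem h97_ord_zero (t : ℍ) : h97_ord (0 : ℍ → ℂ) t = ⊤ := by
  rw [h97_ord, analyticOrderAt_eq_top]
  exact Eventually.of_forall fun z => rfl

theorem h97_le_ord_add (f g : ℍ → ℂ) (t : ℍ) :
    min (h97_ord f t) (h97_ord g t) ≤ h97_ord (f + g) t :=
  le_analyticOrderAt_add

theorem h97_le_ord_sum {ι : Type*} (s : Finset ι) (f : ι → ℍ → ℂ) (t : ℍ) (m : ℕ∞)
    (h : ∀ i ∈ s, m ≤ h97_ord (f i) t) : m ≤ h97_ord (∑ i ∈ s, f i) t := by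
  classical
  induction s using Finset.induction_on with
  | empty => simp [h97_ord_zero]
  | insert a s ha ih =>
    rw [Finset.sum_insert ha]
    refine le_trans (le_min (h a (Finset.mem_insert_self a s)) (ih fun i hi => ?_))
      (h97_le_ord_add _ _ t)
    exact h i (Finset.mem_insert_of_mem hi)

theorem h97_mdiff_prod {ι : Type*} (s : Finset ι) (f : ι → ℍ → ℂ) (hf : ∀ i ∈ s, MDiff (f i)) :
    MDiff (∏ i ∈ s, f i) := by
  classical
  induction s using Finset.induction_on with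
  | empty =>
    simp only [Finset.prod_empty]
    exact mdifferentiable_const
  | insert a s ha ih =>
    rw [Finset.prod_insert ha]
    exact (hf a (Finset.mem_insert_self a s)).mul (ih fun i hi => hf i (Finset.mem_insert_of_mem hi))

theorem h97_card_le_ord_prod {ι : Type*} (s : Finset ι) (f : ι → ℍ → ℂ) (t : ℍ)
    (hf : ∀ i ∈ s, MDiff (f i)) (h0 : ∀ i ∈ s, f i t = 0) :
    (s.card : ℕ∞) ≤ h97_ord (∏ i ∈ s, f i) t := by
  classical
  induction s using Finset.induction_on with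
  | empty => simp
  | insert a s ha ih =>
    have hfa : MDiff (f a) := hf a (Finset.mem_insert_self a s)
    have hfs : ∀ i ∈ s, MDiff (f i) := fun i hi => hf i (Finset.mem_insert_of_mem hi)
    rw [Finset.prod_insert ha, Finset.card_insert_of_notMem ha,
      h97_ord_mul hfa (h97_mdiff_prod s f hfs), Nat.cast_add, Nat.cast_one, add_comm]
    exact add_le_add ((h97_one_le_ord_iff hfa t).mpr (h0 a (Finset.mem_insert_self a s)))
      (ih hfs fun i hi => h0 i (Finset.mem_insert_of_mem hi))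

section esymm

variable {𝒢 : Subgroup (GL (Fin 2) ℝ)} [𝒢.IsArithmetic] {k : ℤ}

/-- If all conjugates of `F` vanish at `t`, the `m`-th elementary symmetric function of the
conjugates vanishes to order at least `m` at `t`. -/
theorem h97_le_ord_esymm (F : ModularForm 𝒢 k) (t : ℍ)
    (hF : ∀ q : 𝒮ℒ ⧸ 𝒢.subgroupOf 𝒮ℒ, quotientFunc F q t = 0) (m : ℕ) :
    (m : ℕ∞) ≤ h97_ord (h96_esymm F m) t := by
  unfold h96_esymm
  refine h97_le_ord_sum _ _ t _ fun s hs => ?_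
  have hcard : s.card = m := (Finset.mem_powersetCard.mp hs).2
  rw [← hcard]
  exact h97_card_le_ord_prod s _ t (fun q _ => h96_quotientFunc_mdiff F q) fun q _ => hF q

end esymm

/-- Iterated division of a level one form by a level one form `G` with a simple zero at `t0`
generating the ideal of level one forms vanishing at `t0`. -/
theorem h97_div_pow {b : ℤ} (G : ModularForm 𝒮ℒ b) (t0 : ℍ)
    (hG : h97_ord G t0 = 1)
    (hideal : ∀ (w : ℤ) (a : ModularForm 𝒮ℒ w), a t0 = 0 →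
      ∃ a' : ModularForm 𝒮ℒ (w - b), ∀ τ, a τ = G τ * a' τ)
    (m : ℕ) : ∀ (w : ℤ) (a : ModularForm 𝒮ℒ w), (m : ℕ∞) ≤ h97_ord a t0 →
      ∃ a' : ModularForm 𝒮ℒ (w - m * b), ∀ τ, a τ = G τ ^ m * a' τ := by
  induction m with
  | zero =>
    intro w a _
    exact ⟨ModularForm.mcast (by simp) a, fun τ => by simp⟩
  | succ m ih =>
    intro w a ha
    have hA : MDiff (a : ℍ → ℂ) := a.holo'
    have hGd : MDiff (G : ℍ → ℂ) := G.holo'
    have h0 : a t0 = 0 := by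
      refine (h97_one_le_ord_iff hA t0).mp (le_trans ?_ ha)
      exact_mod_cast Nat.succ_le_succ (Nat.zero_le m)
    obtain ⟨a1, ha1⟩ := hideal w a h0
    have hfun : (a : ℍ → ℂ) = (G : ℍ → ℂ) * (a1 : ℍ → ℂ) := funext ha1
    have hA1 : MDiff (a1 : ℍ → ℂ) := a1.holo'
    have hord : (m : ℕ∞) ≤ h97_ord a1 t0 := by
      rw [hfun, h97_ord_mul hGd hA1, hG] at ha
      generalize h97_ord a1 t0 = x at ha
      induction x using ENat.recTopCoe with
      | top => exact le_top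
      | coe n =>
        have h1 : ((m + 1 : ℕ) : ℕ∞) ≤ ((1 + n : ℕ) : ℕ∞) := by
          simpa using ha
        have h2 : m + 1 ≤ 1 + n := by exact_mod_cast h1
        exact_mod_cast (by omega : m ≤ n)
    obtain ⟨a2, ha2⟩ := ih (w - b) a1 hord
    refine ⟨ModularForm.mcast (by push_cast; ring) a2, fun τ => ?_⟩
    rw [ha1, ha2, pow_succ]
    simp only [ModularForm.mcast_apply]
    ring

section main

variable {𝒢 : Subgroup (GL (Fin 2) ℝ)} [𝒢.IsArithmetic]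

/-- The data produced by the fibre argument: the monic equation of `F` over level one with
coefficients divisible by the powers of `G`. -/
theorem h97_fiber_monic {k b : ℤ}
    (F : ModularForm 𝒢 (k + b)) (G : ModularForm 𝒮ℒ b) (t0 : ℍ)
    (hG : h97_ord G t0 = 1)
    (hideal : ∀ (w : ℤ) (a : ModularForm 𝒮ℒ w), a t0 = 0 →
      ∃ a' : ModularForm 𝒮ℒ (w - b), ∀ τ, a τ = G τ * a' τ)
    (hF : ∀ q : 𝒮ℒ ⧸ 𝒢.subgroupOf 𝒮ℒ, quotientFunc F q t0 = 0) :
    ∃ (μ : ℕ) (e : (i : Fin μ) → ModularForm 𝒮ℒ (((i : ℕ) + 1 : ℤ) * k)),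
      ∀ τ : ℍ, F τ ^ μ +
        ∑ i : Fin μ, e i τ * F τ ^ (μ - 1 - (i : ℕ)) * G τ ^ ((i : ℕ) + 1) = 0 := by
  set μ := Nat.card (𝒮ℒ ⧸ 𝒢.subgroupOf 𝒮ℒ) with hμ
  have hdiv : ∀ i : Fin μ, ∃ a' : ModularForm 𝒮ℒ (((i : ℕ) + 1 : ℤ) * k), ∀ τ,
      h96_esymm F ((i : ℕ) + 1) τ = G τ ^ ((i : ℕ) + 1) * a' τ := by
    intro i
    obtain ⟨a', ha'⟩ := h97_div_pow G t0 hG hideal ((i : ℕ) + 1) ((k + b) * (((i : ℕ) + 1 : ℕ) : ℤ))
      (h96_esymmModular F ((i : ℕ) + 1) _ rfl) (h97_le_ord_esymm F t0 hF _)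
    exact ⟨ModularForm.mcast (by push_cast; ring) a', fun τ => ha' τ⟩
  choose e' he' using hdiv
  refine ⟨μ, fun i => (-1 : ℂ) ^ ((i : ℕ) + 1) • e' i, fun τ => ?_⟩
  have h := h96_charpoly_eq F τ
  rw [← Fin.sum_univ_eq_sum_range
    (fun i => ((-1 : ℂ) ^ (i + 1) * h96_esymm F (i + 1) τ) *
      F τ ^ (Nat.card (𝒮ℒ ⧸ (𝒢.subgroupOf 𝒮ℒ)) - 1 - i))] at h
  rw [← h]
  congr 1
  refine Finset.sum_congr rfl fun i _ => ?_
  rw [he' i τ]
  simp only [smul_apply, smul_eq_mul]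
  ring

theorem h97_ne_zero_of_ord {b : ℤ} (G : ModularForm 𝒮ℒ b) (t0 : ℍ) (hG : h97_ord G t0 = 1) :
    G ≠ 0 := by
  rintro rfl
  have : h97_ord ((0 : ModularForm 𝒮ℒ b) : ℍ → ℂ) t0 = ⊤ := h97_ord_zero t0
  rw [this] at hG
  exact ENat.top_ne_one hG

theorem h97_levelOne_slash {w : ℤ} (e : ModularForm 𝒮ℒ w) (γ : SL(2, ℤ)) :
    (e : ℍ → ℂ) ∣[w] γ = e :=
  SlashInvariantFormClass.slash_action_eq e (γ : GL (Fin 2) ℝ) ⟨γ, rfl⟩

/-- FIBRE LEMMA (modular forms). If all level one conjugates of `F` vanish at `t0`, and `G` is a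
level one form with a simple zero at `t0` generating the ideal of level one forms vanishing at
`t0`, then `F / G` is a modular form. -/
theorem h97_fiber_div (h𝒢 : 𝒢 ≤ 𝒮ℒ) {k b : ℤ}
    (F : ModularForm 𝒢 (k + b)) (G : ModularForm 𝒮ℒ b) (t0 : ℍ)
    (hG : h97_ord G t0 = 1)
    (hideal : ∀ (w : ℤ) (a : ModularForm 𝒮ℒ w), a t0 = 0 →
      ∃ a' : ModularForm 𝒮ℒ (w - b), ∀ τ, a τ = G τ * a' τ)
    (hF : ∀ q : 𝒮ℒ ⧸ 𝒢.subgroupOf 𝒮ℒ, quotientFunc F q t0 = 0) :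
    ∃ H : ModularForm 𝒢 k, ∀ τ, H τ * G τ = F τ := by
  obtain ⟨μ, e, he⟩ := h97_fiber_monic F G t0 hG hideal hF
  exact h97_exists_modularForm_mul_eq h𝒢 F G (h97_ne_zero_of_ord G t0 hG) μ (fun i => e i)
    (fun i => (e i).holo'.continuous) (fun i γ => h97_levelOne_slash (e i) γ)
    (fun i => ModularFormClass.bdd_at_infty (e i)) he

/-- A level one modular form tends to the constant term of its `q`-expansion at `i∞`. -/
theorem h97_tendsto_levelOne {b : ℤ} (G : ModularForm 𝒮ℒ b) :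
    Tendsto (G : ℍ → ℂ) atImInfty (𝓝 ((qExpansion 1 G).coeff 0)) := by
  have hanal := ModularFormClass.analyticAt_cuspFunction_zero G one_pos one_mem_strictPeriods_SL
  have hper := SlashInvariantFormClass.periodic_comp_ofComplex G one_mem_strictPeriods_SL
  rw [qExpansion_coeff_zero one_pos hanal hper, ← cuspFunction_apply_zero one_pos hanal hper]
  exact (hanal.continuousAt.tendsto.comp (qParam_tendsto_atImInfty one_pos)).congr
    (fun τ ↦ SlashInvariantFormClass.eq_cuspFunction G τ one_mem_strictPeriods_SL one_ne_zero)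

/-- FIBRE LEMMA (cusp forms). -/
theorem h97_fiber_div_cusp (h𝒢 : 𝒢 ≤ 𝒮ℒ) {k b : ℤ}
    (F : CuspForm 𝒢 (k + b)) (G : ModularForm 𝒮ℒ b) (t0 : ℍ)
    (hG : h97_ord G t0 = 1) (hGinf : (qExpansion 1 G).coeff 0 ≠ 0)
    (hideal : ∀ (w : ℤ) (a : ModularForm 𝒮ℒ w), a t0 = 0 →
      ∃ a' : ModularForm 𝒮ℒ (w - b), ∀ τ, a τ = G τ * a' τ)
    (hF : ∀ q : 𝒮ℒ ⧸ 𝒢.subgroupOf 𝒮ℒ, quotientFunc F q t0 = 0) :
    ∃ H : CuspForm 𝒢 k, ∀ τ, H τ * G τ = F τ := by
  let F' : ModularForm 𝒢 (k + b) :=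
    { toFun := F
      slash_action_eq' := F.slash_action_eq'
      holo' := F.holo'
      bdd_at_cusps' := fun hc γ hγ => (F.zero_at_cusps' hc γ hγ).boundedAtFilter }
  have hF' : ∀ q : 𝒮ℒ ⧸ 𝒢.subgroupOf 𝒮ℒ, quotientFunc F' q t0 = 0 := by
    intro q
    have : quotientFunc F' q = quotientFunc F q := by
      induction q using Quotient.inductionOn with
      | h r => rfl
    rw [this]
    exact hF q
  obtain ⟨H, hH⟩ := h97_fiber_div h𝒢 F' G t0 hG hideal hF'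
  have hHF : (H : ℍ → ℂ) * (G : ℍ → ℂ) = (F : ℍ → ℂ) := funext hH
  refine ⟨{ toFun := H
            slash_action_eq' := H.slash_action_eq'
            holo' := H.holo'
            zero_at_cusps' := ?_ }, hH⟩
  intro c hc
  have hc' : IsCusp c 𝒮ℒ := (Subgroup.IsArithmetic.isCusp_iff_isCusp_SL2Z 𝒢).mp hc
  rw [OnePoint.isZeroAt_iff_forall_SL2Z hc']
  intro γ hγ
  have hFz : IsZeroAtImInfty ((F : ℍ → ℂ) ∣[k + b] γ) :=
    (OnePoint.isZeroAt_iff_forall_SL2Z hc').mp (F.zero_at_cusps' hc) γ hγ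
  have hmul : ((H : ℍ → ℂ) ∣[k] γ) * (G : ℍ → ℂ) = (F : ℍ → ℂ) ∣[k + b] γ := by
    rw [← hHF, ModularForm.mul_slash_SL2, h97_levelOne_slash G γ]
  have hGt := h97_tendsto_levelOne G
  have hev : ∀ᶠ τ in atImInfty, (G : ℍ → ℂ) τ ≠ 0 := hGt.eventually_ne hGinf
  have hlim : Tendsto (fun τ => ((F : ℍ → ℂ) ∣[k + b] γ) τ / (G : ℍ → ℂ) τ) atImInfty
      (𝓝 (0 / (qExpansion 1 G).coeff 0)) := Tendsto.div hFz hGt hGinf
  rw [zero_div] at hlim
  refine hlim.congr' ?_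
  filter_upwards [hev] with τ hτ
  rw [← hmul]
  simp only [Pi.mul_apply]
  field_simp

omit [𝒢.IsArithmetic] in
/-- The hypothesis of the fibre lemma in terms of the orbit of `t0`. -/
theorem h97_quotientFunc_eq_zero_of_orbit {k : ℤ} {F : Type*}
    [FunLike F ℍ ℂ] [SlashInvariantFormClass F 𝒢 k] (f : F) (t0 : ℍ)
    (h : ∀ γ : SL(2, ℤ), f (γ • t0) = 0) (q : 𝒮ℒ ⧸ 𝒢.subgroupOf 𝒮ℒ) :
    quotientFunc f q t0 = 0 := by
  induction q using Quotient.inductionOn with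
  | h r =>
    obtain ⟨γ, hγ⟩ : ∃ γ : SL(2, ℤ), (γ : GL (Fin 2) ℝ) = r.val⁻¹ := (inv_mem r.2 : r.val⁻¹ ∈ 𝒮ℒ)
    simp only [quotientFunc_mk]
    rw [← hγ, ← ModularForm.SL_slash, ModularForm.SL_slash_apply, h γ, zero_mul]

end main

end Fermat.Agent.S20
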