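import Mathlib
import Fermat.Agent.S20.h97_Fiber
import Fermat.Agent.S24.h39_JFun

set_option autoImplicit false

open UpperHalfPlane ModularForm SlashInvariantForm Filter Topology EisensteinSeries
open scoped MatrixGroups ModularForm Manifold

namespace Fermat.Agent.S20

open Fermat.Agent.S24

local notation "Δ" => ModularForm.discriminant

/-- A level one form of every even weight `w ≥ 0`, `w ≠ 2`, with constant term `1`. -/
theorem h97_exists_normalized (w : ℤ) (h0 : 0 ≤ w) (hev : Even w) (h2 : w ≠ 2) :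
    ∃ v : ModularForm 𝒮ℒ w, (qExpansion 1 v).coeff 0 = 1 := by
  rcases eq_or_lt_of_le h0 with rfl | hpos
  · refine ⟨1, ?_⟩
    rw [ModularForm.qExpansion_one]
    simp
  · lift w to ℕ using h0
    have hev' : Even w := by exact_mod_cast hev
    have h3 : 3 ≤ w := by
      obtain ⟨m, hm⟩ := hev'
      have : w ≠ 2 := by exact_mod_cast h2
      have : 0 < w := by exact_mod_cast hpos
      omega
    exact ⟨E h3, E_qExpansion_coeff_zero h3 hev'⟩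

/-- The constant term of a level one form is its limit at `i∞`. -/
theorem h97_coeff_zero_eq_of_tendsto {w : ℤ} (u : ModularForm 𝒮ℒ w) {c : ℂ}
    (h : Tendsto (u : ℍ → ℂ) atImInfty (𝓝 c)) : (qExpansion 1 u).coeff 0 = c :=
  tendsto_nhds_unique (h97_tendsto_levelOne u) h

/-- Level one ideal fact, general form: if `G` vanishes at `t0`, has nonzero constant term, and
no nonzero form of weight `w < b` or `w = b + 2` vanishes at `t0`, then every level one form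
vanishing at `t0` is divisible by `G`. -/
theorem h97_ideal_aux {b : ℤ} (hb : Even b) (G : ModularForm 𝒮ℒ b) (t0 : ℍ) (hG0 : G t0 = 0)
    (hGinf : (qExpansion 1 G).coeff 0 ≠ 0)
    (hbase : ∀ (w : ℤ), (w < b ∨ w = b + 2) → ∀ a : ModularForm 𝒮ℒ w, a t0 = 0 → a = 0)
    (n : ℕ) : ∀ w : ℤ, w < n → ∀ a : ModularForm 𝒮ℒ w, a t0 = 0 →
      ∃ a' : ModularForm 𝒮ℒ (w - b), ∀ τ, a τ = G τ * a' τ := by
  induction n with
  | zero =>
    intro w hw a _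
    have ha : a = 0 :=
      rank_zero_iff_forall_zero.mp (levelOne_neg_weight_rank_zero (by simpa using hw)) a
    exact ⟨0, fun τ => by simp [ha]⟩
  | succ n ih =>
    intro w hw a ha0
    by_cases hwn : w < n
    · exact ih w hwn a ha0
    by_cases hodd : Odd w
    · have ha : a = 0 := ModularForm.levelOne_odd_weight_eq_zero hodd a
      exact ⟨0, fun τ => by simp [ha]⟩
    have hev : Even w := Int.not_odd_iff_even.mp hodd
    by_cases hsmall : w < b ∨ w = b + 2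
    · have ha := hbase w hsmall a ha0
      exact ⟨0, fun τ => by simp [ha]⟩
    have hsmall1 : b ≤ w := not_lt.mp fun h => hsmall (Or.inl h)
    have hsmall2 : w ≠ b + 2 := fun h => hsmall (Or.inr h)
    obtain ⟨v, hv⟩ := h97_exists_normalized (w - b) (by omega) (hev.sub hb) (by omega)
    set c0 := (qExpansion 1 G).coeff 0 with hc0
    let u : ModularForm 𝒮ℒ w := c0⁻¹ • ModularForm.mcast (by ring) (G.mul v)
    have hu_apply : ∀ τ, u τ = c0⁻¹ * (G τ * v τ) := fun τ => rfl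
    have hu : (qExpansion 1 u).coeff 0 = 1 := by
      have h2 : Tendsto (u : ℍ → ℂ) atImInfty (𝓝 (c0⁻¹ * (c0 * 1))) := by
        have h3 := ((h97_tendsto_levelOne G).mul (h97_tendsto_levelOne v)).const_mul c0⁻¹
        rw [hv] at h3
        exact h3.congr fun τ => (hu_apply τ).symm
      rw [h97_coeff_zero_eq_of_tendsto u h2]
      field_simp
    obtain ⟨g, hg⟩ := ModularForm.sub_smul_isCuspForm a u hu
    have hg' : ∀ τ, g τ = a τ - (qExpansion 1 a).coeff 0 * u τ := fun τ => by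
      have := DFunLike.congr_fun hg τ
      simpa using this
    set c : ModularForm 𝒮ℒ (w - 12) := CuspForm.discriminantEquiv g with hcdef
    have hc : ∀ τ, Δ τ * c τ = g τ := fun τ => discriminant_mul_discriminantEquiv_apply g τ
    have hct0 : c t0 = 0 := by
      have h1 := hc t0
      rw [hg', ha0, hu_apply, hG0] at h1
      have h2 : Δ t0 * c t0 = 0 := by rw [h1]; ring
      exact (mul_eq_zero.mp h2).resolve_left (discriminant_ne_zero t0)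
    obtain ⟨c', hc'⟩ := ih (w - 12) (by omega) c hct0
    let D : ModularForm 𝒮ℒ (w - b) :=
      CuspForm.toModularFormₗ (CuspForm.ofMulDiscriminant (k := w - b)
        (ModularForm.mcast (by ring) c'))
    have hD : ∀ τ, D τ = Δ τ * c' τ := fun τ => rfl
    refine ⟨((qExpansion 1 a).coeff 0 * c0⁻¹) • v + D, fun τ => ?_⟩
    have h1 := hg' τ
    have h2 := hc τ
    have h3 := hc' τ
    have h4 := hu_apply τ
    simp only [add_apply, smul_apply, smul_eq_mul, hD]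
    linear_combination -h1 - h2 + (Δ τ) * h3 + ((qExpansion 1 a).coeff 0) * h4

/-- Level one ideal fact. -/
theorem h97_ideal {b : ℤ} (hb : Even b) (G : ModularForm 𝒮ℒ b) (t0 : ℍ) (hG0 : G t0 = 0)
    (hGinf : (qExpansion 1 G).coeff 0 ≠ 0)
    (hbase : ∀ (w : ℤ), (w < b ∨ w = b + 2) → ∀ a : ModularForm 𝒮ℒ w, a t0 = 0 → a = 0)
    (w : ℤ) (a : ModularForm 𝒮ℒ w) (ha : a t0 = 0) :
    ∃ a' : ModularForm 𝒮ℒ (w - b), ∀ τ, a τ = G τ * a' τ :=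
  h97_ideal_aux hb G t0 hG0 hGinf hbase (w.toNat + 1) w (by omega) a ha

/-! ### Monomials and small weights -/

/-- The monomial `E₄ ^ x * E₆ ^ y` as a level one form. -/
theorem h97_mono (x y : ℕ) (w : ℤ) (hw : w = 4 * x + 6 * y) :
    ∃ m : ModularForm 𝒮ℒ w, ∀ τ, m τ = E₄ τ ^ x * E₆ τ ^ y := by
  refine ⟨ModularForm.mcast (by rw [hw]; ring) ((E₄.pow x).mul (E₆.pow y)), fun τ => ?_⟩
  simp [ModularForm.mcast_apply, ModularForm.coe_mul, ModularForm.coe_pow]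

theorem h97_mono_coeff_zero {w : ℤ} (m : ModularForm 𝒮ℒ w) (x y : ℕ)
    (hm : ∀ τ, m τ = E₄ τ ^ x * E₆ τ ^ y) : (qExpansion 1 m).coeff 0 = 1 := by
  apply h97_coeff_zero_eq_of_tendsto
  have h := (h39_tendsto_E4.pow x).mul (h39_tendsto_E6.pow y)
  simp only [one_pow, mul_one] at h
  exact h.congr fun τ => (hm τ).symm

/-- In weights `w < 12` and `w = 14`, a level one form is determined by its constant term. -/
theorem h97_eq_smul_of_small (w : ℤ) (hw : w < 12 ∨ w = 14) (m : ModularForm 𝒮ℒ w)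
    (hm : (qExpansion 1 m).coeff 0 = 1) (a : ModularForm 𝒮ℒ w) :
    a = (qExpansion 1 a).coeff 0 • m := by
  obtain ⟨g, hg⟩ := ModularForm.sub_smul_isCuspForm a m hm
  have hg0 : g = 0 := by
    rcases hw with hw | rfl
    · exact rank_zero_iff_forall_zero.mp (CuspForm.rank_eq_zero_of_weight_lt_twelve hw) g
    · have h2 : (CuspForm.discriminantEquiv g : ModularForm 𝒮ℒ (14 - 12)) = 0 :=
        rank_zero_iff_forall_zero.mp
          (show Module.rank ℂ (ModularForm 𝒮ℒ (14 - 12)) = 0 from levelOne_weight_two_rank_zero) _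
      exact (LinearEquiv.map_eq_zero_iff _).mp h2
  rw [hg0, map_zero] at hg
  exact sub_eq_zero.mp hg.symm

/-- In weights `w < 12` and `w = 14`, every level one form is a multiple of a monomial. -/
theorem h97_small_weight (w : ℤ) (hw : w < 12 ∨ w = 14) (a : ModularForm 𝒮ℒ w) :
    ∃ (c : ℂ) (x y : ℕ), (∀ τ, a τ = c * (E₄ τ ^ x * E₆ τ ^ y)) ∧
      (c ≠ 0 → w = 4 * x + 6 * y) := by
  have hzero : a = 0 → ∃ (c : ℂ) (x y : ℕ), (∀ τ, a τ = c * (E₄ τ ^ x * E₆ τ ^ y)) ∧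
      (c ≠ 0 → w = 4 * x + 6 * y) := fun ha =>
    ⟨0, 0, 0, fun τ => by simp [ha], fun h => absurd rfl h⟩
  by_cases hneg : w < 0
  · exact hzero (rank_zero_iff_forall_zero.mp (levelOne_neg_weight_rank_zero hneg) a)
  by_cases hodd : Odd w
  · exact hzero (ModularForm.levelOne_odd_weight_eq_zero hodd a)
  have hev : Even w := Int.not_odd_iff_even.mp hodd
  by_cases h2 : w = 2
  · subst h2
    exact hzero (rank_zero_iff_forall_zero.mp levelOne_weight_two_rank_zero a)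
  have hcases : w = 0 ∨ w = 4 ∨ w = 6 ∨ w = 8 ∨ w = 10 ∨ w = 14 := by
    obtain ⟨m, hm⟩ := hev
    omega
  have key : ∀ x y : ℕ, w = 4 * x + 6 * y → ∃ (c : ℂ) (x y : ℕ),
      (∀ τ, a τ = c * (E₄ τ ^ x * E₆ τ ^ y)) ∧ (c ≠ 0 → w = 4 * x + 6 * y) := by
    intro x y hxy
    obtain ⟨m, hm⟩ := h97_mono x y w hxy
    have h1 := h97_eq_smul_of_small w hw m (h97_mono_coeff_zero m x y hm) a
    refine ⟨(qExpansion 1 a).coeff 0, x, y, fun τ => ?_, fun _ => hxy⟩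
    rw [← hm τ]
    have := DFunLike.congr_fun h1 τ
    simpa using this
  rcases hcases with h | h | h | h | h | h
  · exact key 0 0 (by rw [h]; norm_num)
  · exact key 1 0 (by rw [h]; norm_num)
  · exact key 0 1 (by rw [h]; norm_num)
  · exact key 2 0 (by rw [h]; norm_num)
  · exact key 1 1 (by rw [h]; norm_num)
  · exact key 2 1 (by rw [h]; norm_num)

/-! ### The three points -/

theorem h97_1728_discriminant (τ : ℍ) : 1728 * Δ τ = E₄ τ ^ 3 - E₆ τ ^ 2 := by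
  rw [discriminant_eq_E₄_cube_sub_E₆_sq τ]; ring

theorem h97_E4_ne_of_E6 (τ : ℍ) (h : E₆ τ = 0) : E₄ τ ≠ 0 := by
  intro h4
  have h5 := h97_1728_discriminant τ
  rw [h, h4] at h5
  exact discriminant_ne_zero τ (by linear_combination (1 / 1728 : ℂ) * h5)

theorem h97_E6_ne_of_E4 (τ : ℍ) (h : E₄ τ = 0) : E₆ τ ≠ 0 := by
  intro h6
  have h5 := h97_1728_discriminant τ
  rw [h, h6] at h5
  exact discriminant_ne_zero τ (by linear_combination (1 / 1728 : ℂ) * h5)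

/-- Every zero of `E₆` is simple. -/
theorem h97_ord_E6_of_zero (τ : ℍ) (h : E₆ τ = 0) : h97_ord E₆ τ = 1 := by
  have hb := h39_bracket_eq τ
  simp only [h39_bracket, h] at hb
  have hD : Derivative.normalizedDerivOfComplex (E₆ : ℍ → ℂ) τ ≠ 0 := by
    intro h0
    rw [h0] at hb
    exact discriminant_ne_zero τ (by linear_combination (1 / 3456 : ℂ) * hb)
  have hderiv : deriv ((E₆ : ℍ → ℂ) ∘ ofComplex) (τ : ℂ) ≠ 0 := by
    rw [h39_deriv_eq]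
    exact mul_ne_zero Complex.two_pi_I_ne_zero hD
  exact (h97_analyticAt h39_E6_mdiff τ).analyticOrderAt_eq_one_of_zero_deriv_ne_zero
    (by simpa using h) hderiv

/-- Every zero of `E₄` is simple. -/
theorem h97_ord_E4_of_zero (τ : ℍ) (h : E₄ τ = 0) : h97_ord E₄ τ = 1 := by
  have hb := h39_bracket_eq τ
  simp only [h39_bracket, h] at hb
  have hD : Derivative.normalizedDerivOfComplex (E₄ : ℍ → ℂ) τ ≠ 0 := by
    intro h0
    rw [h0] at hb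
    exact discriminant_ne_zero τ (by linear_combination (1 / 3456 : ℂ) * hb)
  have hderiv : deriv ((E₄ : ℍ → ℂ) ∘ ofComplex) (τ : ℂ) ≠ 0 := by
    rw [h39_deriv_eq]
    exact mul_ne_zero Complex.two_pi_I_ne_zero hD
  exact (h97_analyticAt h39_E4_mdiff τ).analyticOrderAt_eq_one_of_zero_deriv_ne_zero
    (by simpa using h) hderiv

theorem h97_coeff_zero_E4 : (qExpansion 1 E₄).coeff 0 = 1 :=
  h97_coeff_zero_eq_of_tendsto E₄ h39_tendsto_E4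

theorem h97_coeff_zero_E6 : (qExpansion 1 E₆).coeff 0 = 1 :=
  h97_coeff_zero_eq_of_tendsto E₆ h39_tendsto_E6

/-- No nonzero level one form of weight `< 6` or `8` vanishes at a zero of `E₆`. -/
theorem h97_base_E6 (t0 : ℍ) (h6 : E₆ t0 = 0) (w : ℤ) (hw : w < 6 ∨ w = 6 + 2)
    (a : ModularForm 𝒮ℒ w) (ha : a t0 = 0) : a = 0 := by
  obtain ⟨c, x, y, hc, hw'⟩ := h97_small_weight w (by omega) a
  by_cases hc0 : c = 0
  · ext τ
    simp [hc τ, hc0]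
  · exfalso
    have hwxy := hw' hc0
    have h1 := hc t0
    rw [ha, h6] at h1
    have hy : y ≠ 0 := by
      rintro rfl
      rw [pow_zero, mul_one] at h1
      rcases mul_eq_zero.mp h1.symm with h | h
      · exact hc0 h
      · exact h97_E4_ne_of_E6 t0 h6 (by
          by_contra hne
          exact pow_ne_zero x hne h)
    omega

/-- No nonzero level one form of weight `< 4` or `6` vanishes at a zero of `E₄`. -/
theorem h97_base_E4 (t0 : ℍ) (h4 : E₄ t0 = 0) (w : ℤ) (hw : w < 4 ∨ w = 4 + 2)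
    (a : ModularForm 𝒮ℒ w) (ha : a t0 = 0) : a = 0 := by
  obtain ⟨c, x, y, hc, hw'⟩ := h97_small_weight w (by omega) a
  by_cases hc0 : c = 0
  · ext τ
    simp [hc τ, hc0]
  · exfalso
    have hwxy := hw' hc0
    have h1 := hc t0
    rw [ha, h4] at h1
    have hx : x ≠ 0 := by
      rintro rfl
      rw [pow_zero, one_mul] at h1
      rcases mul_eq_zero.mp h1.symm with h | h
      · exact hc0 h
      · exact h97_E6_ne_of_E4 t0 h4 (by
          by_contra hne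
          exact pow_ne_zero y hne h)
    omega

/-- IDEAL FACT at a zero of `E₆` (e.g. `t0 = i`). -/
theorem h97_ideal_E6 (t0 : ℍ) (h6 : E₆ t0 = 0) (w : ℤ) (a : ModularForm 𝒮ℒ w) (ha : a t0 = 0) :
    ∃ a' : ModularForm 𝒮ℒ (w - 6), ∀ τ, a τ = E₆ τ * a' τ :=
  h97_ideal ⟨3, rfl⟩ E₆ t0 h6 (by rw [h97_coeff_zero_E6]; exact one_ne_zero)
    (h97_base_E6 t0 h6) w a ha

/-- IDEAL FACT at a zero of `E₄` (e.g. `t0 = ρ`). -/
theorem h97_ideal_E4 (t0 : ℍ) (h4 : E₄ t0 = 0) (w : ℤ) (a : ModularForm 𝒮ℒ w) (ha : a t0 = 0) :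
    ∃ a' : ModularForm 𝒮ℒ (w - 4), ∀ τ, a τ = E₄ τ * a' τ :=
  h97_ideal ⟨2, rfl⟩ E₄ t0 h4 (by rw [h97_coeff_zero_E4]; exact one_ne_zero)
    (h97_base_E4 t0 h4) w a ha

/-! ### A generic point -/

/-- The level one form `Δ(t0) E₄³ - E₄(t0)³ Δ` of weight 12 vanishing at `t0`. -/
noncomputable def h97_Gt (t0 : ℍ) : ModularForm 𝒮ℒ 12 :=
  Δ t0 • ModularForm.mcast (by decide) (E₄.pow 3) -
    (E₄ t0 ^ 3) • CuspForm.toModularFormₗ CuspForm.discriminant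

theorem h97_Gt_apply (t0 τ : ℍ) : h97_Gt t0 τ = Δ t0 * E₄ τ ^ 3 - E₄ t0 ^ 3 * Δ τ := by
  have h1 : (E₄.pow 3) τ = E₄ τ ^ 3 := by
    rw [ModularForm.coe_pow]; rfl
  show Δ t0 * (E₄.pow 3) τ - E₄ t0 ^ 3 * Δ τ = _
  rw [h1]

theorem h97_Gt_self (t0 : ℍ) : h97_Gt t0 t0 = 0 := by
  rw [h97_Gt_apply]; ring

theorem h97_Gt_coeff_zero (t0 : ℍ) : (qExpansion 1 (h97_Gt t0)).coeff 0 = Δ t0 := by
  apply h97_coeff_zero_eq_of_tendsto
  have hΔ : Tendsto (Δ : ℍ → ℂ) atImInfty (𝓝 0) := discriminant_isZeroAtImInfty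
  have h1 : Tendsto (fun τ : ℍ => Δ t0 * E₄ τ ^ 3 - E₄ t0 ^ 3 * Δ τ) atImInfty
      (𝓝 (Δ t0 * 1 ^ 3 - E₄ t0 ^ 3 * 0)) :=
    ((h39_tendsto_E4.pow 3).const_mul _).sub (hΔ.const_mul _)
  simp only [one_pow, mul_one, mul_zero, sub_zero] at h1
  exact h1.congr fun τ => (h97_Gt_apply t0 τ).symm

theorem h97_Gt_eq (t0 τ : ℍ) : h97_Gt t0 τ = Δ t0 * Δ τ * (h39_jfun τ - h39_jfun t0) := by
  have h1 := discriminant_ne_zero t0
  have h2 := discriminant_ne_zero τ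
  rw [h97_Gt_apply, h39_jfun, h39_jfun]
  field_simp

theorem h97_jfun_ne_zero (t0 : ℍ) (h4 : E₄ t0 ≠ 0) : h39_jfun t0 ≠ 0 := by
  rw [h39_jfun]
  exact div_ne_zero (pow_ne_zero 3 h4) (discriminant_ne_zero t0)

theorem h97_jfun_ne_1728 (t0 : ℍ) (h6 : E₆ t0 ≠ 0) : h39_jfun t0 ≠ 1728 := by
  intro h
  have hs := h39_jfun_sub t0
  rw [h, sub_self] at hs
  exact div_ne_zero (pow_ne_zero 2 h6) (discriminant_ne_zero t0) hs.symm

/-- `h97_Gt t0` has a simple zero at `t0` when `E₄ t0 ≠ 0` and `E₆ t0 ≠ 0`. -/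
theorem h97_ord_Gt (t0 : ℍ) (h4 : E₄ t0 ≠ 0) (h6 : E₆ t0 ≠ 0) : h97_ord (h97_Gt t0) t0 = 1 := by
  have h := h39_order t0
  rw [if_neg (h97_jfun_ne_zero t0 h4), if_neg (h97_jfun_ne_1728 t0 h6)] at h
  have hfun : ((h97_Gt t0 : ℍ → ℂ) ∘ ofComplex) =
      ((fun _ : ℂ => Δ t0) * ((Δ : ℍ → ℂ) ∘ ofComplex)) *
        (fun z : ℂ => h39_jfun (ofComplex z) - h39_jfun t0) := by
    funext z
    simp [h97_Gt_eq]
  have ac : AnalyticAt ℂ (fun _ : ℂ => Δ t0) (t0 : ℂ) := analyticAt_const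
  have aΔ : AnalyticAt ℂ ((Δ : ℍ → ℂ) ∘ ofComplex) (t0 : ℂ) := h97_analyticAt h39_disc_mdiff t0
  have aJ : AnalyticAt ℂ (fun z : ℂ => h39_jfun (ofComplex z) - h39_jfun t0) (t0 : ℂ) :=
    (h97_analyticAt h39_jfun_mdiff t0).sub analyticAt_const
  have h1 : analyticOrderAt (fun _ : ℂ => Δ t0) (t0 : ℂ) = 0 :=
    ac.analyticOrderAt_eq_zero.mpr (discriminant_ne_zero t0)
  have h2 : analyticOrderAt ((Δ : ℍ → ℂ) ∘ ofComplex) (t0 : ℂ) = 0 :=
    aΔ.analyticOrderAt_eq_zero.mpr (by simpa using discriminant_ne_zero t0)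
  rw [h97_ord, hfun, analyticOrderAt_mul (ac.mul aΔ) aJ, analyticOrderAt_mul ac aΔ, h1, h2, h]
  simp

theorem h97_base_Gt (t0 : ℍ) (h4 : E₄ t0 ≠ 0) (h6 : E₆ t0 ≠ 0) (w : ℤ)
    (hw : w < 12 ∨ w = 12 + 2) (a : ModularForm 𝒮ℒ w) (ha : a t0 = 0) : a = 0 := by
  obtain ⟨c, x, y, hc, -⟩ := h97_small_weight w (by omega) a
  have h1 := hc t0
  rw [ha] at h1
  have hc0 : c = 0 := by
    rcases mul_eq_zero.mp h1.symm with h | h
    · exact h
    · exact absurd h (mul_ne_zero (pow_ne_zero x h4) (pow_ne_zero y h6))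
  ext τ
  simp [hc τ, hc0]

/-- IDEAL FACT at a point `t0` with `E₄ t0 ≠ 0`, `E₆ t0 ≠ 0`. -/
theorem h97_ideal_Gt (t0 : ℍ) (h4 : E₄ t0 ≠ 0) (h6 : E₆ t0 ≠ 0) (w : ℤ) (a : ModularForm 𝒮ℒ w)
    (ha : a t0 = 0) : ∃ a' : ModularForm 𝒮ℒ (w - 12), ∀ τ, a τ = h97_Gt t0 τ * a' τ :=
  h97_ideal ⟨6, rfl⟩ (h97_Gt t0) t0 (h97_Gt_self t0)
    (by rw [h97_Gt_coeff_zero]; exact discriminant_ne_zero t0) (h97_base_Gt t0 h4 h6) w a ha

/-! ### The fibre lemma at the three kinds of points -/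

section fiber

variable {𝒢 : Subgroup (GL (Fin 2) ℝ)} [𝒢.IsArithmetic]

/-- FIBRE LEMMA at a zero of `E₆` (e.g. `i`). -/
theorem h97_fiber_div_E6 (h𝒢 : 𝒢 ≤ 𝒮ℒ) {k : ℤ} (F : ModularForm 𝒢 (k + 6)) (t0 : ℍ)
    (h6 : E₆ t0 = 0) (hF : ∀ q : 𝒮ℒ ⧸ 𝒢.subgroupOf 𝒮ℒ, quotientFunc F q t0 = 0) :
    ∃ H : ModularForm 𝒢 k, ∀ τ, H τ * E₆ τ = F τ :=
  h97_fiber_div h𝒢 F E₆ t0 (h97_ord_E6_of_zero t0 h6) (h97_ideal_E6 t0 h6) hF

theorem h97_fiber_div_E6_cusp (h𝒢 : 𝒢 ≤ 𝒮ℒ) {k : ℤ} (F : CuspForm 𝒢 (k + 6)) (t0 : ℍ)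
    (h6 : E₆ t0 = 0) (hF : ∀ q : 𝒮ℒ ⧸ 𝒢.subgroupOf 𝒮ℒ, quotientFunc F q t0 = 0) :
    ∃ H : CuspForm 𝒢 k, ∀ τ, H τ * E₆ τ = F τ :=
  h97_fiber_div_cusp h𝒢 F E₆ t0 (h97_ord_E6_of_zero t0 h6)
    (by rw [h97_coeff_zero_E6]; exact one_ne_zero) (h97_ideal_E6 t0 h6) hF

/-- FIBRE LEMMA at a zero of `E₄` (e.g. `ρ`). -/
theorem h97_fiber_div_E4 (h𝒢 : 𝒢 ≤ 𝒮ℒ) {k : ℤ} (F : ModularForm 𝒢 (k + 4)) (t0 : ℍ)
    (h4 : E₄ t0 = 0) (hF : ∀ q : 𝒮ℒ ⧸ 𝒢.subgroupOf 𝒮ℒ, quotientFunc F q t0 = 0) :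
    ∃ H : ModularForm 𝒢 k, ∀ τ, H τ * E₄ τ = F τ :=
  h97_fiber_div h𝒢 F E₄ t0 (h97_ord_E4_of_zero t0 h4) (h97_ideal_E4 t0 h4) hF

theorem h97_fiber_div_E4_cusp (h𝒢 : 𝒢 ≤ 𝒮ℒ) {k : ℤ} (F : CuspForm 𝒢 (k + 4)) (t0 : ℍ)
    (h4 : E₄ t0 = 0) (hF : ∀ q : 𝒮ℒ ⧸ 𝒢.subgroupOf 𝒮ℒ, quotientFunc F q t0 = 0) :
    ∃ H : CuspForm 𝒢 k, ∀ τ, H τ * E₄ τ = F τ :=
  h97_fiber_div_cusp h𝒢 F E₄ t0 (h97_ord_E4_of_zero t0 h4)
    (by rw [h97_coeff_zero_E4]; exact one_ne_zero) (h97_ideal_E4 t0 h4) hF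

/-- FIBRE LEMMA at a point `t0` with `E₄ t0 ≠ 0` and `E₆ t0 ≠ 0`. -/
theorem h97_fiber_div_Gt (h𝒢 : 𝒢 ≤ 𝒮ℒ) {k : ℤ} (F : ModularForm 𝒢 (k + 12)) (t0 : ℍ)
    (h4 : E₄ t0 ≠ 0) (h6 : E₆ t0 ≠ 0)
    (hF : ∀ q : 𝒮ℒ ⧸ 𝒢.subgroupOf 𝒮ℒ, quotientFunc F q t0 = 0) :
    ∃ H : ModularForm 𝒢 k, ∀ τ, H τ * h97_Gt t0 τ = F τ :=
  h97_fiber_div h𝒢 F (h97_Gt t0) t0 (h97_ord_Gt t0 h4 h6) (h97_ideal_Gt t0 h4 h6) hF

theorem h97_fiber_div_Gt_cusp (h𝒢 : 𝒢 ≤ 𝒮ℒ) {k : ℤ} (F : CuspForm 𝒢 (k + 12)) (t0 : ℍ)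
    (h4 : E₄ t0 ≠ 0) (h6 : E₆ t0 ≠ 0)
    (hF : ∀ q : 𝒮ℒ ⧸ 𝒢.subgroupOf 𝒮ℒ, quotientFunc F q t0 = 0) :
    ∃ H : CuspForm 𝒢 k, ∀ τ, H τ * h97_Gt t0 τ = F τ :=
  h97_fiber_div_cusp h𝒢 F (h97_Gt t0) t0 (h97_ord_Gt t0 h4 h6)
    (by rw [h97_Gt_coeff_zero]; exact discriminant_ne_zero t0) (h97_ideal_Gt t0 h4 h6) hF

end fiber

end Fermat.Agent.S20
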