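import Mathlib
import Fermat.Agent.S20.h97_Ideal
import Fermat.Agent.S20.h84_Bridge

set_option autoImplicit false

/-!
# Project S20 + S21 : the FIBRE row in the `Defs` language

For `f ∈ Mfun N (k + b)` whose conjugates all vanish at a point `τ₀` (`evX N (k + b) τ₀ f = 0`),
`f` is divisible inside `⨁ Mfun N •` by the level-one form cutting out the orbit of `τ₀`:

* `fib_I`       : at `τ₀ = i`,   `f = E₆ * g` with `g ∈ Mfun N k`   (`b = 6`);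
* `fib_rho`     : at `τ₀ = ρ`,   `f = E₄ * g` with `g ∈ Mfun N k`   (`b = 4`);
* `fib_generic` : at `τ₀` with `E₄ τ₀ ≠ 0`, `E₆ τ₀ ≠ 0`,
  `f = (E₆(τ₀)² E₄³ - E₄(τ₀)³ E₆²) * g` with `g ∈ Mfun N k`   (`b = 12`);

together with more general versions (`h97_fib_E6`, `h97_fib_E4` at any zero of `E₆`, `E₄`) and
the cuspidal versions (`h97_fibS_*`, with `Sfun` in place of `Mfun`).
-/

namespace Fermat.Agent.S20

open UpperHalfPlane ModularForm CongruenceSubgroup SlashInvariantForm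
open scoped MatrixGroups Manifold ModularForm

/-- `Γ₀(N)`, as a subgroup of `GL(2, ℝ)`, is contained in the image of `SL(2, ℤ)`. -/
theorem h97_Gamma0_le (N : ℕ) :
    ((Gamma0 N : Subgroup SL(2, ℤ)) : Subgroup (GL (Fin 2) ℝ)) ≤ 𝒮ℒ := by
  rintro _ ⟨γ, -, rfl⟩
  exact ⟨γ, rfl⟩

/-- If all conjugates of a `Γ₀(N)`-invariant `f` vanish at `t0`, then `f` vanishes on the
`SL(2, ℤ)`-orbit of `t0`. -/
theorem h97_orbit_of_evX {N : ℕ} {k : ℤ} {f : ℍ → ℂ} (hf : ∀ γ ∈ Gamma0 N, f ∣[k] γ = f)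
    {t0 : ℍ} (h : evX N k t0 f = 0) (γ : SL(2, ℤ)) : f (γ • t0) = 0 := by
  have h1 : cj N k f (QuotientGroup.mk γ⁻¹) t0 = 0 := by
    have := congrFun h (QuotientGroup.mk γ⁻¹)
    rwa [evX_apply] at this
  rw [h84_cj_mk hf, inv_inv, ModularForm.SL_slash_apply] at h1
  rcases mul_eq_zero.mp h1 with h2 | h2
  · exact h2
  · exact absurd h2 (zpow_ne_zero _ (denom_ne_zero _ _))

/-- Conversely: vanishing on the orbit kills all conjugates. -/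
theorem h97_evX_of_orbit {N : ℕ} {k : ℤ} {f : ℍ → ℂ} {t0 : ℍ}
    (h : ∀ γ : SL(2, ℤ), f (γ • t0) = 0) : evX N k t0 f = 0 := by
  funext q
  rw [evX_apply, cj, ModularForm.SL_slash_apply, h, zero_mul]
  rfl

theorem h97_evX_eq_zero_iff {N : ℕ} {k : ℤ} {f : ℍ → ℂ} (hf : ∀ γ ∈ Gamma0 N, f ∣[k] γ = f)
    {t0 : ℍ} : evX N k t0 f = 0 ↔ ∀ γ : SL(2, ℤ), f (γ • t0) = 0 :=
  ⟨fun h => h97_orbit_of_evX hf h, h97_evX_of_orbit⟩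

/-- All `quotientFunc`s of the bundled form vanish at `t0` once `evX` does. -/
theorem h97_quotientFunc_of_evX {N : ℕ} {k : ℤ} (F : ModularForm (Gamma0 N) k) {t0 : ℍ}
    (h : evX N k t0 ⇑F = 0)
    (q : 𝒮ℒ ⧸ ((Gamma0 N : Subgroup SL(2, ℤ)) : Subgroup (GL (Fin 2) ℝ)).subgroupOf 𝒮ℒ) :
    quotientFunc F q t0 = 0 :=
  h97_quotientFunc_eq_zero_of_orbit F t0
    (h97_orbit_of_evX (fun _ hγ => h84_slash_eq_of_mem F hγ) h) q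

theorem h97_quotientFunc_of_evX_cusp {N : ℕ} {k : ℤ} (F : CuspForm (Gamma0 N) k) {t0 : ℍ}
    (h : evX N k t0 ⇑F = 0)
    (q : 𝒮ℒ ⧸ ((Gamma0 N : Subgroup SL(2, ℤ)) : Subgroup (GL (Fin 2) ℝ)).subgroupOf 𝒮ℒ) :
    quotientFunc F q t0 = 0 :=
  h97_quotientFunc_eq_zero_of_orbit F t0
    (h97_orbit_of_evX (fun _ hγ => h84_slash_eq_of_mem F hγ) h) q

/-! ### Modular forms -/

/-- FIBRE at any zero `t0` of `E₆`. -/
theorem h97_fib_E6 (N : ℕ) [NeZero N] {k : ℤ} {t0 : ℍ} (h6 : E₆ t0 = 0) {f : ℍ → ℂ}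
    (hf : f ∈ Mfun N (k + 6)) (h : evX N (k + 6) t0 f = 0) :
    ∃ g ∈ Mfun N k, f = ⇑E₆ * g := by
  obtain ⟨F, rfl⟩ := h84_exists_modularForm hf
  obtain ⟨H, hH⟩ := h97_fiber_div_E6 (h97_Gamma0_le N) F t0 h6 (h97_quotientFunc_of_evX F h)
  refine ⟨⇑H, h84_coe_mem_Mfun H, ?_⟩
  funext τ
  rw [Pi.mul_apply, ← hH τ, mul_comm]

/-- FIBRE at any zero `t0` of `E₄`. -/
theorem h97_fib_E4 (N : ℕ) [NeZero N] {k : ℤ} {t0 : ℍ} (h4 : E₄ t0 = 0) {f : ℍ → ℂ}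
    (hf : f ∈ Mfun N (k + 4)) (h : evX N (k + 4) t0 f = 0) :
    ∃ g ∈ Mfun N k, f = ⇑E₄ * g := by
  obtain ⟨F, rfl⟩ := h84_exists_modularForm hf
  obtain ⟨H, hH⟩ := h97_fiber_div_E4 (h97_Gamma0_le N) F t0 h4 (h97_quotientFunc_of_evX F h)
  refine ⟨⇑H, h84_coe_mem_Mfun H, ?_⟩
  funext τ
  rw [Pi.mul_apply, ← hH τ, mul_comm]

/-- The level-one form `E₆(τ₀)² E₄³ - E₄(τ₀)³ E₆²` is `-1728` times `h97_Gt τ₀`. -/
theorem h97_Gt_eq_E (t0 τ : ℍ) :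
    E₆ t0 ^ 2 * E₄ τ ^ 3 - E₄ t0 ^ 3 * E₆ τ ^ 2 = -1728 * h97_Gt t0 τ := by
  rw [h97_Gt_apply]
  have h1 := h97_1728_discriminant t0
  have h2 := h97_1728_discriminant τ
  linear_combination (E₄ τ ^ 3) * h1 - (E₄ t0 ^ 3) * h2

/-- FIBRE at the point `i`: a form of weight `k + 6` all of whose conjugates vanish at `i` is
`E₆` times a form of weight `k`. -/
theorem fib_I (N : ℕ) [NeZero N] {k : ℤ} {f : ℍ → ℂ} (hf : f ∈ Mfun N (k + 6))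
    (h : evX N (k + 6) I f = 0) : ∃ g ∈ Mfun N k, f = ⇑E₆ * g :=
  h97_fib_E6 N Fermat.Agent.S24.h39_E6_I hf h

/-- FIBRE at the point `ρ`: a form of weight `k + 4` all of whose conjugates vanish at `ρ` is
`E₄` times a form of weight `k`. -/
theorem fib_rho (N : ℕ) [NeZero N] {k : ℤ} {f : ℍ → ℂ} (hf : f ∈ Mfun N (k + 4))
    (h : evX N (k + 4) ρ f = 0) : ∃ g ∈ Mfun N k, f = ⇑E₄ * g :=
  h97_fib_E4 N Fermat.Agent.S24.h39_E4_rho hf h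

/-- FIBRE at a generic point `τ₀`: a form of weight `k + 12` all of whose conjugates vanish at
`τ₀` is `E₆(τ₀)² E₄³ - E₄(τ₀)³ E₆²` times a form of weight `k`. -/
theorem fib_generic (N : ℕ) [NeZero N] {k : ℤ} {τ₀ : ℍ} (h4 : E₄ τ₀ ≠ 0) (h6 : E₆ τ₀ ≠ 0)
    {f : ℍ → ℂ} (hf : f ∈ Mfun N (k + 12)) (h : evX N (k + 12) τ₀ f = 0) :
    ∃ g ∈ Mfun N k,
      f = (fun τ => E₆ τ₀ ^ 2 * E₄ τ ^ 3 - E₄ τ₀ ^ 3 * E₆ τ ^ 2) * g := by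
  obtain ⟨F, rfl⟩ := h84_exists_modularForm hf
  obtain ⟨H, hH⟩ := h97_fiber_div_Gt (h97_Gamma0_le N) F τ₀ h4 h6 (h97_quotientFunc_of_evX F h)
  refine ⟨(-1728 : ℂ)⁻¹ • ⇑H, (Mfun N k).smul_mem _ (h84_coe_mem_Mfun H), ?_⟩
  funext τ
  rw [Pi.mul_apply, Pi.smul_apply, smul_eq_mul, h97_Gt_eq_E, ← hH τ]
  field_simp

/-! ### Cusp forms -/

/-- FIBRE for cusp forms at any zero `t0` of `E₆`. -/
theorem h97_fibS_E6 (N : ℕ) [NeZero N] {k : ℤ} {t0 : ℍ} (h6 : E₆ t0 = 0) {f : ℍ → ℂ}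
    (hf : f ∈ Sfun N (k + 6)) (h : evX N (k + 6) t0 f = 0) :
    ∃ g ∈ Sfun N k, f = ⇑E₆ * g := by
  obtain ⟨F, rfl⟩ := h84_exists_cuspForm hf
  obtain ⟨H, hH⟩ := h97_fiber_div_E6_cusp (h97_Gamma0_le N) F t0 h6
    (h97_quotientFunc_of_evX_cusp F h)
  refine ⟨⇑H, h84_coe_mem_Sfun H, ?_⟩
  funext τ
  rw [Pi.mul_apply, ← hH τ, mul_comm]

/-- FIBRE for cusp forms at any zero `t0` of `E₄`. -/
theorem h97_fibS_E4 (N : ℕ) [NeZero N] {k : ℤ} {t0 : ℍ} (h4 : E₄ t0 = 0) {f : ℍ → ℂ}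
    (hf : f ∈ Sfun N (k + 4)) (h : evX N (k + 4) t0 f = 0) :
    ∃ g ∈ Sfun N k, f = ⇑E₄ * g := by
  obtain ⟨F, rfl⟩ := h84_exists_cuspForm hf
  obtain ⟨H, hH⟩ := h97_fiber_div_E4_cusp (h97_Gamma0_le N) F t0 h4
    (h97_quotientFunc_of_evX_cusp F h)
  refine ⟨⇑H, h84_coe_mem_Sfun H, ?_⟩
  funext τ
  rw [Pi.mul_apply, ← hH τ, mul_comm]

theorem h97_fibS_I (N : ℕ) [NeZero N] {k : ℤ} {f : ℍ → ℂ} (hf : f ∈ Sfun N (k + 6))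
    (h : evX N (k + 6) I f = 0) : ∃ g ∈ Sfun N k, f = ⇑E₆ * g :=
  h97_fibS_E6 N Fermat.Agent.S24.h39_E6_I hf h

theorem h97_fibS_rho (N : ℕ) [NeZero N] {k : ℤ} {f : ℍ → ℂ} (hf : f ∈ Sfun N (k + 4))
    (h : evX N (k + 4) ρ f = 0) : ∃ g ∈ Sfun N k, f = ⇑E₄ * g :=
  h97_fibS_E4 N Fermat.Agent.S24.h39_E4_rho hf h

theorem h97_fibS_generic (N : ℕ) [NeZero N] {k : ℤ} {τ₀ : ℍ} (h4 : E₄ τ₀ ≠ 0) (h6 : E₆ τ₀ ≠ 0)
    {f : ℍ → ℂ} (hf : f ∈ Sfun N (k + 12)) (h : evX N (k + 12) τ₀ f = 0) :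
    ∃ g ∈ Sfun N k,
      f = (fun τ => E₆ τ₀ ^ 2 * E₄ τ ^ 3 - E₄ τ₀ ^ 3 * E₆ τ ^ 2) * g := by
  obtain ⟨F, rfl⟩ := h84_exists_cuspForm hf
  obtain ⟨H, hH⟩ := h97_fiber_div_Gt_cusp (h97_Gamma0_le N) F τ₀ h4 h6
    (h97_quotientFunc_of_evX_cusp F h)
  refine ⟨(-1728 : ℂ)⁻¹ • ⇑H, (Sfun N k).smul_mem _ (h84_coe_mem_Sfun H), ?_⟩
  funext τ
  rw [Pi.mul_apply, Pi.smul_apply, smul_eq_mul, h97_Gt_eq_E, ← hH τ]
  field_simp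

end Fermat.Agent.S20
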