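import Mathlib
import Fermat.Agent.S20.Defs2
import Fermat.Agent.S20.h84_Bridge
import Fermat.Agent.S20.Regular
import Fermat.Agent.S20.h97_FiberDefs
import Fermat.Agent.S20.h60_Eigen
import Fermat.Agent.S20.h65_IndepCore

set_option autoImplicit false

/-!
# Project S20 : row INDEP

For a free homogeneous generating family `c j ∈ M_{w j}(Γ₀(N))` over the level-one ring
(`IsGenFamily`), the vectors of values of the conjugates of the generators are linearly
independent in `ℂ^X` at a generic point, at `i`, at `ρ`, and "at `i∞`".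

The algebra is in `h65_IndepCore.lean`; here the fibre lemmas (`fib_generic`, `fib_I`,
`fib_rho`), the eigenspace facts (`h60_Eigen.lean`) and division by `Δ` are plugged in.
-/

namespace Fermat.Agent.S20

open UpperHalfPlane CongruenceSubgroup ModularForm Filter Topology Asymptotics
open scoped MatrixGroups ModularForm Manifold Real

theorem indep_generic (N : ℕ) [NeZero N] {J : Type} {w : J → ℤ} {c : J → ℍ → ℂ}
    (hG : IsGenFamily N w c) {τ₀ : ℍ} (h4 : E₄ τ₀ ≠ 0) (h6 : E₆ τ₀ ≠ 0) :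
    LinearIndependent ℂ (fun j => evX N (w j) τ₀ (c j)) :=
  h65_indep_generic hG h4 h6 fun K _ hF hev =>
    fib_generic N (k := K - 12) h4 h6 (by rwa [sub_add_cancel]) (by rwa [sub_add_cancel])

theorem indep_I (N : ℕ) [NeZero N] {J : Type} {w : J → ℤ} {c : J → ℍ → ℂ}
    (hG : IsGenFamily N w c) : LinearIndependent ℂ (fun j => evX N (w j) I (c j)) := by
  have h6 : E₆ UpperHalfPlane.I = 0 := Fermat.Agent.S24.h39_E6_I
  have h4 : E₄ UpperHalfPlane.I ≠ 0 := (h77_E4_E6_ne_zero _).resolve_right (not_not.mpr h6)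
  refine h65_indep_of_eigen hG h77_E6_mem_Lfun h6 (fun K F hF hev => ?_)
    (h60_eigen (MulAction.toPerm ModularGroup.S)) (h60_eigen_iSupIndep _)
    (fun k => Complex.I ^ k) (fun j => h60_evX_I_mem_eigen (hG.mem j).2.1) ?_
  · exact fib_I N (k := K - 6) (by rwa [sub_add_cancel]) (by rwa [sub_add_cancel])
  · intro s j₀
    refine ⟨w j₀ + 4 * (|w j₀| + ∑ j ∈ s, |w j|), fun j hj hε => ?_⟩
    have hε' : Complex.I ^ (w j₀ - w j) = 1 := by
      rw [zpow_sub₀ Complex.I_ne_zero, ← hε]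
      exact div_self (zpow_ne_zero _ Complex.I_ne_zero)
    have hdiv : (w j₀ - w j) % 4 = 0 := by
      by_contra hne
      rw [h60_I_zpow _ ((h65_weight_even hG j₀).sub (h65_weight_even hG j)), if_neg hne] at hε'
      norm_num at hε'
    have hle : |w j| ≤ ∑ j ∈ s, |w j| :=
      Finset.single_le_sum (fun i _ => abs_nonneg (w i)) hj
    have h1 := le_abs_self (w j)
    have h2 := neg_abs_le (w j₀)
    have h3 := abs_nonneg (w j₀)
    have h5 := abs_nonneg (w j)
    obtain ⟨a, ha⟩ : ∃ a : ℕ, w j₀ + 4 * (|w j₀| + ∑ j ∈ s, |w j|) - w j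
        = 4 * (a : ℤ) + 6 * ((0 : ℕ) : ℤ) :=
      ⟨((w j₀ + 4 * (|w j₀| + ∑ j ∈ s, |w j|) - w j) / 4).toNat, by omega⟩
    exact h65_normaliser a 0 (by simpa using pow_ne_zero a h4) ha

theorem indep_rho (N : ℕ) [NeZero N] {J : Type} {w : J → ℤ} {c : J → ℍ → ℂ}
    (hG : IsGenFamily N w c) : LinearIndependent ℂ (fun j => evX N (w j) ρ (c j)) := by
  have h4 : E₄ ρ = 0 := Fermat.Agent.S24.h39_E4_rho
  have h6 : E₆ ρ ≠ 0 := (h77_E4_E6_ne_zero _).resolve_left (not_not.mpr h4)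
  have hρ1 : (ρ : ℂ) + 1 ≠ 0 := by
    intro h0
    have h := h60_rho_add_one_sq
    rw [h0] at h
    exact h60_rho_ne_zero (by simpa using h.symm)
  refine h65_indep_of_eigen hG h77_E4_mem_Lfun h4 (fun K F hF hev => ?_)
    (h60_eigen (MulAction.toPerm (ModularGroup.S * ModularGroup.T))) (h60_eigen_iSupIndep _)
    (fun k => ((ρ : ℂ) + 1) ^ k) (fun j => h60_evX_rho_mem_eigen (hG.mem j).2.1) ?_
  · exact fib_rho N (k := K - 4) (by rwa [sub_add_cancel]) (by rwa [sub_add_cancel])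
  · intro s j₀
    refine ⟨w j₀ + 6 * (|w j₀| + ∑ j ∈ s, |w j|), fun j hj hε => ?_⟩
    have hε' : ((ρ : ℂ) + 1) ^ (w j₀ - w j) = 1 := by
      rw [zpow_sub₀ hρ1, ← hε]
      exact div_self (zpow_ne_zero _ hρ1)
    have hdiv : (w j₀ - w j) % 6 = 0 :=
      (h60_rho_add_one_zpow _ ((h65_weight_even hG j₀).sub (h65_weight_even hG j))).2.mp hε'
    have hle : |w j| ≤ ∑ j ∈ s, |w j| :=
      Finset.single_le_sum (fun i _ => abs_nonneg (w i)) hj
    have h1 := le_abs_self (w j)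
    have h2 := neg_abs_le (w j₀)
    have h3 := abs_nonneg (w j₀)
    have h5 := abs_nonneg (w j)
    obtain ⟨b, hb⟩ : ∃ b : ℕ, w j₀ + 6 * (|w j₀| + ∑ j ∈ s, |w j|) - w j
        = 4 * ((0 : ℕ) : ℤ) + 6 * (b : ℤ) :=
      ⟨((w j₀ + 6 * (|w j₀| + ∑ j ∈ s, |w j|) - w j) / 6).toNat, by omega⟩
    exact h65_normaliser 0 b (by simpa using pow_ne_zero b h6) hb

theorem indep_infty (N : ℕ) [NeZero N] {J : Type} [Fintype J] {w : J → ℤ} {c : J → ℍ → ℂ}
    (hG : IsGenFamily N w c) (l : J → ℂ)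
    (hl : ∀ q : SL(2, ℤ) ⧸ Gamma0 N,
      (fun τ : ℍ => ∑ j, l j * cj N (w j) (c j) q τ) =O[atImInfty]
        (fun τ : ℍ => Real.exp (-2 * Real.pi * τ.im))) : l = 0 :=
  h65_indep_infty hG l hl

end Fermat.Agent.S20
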