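import Mathlib
import Fermat.Prelude.Def_ModularCurve_GenusNumerics

set_option autoImplicit false

namespace Fermat.Agent.S20

open Finset

/-- Pointwise weight identity behind the genus numerology. -/
theorem h34_weight_identity (k : ℕ) (hk : Even k) :
    (1 / 2 : ℚ) * (if k % 4 = 2 then 1 else 0) + (2 / 3) * (if k % 6 = 2 then 1 else 0)
      + (1 / 3) * (if k % 6 = 4 then 1 else 0) - (k : ℚ) / 12
      = (if k % 12 = 2 then 1 else 0) - ((k / 12 : ℕ) : ℚ) := by
  obtain ⟨q, r, hr, rfl⟩ : ∃ q r, r < 12 ∧ k = 12 * q + r :=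
    ⟨k / 12, k % 12, Nat.mod_lt _ (by norm_num), (Nat.div_add_mod k 12).symm⟩
  have hr2 : r % 2 = 0 := by
    have := Nat.even_iff.mp hk
    omega
  have h4 : (12 * q + r) % 4 = r % 4 := by omega
  have h6 : (12 * q + r) % 6 = r % 6 := by omega
  have h12 : (12 * q + r) % 12 = r := by omega
  have hd : (12 * q + r) / 12 = q := by omega
  rw [h4, h6, h12, hd]
  interval_cases r <;> first | omega | (norm_num <;> ring)

/-- General numerology: generators indexed by `ι` with even weights `w`. -/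
theorem h34_numerics_general {ι : Type*} [Fintype ι] (w : ι → ℕ) (μ ν₂ ν₃ : ℕ)
    (heven : ∀ j, Even (w j))
    (h4 : 2 * (univ.filter fun j => w j % 4 = 2).card + ν₂ = μ)
    (h62 : 3 * (univ.filter fun j => w j % 6 = 2).card + ν₃ = μ)
    (h64 : 3 * (univ.filter fun j => w j % 6 = 4).card + ν₃ = μ) :
    (((univ.filter fun j => w j % 12 = 2).card : ℕ) : ℚ) - ∑ j, ((w j / 12 : ℕ) : ℚ)
      = 7 * (μ : ℚ) / 12 - (ν₂ : ℚ) / 4 - (ν₃ : ℚ) / 3 - (∑ j, (w j : ℚ)) / 12 := by
  have hsum := Finset.sum_congr (rfl : (univ : Finset ι) = univ)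
    (fun j _ => h34_weight_identity (w j) (heven j))
  simp only [Finset.sum_sub_distrib, Finset.sum_add_distrib, ← Finset.mul_sum, Finset.sum_boole,
    ← Finset.sum_div] at hsum
  have h4' : (2 : ℚ) * ((univ.filter fun j => w j % 4 = 2).card : ℚ) + ν₂ = μ := by
    exact_mod_cast h4
  have h62' : (3 : ℚ) * ((univ.filter fun j => w j % 6 = 2).card : ℚ) + ν₃ = μ := by
    exact_mod_cast h62
  have h64' : (3 : ℚ) * ((univ.filter fun j => w j % 6 = 4).card : ℚ) + ν₃ = μ := by
    exact_mod_cast h64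
  rw [← hsum]
  linear_combination (1 / 4 : ℚ) * h4' + (2 / 9 : ℚ) * h62' + (1 / 9 : ℚ) * h64'

/-- Cusp-form route: weights at most `12`, total weight `6 (μ + c)`. -/
theorem h34_numerics_cusp {ι : Type*} [Fintype ι] (w : ι → ℕ) (μ ν₂ ν₃ c : ℕ)
    (heven : ∀ j, Even (w j)) (hhi : ∀ j, w j ≤ 12)
    (h4 : 2 * (univ.filter fun j => w j % 4 = 2).card + ν₂ = μ)
    (h62 : 3 * (univ.filter fun j => w j % 6 = 2).card + ν₃ = μ)
    (h64 : 3 * (univ.filter fun j => w j % 6 = 4).card + ν₃ = μ)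
    (hW : ∑ j, w j = 6 * (μ + c)) :
    (((univ.filter fun j => w j = 2).card : ℕ) : ℚ)
      = (1 + (μ : ℚ) / 12 - (ν₂ : ℚ) / 4 - (ν₃ : ℚ) / 3 - (c : ℚ) / 2) - 1
        + (((univ.filter fun j => w j = 12).card : ℕ) : ℚ) := by
  have hgen := h34_numerics_general w μ ν₂ ν₃ heven h4 h62 h64
  have e1 : (univ.filter fun j => w j % 12 = 2) = univ.filter fun j => w j = 2 := by
    ext j
    simp only [mem_filter, mem_univ, true_and]
    have := hhi j
    omega
  have e2 : ∑ j, ((w j / 12 : ℕ) : ℚ) = (((univ.filter fun j => w j = 12).card : ℕ) : ℚ) := by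
    rw [← Finset.sum_boole]
    refine Finset.sum_congr rfl fun j _ => ?_
    have := hhi j
    by_cases h : w j = 12
    · simp [h]
    · have h0 : w j / 12 = 0 := by omega
      simp [h, h0]
  have hW' : (∑ j, (w j : ℚ)) = 6 * ((μ : ℚ) + c) := by
    exact_mod_cast hW
  rw [e1, e2, hW'] at hgen
  linear_combination hgen

/-- Cusp-form route, stated with the prelude genus formula. -/
theorem h34_genus_cusp (N : ℕ) {ι : Type*} [Fintype ι] (w : ι → ℕ)
    (heven : ∀ j, Even (w j)) (hhi : ∀ j, w j ≤ 12)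
    (h4 : 2 * (univ.filter fun j => w j % 4 = 2).card + ModularCurve.nuTwo N
      = ModularCurve.dedekindPsi N)
    (h62 : 3 * (univ.filter fun j => w j % 6 = 2).card + ModularCurve.nuThree N
      = ModularCurve.dedekindPsi N)
    (h64 : 3 * (univ.filter fun j => w j % 6 = 4).card + ModularCurve.nuThree N
      = ModularCurve.dedekindPsi N)
    (hW : ∑ j, w j = 6 * (ModularCurve.dedekindPsi N + ModularCurve.cuspCount N)) :
    (((univ.filter fun j => w j = 2).card : ℕ) : ℚ)
      = ModularCurve.genusFormula N - 1 + (((univ.filter fun j => w j = 12).card : ℕ) : ℚ) := by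
  rw [ModularCurve.genusFormula]
  exact h34_numerics_cusp w _ _ _ _ heven hhi h4 h62 h64 hW

/-- Modular-form route: total weight `6 (μ - c)`, no bound on the weights. -/
theorem h34_numerics_modular {ι : Type*} [Fintype ι] (w : ι → ℕ) (μ ν₂ ν₃ c : ℕ)
    (heven : ∀ j, Even (w j))
    (h4 : 2 * (univ.filter fun j => w j % 4 = 2).card + ν₂ = μ)
    (h62 : 3 * (univ.filter fun j => w j % 6 = 2).card + ν₃ = μ)
    (h64 : 3 * (univ.filter fun j => w j % 6 = 4).card + ν₃ = μ)
    (hW : ∑ j, w j + 6 * c = 6 * μ) :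
    (1 + (μ : ℚ) / 12 - (ν₂ : ℚ) / 4 - (ν₃ : ℚ) / 3 - (c : ℚ) / 2) - 1 + c
      ≤ (((univ.filter fun j => w j = 2).card : ℕ) : ℚ) := by
  have hgen := h34_numerics_general w μ ν₂ ν₃ heven h4 h62 h64
  have hW' : (∑ j, (w j : ℚ)) + 6 * (c : ℚ) = 6 * (μ : ℚ) := by
    exact_mod_cast hW
  have hle : (((univ.filter fun j => w j % 12 = 2).card : ℕ) : ℚ) - ∑ j, ((w j / 12 : ℕ) : ℚ)
      ≤ (((univ.filter fun j => w j = 2).card : ℕ) : ℚ) := by
    rw [← Finset.sum_boole, ← Finset.sum_boole, ← Finset.sum_sub_distrib]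
    refine Finset.sum_le_sum fun j _ => ?_
    by_cases h2 : w j = 2
    · simp [h2]
    · by_cases h12 : w j % 12 = 2
      · have h1 : 1 ≤ w j / 12 := by omega
        have h1' : (1 : ℚ) ≤ ((w j / 12 : ℕ) : ℚ) := by exact_mod_cast h1
        simp only [h12, h2, if_true, if_false]
        linarith
      · simp only [h12, h2, if_false]
        have : (0 : ℚ) ≤ ((w j / 12 : ℕ) : ℚ) := Nat.cast_nonneg _
        linarith
  linarith

/-- Modular-form route, stated with the prelude genus formula. -/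
theorem h34_genus_modular (N : ℕ) {ι : Type*} [Fintype ι] (w : ι → ℕ)
    (heven : ∀ j, Even (w j))
    (h4 : 2 * (univ.filter fun j => w j % 4 = 2).card + ModularCurve.nuTwo N
      = ModularCurve.dedekindPsi N)
    (h62 : 3 * (univ.filter fun j => w j % 6 = 2).card + ModularCurve.nuThree N
      = ModularCurve.dedekindPsi N)
    (h64 : 3 * (univ.filter fun j => w j % 6 = 4).card + ModularCurve.nuThree N
      = ModularCurve.dedekindPsi N)
    (hW : ∑ j, w j + 6 * ModularCurve.cuspCount N = 6 * ModularCurve.dedekindPsi N) :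
    ModularCurve.genusFormula N - 1 + (ModularCurve.cuspCount N : ℚ)
      ≤ (((univ.filter fun j => w j = 2).card : ℕ) : ℚ) := by
  rw [ModularCurve.genusFormula]
  exact h34_numerics_modular w _ _ _ _ heven h4 h62 h64 hW

end Fermat.Agent.S20
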