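import Mathlib
import Fermat.Agent.S20.Defs2
import Fermat.Agent.S20.h34_Numerics

set_option autoImplicit false

/-!
# S20: the lower bound `genusQ N ≤ dim S_2(Γ₀(N))` from the interface facts (assembly)
-/

namespace Fermat.Agent.S20

open UpperHalfPlane CongruenceSubgroup ModularForm Filter Topology
open scoped MatrixGroups ModularForm Manifold



theorem lower_rho_ne_one : (ρ : ℂ) ≠ 1 := by
  intro h
  have := congrArg Complex.re h
  simp [ρ] at this
  norm_num at this

theorem lower_rho_cube : (ρ : ℂ) ^ 3 = 1 := by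
  have h := ρ_sq
  have : (ρ : ℂ) ^ 3 = (ρ : ℂ) * (ρ : ℂ) ^ 2 := by ring
  rw [this, h]
  have h2 : (ρ : ℂ) * (-(ρ : ℂ) - 1) = -((ρ : ℂ) ^ 2) - ρ := by ring
  rw [h2, h]; ring

theorem lower_rho_add_one_sq : ((ρ : ℂ) + 1) ^ 2 = ρ := by
  have h := ρ_sq
  have : ((ρ : ℂ) + 1) ^ 2 = (ρ : ℂ) ^ 2 + 2 * ρ + 1 := by ring
  rw [this, h]; ring

theorem lower_rho_sq_ne_one : (ρ : ℂ) ^ 2 ≠ 1 := by
  intro h
  have h3 := lower_rho_cube
  have : (ρ : ℂ) ^ 3 = (ρ : ℂ) * (ρ : ℂ) ^ 2 := by ring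
  rw [this, h, mul_one] at h3
  exact lower_rho_ne_one h3

theorem lower_rho_add_one_ne_zero : (ρ : ℂ) + 1 ≠ 0 := by
  intro h
  have := lower_rho_add_one_sq
  rw [h] at this
  have h3 := lower_rho_cube
  rw [← this] at h3
  norm_num at h3

/-- eigenvalue of `U` on a form of weight `k` at `ρ`, by residue of `k` mod 6 -/
theorem lower_eps_zero {k : ℤ} (hk : k % 6 = 0) : ((ρ : ℂ) + 1) ^ (-k) = 1 := by
  obtain ⟨m, rfl⟩ : ∃ m, k = 6 * m := ⟨k / 6, by omega⟩
  have h6 : ((ρ : ℂ) + 1) ^ (6 : ℤ) = 1 := by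
    have : ((ρ : ℂ) + 1) ^ (6 : ℤ) = (((ρ : ℂ) + 1) ^ 2) ^ 3 := by norm_cast; ring
    rw [this, lower_rho_add_one_sq, lower_rho_cube]
  rw [show -(6 * m) = 6 * (-m) by ring, zpow_mul, h6, one_zpow]

theorem lower_eps_cube (k : ℤ) (hk : Even k) : (((ρ : ℂ) + 1) ^ (-k)) ^ 3 = 1 := by
  obtain ⟨m, rfl⟩ := hk
  have h6 : ((ρ : ℂ) + 1) ^ (6 : ℤ) = 1 := by
    have : ((ρ : ℂ) + 1) ^ (6 : ℤ) = (((ρ : ℂ) + 1) ^ 2) ^ 3 := by norm_cast; ring
    rw [this, lower_rho_add_one_sq, lower_rho_cube]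
  have : (((ρ : ℂ) + 1) ^ (-(m + m))) ^ 3 = (((ρ : ℂ) + 1) ^ (6 : ℤ)) ^ (-m) := by
    rw [← zpow_natCast, ← zpow_mul, ← zpow_mul]
    congr 1
    push_cast; ring
  rw [this, h6, one_zpow]

theorem lower_eps_ne_one {k : ℤ} (hk : k % 6 = 2 ∨ k % 6 = 4) : ((ρ : ℂ) + 1) ^ (-k) ≠ 1 := by
  have h6 : ((ρ : ℂ) + 1) ^ (6 : ℤ) = 1 := by
    have : ((ρ : ℂ) + 1) ^ (6 : ℤ) = (((ρ : ℂ) + 1) ^ 2) ^ 3 := by norm_cast; ring
    rw [this, lower_rho_add_one_sq, lower_rho_cube]
  have h0 := lower_rho_add_one_ne_zero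
  intro h
  rw [zpow_neg, inv_eq_one] at h
  rcases hk with hk | hk
  · obtain ⟨m, rfl⟩ : ∃ m, k = 6 * m + 2 := ⟨k / 6, by omega⟩
    rw [zpow_add₀ h0, zpow_mul, h6, one_zpow, one_mul] at h
    have : ((ρ : ℂ) + 1) ^ (2 : ℤ) = ρ := by
      exact_mod_cast lower_rho_add_one_sq
    rw [this] at h
    exact lower_rho_ne_one h
  · obtain ⟨m, rfl⟩ : ∃ m, k = 6 * m + 4 := ⟨k / 6, by omega⟩
    rw [zpow_add₀ h0, zpow_mul, h6, one_zpow, one_mul] at h
    have : ((ρ : ℂ) + 1) ^ (4 : ℤ) = (ρ : ℂ) ^ 2 := by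
      have e : ((ρ : ℂ) + 1) ^ (4 : ℤ) = (((ρ : ℂ) + 1) ^ 2) ^ 2 := by norm_cast; ring
      rw [e, lower_rho_add_one_sq]
    rw [this] at h
    exact lower_rho_sq_ne_one h

theorem lower_I_zpow_zero {k : ℤ} (hk : k % 4 = 0) : Complex.I ^ (-k) = 1 := by
  obtain ⟨m, rfl⟩ : ∃ m, k = 4 * m := ⟨k / 4, by omega⟩
  have h4 : Complex.I ^ (4 : ℤ) = 1 := by norm_cast; exact Complex.I_pow_four
  rw [show -(4 * m) = 4 * (-m) by ring, zpow_mul, h4, one_zpow]

theorem lower_I_zpow_two {k : ℤ} (hk : k % 4 = 2) : Complex.I ^ (-k) = -1 := by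
  obtain ⟨m, rfl⟩ : ∃ m, k = 4 * m + 2 := ⟨k / 4, by omega⟩
  have h4 : Complex.I ^ (4 : ℤ) = 1 := by norm_cast; exact Complex.I_pow_four
  have h2 : Complex.I ^ (-2 : ℤ) = -1 := by
    rw [zpow_neg]; norm_cast; rw [Complex.I_sq]; norm_num
  rw [show -(4 * m + 2) = 4 * (-m) + (-2) by ring, zpow_add₀ Complex.I_ne_zero, zpow_mul, h4,
    one_zpow, one_mul, h2]




theorem lower_card_le_finrank {V : Type*} [AddCommGroup V] [Module ℂ V] [FiniteDimensional ℂ V]
    {ι : Type} [Fintype ι] (v : ι → V) (hv : LinearIndependent ℂ v) (W : Submodule ℂ V)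
    (p : ι → Prop) [DecidablePred p] (hp : ∀ i, p i → v i ∈ W) :
    (Finset.univ.filter p).card ≤ Module.finrank ℂ W := by
  have h1 : LinearIndependent ℂ (fun i : {i // p i} => (⟨v i, hp i i.2⟩ : W)) := by
    apply LinearIndependent.of_comp W.subtype
    exact hv.comp (fun i : {i // p i} => (i : ι)) Subtype.val_injective
  have h2 := h1.fintype_card_le_finrank
  rwa [Fintype.card_subtype] at h2

/-- three-class counting: if the classes land in submodules whose dimensions add up to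
`card ι`, each class has exactly the dimension of its submodule. -/
theorem lower_card_eq_of_two {V : Type*} [AddCommGroup V] [Module ℂ V] [FiniteDimensional ℂ V]
    {ι : Type} [Fintype ι] (v : ι → V) (hv : LinearIndependent ℂ v) (W₁ W₂ : Submodule ℂ V)
    (p₁ p₂ : ι → Prop) [DecidablePred p₁] [DecidablePred p₂]
    (h₁ : ∀ i, p₁ i → v i ∈ W₁) (h₂ : ∀ i, p₂ i → v i ∈ W₂)
    (hcov : ∀ i, p₁ i ∨ p₂ i)
    (hdim : Module.finrank ℂ W₁ + Module.finrank ℂ W₂ ≤ Fintype.card ι) :
    (Finset.univ.filter p₂).card = Module.finrank ℂ W₂ := by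
  classical
  have a1 := lower_card_le_finrank v hv W₁ p₁ h₁
  have a2 := lower_card_le_finrank v hv W₂ p₂ h₂
  have hc : Fintype.card ι ≤ (Finset.univ.filter p₁).card + (Finset.univ.filter p₂).card := by
    rw [← Finset.card_univ]
    calc (Finset.univ : Finset ι).card
        ≤ (Finset.univ.filter p₁ ∪ Finset.univ.filter p₂).card := by
          apply Finset.card_le_card
          intro i _
          rcases hcov i with h | h
          · exact Finset.mem_union_left _ (by simp [h])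
          · exact Finset.mem_union_right _ (by simp [h])
      _ ≤ _ := Finset.card_union_le _ _
  omega

theorem lower_card_eq_of_three {V : Type*} [AddCommGroup V] [Module ℂ V] [FiniteDimensional ℂ V]
    {ι : Type} [Fintype ι] (v : ι → V) (hv : LinearIndependent ℂ v) (W₁ W₂ W₃ : Submodule ℂ V)
    (p₁ p₂ p₃ : ι → Prop) [DecidablePred p₁] [DecidablePred p₂] [DecidablePred p₃]
    (h₁ : ∀ i, p₁ i → v i ∈ W₁) (h₂ : ∀ i, p₂ i → v i ∈ W₂) (h₃ : ∀ i, p₃ i → v i ∈ W₃)
    (hcov : ∀ i, p₁ i ∨ p₂ i ∨ p₃ i)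
    (hdim : Module.finrank ℂ W₁ + Module.finrank ℂ W₂ + Module.finrank ℂ W₃ ≤ Fintype.card ι) :
    (Finset.univ.filter p₂).card = Module.finrank ℂ W₂ ∧
      (Finset.univ.filter p₃).card = Module.finrank ℂ W₃ := by
  classical
  have a1 := lower_card_le_finrank v hv W₁ p₁ h₁
  have a2 := lower_card_le_finrank v hv W₂ p₂ h₂
  have a3 := lower_card_le_finrank v hv W₃ p₃ h₃
  have hc : Fintype.card ι ≤ (Finset.univ.filter p₁).card + (Finset.univ.filter p₂).card
      + (Finset.univ.filter p₃).card := by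
    rw [← Finset.card_univ]
    calc (Finset.univ : Finset ι).card
        ≤ ((Finset.univ.filter p₁ ∪ Finset.univ.filter p₂) ∪ Finset.univ.filter p₃).card := by
          apply Finset.card_le_card
          intro i _
          rcases hcov i with h | h | h
          · exact Finset.mem_union_left _ (Finset.mem_union_left _ (by simp [h]))
          · exact Finset.mem_union_left _ (Finset.mem_union_right _ (by simp [h]))
          · exact Finset.mem_union_right _ (by simp [h])
      _ ≤ (Finset.univ.filter p₁ ∪ Finset.univ.filter p₂).card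
            + (Finset.univ.filter p₃).card := Finset.card_union_le _ _
      _ ≤ _ := by
          have := Finset.card_union_le (Finset.univ.filter p₁) (Finset.univ.filter p₂)
          omega
  omega




section lower

variable {N : ℕ} {J : Type} {w : J → ℤ} {c : J → ℍ → ℂ}

/-- a generator is nonzero -/
theorem IsGenFamily.ne_zero (hG : IsGenFamily N w c) (hconst : ∀ a : ℂ, (fun _ : ℍ => a) ∈ Lfun 0)
    (j : J) : c j ≠ 0 := by
  intro h0
  classical
  have h1 := hG.free (w j) {j} (fun _ => fun _ : ℍ => (1 : ℂ)) (by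
    intro i hi
    rw [Finset.mem_singleton] at hi
    subst hi
    rw [sub_self]
    exact hconst 1) (by
    rw [Finset.sum_singleton, h0, mul_zero]) j (Finset.mem_singleton_self j)
  have := congrFun h1 UpperHalfPlane.I
  simp at this

theorem IsGenFamily.weight_nonneg (hG : IsGenFamily N w c)
    (hconst : ∀ a : ℂ, (fun _ : ℍ => a) ∈ Lfun 0)
    (hneg : ∀ k : ℤ, k < 0 → Mfun N k = ⊥) (j : J) : 0 ≤ w j := by
  by_contra h
  have hb := hneg (w j) (not_le.mp h)
  have hm := hG.mem j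
  rw [hb, Submodule.mem_bot] at hm
  exact hG.ne_zero hconst j hm

theorem IsGenFamily.weight_even (hG : IsGenFamily N w c)
    (hconst : ∀ a : ℂ, (fun _ : ℍ => a) ∈ Lfun 0)
    (hodd : ∀ k : ℤ, Odd k → Mfun N k = ⊥) (j : J) : Even (w j) := by
  by_contra h
  have hb := hodd (w j) (Int.not_even_iff_odd.mp h)
  have hm := hG.mem j
  rw [hb, Submodule.mem_bot] at hm
  exact hG.ne_zero hconst j hm

/-- the values of the generators span the image of every evaluation map -/
theorem IsGenFamily.evX_mem_span (hG : IsGenFamily N w c)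
    (hevmul : ∀ (k l : ℤ) (F f : ℍ → ℂ) (τ : ℍ), F ∈ Lfun l →
      evX N (k + l) τ (F * f) = F τ • evX N k τ f)
    (τ : ℍ) (K : ℤ) {f : ℍ → ℂ} (hf : f ∈ Mfun N K) :
    evX N K τ f ∈ Submodule.span ℂ (Set.range (fun j => evX N (w j) τ (c j))) := by
  obtain ⟨s, a, ha, rfl⟩ := hG.gen K f hf
  rw [map_sum]
  refine Submodule.sum_mem _ fun j hj => ?_
  have h1 : evX N K τ (a j * c j) = a j τ • evX N (w j) τ (c j) := by
    have := hevmul (w j) (K - w j) (a j) (c j) τ (ha j hj)
    rwa [show w j + (K - w j) = K by ring] at this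
  rw [h1]
  exact Submodule.smul_mem _ _ (Submodule.subset_span ⟨j, rfl⟩)

end lower



theorem lower_eps_congr {k k' : ℤ} (h : k % 6 = k' % 6) :
    ((ρ : ℂ) + 1) ^ (-k) = ((ρ : ℂ) + 1) ^ (-k') := by
  obtain ⟨m, rfl⟩ : ∃ m, k = k' + 6 * m := ⟨(k - k') / 6, by omega⟩
  have h6 : ((ρ : ℂ) + 1) ^ (6 : ℤ) = 1 := by
    have : ((ρ : ℂ) + 1) ^ (6 : ℤ) = (((ρ : ℂ) + 1) ^ 2) ^ 3 := by norm_cast; ring
    rw [this, lower_rho_add_one_sq, lower_rho_cube]
  rw [show -(k' + 6 * m) = -k' + 6 * (-m) by ring, zpow_add₀ lower_rho_add_one_ne_zero,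
    zpow_mul, h6, one_zpow, mul_one]

section main

variable {N : ℕ} {J : Type} {w : J → ℤ} {c : J → ℍ → ℂ}

/-- the generators of weight 2 span `M_2` -/
theorem IsGenFamily.mfun_two_le_span (hG : IsGenFamily N w c)
    (hconst : ∀ a : ℂ, (fun _ : ℍ => a) ∈ Lfun 0)
    (hneg : ∀ k : ℤ, k < 0 → Mfun N k = ⊥) (hodd : ∀ k : ℤ, Odd k → Mfun N k = ⊥)
    (hLneg : ∀ l : ℤ, l < 0 → Lfun l = ⊥) (hL2 : Lfun 2 = ⊥)
    (hL0 : ∀ F : ℍ → ℂ, F ∈ Lfun 0 → ∃ a : ℂ, F = fun _ => a) :
    Mfun N 2 ≤ Submodule.span ℂ (c '' {j | w j = 2}) := by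
  intro f hf
  obtain ⟨s, a, ha, rfl⟩ := hG.gen 2 f hf
  refine Submodule.sum_mem _ fun j hj => ?_
  by_cases h2 : w j = 2
  · have h0 : a j ∈ Lfun 0 := by have := ha j hj; rwa [h2, sub_self] at this
    obtain ⟨l, hl⟩ := hL0 _ h0
    have : a j * c j = l • c j := by
      rw [hl]; funext τ; simp
    rw [this]
    exact Submodule.smul_mem _ _ (Submodule.subset_span ⟨j, h2, rfl⟩)
  · have hnn := hG.weight_nonneg hconst hneg j
    obtain ⟨m, hm⟩ := hG.weight_even hconst hodd j
    have hz : a j = 0 := by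
      have hmem := ha j hj
      rcases lt_or_ge 2 (w j) with h | h
      · rw [hLneg _ (by omega), Submodule.mem_bot] at hmem; exact hmem
      · have hw0 : w j = 0 := by omega
        rw [hw0, sub_zero, hL2, Submodule.mem_bot] at hmem; exact hmem
    rw [hz, zero_mul]
    exact Submodule.zero_mem _

/-- the generators of weight 2 are linearly independent -/
theorem IsGenFamily.linearIndependent_two (hG : IsGenFamily N w c)
    (hconst : ∀ a : ℂ, (fun _ : ℍ => a) ∈ Lfun 0) :
    LinearIndependent ℂ (fun j : {j // w j = 2} => c j) := by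
  classical
  rw [linearIndependent_iff']
  intro s g hg i hi
  have key := hG.free 2 (s.map (Function.Embedding.subtype _))
    (fun j => if h : w j = 2 then (fun _ : ℍ => g ⟨j, h⟩) else 0) (by
      intro j hj
      rw [Finset.mem_map] at hj
      obtain ⟨j', _, rfl⟩ := hj
      have h2 : w (j' : J) = 2 := j'.2
      show (if h : w (j' : J) = 2 then (fun _ : ℍ => g ⟨j', h⟩) else 0) ∈ Lfun (2 - w (j' : J))
      rw [dif_pos h2, h2, sub_self]
      exact hconst _) (by
      rw [Finset.sum_map]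
      refine Eq.trans (Finset.sum_congr rfl fun j' _ => ?_) hg
      have h2 : w ((Function.Embedding.subtype fun j => w j = 2) j') = 2 := j'.2
      rw [dif_pos h2]
      funext τ
      simp) (i : J) (by
      rw [Finset.mem_map]
      exact ⟨i, hi, rfl⟩)
  have h2 : w (i : J) = 2 := i.2
  rw [dif_pos h2] at key
  have := congrFun key UpperHalfPlane.I
  simpa using this

theorem lower_core [NeZero N] (hG : IsGenFamily N w c)
    (hconst : ∀ a : ℂ, (fun _ : ℍ => a) ∈ Lfun 0)
    (hneg : ∀ k : ℤ, k < 0 → Mfun N k = ⊥) (hodd : ∀ k : ℤ, Odd k → Mfun N k = ⊥)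
    (hLneg : ∀ l : ℤ, l < 0 → Lfun l = ⊥) (hL2 : Lfun 2 = ⊥)
    (hL0 : ∀ F : ℍ → ℂ, F ∈ Lfun 0 → ∃ a : ℂ, F = fun _ => a)
    (hevmul : ∀ (k l : ℤ) (F f : ℍ → ℂ) (τ : ℍ), F ∈ Lfun l →
      evX N (k + l) τ (F * f) = F τ • evX N k τ f)
    (hS1 : 2 * Module.finrank ℂ (eigS N 1) = idx N + fixS N)
    (hS2 : 2 * Module.finrank ℂ (eigS N (-1)) + fixS N = idx N)
    (hU1 : 3 * Module.finrank ℂ (eigU N 1) = idx N + 2 * fixU N)
    (hU2 : ∀ ε : ℂ, ε ^ 3 = 1 → ε ≠ 1 → 3 * Module.finrank ℂ (eigU N ε) + fixU N = idx N)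
    (hevS : ∀ (k : ℤ) (f : ℍ → ℂ), f ∈ Mfun N k → evX N k I f ∈ eigS N (Complex.I ^ (-k)))
    (hevU : ∀ (k : ℤ) (f : ℍ → ℂ), f ∈ Mfun N k →
      evX N k ρ f ∈ eigU N (((ρ : ℂ) + 1) ^ (-k)))
    (hiI : LinearIndependent ℂ (fun j => evX N (w j) I (c j)))
    (hiρ : LinearIndependent ℂ (fun j => evX N (w j) ρ (c j)))
    (hV : ∃ (τ₀ : ℍ) (K : ℤ), ∀ v : (SL(2, ℤ) ⧸ Gamma0 N) → ℂ,
      ∃ f ∈ Mfun N K, evX N K τ₀ f = v)
    (hdet : ∀ s : Finset J, (∀ j, j ∈ s) → s.card = idx N →
      ∑ j ∈ s, w j + 6 * (orbT N : ℤ) = 6 * (idx N : ℤ))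
    (hct : FiniteDimensional ℂ (Mfun N 2) →
      mdim N 2 + 1 ≤ Module.finrank ℂ (Sfun N 2) + orbT N) :
    genusQ N ≤ (Module.finrank ℂ (Sfun N 2) : ℚ) := by
  classical
  haveI : Finite (SL(2, ℤ) ⧸ Gamma0 N) := inferInstance
  letI : Fintype (SL(2, ℤ) ⧸ Gamma0 N) := Fintype.ofFinite _
  have hdimX : Module.finrank ℂ ((SL(2, ℤ) ⧸ Gamma0 N) → ℂ) = idx N := by
    rw [Module.finrank_fintype_fun_eq_card, idx, Nat.card_eq_fintype_card]
  haveI : Finite J := hiI.finite
  letI : Fintype J := Fintype.ofFinite J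
  have hle : Fintype.card J ≤ idx N := by
    rw [← hdimX]; exact hiI.fintype_card_le_finrank
  obtain ⟨τ₀, K, hsurj⟩ := hV
  have hspan : Submodule.span ℂ (Set.range (fun j => evX N (w j) τ₀ (c j))) = ⊤ := by
    rw [eq_top_iff]; intro v _
    obtain ⟨f, hf, rfl⟩ := hsurj v
    exact hG.evX_mem_span hevmul τ₀ K hf
  have hge : idx N ≤ Fintype.card J := by
    rw [← hdimX]
    have h1 := finrank_range_le_card (R := ℂ) (fun j => evX N (w j) τ₀ (c j))
    unfold Set.finrank at h1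
    rw [hspan, finrank_top] at h1
    exact h1
  have hcard : Fintype.card J = idx N := le_antisymm hle hge
  have hnn := hG.weight_nonneg hconst hneg
  have hev := hG.weight_even hconst hodd
  -- classes mod 4
  have h4 : 2 * (Finset.univ.filter fun j => (w j).toNat % 4 = 2).card + fixS N = idx N := by
    have key := lower_card_eq_of_two (fun j => evX N (w j) I (c j)) hiI (eigS N 1) (eigS N (-1))
      (fun j => w j % 4 = 0) (fun j => w j % 4 = 2)
      (fun j hj => by have := hevS (w j) (c j) (hG.mem j); rwa [lower_I_zpow_zero hj] at this)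
      (fun j hj => by have := hevS (w j) (c j) (hG.mem j); rwa [lower_I_zpow_two hj] at this)
      (fun j => by obtain ⟨m, hm⟩ := hev j; omega)
      (by rw [hcard]; omega)
    have e : (Finset.univ.filter fun j => (w j).toNat % 4 = 2)
        = Finset.univ.filter fun j => w j % 4 = 2 := by
      ext j
      simp only [Finset.mem_filter, Finset.mem_univ, true_and]
      have := hnn j
      omega
    rw [e, key]; exact hS2
  -- classes mod 6
  have hε2 := hU2 (((ρ : ℂ) + 1) ^ (-(2 : ℤ))) (lower_eps_cube 2 (by decide))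
    (lower_eps_ne_one (Or.inl (by decide)))
  have hε4 := hU2 (((ρ : ℂ) + 1) ^ (-(4 : ℤ))) (lower_eps_cube 4 (by decide))
    (lower_eps_ne_one (Or.inr (by decide)))
  have key6 := lower_card_eq_of_three (fun j => evX N (w j) ρ (c j)) hiρ (eigU N 1)
      (eigU N (((ρ : ℂ) + 1) ^ (-(2 : ℤ)))) (eigU N (((ρ : ℂ) + 1) ^ (-(4 : ℤ))))
      (fun j => w j % 6 = 0) (fun j => w j % 6 = 2) (fun j => w j % 6 = 4)
      (fun j hj => by have := hevU (w j) (c j) (hG.mem j); rwa [lower_eps_zero hj] at this)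
      (fun j hj => by
        have := hevU (w j) (c j) (hG.mem j)
        rwa [lower_eps_congr (k' := 2) (by omega)] at this)
      (fun j hj => by
        have := hevU (w j) (c j) (hG.mem j)
        rwa [lower_eps_congr (k' := 4) (by omega)] at this)
      (fun j => by obtain ⟨m, hm⟩ := hev j; omega)
      (by rw [hcard]; omega)
  have h62 : 3 * (Finset.univ.filter fun j => (w j).toNat % 6 = 2).card + fixU N = idx N := by
    have e : (Finset.univ.filter fun j => (w j).toNat % 6 = 2)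
        = Finset.univ.filter fun j => w j % 6 = 2 := by
      ext j
      simp only [Finset.mem_filter, Finset.mem_univ, true_and]
      have := hnn j
      omega
    rw [e, key6.1]; exact hε2
  have h64 : 3 * (Finset.univ.filter fun j => (w j).toNat % 6 = 4).card + fixU N = idx N := by
    have e : (Finset.univ.filter fun j => (w j).toNat % 6 = 4)
        = Finset.univ.filter fun j => w j % 6 = 4 := by
      ext j
      simp only [Finset.mem_filter, Finset.mem_univ, true_and]
      have := hnn j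
      omega
    rw [e, key6.2]; exact hε4
  -- total weight
  have hW : ∑ j, (w j).toNat + 6 * orbT N = 6 * idx N := by
    have h := hdet Finset.univ (fun j => Finset.mem_univ j) (by rw [Finset.card_univ, hcard])
    have e : ∑ j, w j = ((∑ j, (w j).toNat : ℕ) : ℤ) := by
      rw [Nat.cast_sum]
      exact Finset.sum_congr rfl fun j _ => (Int.toNat_of_nonneg (hnn j)).symm
    rw [e] at h
    exact_mod_cast h
  have heven : ∀ j, Even ((w j).toNat) := by
    intro j
    obtain ⟨m, hm⟩ := hev j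
    have := hnn j
    exact ⟨m.toNat, by omega⟩
  have hnum := h34_numerics_modular (fun j => (w j).toNat) (idx N) (fixS N) (fixU N) (orbT N)
    heven h4 h62 h64 hW
  -- weight two
  have hfin2 : FiniteDimensional ℂ (Mfun N 2) := by
    have hsp := hG.mfun_two_le_span hconst hneg hodd hLneg hL2 hL0
    have hfs : (c '' {j | w j = 2}).Finite := (Set.toFinite _).image _
    haveI : FiniteDimensional ℂ (Submodule.span ℂ (c '' {j | w j = 2})) :=
      FiniteDimensional.span_of_finite ℂ hfs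
    exact Submodule.finiteDimensional_of_le hsp
  have hli := hG.linearIndependent_two hconst
  have hli' : LinearIndependent ℂ
      (fun j : {j // w j = 2} => (⟨c j, by have := hG.mem (j : J); rwa [j.2] at this⟩ : Mfun N 2)) := by
    apply LinearIndependent.of_comp (Mfun N 2).subtype
    exact hli
  have hc2 : (Finset.univ.filter fun j => (w j).toNat = 2).card ≤ mdim N 2 := by
    have h1 := hli'.fintype_card_le_finrank
    rw [Fintype.card_subtype] at h1
    have e : (Finset.univ.filter fun j => (w j).toNat = 2)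
        = Finset.univ.filter fun j => w j = 2 := by
      ext j
      simp only [Finset.mem_filter, Finset.mem_univ, true_and]
      have := hnn j
      omega
    rw [e]; exact h1
  have hct' := hct hfin2
  have hc2' : (((Finset.univ.filter fun j => (w j).toNat = 2).card : ℕ) : ℚ) ≤ (mdim N 2 : ℚ) := by
    exact_mod_cast hc2
  have hct'' : (mdim N 2 : ℚ) + 1 ≤ (Module.finrank ℂ (Sfun N 2) : ℚ) + (orbT N : ℚ) := by
    exact_mod_cast hct'
  unfold genusQ
  linarith

end main

end Fermat.Agent.S20
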