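import Mathlib
import Fermat.Agent.S20.Defs
import Fermat.Agent.S20.h84_CuspTrace
import Fermat.Agent.S23.h40_Conj2
import Fermat.Agent.S23.h96_DeltaN

set_option autoImplicit false

namespace Fermat.Agent.S20

open UpperHalfPlane CongruenceSubgroup ModularForm Filter Topology
open scoped MatrixGroups ModularForm Manifold

local notation "Δ" => ModularForm.discriminant

/-- Slash by an element of `SL(2, ℤ)` commutes with powers. -/
theorem vdm_pow_slash (k : ℤ) (γ : SL(2, ℤ)) (f : ℍ → ℂ) (n : ℕ) :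
    (f ^ n) ∣[(n : ℤ) * k] γ = (f ∣[k] γ) ^ n := by
  induction n with
  | zero =>
    funext τ
    simp [ModularForm.SL_slash_apply]
  | succ n ih =>
    have h1 : ((n + 1 : ℕ) : ℤ) * k = (n : ℤ) * k + k := by push_cast; ring
    rw [h1, pow_succ, pow_succ, ModularForm.mul_slash_SL2, ih]

/-- The discriminant is invariant under `SL(2, ℤ)`. -/
theorem vdm_disc_slash (γ : SL(2, ℤ)) : (Δ : ℍ → ℂ) ∣[(12 : ℤ)] γ = Δ :=
  SlashInvariantFormClass.slash_action_eq CuspForm.discriminant (γ : GL (Fin 2) ℝ) ⟨γ, rfl⟩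

/-- Slash of the products `V ^ m * Δ ^ n`. -/
theorem vdm_slash_prod (V : ℍ → ℂ) (m n : ℕ) (γ : SL(2, ℤ)) :
    (V ^ m * Δ ^ n) ∣[(12 : ℤ) * ((m : ℤ) + n)] γ = (V ∣[(12 : ℤ)] γ) ^ m * Δ ^ n := by
  have h1 : (12 : ℤ) * ((m : ℤ) + n) = (m : ℤ) * 12 + (n : ℤ) * 12 := by ring
  rw [h1, ModularForm.mul_slash_SL2, vdm_pow_slash, vdm_pow_slash, vdm_disc_slash]

/-- The conjugates of a bundled form on `Γ₀(N)` in the language of `cj` and of Mathlib. -/
theorem vdm_cj_eq (N : ℕ) {k : ℤ} {F : Type*} [FunLike F ℍ ℂ]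
    [SlashInvariantFormClass F ((Gamma0 N : Subgroup SL(2, ℤ)) : Subgroup (GL (Fin 2) ℝ)) k]
    (f : F) (q : SL(2, ℤ) ⧸ Gamma0 N) :
    cj N k (⇑f) q = SlashInvariantForm.quotientFunc f (h84_quotEquiv (Gamma0 N) q) := by
  conv_rhs => rw [← QuotientGroup.out_eq' q]
  rw [h84_quotEquiv_mk]
  show _ = SlashInvariantForm.quotientFunc f ⟦h84_toSL (Quotient.out q)⟧
  rw [SlashInvariantForm.quotientFunc_mk]
  simp only [cj, h84_toSL, ModularForm.SL_slash, map_inv]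
  rfl

/-- The products `V ^ m * Δ ^ n` with `n ≥ 1` are cusp forms on `Γ₀(N)` when `V` is a modular
form of weight `12` on `Γ₀(N)`. -/
theorem vdm_prod_mem_Sfun (N : ℕ) [NeZero N] {F : Type*} [FunLike F ℍ ℂ]
    [ModularFormClass F ((Gamma0 N : Subgroup SL(2, ℤ)) : Subgroup (GL (Fin 2) ℝ)) 12]
    (V : F) (m n : ℕ) (hn : 1 ≤ n) :
    ((⇑V : ℍ → ℂ) ^ m * Δ ^ n) ∈ Sfun N ((12 : ℤ) * ((m : ℤ) + n)) := by
  rw [mem_Sfun_iff]
  have hΔ : MDiff (Δ : ℍ → ℂ) := CuspForm.discriminant.holo'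
  have hVh : MDiff (⇑V : ℍ → ℂ) := ModularFormClass.holo V
  refine ⟨?_, ?_, ?_⟩
  · exact (hVh.pow m).mul (hΔ.pow n)
  · intro γ hγ
    rw [vdm_slash_prod]
    have : (⇑V : ℍ → ℂ) ∣[(12 : ℤ)] γ = ⇑V :=
      SlashInvariantFormClass.slash_action_eq V (γ : GL (Fin 2) ℝ) ⟨γ, hγ, rfl⟩
    rw [this]
  · intro σ
    rw [vdm_slash_prod]
    have hV : IsBoundedAtImInfty ((⇑V : ℍ → ℂ) ∣[(12 : ℤ)] σ) :=
      ModularFormClass.bdd_at_infty_slash V σ
    have hVm : IsBoundedAtImInfty (((⇑V : ℍ → ℂ) ∣[(12 : ℤ)] σ) ^ m) := by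
      induction m with
      | zero =>
        simp only [pow_zero]
        exact Filter.const_boundedAtFilter _ (1 : ℂ)
      | succ m ih =>
        rw [pow_succ]
        exact ih.mul hV
    have hΔ0 : IsZeroAtImInfty (Δ : ℍ → ℂ) := discriminant_isZeroAtImInfty
    have hΔb : IsBoundedAtImInfty (Δ : ℍ → ℂ) := hΔ0.boundedAtFilter
    have hΔn : IsZeroAtImInfty ((Δ : ℍ → ℂ) ^ n) := by
      obtain ⟨n', rfl⟩ : ∃ n', n = n' + 1 := ⟨n - 1, by omega⟩
      have hb : IsBoundedAtImInfty ((Δ : ℍ → ℂ) ^ n') := by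
        clear hn
        induction n' with
        | zero =>
          simp only [pow_zero]
          exact Filter.const_boundedAtFilter _ (1 : ℂ)
        | succ n' ih =>
          rw [pow_succ]
          exact ih.mul hΔb
      rw [pow_succ]
      exact hb.mul_zeroAtFilter hΔ0
    exact hVm.mul_zeroAtFilter hΔn

/-- Values of the conjugates of `V ^ m * Δ ^ n`. -/
theorem vdm_evX_prod (N : ℕ) (V : ℍ → ℂ) (m n : ℕ) (τ : ℍ) (q : SL(2, ℤ) ⧸ Gamma0 N) :
    evX N ((12 : ℤ) * ((m : ℤ) + n)) τ (V ^ m * Δ ^ n) q =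
      (cj N 12 V q τ) ^ m * Δ τ ^ n := by
  rw [evX_apply, cj, vdm_slash_prod]
  rfl

/-- **VANDERMONDE (cusp form version).** There are a point `τ₀` and a weight `K` such that the
evaluation of the conjugates at `τ₀` maps the cusp forms of weight `K` onto `ℂ^X`. -/
theorem exists_evX_surjective_Sfun (N : ℕ) [NeZero N] :
    ∃ (τ₀ : ℍ) (K : ℤ), ∀ v : (SL(2, ℤ) ⧸ Gamma0 N) → ℂ, ∃ f ∈ Sfun N K, evX N K τ₀ f = v := by
  classical
  have : Finite (SL(2, ℤ) ⧸ Gamma0 N) := inferInstance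
  let _ : Fintype (SL(2, ℤ) ⧸ Gamma0 N) := Fintype.ofFinite _
  set V : CuspForm (Gamma0 N) 12 := Fermat.Agent.S23.h96_DeltaN N with hV
  obtain ⟨τ₀, hinj⟩ := Fermat.Agent.S23.h40_exists_injective_quotientFunc N V (c := 1)
    one_ne_zero (by rw [one_smul]; exact Fermat.Agent.S23.h96_DeltaN_coe N)
  set t : (SL(2, ℤ) ⧸ Gamma0 N) → ℂ := fun q => cj N 12 (⇑V) q τ₀ with ht
  have htinj : Function.Injective t := by
    intro q q' h
    apply (h84_quotEquiv (Gamma0 N)).injective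
    apply hinj
    simp only [ht] at h
    rw [vdm_cj_eq, vdm_cj_eq] at h
    exact h
  set μ : ℕ := Fintype.card (SL(2, ℤ) ⧸ Gamma0 N) with hμ
  have hd : Δ τ₀ ≠ 0 := discriminant_ne_zero τ₀
  have hK : ∀ m ∈ Finset.range μ, (12 : ℤ) * ((m : ℤ) + ((μ - m : ℕ) : ℤ)) = 12 * (μ : ℤ) := by
    intro m hm
    have hm' : m ≤ μ := (Finset.mem_range.mp hm).le
    rw [Nat.cast_sub hm']
    ring
  refine ⟨τ₀, 12 * (μ : ℤ), fun v => ?_⟩
  set p : Polynomial ℂ := Lagrange.interpolate Finset.univ t v with hp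
  have hdeg : p.degree < (μ : ℕ) := by
    have h1 := Lagrange.degree_interpolate_lt (s := Finset.univ) (v := t) v
      (htinj.injOn)
    rw [Finset.card_univ] at h1
    exact h1
  have hnat : p.natDegree < μ ∨ p = 0 := by
    by_cases h0 : p = 0
    · exact Or.inr h0
    · exact Or.inl ((Polynomial.natDegree_lt_iff_degree_lt h0).mpr hdeg)
  have heval : ∀ x : ℂ, p.eval x = ∑ m ∈ Finset.range μ, p.coeff m * x ^ m := by
    intro x
    rcases hnat with h | h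
    · exact Polynomial.eval_eq_sum_range' h x
    · simp [h]
  refine ⟨∑ m ∈ Finset.range μ, (p.coeff m / Δ τ₀ ^ (μ - m)) • ((⇑V : ℍ → ℂ) ^ m * Δ ^ (μ - m)),
    ?_, ?_⟩
  · refine Submodule.sum_mem _ fun m hm => Submodule.smul_mem _ _ ?_
    have := vdm_prod_mem_Sfun N V m (μ - m) (by have := Finset.mem_range.mp hm; omega)
    rwa [hK m hm] at this
  · funext q
    rw [map_sum, Finset.sum_apply]
    have hq : v q = p.eval (t q) := by
      rw [hp, Lagrange.eval_interpolate_at_node v htinj.injOn (Finset.mem_univ q)]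
    rw [hq, heval]
    refine Finset.sum_congr rfl fun m hm => ?_
    rw [map_smul, Pi.smul_apply, smul_eq_mul, ← hK m hm, vdm_evX_prod]
    have hdm : Δ τ₀ ^ (μ - m) ≠ 0 := pow_ne_zero _ hd
    show p.coeff m / Δ τ₀ ^ (μ - m) * (cj N 12 (⇑V) q τ₀ ^ m * Δ τ₀ ^ (μ - m)) =
      p.coeff m * cj N 12 (⇑V) q τ₀ ^ m
    field_simp

/-- **VANDERMONDE.** There are a point `τ₀` and a weight `K` such that the evaluation of the
conjugates at `τ₀` maps the modular forms of weight `K` on `Γ₀(N)` onto `ℂ^X`. -/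
theorem exists_evX_surjective (N : ℕ) [NeZero N] :
    ∃ (τ₀ : ℍ) (K : ℤ), ∀ v : (SL(2, ℤ) ⧸ Gamma0 N) → ℂ, ∃ f ∈ Mfun N K, evX N K τ₀ f = v := by
  obtain ⟨τ₀, K, h⟩ := exists_evX_surjective_Sfun N
  refine ⟨τ₀, K, fun v => ?_⟩
  obtain ⟨f, hf, hfv⟩ := h v
  exact ⟨f, Sfun_le_Mfun N K hf, hfv⟩

end Fermat.Agent.S20
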