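import Mathlib
import Fermat.Agent.S20.Defs2
import Fermat.Agent.S24.h47_Eigen
import Fermat.Agent.S24.h29_Elliptic

set_option autoImplicit false

/-!
# S20, block EIGEN: dimensions of the eigenspaces `eigS N ε`, `eigU N ε` on `ℂ^X`
-/

namespace Fermat.Agent.S20

open Module CongruenceSubgroup Fermat.Agent.S24
open scoped MatrixGroups

lemma h47_orbCount_inv {G X : Type*} [Group G] [MulAction G X] (g : G) :
    h47_orbCount X g⁻¹ = h47_orbCount X g := by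
  unfold h47_orbCount
  rw [Subgroup.zpowers_inv]

theorem h47_fixS_eq (N : ℕ) [NeZero N] : fixS N = ModularCurve.nuTwo N :=
  h29_card_fixedBy_S N

theorem h47_fixU_eq (N : ℕ) [NeZero N] : fixU N = ModularCurve.nuThree N :=
  h29_card_fixedBy_ST N

theorem h47_eigS_eq (N : ℕ) (ε : ℂ) :
    eigS N ε = h47_eig (X := SL(2, ℤ) ⧸ Gamma0 N) (ModularGroup.S⁻¹) ε := by
  ext v
  rw [mem_eigS, h47_mem_eig]

theorem h47_eigU_eq (N : ℕ) (ε : ℂ) :
    eigU N ε = h47_eig (X := SL(2, ℤ) ⧸ Gamma0 N) ((ModularGroup.S * ModularGroup.T)⁻¹) ε := by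
  ext v
  rw [mem_eigU, h47_mem_eig]

lemma h47_inv_sq_smul {G X : Type*} [Group G] [MulAction G X] (g : G) (x : X)
    (h : (g ^ 2) • x = x) : g⁻¹ • g⁻¹ • x = x := by
  have e : g⁻¹ • g⁻¹ • x = (g ^ 2)⁻¹ • x := by
    rw [← mul_smul]
    congr 1
    group
  rw [e, inv_smul_eq_iff, h]

lemma h47_inv_cube_smul {G X : Type*} [Group G] [MulAction G X] (g : G) (x : X)
    (h : (g ^ 3) • x = x) : g⁻¹ • g⁻¹ • g⁻¹ • x = x := by
  have e : g⁻¹ • g⁻¹ • g⁻¹ • x = (g ^ 3)⁻¹ • x := by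
    rw [← mul_smul, ← mul_smul]
    congr 1
    group
  rw [e, inv_smul_eq_iff, h]

lemma h47_Sinv_sq_smul (N : ℕ) (x : SL(2, ℤ) ⧸ Gamma0 N) :
    ModularGroup.S⁻¹ • ModularGroup.S⁻¹ • x = x :=
  h47_inv_sq_smul _ _ (by rw [h29_S_sq]; exact h29_neg_one_smul N x)

lemma h47_Uinv_cube_smul (N : ℕ) (x : SL(2, ℤ) ⧸ Gamma0 N) :
    (ModularGroup.S * ModularGroup.T)⁻¹ • (ModularGroup.S * ModularGroup.T)⁻¹ •
      (ModularGroup.S * ModularGroup.T)⁻¹ • x = x :=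
  h47_inv_cube_smul _ _ (by rw [h29_ST_cube]; exact h29_neg_one_smul N x)

/-- `dim eigS N 1 = (μ + fixS) / 2`. -/
theorem h47_finrank_eigS_one (N : ℕ) [NeZero N] :
    2 * finrank ℂ (eigS N 1) = idx N + fixS N := by
  rw [h47_eigS_eq, h47_finrank_eig_one, h47_orbCount_inv, h29_orbits_S, h47_fixS_eq]
  rfl

/-- `dim eigS N (-1) = (μ - fixS) / 2`. -/
theorem h47_finrank_eigS_neg_one (N : ℕ) [NeZero N] :
    2 * finrank ℂ (eigS N (-1)) + fixS N = idx N := by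
  have h1 := h47_finrank_eig_neg_one (X := SL(2, ℤ) ⧸ Gamma0 N) ModularGroup.S⁻¹
    (h47_Sinv_sq_smul N)
  rw [h47_orbCount_inv] at h1
  have h2 := h29_orbits_S N
  rw [h47_eigS_eq, h47_fixS_eq]
  unfold idx
  omega

/-- `dim eigU N 1 = (μ + 2 fixU) / 3`. -/
theorem h47_finrank_eigU_one (N : ℕ) [NeZero N] :
    3 * finrank ℂ (eigU N 1) = idx N + 2 * fixU N := by
  rw [h47_eigU_eq, h47_finrank_eig_one, h47_orbCount_inv, h29_orbits_ST, h47_fixU_eq]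
  rfl

/-- `dim eigU N ω = (μ - fixU) / 3` for a primitive cube root of unity `ω`. -/
theorem h47_finrank_eigU_omega (N : ℕ) [NeZero N] (ω : ℂ) (hω : ω ^ 2 + ω + 1 = 0) :
    3 * finrank ℂ (eigU N ω) + fixU N = idx N := by
  have h1 := h47_finrank_eig_omega (X := SL(2, ℤ) ⧸ Gamma0 N)
    (ModularGroup.S * ModularGroup.T)⁻¹ (h47_Uinv_cube_smul N) ω hω
  rw [h47_orbCount_inv] at h1
  have h2 := h29_orbits_ST N
  rw [h47_eigU_eq, h47_fixU_eq]
  unfold idx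
  omega

end Fermat.Agent.S20
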