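import Mathlib
import Fermat.Agent.S20.LowerCore
import Fermat.Agent.S20.Bridge
import Fermat.Agent.S20.Conj
import Fermat.Agent.S20.h47_EigDim
import Fermat.Agent.S20.Vandermonde
import Fermat.Agent.S20.h84_Bridge
import Fermat.Agent.S24.h29_Index
import Fermat.Agent.S24.h33_Cusps

set_option autoImplicit false
set_option linter.style.haveILetI false

/-!
# S20: the lower bound `genusFormula N ≤ dim S_2(Γ₀(N))` from a free generating family

`genusQ_le_of` discharges all hypotheses of `lower_core` that are landed interface rows; what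
remains as hypotheses are the rows GENS / INDEP / DET (a generating family, independence of its
values at `I`, `ρ`, and the weight sum).
-/

namespace Fermat.Agent.S20

open UpperHalfPlane CongruenceSubgroup ModularForm Filter Topology
open scoped MatrixGroups ModularForm Manifold

/-- primitive cube roots of unity are roots of `x² + x + 1`. -/
theorem lower_cube_root {ε : ℂ} (h3 : ε ^ 3 = 1) (h1 : ε ≠ 1) : ε ^ 2 + ε + 1 = 0 := by
  have h : (ε - 1) * (ε ^ 2 + ε + 1) = 0 := by linear_combination h3
  rcases mul_eq_zero.mp h with h | h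
  · exact absurd (sub_eq_zero.mp h) h1
  · exact h

/-- `genusQ` (counts on `X = SL(2,ℤ)/Γ₀(N)`) is the frozen `genusFormula`. -/
theorem genusQ_eq_genusFormula (N : ℕ) [NeZero N] : genusQ N = ModularCurve.genusFormula N := by
  have h1 : idx N = ModularCurve.dedekindPsi N := Fermat.Agent.S24.h29_card_quotient_Gamma0 N
  have h2 : fixS N = ModularCurve.nuTwo N := h47_fixS_eq N
  have h3 : fixU N = ModularCurve.nuThree N := h47_fixU_eq N
  have h4 : orbT N = ModularCurve.cuspCount N := Fermat.Agent.S24.h33_orbits_T N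
  unfold genusQ ModularCurve.genusFormula
  rw [h1, h2, h3, h4]

/-- The lower bound from a free generating family whose values at `I` and `ρ` are linearly
independent and whose weights sum to `6 (idx - orbT)`. -/
theorem genusQ_le_of (N : ℕ) [NeZero N] {J : Type} {w : J → ℤ} {c : J → ℍ → ℂ}
    (hG : IsGenFamily N w c)
    (hiI : LinearIndependent ℂ (fun j => evX N (w j) I (c j)))
    (hiρ : LinearIndependent ℂ (fun j => evX N (w j) ρ (c j)))
    (hsum : ∀ [Fintype J] [DecidableEq J] (_ : J ≃ (SL(2, ℤ) ⧸ Gamma0 N)),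
      ∑ j, w j + 6 * (orbT N : ℤ) = 6 * (idx N : ℤ)) :
    genusQ N ≤ (Module.finrank ℂ (Sfun N 2) : ℚ) := by
  classical
  refine lower_core hG const_mem_Lfun (fun k hk => Mfun_eq_bot_of_neg N hk)
    (fun k hk => Mfun_eq_bot_of_odd N hk) (fun l hl => Lfun_eq_bot_of_neg hl) Lfun_two_eq_bot
    (fun F hF => Lfun_zero_const hF) (fun k l F f τ hF => evX_mul_Lfun N k hF f τ)
    (h47_finrank_eigS_one N) (h47_finrank_eigS_neg_one N) (h47_finrank_eigU_one N)
    (fun ε h3 h1 => h47_finrank_eigU_omega N ε (lower_cube_root h3 h1))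
    (fun k f hf => evX_I_mem_eigS hf) (fun k f hf => evX_rho_mem_eigU hf) hiI hiρ
    (exists_evX_surjective N) ?_ (fun hfin => mdim_two_le N hfin)
  intro s hs hcard
  letI : Fintype J := ⟨s, hs⟩
  haveI : Finite (SL(2, ℤ) ⧸ Gamma0 N) := inferInstance
  letI : Fintype (SL(2, ℤ) ⧸ Gamma0 N) := Fintype.ofFinite _
  have hc : Fintype.card J = Fintype.card (SL(2, ℤ) ⧸ Gamma0 N) := by
    rw [← Nat.card_eq_fintype_card (α := SL(2, ℤ) ⧸ Gamma0 N)]
    exact hcard
  exact hsum (Fintype.equivOfCardEq hc)

/-- The lower bound of the dimension formula in the frozen language, from a free generating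
family (rows GENS / INDEP / DET as hypotheses). -/
theorem genusFormula_le_of (N : ℕ) [NeZero N] {J : Type} {w : J → ℤ} {c : J → ℍ → ℂ}
    (hG : IsGenFamily N w c)
    (hiI : LinearIndependent ℂ (fun j => evX N (w j) I (c j)))
    (hiρ : LinearIndependent ℂ (fun j => evX N (w j) ρ (c j)))
    (hsum : ∀ [Fintype J] [DecidableEq J] (_ : J ≃ (SL(2, ℤ) ⧸ Gamma0 N)),
      ∑ j, w j + 6 * (orbT N : ℤ) = 6 * (idx N : ℤ)) :
    ModularCurve.genusFormula N ≤ (Module.finrank ℂ (CuspForm (Gamma0 N) 2) : ℚ) := by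
  rw [← genusQ_eq_genusFormula, ← finrank_Sfun N 2]
  exact genusQ_le_of N hG hiI hiρ hsum

end Fermat.Agent.S20
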