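import Mathlib
import Fermat.Agent.S20.LowerOf
import Fermat.Agent.S20.Gens
import Fermat.Agent.S20.Indep
import Fermat.Agent.S20.Det

set_option autoImplicit false

/-!
# S20: the lower bound `genusFormula N ≤ dim S_2(Γ₀(N))`
-/

namespace Fermat.Agent.S20

open UpperHalfPlane CongruenceSubgroup ModularForm Filter Topology
open scoped MatrixGroups ModularForm Manifold

/-- **Lower bound of the dimension formula**: `genusFormula N ≤ dim S₂(Γ₀(N))`. -/
theorem genusFormula_le (N : ℕ) [NeZero N] :
    ModularCurve.genusFormula N ≤ (Module.finrank ℂ (CuspForm (Gamma0 N) 2) : ℚ) := by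
  obtain ⟨J, w, c, hG⟩ := exists_genFamily N
  exact genusFormula_le_of N hG (indep_I N hG) (indep_rho N hG)
    (fun e => sum_weights_eq N e w c hG.mem (indep_I N hG) (indep_rho N hG)
      (fun τ₀ h4 h6 => indep_generic N hG h4 h6) (fun l hl => indep_infty N hG l hl))

end Fermat.Agent.S20
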