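import Mathlib
import Fermat.Prelude.Def_ModularCurve_PeriodMap

set_option autoImplicit false

open scoped MatrixGroups

namespace Fermat.Agent.S20

noncomputable section

section Generic

variable {G : Type*} [Group G] {X : Type*} [MulAction G X]

/-- Precomposition with the action of `g`: `(h9_op g v) x = v (g • x)`. -/
def h9_op (g : G) : (X → ℂ) →ₗ[ℂ] (X → ℂ) :=
  LinearMap.funLeft ℂ ℂ (fun x : X => g • x)

@[simp] theorem h9_op_apply (g : G) (v : X → ℂ) (x : X) : h9_op g v x = v (g • x) := rfl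

theorem h9_op_mul (g h : G) : h9_op (X := X) (g * h) = h9_op h ∘ₗ h9_op g := by
  ext v x
  simp [mul_smul]

theorem h9_op_one : h9_op (X := X) (1 : G) = LinearMap.id := by
  ext v x
  simp

theorem h9_op_pow (g : G) (k : ℕ) : h9_op (X := X) (g ^ k) = (h9_op g) ^ k := by
  induction k with
  | zero => simp [h9_op_one, Module.End.one_eq_id]
  | succ k ih =>
    rw [pow_succ, h9_op_mul, ih, pow_succ', Module.End.mul_eq_comp]

theorem h9_invariant_zpow (g : G) (v : X → ℂ) (hv : ∀ x, v (g • x) = v x) (k : ℤ) (x : X) :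
    v (g ^ k • x) = v x := by
  induction k using Int.induction_on generalizing x with
  | zero => simp
  | succ k ih =>
    rw [zpow_add_one, mul_smul, ih, hv]
  | pred k ih =>
    rw [zpow_sub_one, mul_smul, ih]
    have := hv (g⁻¹ • x)
    rw [smul_inv_smul] at this
    exact this.symm

/-- The space of `g`-invariant functions has dimension the number of `⟨g⟩`-orbits. -/
theorem h9_finrank_invariants [Finite X] (g : G) :
    Module.finrank ℂ (LinearMap.ker (LinearMap.id - h9_op (X := X) g)) =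
      Nat.card (MulAction.orbitRel.Quotient (Subgroup.zpowers g) X) := by
  classical
  have : Fintype X := Fintype.ofFinite X
  let Q := MulAction.orbitRel.Quotient (Subgroup.zpowers g) X
  have : Fintype Q := Fintype.ofFinite Q
  let f : (Q → ℂ) →ₗ[ℂ] LinearMap.ker (LinearMap.id - h9_op (X := X) g) :=
    { toFun := fun w => ⟨fun x => w (Quotient.mk'' x), by
        rw [LinearMap.mem_ker]
        ext x
        simp only [LinearMap.sub_apply, LinearMap.id_coe, id_eq, Pi.sub_apply, h9_op_apply,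
          Pi.zero_apply]
        have : (Quotient.mk'' (g • x) : Q) = Quotient.mk'' x := by
          apply Quotient.sound'
          refine ⟨⟨g, Subgroup.mem_zpowers g⟩, rfl⟩
        rw [this, sub_self]⟩
      map_add' := fun w w' => rfl
      map_smul' := fun c w => rfl }
  have hinj : Function.Injective f := by
    intro w w' h
    funext q
    induction q using Quotient.inductionOn' with
    | h x =>
      exact congrFun (congrArg Subtype.val h) x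
  have hsurj : Function.Surjective f := by
    intro ⟨v, hv⟩
    rw [LinearMap.mem_ker] at hv
    have hv' : ∀ x, v (g • x) = v x := by
      intro x
      have := congrFun hv x
      simp only [LinearMap.sub_apply, LinearMap.id_coe, id_eq, Pi.sub_apply, h9_op_apply,
        Pi.zero_apply] at this
      exact (sub_eq_zero.mp this).symm
    refine ⟨fun q => Quotient.liftOn' q v ?_, ?_⟩
    · intro a b hab
      obtain ⟨⟨_, ⟨k, rfl⟩⟩, hk⟩ := hab
      rw [← hk]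
      exact (h9_invariant_zpow g v hv' k b)
    · apply Subtype.ext
      funext x
      rfl
  have e := LinearEquiv.ofBijective f ⟨hinj, hsurj⟩
  rw [← e.finrank_eq, Module.finrank_fintype_fun_eq_card, Nat.card_eq_fintype_card]

theorem h9_op_single [DecidableEq X] (g : G) (z : X) :
    h9_op g (Pi.single (g • z) (1 : ℂ)) = Pi.single z (1 : ℂ) := by
  funext x
  simp only [h9_op_apply, Pi.single_apply, smul_left_cancel_iff]

theorem h9_finrank_ker_add_le {V : Type*} [AddCommGroup V] [Module ℂ V] [FiniteDimensional ℂ V]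
    (f g : V →ₗ[ℂ] V) (h : LinearMap.ker g ≤ LinearMap.range f) :
    Module.finrank ℂ (LinearMap.ker f) + Module.finrank ℂ (LinearMap.ker g)
      ≤ Module.finrank ℂ V := by
  have h1 := LinearMap.finrank_range_add_finrank_ker f
  have h2 := Submodule.finrank_mono h
  omega

end Generic

section Main

open ModularGroup ModularCurve.Period

variable (Γ : Subgroup SL(2, ℤ))

/-- The `Γ`-valued cocycle attached to the coset representatives `Quotient.out`. -/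
def h9_coc (g : SL(2, ℤ)) (x : SL(2, ℤ) ⧸ Γ) : Γ :=
  ⟨(Quotient.out (g • x))⁻¹ * g * Quotient.out x, by
    have h1 : ((g * Quotient.out x : SL(2, ℤ)) : SL(2, ℤ) ⧸ Γ) = g • x := by
      conv_rhs => rw [← QuotientGroup.out_eq' x]
      rfl
    have h2 : ((Quotient.out (g • x) : SL(2, ℤ)) : SL(2, ℤ) ⧸ Γ) = g • x :=
      QuotientGroup.out_eq' _
    have := QuotientGroup.eq.mp (h2.trans h1.symm)
    simpa [mul_assoc] using this⟩

theorem h9_coc_coe (g : SL(2, ℤ)) (x : SL(2, ℤ) ⧸ Γ) :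
    ((h9_coc Γ g x : Γ) : SL(2, ℤ)) = (Quotient.out (g • x))⁻¹ * g * Quotient.out x := rfl

theorem h9_coc_mul (g h : SL(2, ℤ)) (x : SL(2, ℤ) ⧸ Γ) :
    h9_coc Γ (g * h) x = h9_coc Γ g (h • x) * h9_coc Γ h x := by
  apply Subtype.ext
  simp only [h9_coc_coe, Subgroup.coe_mul, mul_smul]
  group

/-- The total cocycle `Ψ_φ + ∂v`. -/
def h9_tot (φ : Additive Γ →+ ℂ) (v : SL(2, ℤ) ⧸ Γ → ℂ) (g : SL(2, ℤ)) :
    SL(2, ℤ) ⧸ Γ → ℂ :=
  fun x => φ (Additive.ofMul (h9_coc Γ g x)) + v (g • x) - v x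

theorem h9_tot_mul (φ : Additive Γ →+ ℂ) (v : SL(2, ℤ) ⧸ Γ → ℂ) (g h : SL(2, ℤ))
    (x : SL(2, ℤ) ⧸ Γ) :
    h9_tot Γ φ v (g * h) x = h9_tot Γ φ v g (h • x) + h9_tot Γ φ v h x := by
  simp only [h9_tot, h9_coc_mul, ofMul_mul, map_add, mul_smul]
  ring

theorem h9_tot_one (φ : Additive Γ →+ ℂ) (v : SL(2, ℤ) ⧸ Γ → ℂ) :
    h9_tot Γ φ v 1 = 0 := by
  funext x
  have := h9_tot_mul Γ φ v 1 1 x
  simp only [mul_one, one_smul] at this
  simpa using this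

theorem h9_closure_S_U :
    Subgroup.closure {S, S * T} = (⊤ : Subgroup SL(2, ℤ)) := by
  rw [eq_top_iff, ← SpecialLinearGroup.SL2Z_generators, Subgroup.closure_le]
  rintro g (rfl | rfl)
  · exact Subgroup.subset_closure (by simp)
  · have : T = S⁻¹ * (S * T) := by group
    rw [this]
    exact Subgroup.mul_mem _ (Subgroup.inv_mem _ (Subgroup.subset_closure (by simp)))
      (Subgroup.subset_closure (by simp))

theorem h9_tot_eq_zero (φ : Additive Γ →+ ℂ) (v : SL(2, ℤ) ⧸ Γ → ℂ)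
    (hS : h9_tot Γ φ v S = 0) (hU : h9_tot Γ φ v (S * T) = 0) (g : SL(2, ℤ)) :
    h9_tot Γ φ v g = 0 := by
  have hg : g ∈ Subgroup.closure {S, S * T} := by rw [h9_closure_S_U]; trivial
  induction hg using Subgroup.closure_induction with
  | mem g hg =>
    rcases hg with rfl | rfl
    · exact hS
    · exact hU
  | one => exact h9_tot_one Γ φ v
  | mul g h _ _ ihg ihh =>
    funext x
    rw [h9_tot_mul, ihg, ihh]
    simp
  | inv g _ ih =>
    funext x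
    have := h9_tot_mul Γ φ v g⁻¹ g (g⁻¹ • x)
    rw [inv_mul_cancel, h9_tot_one, ih] at this
    simpa using this.symm

theorem h9_tot_T_pow (φ : Additive Γ →+ ℂ) (v : SL(2, ℤ) ⧸ Γ → ℂ) (k : ℕ)
    (x : SL(2, ℤ) ⧸ Γ) :
    h9_tot Γ φ v (T ^ k) x = ∑ i ∈ Finset.range k, h9_tot Γ φ v T (T ^ i • x) := by
  induction k generalizing x with
  | zero => simp [h9_tot_one]
  | succ k ih =>
    rw [pow_succ, h9_tot_mul, ih, Finset.sum_range_succ']
    simp only [pow_zero, one_smul, pow_succ, mul_smul]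

theorem h9_neg_one_smul (hneg : (-1 : SL(2, ℤ)) ∈ Γ) (x : SL(2, ℤ) ⧸ Γ) :
    (-1 : SL(2, ℤ)) • x = x := by
  induction x using QuotientGroup.induction_on with
  | H g =>
    show (((-1 : SL(2, ℤ)) * g : SL(2, ℤ)) : SL(2, ℤ) ⧸ Γ) = g
    have : (-1 : SL(2, ℤ)) * g = g * (-1) := by
      rw [neg_one_mul, mul_neg_one]
    rw [this]
    exact QuotientGroup.mk_mul_of_mem g hneg

theorem h9_trace_conj (a b : SL(2, ℤ)) :
    ((a⁻¹ * b * a : SL(2, ℤ)) : Matrix (Fin 2) (Fin 2) ℤ).trace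
      = (b : Matrix (Fin 2) (Fin 2) ℤ).trace := by
  rw [mul_assoc, Matrix.SpecialLinearGroup.coe_mul, Matrix.trace_mul_comm,
    ← Matrix.SpecialLinearGroup.coe_mul, mul_assoc, mul_inv_cancel, mul_one]

theorem h9_par_neg_one (hneg : (-1 : SL(2, ℤ)) ∈ Γ) (φ : Additive Γ →+ ℂ)
    (hφ : φ ∈ parabolicHoms ℂ Γ ℂ) (x : SL(2, ℤ) ⧸ Γ) :
    φ (Additive.ofMul (h9_coc Γ (-1) x)) = 0 := by
  apply hφ
  rw [h9_coc_coe, h9_neg_one_smul Γ hneg, h9_trace_conj]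
  simp

theorem h9_par_T_pow (φ : Additive Γ →+ ℂ) (hφ : φ ∈ parabolicHoms ℂ Γ ℂ) (k : ℕ)
    (x : SL(2, ℤ) ⧸ Γ) (hx : T ^ k • x = x) :
    φ (Additive.ofMul (h9_coc Γ (T ^ k) x)) = 0 := by
  apply hφ
  rw [h9_coc_coe, hx, h9_trace_conj, ← zpow_natCast, coe_T_zpow]
  simp [Matrix.trace_fin_two]

theorem h9_S_mul_S : S * S = (-1 : SL(2, ℤ)) := by decide

theorem h9_U_cube : (S * T) * (S * T) * (S * T) = (-1 : SL(2, ℤ)) := by decide

/-- Linear version of the total cocycle at a fixed group element. -/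
def h9_totLin (g : SL(2, ℤ)) :
    ((Additive Γ →+ ℂ) × (SL(2, ℤ) ⧸ Γ → ℂ)) →ₗ[ℂ] (SL(2, ℤ) ⧸ Γ → ℂ) where
  toFun p := h9_tot Γ p.1 p.2 g
  map_add' p q := by
    funext x
    simp only [h9_tot, Prod.fst_add, Prod.snd_add, AddMonoidHom.add_apply, Pi.add_apply]
    ring
  map_smul' c p := by
    funext x
    simp only [h9_tot, Prod.smul_fst, Prod.smul_snd, AddMonoidHom.smul_apply, Pi.smul_apply,
      smul_eq_mul, RingHom.id_apply]
    ring

theorem h9_totLin_apply (g : SL(2, ℤ)) (p : (Additive Γ →+ ℂ) × (SL(2, ℤ) ⧸ Γ → ℂ)) :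
    h9_totLin Γ g p = h9_tot Γ p.1 p.2 g := rfl

/-- A common period of `T` on the coset space. -/
def h9_per : ℕ := orderOf (MulAction.toPermHom (SL(2, ℤ)) (SL(2, ℤ) ⧸ Γ) T)

theorem h9_per_pos [Γ.FiniteIndex] : 0 < h9_per Γ := orderOf_pos _

theorem h9_T_pow_per_smul (x : SL(2, ℤ) ⧸ Γ) : T ^ h9_per Γ • x = x := by
  have h := pow_orderOf_eq_one (MulAction.toPermHom (SL(2, ℤ)) (SL(2, ℤ) ⧸ Γ) T)
  rw [← map_pow] at h
  have := congrArg (fun p : Equiv.Perm (SL(2, ℤ) ⧸ Γ) => p x) h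
  show T ^ orderOf (MulAction.toPermHom (SL(2, ℤ)) (SL(2, ℤ) ⧸ Γ) T) • x = x
  simpa using this

theorem h9_tot_neg_one (hneg : (-1 : SL(2, ℤ)) ∈ Γ) (φ : Additive Γ →+ ℂ)
    (hφ : φ ∈ parabolicHoms ℂ Γ ℂ) (v : SL(2, ℤ) ⧸ Γ → ℂ) (x : SL(2, ℤ) ⧸ Γ) :
    h9_tot Γ φ v (-1) x = 0 := by
  simp only [h9_tot, h9_par_neg_one Γ hneg φ hφ, h9_neg_one_smul Γ hneg]
  ring

theorem h9_mem_A (hneg : (-1 : SL(2, ℤ)) ∈ Γ) (φ : Additive Γ →+ ℂ)
    (hφ : φ ∈ parabolicHoms ℂ Γ ℂ) (v : SL(2, ℤ) ⧸ Γ → ℂ) (x : SL(2, ℤ) ⧸ Γ) :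
    h9_tot Γ φ v S x + h9_tot Γ φ v S (S • x) = 0 := by
  have h := h9_tot_mul Γ φ v S S x
  rw [h9_S_mul_S, h9_tot_neg_one Γ hneg φ hφ] at h
  rw [add_comm]
  exact h.symm

theorem h9_mem_B (hneg : (-1 : SL(2, ℤ)) ∈ Γ) (φ : Additive Γ →+ ℂ)
    (hφ : φ ∈ parabolicHoms ℂ Γ ℂ) (v : SL(2, ℤ) ⧸ Γ → ℂ) (x : SL(2, ℤ) ⧸ Γ) :
    h9_tot Γ φ v (S * T) x + h9_tot Γ φ v (S * T) ((S * T) • x)
      + h9_tot Γ φ v (S * T) ((S * T) • (S * T) • x) = 0 := by
  have h := h9_tot_mul Γ φ v ((S * T) * (S * T)) (S * T) x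
  rw [h9_U_cube, h9_tot_neg_one Γ hneg φ hφ, h9_tot_mul] at h
  rw [h]
  ring

theorem h9_norm_zero (φ : Additive Γ →+ ℂ)
    (hφ : φ ∈ parabolicHoms ℂ Γ ℂ) (v : SL(2, ℤ) ⧸ Γ → ℂ) (x : SL(2, ℤ) ⧸ Γ) :
    ∑ i ∈ Finset.range (h9_per Γ),
      (h9_tot Γ φ v (S * T) (T ^ i • x) - h9_tot Γ φ v S (T ^ i • x)) = 0 := by
  have h1 : ∀ i : ℕ, h9_tot Γ φ v (S * T) (T ^ i • x) - h9_tot Γ φ v S (T ^ i • x)
      = h9_tot Γ φ v T (T ^ i • x)
        + (h9_tot Γ φ v S (T ^ (i + 1) • x) - h9_tot Γ φ v S (T ^ i • x)) := by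
    intro i
    rw [h9_tot_mul, pow_succ', mul_smul]
    ring
  rw [Finset.sum_congr rfl (fun i _ => h1 i), Finset.sum_add_distrib,
    Finset.sum_range_sub (fun i => h9_tot Γ φ v S (T ^ i • x)), ← h9_tot_T_pow]
  have h2 : h9_tot Γ φ v (T ^ h9_per Γ) x = 0 := by
    simp only [h9_tot, h9_par_T_pow Γ φ hφ _ x (h9_T_pow_per_smul Γ x), h9_T_pow_per_smul Γ x]
    ring
  rw [h2, h9_T_pow_per_smul, pow_zero, one_smul]
  ring

theorem h9_inj (φ : Additive Γ →+ ℂ) (v : SL(2, ℤ) ⧸ Γ → ℂ)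
    (hv : v ((1 : SL(2, ℤ)) : SL(2, ℤ) ⧸ Γ) = 0)
    (hS : h9_tot Γ φ v S = 0) (hU : h9_tot Γ φ v (S * T) = 0) : φ = 0 ∧ v = 0 := by
  have hall := h9_tot_eq_zero Γ φ v hS hU
  set x0 : SL(2, ℤ) ⧸ Γ := ((1 : SL(2, ℤ)) : SL(2, ℤ) ⧸ Γ) with hx0
  have hout : (Quotient.out x0 : SL(2, ℤ)) ∈ Γ := by
    have h2 : ((Quotient.out x0 : SL(2, ℤ)) : SL(2, ℤ) ⧸ Γ) = ((1 : SL(2, ℤ)) : SL(2, ℤ) ⧸ Γ) :=
      QuotientGroup.out_eq' _
    have := QuotientGroup.eq.mp h2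
    rw [mul_one] at this
    simpa using Γ.inv_mem this
  have hfix : ∀ γ : Γ, (γ : SL(2, ℤ)) • x0 = x0 := by
    intro γ
    show (((γ : SL(2, ℤ)) * 1 : SL(2, ℤ)) : SL(2, ℤ) ⧸ Γ) = ((1 : SL(2, ℤ)) : SL(2, ℤ) ⧸ Γ)
    rw [mul_one, ← one_mul (γ : SL(2, ℤ))]
    exact QuotientGroup.mk_mul_of_mem 1 γ.2
  have hφ0 : φ = 0 := by
    refine AddMonoidHom.ext fun γ' => ?_
    obtain ⟨γ, rfl⟩ : ∃ γ : Γ, Additive.ofMul γ = γ' := ⟨Additive.toMul γ', rfl⟩
    have h := congrFun (hall (γ : SL(2, ℤ))) x0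
    simp only [h9_tot, hfix γ, Pi.zero_apply] at h
    have hc : h9_coc Γ (γ : SL(2, ℤ)) x0
        = (⟨Quotient.out x0, hout⟩ : Γ)⁻¹ * γ * ⟨Quotient.out x0, hout⟩ := by
      apply Subtype.ext
      simp only [h9_coc_coe, hfix γ, Subgroup.coe_mul, Subgroup.coe_inv]
    rw [hc] at h
    simp only [ofMul_mul, ofMul_inv, map_add, map_neg] at h
    simpa using h
  refine ⟨hφ0, ?_⟩
  funext x
  obtain ⟨g, rfl⟩ : ∃ g : SL(2, ℤ), g • x0 = x := MulAction.exists_smul_eq _ _ _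
  have h := congrFun (hall g) x0
  simp only [h9_tot, hφ0, AddMonoidHom.zero_apply, Pi.zero_apply, hv] at h
  simpa using h

theorem h9_aug_le [Fintype (SL(2, ℤ) ⧸ Γ)] :
    LinearMap.ker (∑ x : SL(2, ℤ) ⧸ Γ, (LinearMap.proj x : (SL(2, ℤ) ⧸ Γ → ℂ) →ₗ[ℂ] ℂ))
      ≤ LinearMap.range (LinearMap.id - h9_op (X := SL(2, ℤ) ⧸ Γ) S)
        ⊔ LinearMap.range (LinearMap.id - h9_op (X := SL(2, ℤ) ⧸ Γ) (S * T)) := by
  classical
  set M := LinearMap.range (LinearMap.id - h9_op (X := SL(2, ℤ) ⧸ Γ) S)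
        ⊔ LinearMap.range (LinearMap.id - h9_op (X := SL(2, ℤ) ⧸ Γ) (S * T)) with hM
  have key : ∀ g : SL(2, ℤ), ∀ z : SL(2, ℤ) ⧸ Γ,
      (Pi.single z (1 : ℂ) - Pi.single (g • z) (1 : ℂ) : SL(2, ℤ) ⧸ Γ → ℂ) ∈ M := by
    intro g
    have hg : g ∈ Subgroup.closure {S, S * T} := by rw [h9_closure_S_U]; trivial
    induction hg using Subgroup.closure_induction with
    | mem g hg =>
      intro z
      have hgen : (Pi.single z (1 : ℂ) - Pi.single (g • z) (1 : ℂ) : SL(2, ℤ) ⧸ Γ → ℂ)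
          = (LinearMap.id - h9_op (X := SL(2, ℤ) ⧸ Γ) g :
              (SL(2, ℤ) ⧸ Γ → ℂ) →ₗ[ℂ] (SL(2, ℤ) ⧸ Γ → ℂ)) (-(Pi.single (g • z) (1 : ℂ))) := by
        simp only [LinearMap.sub_apply, LinearMap.id_coe, id_eq, map_neg, h9_op_single]
        abel
      rcases hg with rfl | rfl
      · rw [hgen]; exact Submodule.mem_sup_left (LinearMap.mem_range_self _ _)
      · rw [hgen]; exact Submodule.mem_sup_right (LinearMap.mem_range_self _ _)
    | one => intro z; simp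
    | mul g h _ _ ihg ihh =>
      intro z
      have : (Pi.single z (1 : ℂ) - Pi.single ((g * h) • z) (1 : ℂ) : SL(2, ℤ) ⧸ Γ → ℂ)
          = (Pi.single z 1 - Pi.single (h • z) 1)
            + (Pi.single (h • z) 1 - Pi.single (g • h • z) 1) := by
        rw [mul_smul]; abel
      rw [this]
      exact Submodule.add_mem _ (ihh z) (ihg (h • z))
    | inv g _ ih =>
      intro z
      have : (Pi.single z (1 : ℂ) - Pi.single (g⁻¹ • z) (1 : ℂ) : SL(2, ℤ) ⧸ Γ → ℂ)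
          = -(Pi.single (g⁻¹ • z) 1 - Pi.single (g • g⁻¹ • z) 1) := by
        rw [smul_inv_smul]; abel
      rw [this]
      exact Submodule.neg_mem _ (ih (g⁻¹ • z))
  intro v hv
  rw [LinearMap.mem_ker] at hv
  have hv' : ∑ x, v x = 0 := by simpa [LinearMap.sum_apply] using hv
  set x0 : SL(2, ℤ) ⧸ Γ := ((1 : SL(2, ℤ)) : SL(2, ℤ) ⧸ Γ) with hx0
  have hdecomp : v = ∑ x, v x •
      (Pi.single x (1 : ℂ) - Pi.single x0 (1 : ℂ) : SL(2, ℤ) ⧸ Γ → ℂ) := by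
    funext y
    have h1 : ∑ x, v x * (if y = x then (1 : ℂ) else 0) = v y := by simp
    have h2 : ∑ x, v x * (if y = x0 then (1 : ℂ) else 0) = 0 := by
      rw [← Finset.sum_mul, hv', zero_mul]
    simp only [Finset.sum_apply, Pi.smul_apply, Pi.sub_apply, Pi.single_apply, smul_eq_mul,
      mul_sub, Finset.sum_sub_distrib, h1, h2, sub_zero]
  rw [hdecomp]
  refine Submodule.sum_mem _ fun x _ => Submodule.smul_mem _ _ ?_
  obtain ⟨g, hg⟩ := MulAction.exists_smul_eq (SL(2, ℤ)) x x0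
  rw [← hg]
  exact key g x

/-- **Shapiro bound**: `dim Hom_par(Γ, ℂ) + c_S + c_{ST} + c_T ≤ [SL₂(ℤ) : Γ] + 2`. -/
theorem h9_parabolicHoms_finrank_le [Γ.FiniteIndex] (hneg : (-1 : SL(2, ℤ)) ∈ Γ) :
    Module.Finite ℂ (parabolicHoms ℂ Γ ℂ) ∧
    Module.finrank ℂ (parabolicHoms ℂ Γ ℂ)
      + Nat.card (MulAction.orbitRel.Quotient (Subgroup.zpowers S) (SL(2, ℤ) ⧸ Γ))
      + Nat.card (MulAction.orbitRel.Quotient (Subgroup.zpowers (S * T)) (SL(2, ℤ) ⧸ Γ))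
      + Nat.card (MulAction.orbitRel.Quotient (Subgroup.zpowers T) (SL(2, ℤ) ⧸ Γ))
      ≤ Nat.card (SL(2, ℤ) ⧸ Γ) + 2 := by
  classical
  have : Fintype (SL(2, ℤ) ⧸ Γ) := Fintype.ofFinite _
  set σ : (SL(2, ℤ) ⧸ Γ → ℂ) →ₗ[ℂ] (SL(2, ℤ) ⧸ Γ → ℂ) := h9_op S with hσ
  set υ : (SL(2, ℤ) ⧸ Γ → ℂ) →ₗ[ℂ] (SL(2, ℤ) ⧸ Γ → ℂ) := h9_op (S * T) with hυ
  set τ : (SL(2, ℤ) ⧸ Γ → ℂ) →ₗ[ℂ] (SL(2, ℤ) ⧸ Γ → ℂ) := h9_op T with hτ
  have hμ : Module.finrank ℂ (SL(2, ℤ) ⧸ Γ → ℂ) = Nat.card (SL(2, ℤ) ⧸ Γ) := by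
    rw [Module.finrank_fintype_fun_eq_card, Nat.card_eq_fintype_card]
  have hσσ : ∀ (v : SL(2, ℤ) ⧸ Γ → ℂ) (x : SL(2, ℤ) ⧸ Γ), v (S • S • x) = v x := by
    intro v x
    rw [← mul_smul, h9_S_mul_S, h9_neg_one_smul Γ hneg]
  have hυυυ : ∀ (v : SL(2, ℤ) ⧸ Γ → ℂ) (x : SL(2, ℤ) ⧸ Γ),
      v ((S * T) • (S * T) • (S * T) • x) = v x := by
    intro v x
    rw [← mul_smul, ← mul_smul, h9_U_cube, h9_neg_one_smul Γ hneg]
  set A := LinearMap.ker (LinearMap.id + σ) with hA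
  set B := LinearMap.ker (LinearMap.id + υ + υ ∘ₗ υ) with hB
  -- dimensions of `A` and `B`
  have hAdim : Module.finrank ℂ A
      + Nat.card (MulAction.orbitRel.Quotient (Subgroup.zpowers S) (SL(2, ℤ) ⧸ Γ))
      ≤ Nat.card (SL(2, ℤ) ⧸ Γ) := by
    have h0 : Module.finrank ℂ (LinearMap.ker (LinearMap.id - σ))
        = Nat.card (MulAction.orbitRel.Quotient (Subgroup.zpowers S) (SL(2, ℤ) ⧸ Γ)) :=
      h9_finrank_invariants S
    rw [← h0, ← hμ]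
    apply h9_finrank_ker_add_le
    intro v hv
    have hv2 : σ v = v := by
      have := sub_eq_zero.mp (LinearMap.mem_ker.mp hv)
      exact this.symm
    refine ⟨(1 / 2 : ℂ) • v, ?_⟩
    simp only [LinearMap.add_apply, LinearMap.id_coe, id_eq, map_smul, hv2]
    funext x
    simp only [Pi.smul_apply, Pi.add_apply, smul_eq_mul]
    ring
  have hBdim : Module.finrank ℂ B
      + Nat.card (MulAction.orbitRel.Quotient (Subgroup.zpowers (S * T)) (SL(2, ℤ) ⧸ Γ))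
      ≤ Nat.card (SL(2, ℤ) ⧸ Γ) := by
    have h0 : Module.finrank ℂ (LinearMap.ker (LinearMap.id - υ))
        = Nat.card (MulAction.orbitRel.Quotient (Subgroup.zpowers (S * T)) (SL(2, ℤ) ⧸ Γ)) :=
      h9_finrank_invariants (S * T)
    rw [← h0, ← hμ]
    apply h9_finrank_ker_add_le
    intro v hv
    have hv2 : υ v = v := by
      have := sub_eq_zero.mp (LinearMap.mem_ker.mp hv)
      exact this.symm
    refine ⟨(1 / 3 : ℂ) • v, ?_⟩
    simp only [LinearMap.add_apply, LinearMap.id_coe, id_eq, map_smul, hv2,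
      LinearMap.comp_apply]
    funext x
    simp only [Pi.smul_apply, Pi.add_apply, smul_eq_mul]
    ring
  -- the norm map along `T`
  set m := h9_per Γ with hm
  have hmpos : 0 < m := h9_per_pos Γ
  set NT : (SL(2, ℤ) ⧸ Γ → ℂ) →ₗ[ℂ] (SL(2, ℤ) ⧸ Γ → ℂ) :=
    ∑ i ∈ Finset.range m, h9_op (T ^ i) with hNT
  have hNT_apply : ∀ (w : SL(2, ℤ) ⧸ Γ → ℂ) (x : SL(2, ℤ) ⧸ Γ),
      NT w x = ∑ i ∈ Finset.range m, w (T ^ i • x) := by
    intro w x
    simp only [hNT, LinearMap.sum_apply, Finset.sum_apply, h9_op_apply]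
  set Dr : (A × B) →ₗ[ℂ] (SL(2, ℤ) ⧸ Γ → ℂ) :=
    NT ∘ₗ (B.subtype ∘ₗ LinearMap.snd ℂ A B - A.subtype ∘ₗ LinearMap.fst ℂ A B) with hDr
  have hDr_apply : ∀ (e : A × B) (x : SL(2, ℤ) ⧸ Γ),
      Dr e x = ∑ i ∈ Finset.range m,
        ((e.2 : SL(2, ℤ) ⧸ Γ → ℂ) (T ^ i • x) - (e.1 : SL(2, ℤ) ⧸ Γ → ℂ) (T ^ i • x)) := by
    intro e x
    simp only [hDr, LinearMap.comp_apply, hNT_apply, LinearMap.sub_apply, Submodule.subtype_apply,
      LinearMap.snd_apply, LinearMap.fst_apply, Pi.sub_apply]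
  -- the invariants of `T` and the augmentation kernel
  set W := LinearMap.ker (LinearMap.id - τ) with hW
  set sumf : (SL(2, ℤ) ⧸ Γ → ℂ) →ₗ[ℂ] ℂ :=
    ∑ x : SL(2, ℤ) ⧸ Γ, (LinearMap.proj x : (SL(2, ℤ) ⧸ Γ → ℂ) →ₗ[ℂ] ℂ) with hsumf
  set Vaug := LinearMap.ker sumf with hVaug
  have hWdim : Module.finrank ℂ W
      = Nat.card (MulAction.orbitRel.Quotient (Subgroup.zpowers T) (SL(2, ℤ) ⧸ Γ)) :=
    h9_finrank_invariants T
  have hVaugdim : Nat.card (SL(2, ℤ) ⧸ Γ) ≤ Module.finrank ℂ Vaug + 1 := by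
    have h1 : Module.finrank ℂ (LinearMap.range sumf) + Module.finrank ℂ Vaug
        = Module.finrank ℂ (SL(2, ℤ) ⧸ Γ → ℂ) := LinearMap.finrank_range_add_finrank_ker sumf
    have h2 : Module.finrank ℂ (LinearMap.range sumf) ≤ 1 := by
      have := Submodule.finrank_le (LinearMap.range sumf)
      rwa [Module.finrank_self] at this
    rw [hμ] at h1
    omega
  have hinfdim : Nat.card (MulAction.orbitRel.Quotient (Subgroup.zpowers T) (SL(2, ℤ) ⧸ Γ))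
      + Module.finrank ℂ Vaug ≤ Nat.card (SL(2, ℤ) ⧸ Γ) + Module.finrank ℂ ↥(W ⊓ Vaug) := by
    have h1 : Module.finrank ℂ ↥(W ⊔ Vaug) + Module.finrank ℂ ↥(W ⊓ Vaug)
        = Module.finrank ℂ W + Module.finrank ℂ Vaug :=
      Submodule.finrank_sup_add_finrank_inf_eq W Vaug
    have h2 : Module.finrank ℂ ↥(W ⊔ Vaug) ≤ Module.finrank ℂ (SL(2, ℤ) ⧸ Γ → ℂ) :=
      Submodule.finrank_le (W ⊔ Vaug)
    rw [hμ] at h2
    omega
  -- the range of `Dr` contains `W ⊓ Vaug`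
  have hrange : W ⊓ Vaug ≤ LinearMap.range Dr := by
    intro w hw
    obtain ⟨hw1, hw2⟩ := hw
    have hw1' : w - τ w = 0 := LinearMap.mem_ker.mp hw1
    have hw2' : w ∈ Vaug := hw2
    have hwT : ∀ x, w (T • x) = w x := by
      intro x
      have := congrFun (sub_eq_zero.mp hw1') x
      exact this.symm
    have hw' : (1 / (m : ℂ)) • w ∈ Vaug := Submodule.smul_mem _ _ hw2'
    obtain ⟨y, hy, z, hz, hyz⟩ := Submodule.mem_sup.mp (h9_aug_le Γ hw')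
    obtain ⟨p, hp⟩ := hy
    obtain ⟨q, hq⟩ := hz
    have hp' : y = p - σ p := by rw [← hp]; rfl
    have hq' : z = q - υ q := by rw [← hq]; rfl
    have hyA : -(p - σ p) ∈ A := by
      rw [LinearMap.mem_ker]
      funext x
      simp only [LinearMap.add_apply, LinearMap.id_coe, id_eq, map_neg,
        map_sub, Pi.add_apply, Pi.neg_apply, Pi.sub_apply, hσ, h9_op_apply, hσσ p x,
        Pi.zero_apply]
      ring
    have hzB : q - υ q ∈ B := by
      rw [LinearMap.mem_ker]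
      funext x
      simp only [LinearMap.add_apply, LinearMap.id_coe, id_eq,
        map_sub, Pi.add_apply, Pi.sub_apply, hυ, h9_op_apply, LinearMap.comp_apply, hυυυ q x,
        Pi.zero_apply]
      ring
    refine ⟨(⟨_, hyA⟩, ⟨_, hzB⟩), ?_⟩
    funext x
    rw [hDr_apply]
    have hsum : ∀ i : ℕ, (q - υ q) (T ^ i • x) - (-(p - σ p)) (T ^ i • x)
        = (1 / (m : ℂ)) * w x := by
      intro i
      have h1 := congrFun hyz (T ^ i • x)
      rw [hp', hq'] at h1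
      simp only [Pi.add_apply, Pi.smul_apply, smul_eq_mul] at h1
      have h2 : w (T ^ i • x) = w x := by
        have := h9_invariant_zpow T w hwT (i : ℤ) x
        rwa [zpow_natCast] at this
      rw [h2] at h1
      rw [← h1, Pi.neg_apply]
      ring
    simp only [hsum]
    rw [Finset.sum_const, Finset.card_range, nsmul_eq_mul]
    have hm0 : (m : ℂ) ≠ 0 := Nat.cast_ne_zero.mpr hmpos.ne'
    field_simp
  -- the injection
  set x0 : SL(2, ℤ) ⧸ Γ := ((1 : SL(2, ℤ)) : SL(2, ℤ) ⧸ Γ) with hx0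
  set W0 := LinearMap.ker (LinearMap.proj x0 : (SL(2, ℤ) ⧸ Γ → ℂ) →ₗ[ℂ] ℂ) with hW0
  have hW0dim : Nat.card (SL(2, ℤ) ⧸ Γ) ≤ Module.finrank ℂ W0 + 1 := by
    have h1 : Module.finrank ℂ (LinearMap.range
        (LinearMap.proj x0 : (SL(2, ℤ) ⧸ Γ → ℂ) →ₗ[ℂ] ℂ)) + Module.finrank ℂ W0
        = Module.finrank ℂ (SL(2, ℤ) ⧸ Γ → ℂ) := LinearMap.finrank_range_add_finrank_ker
      (LinearMap.proj x0 : (SL(2, ℤ) ⧸ Γ → ℂ) →ₗ[ℂ] ℂ)
    have h2 : Module.finrank ℂ (LinearMap.range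
        (LinearMap.proj x0 : (SL(2, ℤ) ⧸ Γ → ℂ) →ₗ[ℂ] ℂ)) ≤ 1 := by
      have := Submodule.finrank_le (LinearMap.range
        (LinearMap.proj x0 : (SL(2, ℤ) ⧸ Γ → ℂ) →ₗ[ℂ] ℂ))
      rwa [Module.finrank_self] at this
    rw [hμ] at h1
    omega
  set incl : (parabolicHoms ℂ Γ ℂ × W0) →ₗ[ℂ] ((Additive Γ →+ ℂ) × (SL(2, ℤ) ⧸ Γ → ℂ)) :=
    LinearMap.prodMap (parabolicHoms ℂ Γ ℂ).subtype W0.subtype with hincl
  have hAmem : ∀ c : parabolicHoms ℂ Γ ℂ × W0, (h9_totLin Γ S ∘ₗ incl) c ∈ A := by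
    intro c
    rw [LinearMap.mem_ker]
    funext x
    simp only [LinearMap.add_apply, LinearMap.id_coe, id_eq, Pi.add_apply, hσ, h9_op_apply,
      LinearMap.comp_apply, h9_totLin_apply, Pi.zero_apply]
    exact h9_mem_A Γ hneg _ c.1.2 _ x
  have hBmem : ∀ c : parabolicHoms ℂ Γ ℂ × W0, (h9_totLin Γ (S * T) ∘ₗ incl) c ∈ B := by
    intro c
    rw [LinearMap.mem_ker]
    funext x
    simp only [LinearMap.add_apply, LinearMap.id_coe, id_eq, Pi.add_apply, hυ, h9_op_apply,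
      LinearMap.comp_apply, h9_totLin_apply, Pi.zero_apply]
    exact h9_mem_B Γ hneg _ c.1.2 _ x
  set ι : (parabolicHoms ℂ Γ ℂ × W0) →ₗ[ℂ] (A × B) :=
    LinearMap.prod (LinearMap.codRestrict A (h9_totLin Γ S ∘ₗ incl) hAmem)
      (LinearMap.codRestrict B (h9_totLin Γ (S * T) ∘ₗ incl) hBmem) with hι
  have hιinj : Function.Injective ι := by
    rw [injective_iff_map_eq_zero]
    intro c hc
    have h1 : h9_tot Γ (c.1 : Additive Γ →+ ℂ) (c.2 : SL(2, ℤ) ⧸ Γ → ℂ) S = 0 := by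
      have := congrArg (fun e : A × B => (e.1 : SL(2, ℤ) ⧸ Γ → ℂ)) hc
      exact this
    have h2 : h9_tot Γ (c.1 : Additive Γ →+ ℂ) (c.2 : SL(2, ℤ) ⧸ Γ → ℂ) (S * T) = 0 := by
      have := congrArg (fun e : A × B => (e.2 : SL(2, ℤ) ⧸ Γ → ℂ)) hc
      exact this
    have hv0 : (c.2 : SL(2, ℤ) ⧸ Γ → ℂ) x0 = 0 := by
      exact LinearMap.mem_ker.mp c.2.2
    obtain ⟨h3, h4⟩ := h9_inj Γ _ _ hv0 h1 h2
    exact Prod.ext (Subtype.ext h3) (Subtype.ext h4)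
  have hιker : LinearMap.range ι ≤ LinearMap.ker Dr := by
    rintro _ ⟨c, rfl⟩
    rw [LinearMap.mem_ker]
    funext x
    rw [hDr_apply]
    exact h9_norm_zero Γ _ c.1.2 _ x
  have hfin1 : Module.Finite ℂ (parabolicHoms ℂ Γ ℂ × W0) := Module.Finite.of_injective ι hιinj
  have hfin2 : Module.Finite ℂ (parabolicHoms ℂ Γ ℂ) :=
    Module.Finite.of_injective (LinearMap.inl ℂ (parabolicHoms ℂ Γ ℂ) W0) LinearMap.inl_injective
  refine ⟨hfin2, ?_⟩
  have hd1 : Module.finrank ℂ (parabolicHoms ℂ Γ ℂ) + Module.finrank ℂ W0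
      ≤ Module.finrank ℂ (LinearMap.ker Dr) := by
    rw [← Module.finrank_prod, ← LinearMap.finrank_range_of_inj hιinj]
    exact Submodule.finrank_mono hιker
  have hd2 : Module.finrank ℂ (LinearMap.range Dr) + Module.finrank ℂ (LinearMap.ker Dr)
      = Module.finrank ℂ (A × B) := LinearMap.finrank_range_add_finrank_ker Dr
  rw [Module.finrank_prod] at hd2
  have hd3 : Module.finrank ℂ ↥(W ⊓ Vaug) ≤ Module.finrank ℂ (LinearMap.range Dr) :=
    Submodule.finrank_mono hrange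
  omega

end Main

end

end Fermat.Agent.S20
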