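import Mathlib
import Fermat.Prelude.Def_ModularCurve_PeriodMap
import Fermat.Prelude.Def_ModularCurve_GenusNumerics

/-!
# Block (G) of the S20/S21 project: the Shapiro bound on parabolic homomorphisms

For a finite index subgroup `Γ ≤ SL(2, ℤ)`, with `X = SL(2, ℤ) ⧸ Γ` (left multiplication action)
and `c(g)` the number of orbits of `⟨g⟩` on `X`:

`finrank ℂ (parabolicHoms ℂ Γ ℂ) + c(S) + c(S * T) + c(T) ≤ |X| + 2`.

Everything is finite-dimensional linear algebra on `X → ℂ`.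
-/

set_option autoImplicit false

open scoped MatrixGroups
open Module Matrix

namespace Fermat.Agent.S20

section Abstract

variable {G X : Type*} [Group G] [MulAction G X]

/-- Pull-back of functions along `x ↦ g • x`. Note `h28_P (g * h) = h28_P h ∘ h28_P g`. -/
noncomputable def h28_P (g : G) : (X → ℂ) →ₗ[ℂ] (X → ℂ) :=
  LinearMap.funLeft ℂ ℂ (fun x => g • x)

lemma h28_P_apply (g : G) (v : X → ℂ) (x : X) : h28_P g v x = v (g • x) := rfl

lemma h28_P_mul (g h : G) (v : X → ℂ) : h28_P (g * h) v = h28_P h (h28_P g v) := by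
  funext x
  simp only [h28_P_apply, mul_smul]

lemma h28_P_one (v : X → ℂ) : h28_P (1 : G) v = v := by
  funext x
  simp only [h28_P_apply, one_smul]

/-- The subgroup of elements fixing a function. -/
def h28_fixer (w : X → ℂ) : Subgroup G where
  carrier := {g | ∀ x, w (g • x) = w x}
  mul_mem' := fun {a b} ha hb x => by rw [mul_smul, ha, hb]
  one_mem' := fun x => by rw [one_smul]
  inv_mem' := fun {a} ha x => by
    have := ha (a⁻¹ • x)
    rw [smul_inv_smul] at this
    exact this.symm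

lemma h28_P_inv_of_fixed {g : G} {w : X → ℂ} (hw : h28_P g w = w) : h28_P g⁻¹ w = w := by
  have hg : g ∈ h28_fixer (G := G) w := fun x => by
    have := congrFun hw x
    rwa [h28_P_apply] at this
  funext x
  exact (h28_fixer (G := G) w).inv_mem hg x

/-- A function invariant under two generators of a transitive group is constant. -/
lemma h28_const_of_fixed [MulAction.IsPretransitive G X] {s t : G}
    (hgen : Subgroup.closure {s, t} = ⊤) {w : X → ℂ} (hs : h28_P s w = w) (ht : h28_P t w = w)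
    (x y : X) : w x = w y := by
  have hle : Subgroup.closure {s, t} ≤ h28_fixer (G := G) w := by
    rw [Subgroup.closure_le]
    rintro g (rfl | rfl)
    · exact fun x => by
        have := congrFun hs x
        rwa [h28_P_apply] at this
    · exact fun x => by
        have := congrFun ht x
        rwa [h28_P_apply] at this
  obtain ⟨g, rfl⟩ := MulAction.exists_smul_eq G y x
  have hg : g ∈ h28_fixer (G := G) w := hle (by rw [hgen]; exact Subgroup.mem_top g)
  exact hg y

/-- The functions fixed by `g`. -/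
noncomputable def h28_F (g : G) : Submodule ℂ (X → ℂ) :=
  LinearMap.ker (h28_P (X := X) g - LinearMap.id)

lemma h28_mem_F {g : G} {w : X → ℂ} : w ∈ h28_F g ↔ h28_P g w = w := by
  simp [h28_F, LinearMap.mem_ker, sub_eq_zero]

lemma h28_finrank_F [Finite X] (g : G) :
    finrank ℂ (h28_F (X := X) g)
      = Nat.card (MulAction.orbitRel.Quotient (Subgroup.zpowers g) X) := by
  classical
  have := Fintype.ofFinite X
  let mk : X → MulAction.orbitRel.Quotient (Subgroup.zpowers g) X := Quotient.mk''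
  have hmk : Function.Surjective mk := Quotient.mk''_surjective
  let L : (MulAction.orbitRel.Quotient (Subgroup.zpowers g) X → ℂ) →ₗ[ℂ] (X → ℂ) :=
    LinearMap.funLeft ℂ ℂ mk
  have hinj : Function.Injective L := LinearMap.funLeft_injective_of_surjective ℂ ℂ mk hmk
  have hrange : LinearMap.range L = h28_F (X := X) g := by
    ext f
    rw [h28_mem_F, LinearMap.mem_range]
    constructor
    · rintro ⟨φ, rfl⟩
      funext x
      rw [h28_P_apply]
      show φ (mk (g • x)) = φ (mk x)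
      congr 1
      apply Quotient.sound
      show MulAction.orbitRel _ _ _ _
      rw [MulAction.orbitRel_apply]
      exact ⟨⟨g, Subgroup.mem_zpowers g⟩, by simp [Subgroup.smul_def]⟩
    · intro hf
      have hg : g ∈ h28_fixer (G := G) f := fun x => by
        have := congrFun hf x
        rwa [h28_P_apply] at this
      refine ⟨Quotient.lift f ?_, ?_⟩
      · intro a b hab
        have hab' : a ∈ MulAction.orbit (Subgroup.zpowers g) b := hab
        obtain ⟨⟨h, hh⟩, rfl⟩ := hab'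
        exact (Subgroup.zpowers_le.mpr hg) hh b
      · funext x
        rfl
  have : Fintype (MulAction.orbitRel.Quotient (Subgroup.zpowers g) X) := Fintype.ofFinite _
  rw [← hrange, LinearMap.finrank_range_of_inj hinj, Module.finrank_fintype_fun_eq_card,
    Nat.card_eq_fintype_card]

end Abstract

section Pairing

variable {G X : Type*} [Group G] [MulAction G X] [Fintype X]

lemma h28_dot_P (g : G) (v w : X → ℂ) : h28_P g v ⬝ᵥ w = v ⬝ᵥ h28_P g⁻¹ w := by
  simp only [dotProduct, h28_P_apply]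
  refine Fintype.sum_equiv (MulAction.toPerm g) _ _ (fun x => ?_)
  simp [MulAction.toPerm_apply]

lemma h28_dot_P_of_fixed {g : G} {w : X → ℂ} (hw : h28_P g w = w) (v : X → ℂ) :
    h28_P g v ⬝ᵥ w = v ⬝ᵥ w := by
  rw [h28_dot_P, h28_P_inv_of_fixed hw]

lemma h28_eq_zero_of_dot [DecidableEq X] {w : X → ℂ} (h : ∀ v : X → ℂ, v ⬝ᵥ w = 0) : w = 0 := by
  funext x
  have := h (Pi.single x 1)
  simpa using this

/-- The linear functional on pairs attached to a triple of fixed functions. -/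
noncomputable def h28_Q (s u t : G) :
    (h28_F (X := X) s × h28_F (X := X) u × h28_F (X := X) t) →ₗ[ℂ]
      Module.Dual ℂ ((X → ℂ) × (X → ℂ)) :=
  LinearMap.mk₂ ℂ
    (fun w p => p.1 ⬝ᵥ (w.1 : X → ℂ) + p.2 ⬝ᵥ (w.2.1 : X → ℂ)
      + (p.2 - h28_P t p.1) ⬝ᵥ (w.2.2 : X → ℂ))
    (fun w w' p => by
      simp only [Prod.fst_add, Prod.snd_add, Submodule.coe_add, dotProduct_add]
      ring)
    (fun c w p => by
      simp only [Prod.smul_fst, Prod.smul_snd, Submodule.coe_smul, dotProduct_smul, smul_eq_mul]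
      ring)
    (fun w p p' => by
      simp only [Prod.fst_add, Prod.snd_add, add_dotProduct, map_add, sub_dotProduct]
      ring)
    (fun c w p => by
      simp only [Prod.smul_fst, Prod.smul_snd, smul_dotProduct, map_smul, sub_dotProduct,
        smul_eq_mul]
      ring)

lemma h28_Q_apply (s u t : G) (w : h28_F (X := X) s × h28_F (X := X) u × h28_F (X := X) t)
    (p : (X → ℂ) × (X → ℂ)) :
    h28_Q s u t w p = p.1 ⬝ᵥ (w.1 : X → ℂ) + p.2 ⬝ᵥ (w.2.1 : X → ℂ)
      + (p.2 - h28_P t p.1) ⬝ᵥ (w.2.2 : X → ℂ) := rfl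

end Pairing

section Main

variable {G X : Type*} [Group G] [MulAction G X] [Fintype X] [DecidableEq X]

omit [Fintype X] [DecidableEq X] in
lemma h28_one_mem_F (g : G) : (fun _ => 1 : X → ℂ) ∈ h28_F (X := X) g :=
  h28_mem_F.mpr rfl

/-- The kernel of `h28_Q` is at most one-dimensional (it consists of constant triples). -/
lemma h28_finrank_ker_Q_le [MulAction.IsPretransitive G X] [Nonempty X] {s t : G}
    (hgen : Subgroup.closure {s, t} = ⊤) :
    finrank ℂ (LinearMap.ker (h28_Q (X := X) s (s * t) t)) ≤ 1 := by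
  obtain ⟨x₀⟩ := ‹Nonempty X›
  let w₀ : h28_F (X := X) s × h28_F (X := X) (s * t) × h28_F (X := X) t :=
    (⟨_, h28_one_mem_F s⟩, -⟨_, h28_one_mem_F (s * t)⟩, ⟨_, h28_one_mem_F t⟩)
  have hle : LinearMap.ker (h28_Q (X := X) s (s * t) t) ≤ Submodule.span ℂ {w₀} := by
    rintro ⟨w1, w2, w3⟩ hw
    have hw' : ∀ p : (X → ℂ) × (X → ℂ),
        p.1 ⬝ᵥ (w1 : X → ℂ) + p.2 ⬝ᵥ (w2 : X → ℂ) + (p.2 - h28_P t p.1) ⬝ᵥ (w3 : X → ℂ) = 0 := by
      intro p
      have := LinearMap.congr_fun (LinearMap.mem_ker.mp hw) p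
      simpa [h28_Q_apply] using this
    have hw3t : h28_P t (w3 : X → ℂ) = w3 := h28_mem_F.mp w3.2
    have hw1s : h28_P s (w1 : X → ℂ) = w1 := h28_mem_F.mp w1.2
    -- `w1 = w3`
    have h13 : (w1 : X → ℂ) = w3 := by
      have : (w1 : X → ℂ) - w3 = 0 := by
        apply h28_eq_zero_of_dot
        intro a
        have := hw' (a, 0)
        simp only [dotProduct_sub, zero_dotProduct, add_zero, zero_sub, neg_dotProduct] at this ⊢
        rw [h28_dot_P_of_fixed hw3t] at this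
        linear_combination this
      exact sub_eq_zero.mp this
    -- `w2 = -w3`
    have h23 : (w2 : X → ℂ) = -(w3 : X → ℂ) := by
      have : (w2 : X → ℂ) + w3 = 0 := by
        apply h28_eq_zero_of_dot
        intro b
        have := hw' (0, b)
        simp only [zero_dotProduct, zero_add, map_zero, sub_zero] at this
        rw [dotProduct_add]
        exact this
      exact eq_neg_of_add_eq_zero_left this
    have hw3s : h28_P s (w3 : X → ℂ) = w3 := by rw [← h13]; exact hw1s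
    have hconst : ∀ x, (w3 : X → ℂ) x = (w3 : X → ℂ) x₀ := fun x =>
      h28_const_of_fixed hgen hw3s hw3t x x₀
    rw [Submodule.mem_span_singleton]
    refine ⟨(w3 : X → ℂ) x₀, ?_⟩
    refine Prod.ext (Subtype.ext ?_) (Prod.ext (Subtype.ext ?_) (Subtype.ext ?_))
    · show ((w3 : X → ℂ) x₀) • (fun _ => 1 : X → ℂ) = w1
      rw [h13]
      funext x
      simp [hconst x]
    · show ((w3 : X → ℂ) x₀) • (-(fun _ => 1 : X → ℂ)) = w2
      rw [h23]
      funext x
      simp [hconst x]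
    · show ((w3 : X → ℂ) x₀) • (fun _ => 1 : X → ℂ) = w3
      funext x
      simp [hconst x]
  calc finrank ℂ (LinearMap.ker (h28_Q (X := X) s (s * t) t))
      ≤ finrank ℂ (Submodule.span ℂ {w₀}) := Submodule.finrank_mono hle
    _ ≤ 1 := (finrank_span_le_card ({w₀} : Set _)).trans (by simp)

/-- The coboundary map. -/
noncomputable def h28_d (s u : G) : (X → ℂ) →ₗ[ℂ] (X → ℂ) × (X → ℂ) :=
  (h28_P (X := X) s - LinearMap.id).prod (h28_P (X := X) u - LinearMap.id)

omit [Fintype X] [DecidableEq X] in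
lemma h28_d_apply (s u : G) (v : X → ℂ) :
    h28_d s u v = (h28_P s v - v, h28_P u v - v) := rfl

omit [Fintype X] [DecidableEq X] in
lemma h28_finrank_ker_d_le [MulAction.IsPretransitive G X] [Nonempty X] {s t : G}
    (hgen : Subgroup.closure {s, t} = ⊤) :
    finrank ℂ (LinearMap.ker (h28_d (X := X) s (s * t))) ≤ 1 := by
  obtain ⟨x₀⟩ := ‹Nonempty X›
  let ev : LinearMap.ker (h28_d (X := X) s (s * t)) →ₗ[ℂ] ℂ :=
    { toFun := fun v => (v : X → ℂ) x₀
      map_add' := fun _ _ => rfl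
      map_smul' := fun _ _ => rfl }
  have hev : Function.Injective ev := by
    refine (injective_iff_map_eq_zero ev).mpr ?_
    rintro ⟨v, hv⟩ h0
    have h0' : v x₀ = 0 := h0
    have hv' : (h28_P s v - v, h28_P (s * t) v - v) = 0 := LinearMap.mem_ker.mp hv
    have hs : h28_P s v = v := sub_eq_zero.mp (congrArg Prod.fst hv')
    have hu : h28_P (s * t) v = v := sub_eq_zero.mp (congrArg Prod.snd hv')
    have ht : h28_P t v = v := by
      have := h28_P_mul s t v
      rw [hs, hu] at this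
      exact this.symm
    apply Subtype.ext
    funext x
    show v x = 0
    rw [h28_const_of_fixed hgen hs ht x x₀, h0']
  have := LinearMap.finrank_le_finrank_of_injective hev
  simpa using this

variable {𝓗 : Type*} [AddCommGroup 𝓗] [Module ℂ 𝓗]

omit [DecidableEq X] in
/-- A cocycle value `c g` with `c (g ^ m) = 0` for some `m > 0` is orthogonal to the `g`-fixed
functions. -/
lemma h28_dot_eq_zero {c : G → X → ℂ}
    (hc : ∀ g h, c (g * h) = h28_P h (c g) + c h) {g : G} {w : X → ℂ} (hw : h28_P g w = w)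
    (hm : ∃ m : ℕ, 0 < m ∧ c (g ^ m) = 0) : c g ⬝ᵥ w = 0 := by
  have h1 : c 1 = 0 := by
    have := hc 1 1
    rw [mul_one, h28_P_one] at this
    exact left_eq_add.mp this
  have key : ∀ m : ℕ, c (g ^ m) ⬝ᵥ w = m * (c g ⬝ᵥ w) := by
    intro m
    induction m with
    | zero => simp [h1]
    | succ m ih =>
      rw [pow_succ, hc, add_dotProduct, h28_dot_P_of_fixed hw, ih]
      push_cast
      ring
  obtain ⟨m, hm0, hm⟩ := hm
  have := key m
  rw [hm, zero_dotProduct] at this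
  have hm' : (m : ℂ) ≠ 0 := by exact_mod_cast hm0.ne'
  exact (mul_eq_zero.mp this.symm).resolve_left hm'

/-- **Abstract Shapiro bound.**  A space of cocycles on a transitive finite `G`-set, with `G`
generated by `s, t`, whose values on `s`, `s * t`, `t` are "torsion", and which contains no
non-trivial coboundary, has dimension at most `|X| + 2 - c(s) - c(s * t) - c(t)`. -/
theorem h28_abstract_bound [MulAction.IsPretransitive G X] [Nonempty X] {s t : G}
    (hgen : Subgroup.closure {s, t} = ⊤)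
    (c : 𝓗 →ₗ[ℂ] (G → X → ℂ))
    (hc : ∀ φ g h, c φ (g * h) = h28_P h (c φ g) + c φ h)
    (hs : ∀ φ, ∃ m : ℕ, 0 < m ∧ c φ (s ^ m) = 0)
    (hu : ∀ φ, ∃ m : ℕ, 0 < m ∧ c φ ((s * t) ^ m) = 0)
    (ht : ∀ φ, ∃ m : ℕ, 0 < m ∧ c φ (t ^ m) = 0)
    (hinj : ∀ φ, (∃ v : X → ℂ, ∀ g, c φ g = h28_P g v - v) → φ = 0) :
    Module.Finite ℂ 𝓗 ∧
      finrank ℂ 𝓗 + Nat.card (MulAction.orbitRel.Quotient (Subgroup.zpowers s) X)
        + Nat.card (MulAction.orbitRel.Quotient (Subgroup.zpowers (s * t)) X)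
        + Nat.card (MulAction.orbitRel.Quotient (Subgroup.zpowers t) X) ≤ Fintype.card X + 2 := by
  classical
  -- the map to pairs
  let Ψ : 𝓗 →ₗ[ℂ] (X → ℂ) × (X → ℂ) :=
    ((LinearMap.proj s : (G → X → ℂ) →ₗ[ℂ] (X → ℂ)).prod
      (LinearMap.proj (s * t) : (G → X → ℂ) →ₗ[ℂ] (X → ℂ))) ∘ₗ c
  have hΨ : ∀ φ, Ψ φ = (c φ s, c φ (s * t)) := fun φ => rfl
  have hc1 : ∀ φ, c φ 1 = 0 := by
    intro φ
    have := hc φ 1 1
    rw [mul_one, h28_P_one] at this
    exact left_eq_add.mp this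
  -- a cocycle agreeing with a coboundary on `s` and `s * t` vanishes
  have key4 : ∀ φ v, Ψ φ = h28_d s (s * t) v → φ = 0 := by
    intro φ v h
    rw [hΨ, h28_d_apply] at h
    have hs' : c φ s = h28_P s v - v := congrArg Prod.fst h
    have hu' : c φ (s * t) = h28_P (s * t) v - v := congrArg Prod.snd h
    let H : Subgroup G :=
      { carrier := {g | c φ g = h28_P g v - v}
        mul_mem' := fun {a b} ha hb => by
          show c φ (a * b) = h28_P (a * b) v - v
          have ha' : c φ a = h28_P a v - v := ha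
          have hb' : c φ b = h28_P b v - v := hb
          rw [hc, ha', hb', h28_P_mul, map_sub]
          abel
        one_mem' := by
          show c φ 1 = h28_P 1 v - v
          rw [hc1, h28_P_one, sub_self]
        inv_mem' := fun {a} ha => by
          show c φ a⁻¹ = h28_P a⁻¹ v - v
          have ha' : c φ a = h28_P a v - v := ha
          have h0 := hc φ a a⁻¹
          rw [mul_inv_cancel, hc1, ha', map_sub, ← h28_P_mul, mul_inv_cancel, h28_P_one] at h0
          have : c φ a⁻¹ = -(v - h28_P a⁻¹ v) := eq_neg_of_add_eq_zero_right h0.symm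
          rw [this]
          abel }
    have hsH : s ∈ H := hs'
    have huH : s * t ∈ H := hu'
    have htH : t ∈ H := by
      have := H.mul_mem (H.inv_mem hsH) huH
      rwa [inv_mul_cancel_left] at this
    have hH : H = ⊤ := by
      rw [eq_top_iff, ← hgen, Subgroup.closure_le]
      rintro g (rfl | rfl)
      · exact hsH
      · exact htH
    apply hinj φ
    refine ⟨v, fun g => ?_⟩
    have : g ∈ H := by rw [hH]; exact Subgroup.mem_top g
    exact this
  have hΨinj : Function.Injective Ψ := by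
    refine (injective_iff_map_eq_zero Ψ).mpr (fun φ hφ => ?_)
    apply key4 φ 0
    rw [hφ, map_zero]
  have hfin : Module.Finite ℂ 𝓗 := Module.Finite.of_injective Ψ hΨinj
  refine ⟨hfin, ?_⟩
  -- the annihilated subspace
  set Q := h28_Q (X := X) s (s * t) t with hQ
  set Y : Submodule ℂ ((X → ℂ) × (X → ℂ)) := (LinearMap.range Q).dualCoannihilator with hY
  have hΨY : LinearMap.range Ψ ≤ Y := by
    rintro _ ⟨φ, rfl⟩
    rw [hY, Submodule.mem_dualCoannihilator]
    rintro _ ⟨⟨w1, w2, w3⟩, rfl⟩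
    rw [hQ, h28_Q_apply, hΨ]
    have e1 : c φ s ⬝ᵥ (w1 : X → ℂ) = 0 :=
      h28_dot_eq_zero (hc φ) (h28_mem_F.mp w1.2) (hs φ)
    have e2 : c φ (s * t) ⬝ᵥ (w2 : X → ℂ) = 0 :=
      h28_dot_eq_zero (hc φ) (h28_mem_F.mp w2.2) (hu φ)
    have e3 : c φ t ⬝ᵥ (w3 : X → ℂ) = 0 :=
      h28_dot_eq_zero (hc φ) (h28_mem_F.mp w3.2) (ht φ)
    have e4 : c φ (s * t) - h28_P t (c φ s) = c φ t := by
      rw [hc φ s t]
      abel
    show c φ s ⬝ᵥ (w1 : X → ℂ) + c φ (s * t) ⬝ᵥ (w2 : X → ℂ)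
      + (c φ (s * t) - h28_P t (c φ s)) ⬝ᵥ (w3 : X → ℂ) = 0
    rw [e4, e1, e2, e3]
    ring
  have hdY : LinearMap.range (h28_d (X := X) s (s * t)) ≤ Y := by
    rintro _ ⟨v, rfl⟩
    rw [hY, Submodule.mem_dualCoannihilator]
    rintro _ ⟨⟨w1, w2, w3⟩, rfl⟩
    rw [hQ, h28_Q_apply, h28_d_apply]
    have e1 : (h28_P s v - v) ⬝ᵥ (w1 : X → ℂ) = 0 := by
      rw [sub_dotProduct, h28_dot_P_of_fixed (h28_mem_F.mp w1.2), sub_self]
    have e2 : (h28_P (s * t) v - v) ⬝ᵥ (w2 : X → ℂ) = 0 := by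
      rw [sub_dotProduct, h28_dot_P_of_fixed (h28_mem_F.mp w2.2), sub_self]
    have e3 : (h28_P (s * t) v - v - h28_P t (h28_P s v - v)) ⬝ᵥ (w3 : X → ℂ) = 0 := by
      have : h28_P (s * t) v - v - h28_P t (h28_P s v - v) = h28_P t v - v := by
        rw [map_sub, ← h28_P_mul]
        abel
      rw [this, sub_dotProduct, h28_dot_P_of_fixed (h28_mem_F.mp w3.2), sub_self]
    show (h28_P s v - v) ⬝ᵥ (w1 : X → ℂ) + (h28_P (s * t) v - v) ⬝ᵥ (w2 : X → ℂ)
      + (h28_P (s * t) v - v - h28_P t (h28_P s v - v)) ⬝ᵥ (w3 : X → ℂ) = 0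
    rw [e1, e2, e3]
    ring
  have hdisj : LinearMap.range Ψ ⊓ LinearMap.range (h28_d (X := X) s (s * t)) = ⊥ := by
    rw [eq_bot_iff]
    rintro x ⟨⟨φ, rfl⟩, ⟨v, hv⟩⟩
    have := key4 φ v hv.symm
    rw [this, map_zero]
    exact Submodule.zero_mem _
  -- dimension count
  have d1 : finrank ℂ (LinearMap.range Ψ) = finrank ℂ 𝓗 := LinearMap.finrank_range_of_inj hΨinj
  have d2 := Submodule.finrank_sup_add_finrank_inf_eq (LinearMap.range Ψ)
    (LinearMap.range (h28_d (X := X) s (s * t)))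
  rw [hdisj, finrank_bot, add_zero] at d2
  have d3 : finrank ℂ ↥(LinearMap.range Ψ ⊔ LinearMap.range (h28_d (X := X) s (s * t)))
      ≤ finrank ℂ Y := Submodule.finrank_mono (sup_le hΨY hdY)
  have d4 := Subspace.finrank_add_finrank_dualCoannihilator_eq (LinearMap.range Q)
  rw [← hY, Module.finrank_prod, Module.finrank_fintype_fun_eq_card] at d4
  have d5 := LinearMap.finrank_range_add_finrank_ker Q
  rw [Module.finrank_prod, Module.finrank_prod, h28_finrank_F, h28_finrank_F, h28_finrank_F] at d5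
  have d6 := h28_finrank_ker_Q_le (X := X) hgen
  rw [← hQ] at d6
  have d7 := LinearMap.finrank_range_add_finrank_ker (h28_d (X := X) s (s * t))
  rw [Module.finrank_fintype_fun_eq_card] at d7
  have d8 := h28_finrank_ker_d_le (X := X) hgen
  omega

end Main

section SL2

open ModularCurve.Period

variable (Γ : Subgroup SL(2, ℤ))

lemma h28_k_mem (g : SL(2, ℤ)) (x : SL(2, ℤ) ⧸ Γ) :
    (Quotient.out (g • x))⁻¹ * g * Quotient.out x ∈ Γ := by
  rw [mul_assoc, ← QuotientGroup.eq, QuotientGroup.out_eq']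
  have := MulAction.Quotient.mk_smul_out Γ g x
  rw [smul_eq_mul] at this
  exact this.symm

/-- The element `(out (g • x))⁻¹ * g * out x` of `Γ`. -/
noncomputable def h28_k (g : SL(2, ℤ)) (x : SL(2, ℤ) ⧸ Γ) : Γ :=
  ⟨(Quotient.out (g • x))⁻¹ * g * Quotient.out x, h28_k_mem Γ g x⟩

lemma h28_k_coe (g : SL(2, ℤ)) (x : SL(2, ℤ) ⧸ Γ) :
    ((h28_k Γ g x : Γ) : SL(2, ℤ)) = (Quotient.out (g • x))⁻¹ * g * Quotient.out x := rfl

lemma h28_k_of_fixed {g : SL(2, ℤ)} {x : SL(2, ℤ) ⧸ Γ} (hx : g • x = x) :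
    ((h28_k Γ g x : Γ) : SL(2, ℤ)) = (Quotient.out x)⁻¹ * g * Quotient.out x := by
  rw [h28_k_coe, hx]

lemma h28_k_mul (g h : SL(2, ℤ)) (x : SL(2, ℤ) ⧸ Γ) :
    h28_k Γ (g * h) x = h28_k Γ g (h • x) * h28_k Γ h x := by
  apply Subtype.ext
  rw [Subgroup.coe_mul, h28_k_coe, h28_k_coe, h28_k_coe, mul_smul]
  group

/-- The Shapiro cocycle of a parabolic homomorphism. -/
noncomputable def h28_coc :
    parabolicHoms ℂ Γ ℂ →ₗ[ℂ] (SL(2, ℤ) → (SL(2, ℤ) ⧸ Γ) → ℂ) where
  toFun φ g x := (φ : Additive Γ →+ ℂ) (Additive.ofMul (h28_k Γ g x))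
  map_add' _ _ := rfl
  map_smul' _ _ := rfl

lemma h28_coc_apply (φ : parabolicHoms ℂ Γ ℂ) (g : SL(2, ℤ)) (x : SL(2, ℤ) ⧸ Γ) :
    h28_coc Γ φ g x = (φ : Additive Γ →+ ℂ) (Additive.ofMul (h28_k Γ g x)) := rfl

lemma h28_coc_mul (φ : parabolicHoms ℂ Γ ℂ) (g h : SL(2, ℤ)) :
    h28_coc Γ φ (g * h) = h28_P h (h28_coc Γ φ g) + h28_coc Γ φ h := by
  funext x
  rw [Pi.add_apply, h28_P_apply, h28_coc_apply, h28_coc_apply, h28_coc_apply, h28_k_mul,
    ofMul_mul, map_add]

lemma h28_coc_one (φ : parabolicHoms ℂ Γ ℂ) : h28_coc Γ φ 1 = 0 := by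
  have := h28_coc_mul Γ φ 1 1
  rw [mul_one, h28_P_one] at this
  exact left_eq_add.mp this

lemma h28_trace_conj (a b : SL(2, ℤ)) :
    ((a⁻¹ * b * a : SL(2, ℤ)) : Matrix (Fin 2) (Fin 2) ℤ).trace
      = (b : Matrix (Fin 2) (Fin 2) ℤ).trace := by
  have h : ((a⁻¹ * b * a : SL(2, ℤ)) : Matrix (Fin 2) (Fin 2) ℤ)
      = ((a⁻¹ * b : SL(2, ℤ)) : Matrix (Fin 2) (Fin 2) ℤ) * (a : Matrix (Fin 2) (Fin 2) ℤ) :=
    Matrix.SpecialLinearGroup.coe_mul _ _
  rw [h, Matrix.trace_mul_comm, ← Matrix.SpecialLinearGroup.coe_mul]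
  have h2 : a * (a⁻¹ * b) = b := by group
  rw [h2]

lemma h28_trace_T_pow (m : ℕ) :
    ((ModularGroup.T ^ m : SL(2, ℤ)) : Matrix (Fin 2) (Fin 2) ℤ).trace = 2 := by
  have := ModularGroup.coe_T_zpow (m : ℤ)
  rw [zpow_natCast] at this
  rw [this, Matrix.trace_fin_two_of]
  norm_num

/-- **Block (G).** For a finite index subgroup `Γ` of `SL(2, ℤ)`, the space of parabolic
homomorphisms `Γ → ℂ` is finite-dimensional, of dimension at most
`|X| + 2 - c(S) - c(S * T) - c(T)`, `X = SL(2, ℤ) ⧸ Γ`. -/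
theorem h28_parabolicHoms_bound [Γ.FiniteIndex] :
    Module.Finite ℂ (parabolicHoms ℂ Γ ℂ) ∧
      finrank ℂ (parabolicHoms ℂ Γ ℂ)
        + Nat.card (MulAction.orbitRel.Quotient (Subgroup.zpowers ModularGroup.S)
            (SL(2, ℤ) ⧸ Γ))
        + Nat.card (MulAction.orbitRel.Quotient
            (Subgroup.zpowers (ModularGroup.S * ModularGroup.T)) (SL(2, ℤ) ⧸ Γ))
        + Nat.card (MulAction.orbitRel.Quotient (Subgroup.zpowers ModularGroup.T)
            (SL(2, ℤ) ⧸ Γ))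
        ≤ Nat.card (SL(2, ℤ) ⧸ Γ) + 2 := by
  classical
  have : Finite (SL(2, ℤ) ⧸ Γ) := Subgroup.finite_quotient_of_finiteIndex
  have := Fintype.ofFinite (SL(2, ℤ) ⧸ Γ)
  rw [Nat.card_eq_fintype_card (α := SL(2, ℤ) ⧸ Γ)]
  refine h28_abstract_bound (G := SL(2, ℤ)) (X := SL(2, ℤ) ⧸ Γ) (s := ModularGroup.S)
    (t := ModularGroup.T) SpecialLinearGroup.SL2Z_generators (h28_coc Γ)
    (fun φ g h => h28_coc_mul Γ φ g h) ?_ ?_ ?_ ?_
  · -- `S ^ 4 = 1`
    intro φ
    refine ⟨4, by norm_num, ?_⟩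
    have : ModularGroup.S ^ 4 = 1 := by decide
    rw [this, h28_coc_one]
  · -- `(S * T) ^ 6 = 1`
    intro φ
    refine ⟨6, by norm_num, ?_⟩
    have : (ModularGroup.S * ModularGroup.T) ^ 6 = 1 := by decide
    rw [this, h28_coc_one]
  · -- a power of `T` acting trivially on the cosets is parabolic
    intro φ
    set σ : Equiv.Perm (SL(2, ℤ) ⧸ Γ) := MulAction.toPermHom SL(2, ℤ) (SL(2, ℤ) ⧸ Γ)
      ModularGroup.T with hσ
    refine ⟨orderOf σ, orderOf_pos σ, ?_⟩
    have hfix : ∀ x : SL(2, ℤ) ⧸ Γ, ModularGroup.T ^ orderOf σ • x = x := by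
      intro x
      have h1 : σ ^ orderOf σ = 1 := pow_orderOf_eq_one σ
      have h2 : MulAction.toPermHom SL(2, ℤ) (SL(2, ℤ) ⧸ Γ) (ModularGroup.T ^ orderOf σ) = 1 := by
        rw [map_pow, ← hσ, h1]
      have h3 := congrArg (fun τ : Equiv.Perm (SL(2, ℤ) ⧸ Γ) => τ x) h2
      simpa using h3
    funext x
    rw [h28_coc_apply]
    apply φ.2
    rw [h28_k_of_fixed Γ (hfix x), h28_trace_conj, h28_trace_T_pow]
    norm_num
  · -- no coboundaries
    rintro φ ⟨v, hv⟩
    apply Subtype.ext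
    apply AddMonoidHom.ext
    intro γa
    obtain ⟨γ, rfl⟩ := Additive.ofMul.surjective γa
    set x₀ : SL(2, ℤ) ⧸ Γ := ((1 : SL(2, ℤ)) : SL(2, ℤ) ⧸ Γ) with hx₀
    have hγx : (γ : SL(2, ℤ)) • x₀ = x₀ := by
      rw [hx₀, MulAction.Quotient.smul_coe, smul_eq_mul, mul_one, QuotientGroup.eq, mul_one]
      exact Γ.inv_mem γ.2
    have ha : Quotient.out x₀ ∈ Γ := by
      have h1 : ((Quotient.out x₀ : SL(2, ℤ)) : SL(2, ℤ) ⧸ Γ) = ((1 : SL(2, ℤ)) : SL(2, ℤ) ⧸ Γ) :=
        QuotientGroup.out_eq' x₀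
      rw [QuotientGroup.eq, mul_one] at h1
      simpa using Γ.inv_mem h1
    have hk : h28_k Γ (γ : SL(2, ℤ)) x₀ = (⟨_, ha⟩ : Γ)⁻¹ * γ * ⟨_, ha⟩ := by
      apply Subtype.ext
      rw [h28_k_of_fixed Γ hγx]
      rfl
    have h0 := congrFun (hv (γ : SL(2, ℤ))) x₀
    rw [h28_coc_apply, Pi.sub_apply, h28_P_apply, hγx, sub_self, hk, ofMul_mul, ofMul_mul,
      ofMul_inv, map_add, map_add, map_neg] at h0
    show (φ : Additive Γ →+ ℂ) (Additive.ofMul γ) = 0
    linear_combination h0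

/-- Finite-dimensionality of the space of parabolic homomorphisms. -/
theorem h28_parabolicHoms_finite [Γ.FiniteIndex] : Module.Finite ℂ (parabolicHoms ℂ Γ ℂ) :=
  (h28_parabolicHoms_bound Γ).1

/-- The dimension bound of block (G). -/
theorem h28_finrank_parabolicHoms_add_le [Γ.FiniteIndex] :
    finrank ℂ (parabolicHoms ℂ Γ ℂ)
        + Nat.card (MulAction.orbitRel.Quotient (Subgroup.zpowers ModularGroup.S)
            (SL(2, ℤ) ⧸ Γ))
        + Nat.card (MulAction.orbitRel.Quotient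
            (Subgroup.zpowers (ModularGroup.S * ModularGroup.T)) (SL(2, ℤ) ⧸ Γ))
        + Nat.card (MulAction.orbitRel.Quotient (Subgroup.zpowers ModularGroup.T)
            (SL(2, ℤ) ⧸ Γ))
        ≤ Nat.card (SL(2, ℤ) ⧸ Γ) + 2 :=
  (h28_parabolicHoms_bound Γ).2

/-- Block (G) for `Γ₀(N)`: given the four orbit counts on `SL(2, ℤ) ⧸ Γ₀(N)`, the space of
parabolic homomorphisms has dimension at most twice the genus formula. -/
theorem h28_finrank_parabolicHoms_le_genus (N : ℕ) [NeZero N]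
    (hn : Nat.card (SL(2, ℤ) ⧸ CongruenceSubgroup.Gamma0 N) = ModularCurve.dedekindPsi N)
    (h2 : 2 * Nat.card (MulAction.orbitRel.Quotient (Subgroup.zpowers ModularGroup.S)
        (SL(2, ℤ) ⧸ CongruenceSubgroup.Gamma0 N))
      = Nat.card (SL(2, ℤ) ⧸ CongruenceSubgroup.Gamma0 N) + ModularCurve.nuTwo N)
    (h3 : 3 * Nat.card (MulAction.orbitRel.Quotient
        (Subgroup.zpowers (ModularGroup.S * ModularGroup.T))
        (SL(2, ℤ) ⧸ CongruenceSubgroup.Gamma0 N))
      = Nat.card (SL(2, ℤ) ⧸ CongruenceSubgroup.Gamma0 N) + 2 * ModularCurve.nuThree N)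
    (hT : Nat.card (MulAction.orbitRel.Quotient (Subgroup.zpowers ModularGroup.T)
        (SL(2, ℤ) ⧸ CongruenceSubgroup.Gamma0 N)) = ModularCurve.cuspCount N) :
    (finrank ℂ (parabolicHoms ℂ (CongruenceSubgroup.Gamma0 N) ℂ) : ℚ)
      ≤ 2 * ModularCurve.genusFormula N := by
  have hb := h28_finrank_parabolicHoms_add_le (CongruenceSubgroup.Gamma0 N)
  have hb' := (Nat.cast_le (α := ℚ)).mpr hb
  have h2' := congrArg (Nat.cast : ℕ → ℚ) h2
  have h3' := congrArg (Nat.cast : ℕ → ℚ) h3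
  have hT' := congrArg (Nat.cast : ℕ → ℚ) hT
  have hn' := congrArg (Nat.cast : ℕ → ℚ) hn
  push_cast at hb' h2' h3' hT' hn'
  unfold ModularCurve.genusFormula
  linarith

end SL2

end Fermat.Agent.S20
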