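import Mathlib
import Fermat.Agent.S24.h39_JFun
import Fermat.Agent.S20.Defs

set_option autoImplicit false

/-!
# Level one forms: simple zeros of `E₄`, `E₆`, `Δ(τ₀) E₄³ - E₄(τ₀)³ Δ` and the ideals of level one
forms vanishing at a point

Everything is proved algebraically from `M_k = ℂ E₄^α E₆^ε ⊕ Δ M_{k-12}` (no injectivity of `j`,
no removable singularities).
-/

namespace Fermat.Agent.S20

open UpperHalfPlane ModularForm Complex Derivative EisensteinSeries Filter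
open scoped MatrixGroups ModularForm Manifold Topology
open Fermat.Agent.S24

/-- `F` is the underlying function of a level one modular form of weight `w`. -/
def h39_IsL1 (w : ℤ) (F : ℍ → ℂ) : Prop := ∃ a : ModularForm 𝒮ℒ w, ⇑a = F

theorem h39_IsL1_coe {w : ℤ} (a : ModularForm 𝒮ℒ w) : h39_IsL1 w (a : ℍ → ℂ) := ⟨a, rfl⟩

theorem h39_IsL1.congr {w w' : ℤ} {F : ℍ → ℂ} (h : h39_IsL1 w F) (hw : w = w') :
    h39_IsL1 w' F := hw ▸ h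

theorem h39_IsL1_zero (w : ℤ) : h39_IsL1 w (0 : ℍ → ℂ) := ⟨0, rfl⟩

theorem h39_IsL1.add {w : ℤ} {F G : ℍ → ℂ} (hF : h39_IsL1 w F) (hG : h39_IsL1 w G) :
    h39_IsL1 w (F + G) := by
  obtain ⟨a, rfl⟩ := hF
  obtain ⟨b, rfl⟩ := hG
  exact ⟨a + b, rfl⟩

theorem h39_IsL1.sub {w : ℤ} {F G : ℍ → ℂ} (hF : h39_IsL1 w F) (hG : h39_IsL1 w G) :
    h39_IsL1 w (F - G) := by
  obtain ⟨a, rfl⟩ := hF
  obtain ⟨b, rfl⟩ := hG
  exact ⟨a - b, rfl⟩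

theorem h39_IsL1.smul {w : ℤ} {F : ℍ → ℂ} (hF : h39_IsL1 w F) (c : ℂ) :
    h39_IsL1 w (c • F) := by
  obtain ⟨a, rfl⟩ := hF
  exact ⟨c • a, rfl⟩

theorem h39_IsL1.mul {w w' : ℤ} {F G : ℍ → ℂ} (hF : h39_IsL1 w F) (hG : h39_IsL1 w' G) :
    h39_IsL1 (w + w') (F * G) := by
  obtain ⟨a, rfl⟩ := hF
  obtain ⟨b, rfl⟩ := hG
  exact ⟨a.mul b, rfl⟩

theorem h39_IsL1_one : h39_IsL1 0 (1 : ℍ → ℂ) := ⟨1, rfl⟩

theorem h39_IsL1.pow {w : ℤ} {F : ℍ → ℂ} (hF : h39_IsL1 w F) (n : ℕ) :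
    h39_IsL1 (n * w) (F ^ n) := by
  obtain ⟨a, rfl⟩ := hF
  exact ⟨a.pow n, ModularForm.coe_pow a n⟩

theorem h39_IsL1_E4 : h39_IsL1 4 (E₄ : ℍ → ℂ) := ⟨E₄, rfl⟩

theorem h39_IsL1_E6 : h39_IsL1 6 (E₆ : ℍ → ℂ) := ⟨E₆, rfl⟩

theorem h39_IsL1_disc : h39_IsL1 12 (discriminant : ℍ → ℂ) :=
  ⟨h39_mkMod 12 discriminant
    (fun γ => SlashInvariantFormClass.slash_action_eq CuspForm.discriminant (γ : GL (Fin 2) ℝ)
      ⟨γ, rfl⟩) h39_disc_mdiff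
    (CuspFormClass.zero_at_infty CuspForm.discriminant).boundedAtFilter, rfl⟩

/-- The standard monomial `E₄^α E₆^ε` of weight `4 α + 6 ε`. -/
theorem h39_IsL1_mono (α ε : ℕ) {w : ℤ} (hw : w = 4 * α + 6 * ε) :
    h39_IsL1 w ((E₄ : ℍ → ℂ) ^ α * (E₆ : ℍ → ℂ) ^ ε) :=
  ((h39_IsL1_E4.pow α).mul (h39_IsL1_E6.pow ε)).congr (by rw [hw]; ring)

theorem h39_IsL1_eq_zero_of_neg {w : ℤ} (hw : w < 0) {F : ℍ → ℂ} (hF : h39_IsL1 w F) : F = 0 := by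
  obtain ⟨a, rfl⟩ := hF
  exact ModularFormClass.levelOne_neg_weight_eq_zero hw a

theorem h39_IsL1_eq_zero_of_odd {w : ℤ} (hw : Odd w) {F : ℍ → ℂ} (hF : h39_IsL1 w F) : F = 0 := by
  obtain ⟨a, rfl⟩ := hF
  rw [ModularForm.levelOne_odd_weight_eq_zero hw a]
  rfl

theorem h39_IsL1_eq_zero_of_two {F : ℍ → ℂ} (hF : h39_IsL1 2 F) : F = 0 := by
  obtain ⟨a, rfl⟩ := hF
  have h := rank_zero_iff_forall_zero.mp ModularForm.levelOne_weight_two_rank_zero a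
  rw [h]
  rfl

theorem h39_IsL1_const {F : ℍ → ℂ} (hF : h39_IsL1 0 F) : ∃ c : ℂ, F = fun _ => c := by
  obtain ⟨a, rfl⟩ := hF
  obtain ⟨c, hc⟩ := ModularFormClass.levelOne_weight_zero_const a
  exact ⟨c, hc⟩

theorem h39_IsL1_tendsto {w : ℤ} {F : ℍ → ℂ} (hF : h39_IsL1 w F) :
    ∃ c : ℂ, Tendsto F atImInfty (𝓝 c) := by
  obtain ⟨a, rfl⟩ := hF
  exact ⟨_, h39_tendsto_modularForm a⟩

/-- A level one form tending to `0` at `i∞` is `Δ` times a level one form. -/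
theorem h39_IsL1_div_disc {w : ℤ} {F : ℍ → ℂ} (hF : h39_IsL1 w F)
    (h0 : Tendsto F atImInfty (𝓝 0)) :
    ∃ G : ℍ → ℂ, h39_IsL1 (w - 12) G ∧ F = (discriminant : ℍ → ℂ) * G := by
  obtain ⟨a, rfl⟩ := hF
  have hc : (qExpansion 1 a).coeff 0 = 0 :=
    tendsto_nhds_unique (h39_tendsto_modularForm a) h0
  refine ⟨CuspForm.discriminantEquiv (toCuspForm a hc), ⟨_, rfl⟩, ?_⟩
  funext τ
  have h1 : (CuspForm.discriminantEquiv (toCuspForm a hc)) τ = a τ / discriminant τ := rfl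
  rw [Pi.mul_apply, h1, mul_div_cancel₀ _ (discriminant_ne_zero τ)]

theorem h39_tendsto_mono (α ε : ℕ) :
    Tendsto ((E₄ : ℍ → ℂ) ^ α * (E₆ : ℍ → ℂ) ^ ε) atImInfty (𝓝 1) := by
  have h := (h39_tendsto_E4.pow α).mul (h39_tendsto_E6.pow ε)
  simp only [one_pow, mul_one] at h
  exact h

/-- `M_w = ℂ E₄^α E₆^ε ⊕ Δ M_{w-12}` whenever `w = 4 α + 6 ε`. -/
theorem h39_decompDelta {w : ℤ} {F : ℍ → ℂ} (hF : h39_IsL1 w F) (α ε : ℕ)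
    (hw : w = 4 * α + 6 * ε) :
    ∃ (c : ℂ) (G : ℍ → ℂ), h39_IsL1 (w - 12) G ∧
      F = c • ((E₄ : ℍ → ℂ) ^ α * (E₆ : ℍ → ℂ) ^ ε) + (discriminant : ℍ → ℂ) * G := by
  obtain ⟨c, hc⟩ := h39_IsL1_tendsto hF
  have hm := h39_IsL1_mono α ε hw
  have h0 : Tendsto (F - c • ((E₄ : ℍ → ℂ) ^ α * (E₆ : ℍ → ℂ) ^ ε)) atImInfty (𝓝 0) := by
    have h := hc.sub ((h39_tendsto_mono α ε).const_smul c)
    simp only [smul_eq_mul, mul_one, sub_self] at h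
    exact h
  obtain ⟨G, hG, hFG⟩ := h39_IsL1_div_disc (hF.sub (hm.smul c)) h0
  refine ⟨c, G, hG, ?_⟩
  rw [← hFG]
  abel

/-- Every even weight `≥ 4` is `4 α` with `α ≥ 1` or `4 α + 6`. -/
theorem h39_weight_cases {w : ℤ} (hw : 4 ≤ w) (he : Even w) :
    ∃ α : ℕ, (w = 4 * (α + 1 : ℕ) + 6 * (0 : ℕ)) ∨ (w = 4 * (α : ℕ) + 6 * (1 : ℕ)) := by
  obtain ⟨m, hm⟩ := he
  by_cases h2 : Even m
  · obtain ⟨r, hr⟩ := h2
    refine ⟨(r - 1).toNat, Or.inl ?_⟩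
    have : ((r - 1).toNat : ℤ) = r - 1 := Int.toNat_of_nonneg (by omega)
    push_cast
    omega
  · rw [Int.not_even_iff_odd] at h2
    obtain ⟨r, hr⟩ := h2
    refine ⟨(r - 1).toNat, Or.inr ?_⟩
    have : ((r - 1).toNat : ℤ) = r - 1 := Int.toNat_of_nonneg (by omega)
    push_cast
    omega

theorem h39_disc_fun_eq :
    (discriminant : ℍ → ℂ) = (1 / 1728 : ℂ) • ((E₄ : ℍ → ℂ) ^ 3 - (E₆ : ℍ → ℂ) ^ 2) := by
  funext τ
  simp only [Pi.smul_apply, Pi.sub_apply, Pi.pow_apply, smul_eq_mul]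
  rw [discriminant_eq_E₄_cube_sub_E₆_sq τ]
  ring

/-- Every level one form of nonzero weight is `E₄ b + E₆ c` with level one `b`, `c`
(function version). -/
theorem h39_IsL1_decomp {w : ℤ} (hw : w ≠ 0) {F : ℍ → ℂ} (hF : h39_IsL1 w F) :
    ∃ B C : ℍ → ℂ, h39_IsL1 (w - 4) B ∧ h39_IsL1 (w - 6) C ∧
      F = (E₄ : ℍ → ℂ) * B + (E₆ : ℍ → ℂ) * C := by
  have hz : F = 0 → ∃ B C : ℍ → ℂ, h39_IsL1 (w - 4) B ∧ h39_IsL1 (w - 6) C ∧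
      F = (E₄ : ℍ → ℂ) * B + (E₆ : ℍ → ℂ) * C := fun h =>
    ⟨0, 0, h39_IsL1_zero _, h39_IsL1_zero _, by simp [h]⟩
  by_cases hneg : w < 0
  · exact hz (h39_IsL1_eq_zero_of_neg hneg hF)
  by_cases hodd : Odd w
  · exact hz (h39_IsL1_eq_zero_of_odd hodd hF)
  rw [Int.not_odd_iff_even] at hodd
  by_cases h2 : w = 2
  · subst h2
    exact hz (h39_IsL1_eq_zero_of_two hF)
  have h4 : 4 ≤ w := by
    obtain ⟨m, hm⟩ := hodd
    omega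
  obtain ⟨α, hα | hα⟩ := h39_weight_cases h4 hodd
  · obtain ⟨c, G, hG, hFG⟩ := h39_decompDelta hF (α + 1) 0 hα
    refine ⟨c • ((E₄ : ℍ → ℂ) ^ α * (E₆ : ℍ → ℂ) ^ 0) + (1 / 1728 : ℂ) • ((E₄ : ℍ → ℂ) ^ 2 * G),
      (-(1 / 1728) : ℂ) • ((E₆ : ℍ → ℂ) * G), ?_, ?_, ?_⟩
    · refine ((h39_IsL1_mono α 0 ?_).smul c).add ((((h39_IsL1_E4.pow 2).mul hG).congr ?_).smul _)
      · rw [hα]; push_cast; ring
      · push_cast; ring
    · exact ((h39_IsL1_E6.mul hG).congr (by ring)).smul _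
    · rw [hFG, h39_disc_fun_eq]
      funext τ
      simp only [Pi.add_apply, Pi.mul_apply, Pi.smul_apply, Pi.sub_apply, Pi.pow_apply,
        smul_eq_mul]
      ring
  · obtain ⟨c, G, hG, hFG⟩ := h39_decompDelta hF α 1 hα
    refine ⟨(1 / 1728 : ℂ) • ((E₄ : ℍ → ℂ) ^ 2 * G),
      c • ((E₄ : ℍ → ℂ) ^ α * (E₆ : ℍ → ℂ) ^ 0) + (-(1 / 1728) : ℂ) • ((E₆ : ℍ → ℂ) * G),
      ?_, ?_, ?_⟩
    · exact (((h39_IsL1_E4.pow 2).mul hG).congr (by push_cast; ring)).smul _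
    · refine ((h39_IsL1_mono α 0 ?_).smul c).add (((h39_IsL1_E6.mul hG).congr (by ring)).smul _)
      rw [hα]; push_cast; ring
    · rw [hFG, h39_disc_fun_eq]
      funext τ
      simp only [Pi.add_apply, Pi.mul_apply, Pi.smul_apply, Pi.sub_apply, Pi.pow_apply,
        smul_eq_mul]
      ring

/-- Every level one form of nonzero weight is `E₄ b + E₆ c` with level one `b`, `c`. -/
theorem h39_decomp {w : ℤ} (hw : w ≠ 0) (a : ModularForm 𝒮ℒ w) :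
    ∃ (b : ModularForm 𝒮ℒ (w - 4)) (c : ModularForm 𝒮ℒ (w - 6)),
      ∀ τ, a τ = E₄ τ * b τ + E₆ τ * c τ := by
  obtain ⟨B, C, ⟨b, rfl⟩, ⟨c, rfl⟩, h⟩ := h39_IsL1_decomp hw (h39_IsL1_coe a)
  exact ⟨b, c, fun τ => congrFun h τ⟩

theorem h39_E4_ne_zero_of_E6 {τ : ℍ} (h : E₆ τ = 0) : E₄ τ ≠ 0 := by
  intro h4
  have h5 := discriminant_eq_E₄_cube_sub_E₆_sq τ
  rw [h, h4] at h5
  exact discriminant_ne_zero τ (by rw [h5]; ring)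

theorem h39_E6_ne_zero_of_E4 {τ : ℍ} (h : E₄ τ = 0) : E₆ τ ≠ 0 := fun h6 =>
  h39_E4_ne_zero_of_E6 h6 h

theorem h39_IsL1_eq_zero_of_nonpos {w : ℤ} (hw : w ≤ 0) {F : ℍ → ℂ} (hF : h39_IsL1 w F)
    (τ₀ : ℍ) (h0 : F τ₀ = 0) : F = 0 := by
  rcases lt_or_eq_of_le hw with h | h
  · exact h39_IsL1_eq_zero_of_neg h hF
  · subst h
    obtain ⟨c, rfl⟩ := h39_IsL1_const hF
    funext τ
    simpa using h0

theorem h39_ideal_E6_aux (τ₀ : ℍ) (h6 : E₆ τ₀ = 0) (n : ℕ) :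
    ∀ (w : ℤ), w ≤ n → ∀ F : ℍ → ℂ, h39_IsL1 w F → F τ₀ = 0 →
      ∃ G : ℍ → ℂ, h39_IsL1 (w - 6) G ∧ F = (E₆ : ℍ → ℂ) * G := by
  induction n with
  | zero =>
    intro w hw F hF h0
    exact ⟨0, h39_IsL1_zero _, by
      rw [h39_IsL1_eq_zero_of_nonpos (by simpa using hw) hF τ₀ h0]; simp⟩
  | succ n ih =>
    intro w hw F hF h0
    by_cases hle : w ≤ n
    · exact ih w hle F hF h0
    have hwn : w = n + 1 := by push_cast at hw; omega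
    obtain ⟨B, C, hB, hC, hBC⟩ := h39_IsL1_decomp (by omega) hF
    have hB0 : B τ₀ = 0 := by
      have := congrFun hBC τ₀
      simp only [Pi.add_apply, Pi.mul_apply, h6, zero_mul, add_zero, h0] at this
      exact (mul_eq_zero.mp this.symm).resolve_left (h39_E4_ne_zero_of_E6 h6)
    obtain ⟨B', hB', hBB'⟩ := ih (w - 4) (by omega) B hB hB0
    refine ⟨(E₄ : ℍ → ℂ) * B' + C, ((h39_IsL1_E4.mul hB').congr (by ring)).add hC, ?_⟩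
    rw [hBC, hBB']
    ring

theorem h39_ideal_E4_aux (τ₀ : ℍ) (h4 : E₄ τ₀ = 0) (n : ℕ) :
    ∀ (w : ℤ), w ≤ n → ∀ F : ℍ → ℂ, h39_IsL1 w F → F τ₀ = 0 →
      ∃ G : ℍ → ℂ, h39_IsL1 (w - 4) G ∧ F = (E₄ : ℍ → ℂ) * G := by
  induction n with
  | zero =>
    intro w hw F hF h0
    exact ⟨0, h39_IsL1_zero _, by
      rw [h39_IsL1_eq_zero_of_nonpos (by simpa using hw) hF τ₀ h0]; simp⟩
  | succ n ih =>
    intro w hw F hF h0
    by_cases hle : w ≤ n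
    · exact ih w hle F hF h0
    have hwn : w = n + 1 := by push_cast at hw; omega
    obtain ⟨B, C, hB, hC, hBC⟩ := h39_IsL1_decomp (by omega) hF
    have hC0 : C τ₀ = 0 := by
      have := congrFun hBC τ₀
      simp only [Pi.add_apply, Pi.mul_apply, h4, zero_mul, zero_add, h0] at this
      exact (mul_eq_zero.mp this.symm).resolve_left (h39_E6_ne_zero_of_E4 h4)
    obtain ⟨C', hC', hCC'⟩ := ih (w - 6) (by omega) C hC hC0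
    refine ⟨B + (E₆ : ℍ → ℂ) * C', hB.add ((h39_IsL1_E6.mul hC').congr (by ring)), ?_⟩
    rw [hBC, hCC']
    ring

/-- **Ideal of `i`**: a level one form vanishing at a zero of `E₆` is divisible by `E₆`. -/
theorem h39_ideal_E6 (τ₀ : ℍ) (h6 : E₆ τ₀ = 0) (w : ℤ) (a : ModularForm 𝒮ℒ w) (ha : a τ₀ = 0) :
    ∃ a' : ModularForm 𝒮ℒ (w - 6), ∀ τ, a τ = E₆ τ * a' τ := by
  obtain ⟨G, ⟨a', rfl⟩, h⟩ :=
    h39_ideal_E6_aux τ₀ h6 w.toNat w (Int.self_le_toNat w) a (h39_IsL1_coe a) ha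
  exact ⟨a', fun τ => congrFun h τ⟩

/-- **Ideal of `ρ`**: a level one form vanishing at a zero of `E₄` is divisible by `E₄`. -/
theorem h39_ideal_E4 (τ₀ : ℍ) (h4 : E₄ τ₀ = 0) (w : ℤ) (a : ModularForm 𝒮ℒ w) (ha : a τ₀ = 0) :
    ∃ a' : ModularForm 𝒮ℒ (w - 4), ∀ τ, a τ = E₄ τ * a' τ := by
  obtain ⟨G, ⟨a', rfl⟩, h⟩ :=
    h39_ideal_E4_aux τ₀ h4 w.toNat w (Int.self_le_toNat w) a (h39_IsL1_coe a) ha
  exact ⟨a', fun τ => congrFun h τ⟩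

/-! ## The generic point -/

/-- The level one form `Δ(τ₀) E₄³ - E₄(τ₀)³ Δ` of weight 12, vanishing at `τ₀`. -/
noncomputable def h39_genG (τ₀ : ℍ) : ModularForm 𝒮ℒ 12 :=
  discriminant τ₀ • ModularForm.mcast (by decide) (E₄.pow 3) -
    E₄ τ₀ ^ 3 • h39_mkMod 12 discriminant
      (fun γ => SlashInvariantFormClass.slash_action_eq CuspForm.discriminant (γ : GL (Fin 2) ℝ)
        ⟨γ, rfl⟩) h39_disc_mdiff
      (CuspFormClass.zero_at_infty CuspForm.discriminant).boundedAtFilter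

theorem h39_genG_apply (τ₀ τ : ℍ) :
    h39_genG τ₀ τ = discriminant τ₀ * E₄ τ ^ 3 - E₄ τ₀ ^ 3 * discriminant τ := by
  have h : (E₄.pow 3) τ = E₄ τ ^ 3 := by
    rw [ModularForm.coe_pow]
    rfl
  have h2 : (ModularForm.mcast (by decide : ((3 : ℕ) : ℤ) * 4 = 12) (E₄.pow 3) :
      ModularForm 𝒮ℒ 12) τ = E₄ τ ^ 3 := h
  show discriminant τ₀ * (ModularForm.mcast (by decide : ((3 : ℕ) : ℤ) * 4 = 12) (E₄.pow 3) :
      ModularForm 𝒮ℒ 12) τ - E₄ τ₀ ^ 3 * discriminant τ = _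
  rw [h2]

theorem h39_genG_self (τ₀ : ℍ) : h39_genG τ₀ τ₀ = 0 := by
  rw [h39_genG_apply]
  ring

theorem h39_genG_fun (τ₀ : ℍ) :
    (h39_genG τ₀ : ℍ → ℂ) =
      discriminant τ₀ • (E₄ : ℍ → ℂ) ^ 3 - E₄ τ₀ ^ 3 • (discriminant : ℍ → ℂ) := by
  funext τ
  rw [h39_genG_apply]
  simp

theorem h39_genG_aux (τ₀ : ℍ) (h4 : E₄ τ₀ ≠ 0) (n : ℕ) :
    ∀ (w : ℤ), w ≤ n → ∀ F : ℍ → ℂ, h39_IsL1 w F →
      ∃ (c : ℂ) (α ε : ℕ) (G : ℍ → ℂ), h39_IsL1 (w - 12) G ∧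
        (c ≠ 0 → w = 4 * (α : ℤ) + 6 * (ε : ℤ) ∧ ε ≤ 1) ∧
        F = c • ((E₄ : ℍ → ℂ) ^ α * (E₆ : ℍ → ℂ) ^ ε) + (h39_genG τ₀ : ℍ → ℂ) * G := by
  have hz : ∀ (w : ℤ) (F : ℍ → ℂ), F = 0 →
      ∃ (c : ℂ) (α ε : ℕ) (G : ℍ → ℂ), h39_IsL1 (w - 12) G ∧
        (c ≠ 0 → w = 4 * (α : ℤ) + 6 * (ε : ℤ) ∧ ε ≤ 1) ∧
        F = c • ((E₄ : ℍ → ℂ) ^ α * (E₆ : ℍ → ℂ) ^ ε) + (h39_genG τ₀ : ℍ → ℂ) * G :=
    fun w F h => ⟨0, 0, 0, 0, h39_IsL1_zero _, fun h => absurd rfl h, by simp [h]⟩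
  induction n with
  | zero =>
    intro w hw F hF
    rcases lt_or_eq_of_le (show w ≤ 0 by simpa using hw) with h | h
    · exact hz w F (h39_IsL1_eq_zero_of_neg h hF)
    · subst h
      obtain ⟨c, rfl⟩ := h39_IsL1_const hF
      refine ⟨c, 0, 0, 0, h39_IsL1_zero _, fun _ => ⟨by simp, by simp⟩, ?_⟩
      funext τ
      simp
  | succ n ih =>
    intro w hw F hF
    by_cases hle : w ≤ n
    · exact ih w hle F hF
    have hwn : w = n + 1 := by push_cast at hw; omega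
    by_cases hodd : Odd w
    · exact hz w F (h39_IsL1_eq_zero_of_odd hodd hF)
    rw [Int.not_odd_iff_even] at hodd
    by_cases h2 : w = 2
    · subst h2
      exact hz 2 F (h39_IsL1_eq_zero_of_two hF)
    have hw4 : 4 ≤ w := by
      obtain ⟨m, hm⟩ := hodd
      omega
    -- the standard exponents of `w`
    obtain ⟨α, ε, hε, hα⟩ : ∃ α ε : ℕ, ε ≤ 1 ∧ w = 4 * (α : ℤ) + 6 * (ε : ℤ) := by
      obtain ⟨α, hα | hα⟩ := h39_weight_cases hw4 hodd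
      · exact ⟨α + 1, 0, by omega, hα⟩
      · exact ⟨α, 1, le_refl _, hα⟩
    obtain ⟨c₀, F₂, hF₂, hFF₂⟩ := h39_decompDelta hF α ε hα
    obtain ⟨c₁, α', ε', G₃, hG₃, hc₁, hF₂G⟩ := ih (w - 12) (by omega) F₂ hF₂
    have hΔ : h39_IsL1 12 (discriminant : ℍ → ℂ) := h39_IsL1_disc
    by_cases hc10 : c₁ = 0
    · refine ⟨c₀, α, ε, (discriminant : ℍ → ℂ) * G₃, (hΔ.mul hG₃).congr (by ring),
        fun _ => ⟨hα, hε⟩, ?_⟩
      rw [hFF₂, hF₂G, hc10]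
      funext τ
      simp only [Pi.add_apply, Pi.mul_apply, Pi.smul_apply, Pi.pow_apply, smul_eq_mul]
      ring
    · obtain ⟨hw', hε'⟩ := hc₁ hc10
      have hεε : ε' = ε := by omega
      have hαα : α = α' + 3 := by omega
      subst hεε
      subst hαα
      have hx3 : E₄ τ₀ ^ 3 ≠ 0 := pow_ne_zero 3 h4
      refine ⟨c₀ + c₁ * discriminant τ₀ / E₄ τ₀ ^ 3, α' + 3, ε',
        (discriminant : ℍ → ℂ) * G₃ -
          (c₁ / E₄ τ₀ ^ 3) • ((E₄ : ℍ → ℂ) ^ α' * (E₆ : ℍ → ℂ) ^ ε'),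
        ((hΔ.mul hG₃).congr (by ring)).sub ((h39_IsL1_mono α' ε' hw').smul _),
        fun _ => ⟨hα, hε⟩, ?_⟩
      rw [hFF₂, hF₂G]
      funext τ
      simp only [Pi.add_apply, Pi.mul_apply, Pi.smul_apply, Pi.sub_apply, Pi.pow_apply,
        smul_eq_mul, h39_genG_apply]
      field_simp
      ring

/-- **Ideal of a generic point**: a level one form vanishing at `τ₀` (with `E₄ τ₀ ≠ 0`,
`E₆ τ₀ ≠ 0`) is divisible by `Δ(τ₀) E₄³ - E₄(τ₀)³ Δ`. -/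
theorem h39_ideal_genG (τ₀ : ℍ) (h4 : E₄ τ₀ ≠ 0) (h6 : E₆ τ₀ ≠ 0) (w : ℤ)
    (a : ModularForm 𝒮ℒ w) (ha : a τ₀ = 0) :
    ∃ a' : ModularForm 𝒮ℒ (w - 12), ∀ τ, a τ = h39_genG τ₀ τ * a' τ := by
  obtain ⟨c, α, ε, G, ⟨a', rfl⟩, -, h⟩ :=
    h39_genG_aux τ₀ h4 w.toNat w (Int.self_le_toNat w) a (h39_IsL1_coe a)
  have hc : c = 0 := by
    have h0 := congrFun h τ₀
    simp only [Pi.add_apply, Pi.mul_apply, Pi.smul_apply, Pi.pow_apply, smul_eq_mul,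
      h39_genG_self, zero_mul, add_zero, ha] at h0
    rcases mul_eq_zero.mp h0.symm with h1 | h1
    · exact h1
    · exact absurd h1 (mul_ne_zero (pow_ne_zero _ h4) (pow_ne_zero _ h6))
  refine ⟨a', fun τ => ?_⟩
  have h1 := congrFun h τ
  simp only [Pi.add_apply, Pi.mul_apply, hc, zero_smul, Pi.zero_apply, zero_add] at h1
  exact h1

/-! ## Simple zeros -/

/-- A zero with nonvanishing derivative is a simple zero. -/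
theorem h39_order_one_of_D_ne {F : ℍ → ℂ} (hF : MDiff F) (τ : ℍ) (h0 : F τ = 0)
    (hD : D F τ ≠ 0) : analyticOrderAt (F ∘ ofComplex) (τ : ℂ) = 1 := by
  have aF := h39_analyticAt hF τ
  have key := aF.analyticOrderAt_deriv_add_one
  simp only [Function.comp_apply, ofComplex_apply, h0, sub_zero] at key
  have hd : analyticOrderAt (deriv (F ∘ ofComplex)) (τ : ℂ) = 0 := by
    refine aF.deriv.analyticOrderAt_eq_zero.mpr ?_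
    rw [h39_deriv_eq]
    exact mul_ne_zero Complex.two_pi_I_ne_zero hD
  rw [hd, zero_add] at key
  exact key.symm

theorem h39_DE4_ne_zero {τ : ℍ} (h : E₄ τ = 0) : D (E₄ : ℍ → ℂ) τ ≠ 0 := by
  intro hD
  have hb := h39_bracket_eq τ
  simp only [h39_bracket, h, hD, mul_zero, zero_mul, sub_zero] at hb
  exact discriminant_ne_zero τ (by linear_combination (1 / 3456 : ℂ) * hb)

theorem h39_DE6_ne_zero {τ : ℍ} (h : E₆ τ = 0) : D (E₆ : ℍ → ℂ) τ ≠ 0 := by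
  intro hD
  have hb := h39_bracket_eq τ
  simp only [h39_bracket, h, hD, mul_zero, zero_mul, sub_zero] at hb
  exact discriminant_ne_zero τ (by linear_combination (1 / 3456 : ℂ) * hb)

/-- `E₄` has only simple zeros. -/
theorem h39_ord_E4 (τ : ℍ) (h : E₄ τ = 0) :
    analyticOrderAt ((E₄ : ℍ → ℂ) ∘ ofComplex) (τ : ℂ) = 1 :=
  h39_order_one_of_D_ne h39_E4_mdiff τ h (h39_DE4_ne_zero h)

/-- `E₆` has only simple zeros. -/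
theorem h39_ord_E6 (τ : ℍ) (h : E₆ τ = 0) :
    analyticOrderAt ((E₆ : ℍ → ℂ) ∘ ofComplex) (τ : ℂ) = 1 :=
  h39_order_one_of_D_ne h39_E6_mdiff τ h (h39_DE6_ne_zero h)

theorem h39_ord_E6_I :
    analyticOrderAt ((E₆ : ℍ → ℂ) ∘ ofComplex) ((UpperHalfPlane.I : ℍ) : ℂ) = 1 :=
  h39_ord_E6 _ h39_E6_I

theorem h39_ord_E4_rho : analyticOrderAt ((E₄ : ℍ → ℂ) ∘ ofComplex) ((ρ : ℍ) : ℂ) = 1 :=
  h39_ord_E4 _ h39_E4_rho

theorem h39_jfun_ne_zero {τ : ℍ} (h : E₄ τ ≠ 0) : h39_jfun τ ≠ 0 :=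
  div_ne_zero (pow_ne_zero 3 h) (discriminant_ne_zero τ)

theorem h39_jfun_ne_1728 {τ : ℍ} (h : E₆ τ ≠ 0) : h39_jfun τ ≠ 1728 := by
  intro h1
  have hs := h39_jfun_sub τ
  rw [h1, sub_self] at hs
  exact div_ne_zero (pow_ne_zero 2 h) (discriminant_ne_zero τ) hs.symm

/-- `Δ(τ₀) E₄³ - E₄(τ₀)³ Δ` has a simple zero at a generic `τ₀`. -/
theorem h39_ord_genG (τ₀ : ℍ) (h4 : E₄ τ₀ ≠ 0) (h6 : E₆ τ₀ ≠ 0) :
    analyticOrderAt ((h39_genG τ₀ : ℍ → ℂ) ∘ ofComplex) (τ₀ : ℂ) = 1 := by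
  have hfun : ((h39_genG τ₀ : ℍ → ℂ) ∘ ofComplex) =
      (fun z : ℂ => discriminant τ₀ * discriminant (ofComplex z)) *
        (fun z : ℂ => h39_jfun (ofComplex z) - h39_jfun τ₀) := by
    funext z
    have hΔ := discriminant_ne_zero (ofComplex z)
    have hΔ₀ := discriminant_ne_zero τ₀
    simp only [Function.comp_apply, Pi.mul_apply, h39_genG_apply, h39_jfun]
    field_simp
  have a1 : AnalyticAt ℂ (fun z : ℂ => discriminant τ₀ * discriminant (ofComplex z)) (τ₀ : ℂ) :=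
    analyticAt_const.mul (h39_analyticAt h39_disc_mdiff τ₀)
  have a2 : AnalyticAt ℂ (fun z : ℂ => h39_jfun (ofComplex z) - h39_jfun τ₀) (τ₀ : ℂ) :=
    (h39_analyticAt h39_jfun_mdiff τ₀).sub analyticAt_const
  have o1 : analyticOrderAt (fun z : ℂ => discriminant τ₀ * discriminant (ofComplex z))
      (τ₀ : ℂ) = 0 := by
    refine a1.analyticOrderAt_eq_zero.mpr ?_
    simp only [ofComplex_apply]
    exact mul_ne_zero (discriminant_ne_zero τ₀) (discriminant_ne_zero τ₀)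
  rw [hfun, analyticOrderAt_mul a1 a2, o1, zero_add, h39_order,
    if_neg (h39_jfun_ne_zero h4), if_neg (h39_jfun_ne_1728 h6)]

/-! ## Values at infinity -/

theorem h39_E4_coeff_zero : (qExpansion 1 (E₄ : ℍ → ℂ)).coeff 0 = 1 :=
  E_qExpansion_coeff_zero _ ⟨2, rfl⟩

theorem h39_E6_coeff_zero : (qExpansion 1 (E₆ : ℍ → ℂ)).coeff 0 = 1 :=
  E_qExpansion_coeff_zero _ ⟨3, rfl⟩

theorem h39_tendsto_disc : Tendsto (discriminant : ℍ → ℂ) atImInfty (𝓝 0) :=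
  CuspFormClass.zero_at_infty CuspForm.discriminant

theorem h39_tendsto_genG (τ₀ : ℍ) :
    Tendsto (h39_genG τ₀ : ℍ → ℂ) atImInfty (𝓝 (discriminant τ₀)) := by
  rw [h39_genG_fun]
  have h := ((h39_tendsto_E4.pow 3).const_smul (discriminant τ₀)).sub
    (h39_tendsto_disc.const_smul (E₄ τ₀ ^ 3))
  simp only [one_pow, smul_eq_mul, mul_one, mul_zero, sub_zero] at h
  exact h

theorem h39_genG_coeff_zero (τ₀ : ℍ) :
    (qExpansion 1 (h39_genG τ₀ : ℍ → ℂ)).coeff 0 = discriminant τ₀ :=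
  tendsto_nhds_unique (h39_tendsto_modularForm (h39_genG τ₀)) (h39_tendsto_genG τ₀)

theorem h39_genG_coeff_zero_ne (τ₀ : ℍ) : (qExpansion 1 (h39_genG τ₀ : ℍ → ℂ)).coeff 0 ≠ 0 := by
  rw [h39_genG_coeff_zero]
  exact discriminant_ne_zero τ₀

/-! ## Bridge to the function spaces `Lfun` -/

theorem h39_mem_Lfun_iff {l : ℤ} {F : ℍ → ℂ} : F ∈ Lfun l ↔ h39_IsL1 l F := by
  constructor
  · rintro ⟨h1, h2, h3⟩
    exact ⟨h39_mkMod l F h2 h1 h3, rfl⟩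
  · rintro ⟨a, rfl⟩
    exact ⟨a.holo', fun γ => SlashInvariantFormClass.slash_action_eq a (γ : GL (Fin 2) ℝ)
      ⟨γ, rfl⟩, ModularFormClass.bdd_at_infty a⟩

theorem h39_coe_mem_Lfun {l : ℤ} (a : ModularForm 𝒮ℒ l) : (a : ℍ → ℂ) ∈ Lfun l :=
  h39_mem_Lfun_iff.mpr (h39_IsL1_coe a)

theorem h39_E4_mem_Lfun : (E₄ : ℍ → ℂ) ∈ Lfun 4 := h39_coe_mem_Lfun E₄

theorem h39_E6_mem_Lfun : (E₆ : ℍ → ℂ) ∈ Lfun 6 := h39_coe_mem_Lfun E₆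

theorem h39_disc_mem_Lfun : (discriminant : ℍ → ℂ) ∈ Lfun 12 :=
  h39_mem_Lfun_iff.mpr h39_IsL1_disc

theorem h39_genG_mem_Lfun (τ₀ : ℍ) : (h39_genG τ₀ : ℍ → ℂ) ∈ Lfun 12 :=
  h39_coe_mem_Lfun _

theorem h39_Lfun_mul {l l' : ℤ} {F G : ℍ → ℂ} (hF : F ∈ Lfun l) (hG : G ∈ Lfun l') :
    F * G ∈ Lfun (l + l') :=
  h39_mem_Lfun_iff.mpr ((h39_mem_Lfun_iff.mp hF).mul (h39_mem_Lfun_iff.mp hG))

theorem h39_Lfun_eq_zero_of_neg {l : ℤ} (hl : l < 0) {F : ℍ → ℂ} (hF : F ∈ Lfun l) : F = 0 :=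
  h39_IsL1_eq_zero_of_neg hl (h39_mem_Lfun_iff.mp hF)

theorem h39_Lfun_zero_const {F : ℍ → ℂ} (hF : F ∈ Lfun 0) : ∃ c : ℂ, F = fun _ => c :=
  h39_IsL1_const (h39_mem_Lfun_iff.mp hF)

/-- `Lfun` version of the decomposition `a = E₄ b + E₆ c`. -/
theorem h39_Lfun_decomp {w : ℤ} (hw : w ≠ 0) {F : ℍ → ℂ} (hF : F ∈ Lfun w) :
    ∃ B ∈ Lfun (w - 4), ∃ C ∈ Lfun (w - 6), F = (E₄ : ℍ → ℂ) * B + (E₆ : ℍ → ℂ) * C := by
  obtain ⟨B, C, hB, hC, h⟩ := h39_IsL1_decomp hw (h39_mem_Lfun_iff.mp hF)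
  exact ⟨B, h39_mem_Lfun_iff.mpr hB, C, h39_mem_Lfun_iff.mpr hC, h⟩

theorem h39_Lfun_ideal_E6 (τ₀ : ℍ) (h6 : E₆ τ₀ = 0) {w : ℤ} {F : ℍ → ℂ} (hF : F ∈ Lfun w)
    (h0 : F τ₀ = 0) : ∃ G ∈ Lfun (w - 6), F = (E₆ : ℍ → ℂ) * G := by
  obtain ⟨G, hG, h⟩ := h39_ideal_E6_aux τ₀ h6 w.toNat w (Int.self_le_toNat w) F
    (h39_mem_Lfun_iff.mp hF) h0
  exact ⟨G, h39_mem_Lfun_iff.mpr hG, h⟩

theorem h39_Lfun_ideal_E4 (τ₀ : ℍ) (h4 : E₄ τ₀ = 0) {w : ℤ} {F : ℍ → ℂ} (hF : F ∈ Lfun w)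
    (h0 : F τ₀ = 0) : ∃ G ∈ Lfun (w - 4), F = (E₄ : ℍ → ℂ) * G := by
  obtain ⟨G, hG, h⟩ := h39_ideal_E4_aux τ₀ h4 w.toNat w (Int.self_le_toNat w) F
    (h39_mem_Lfun_iff.mp hF) h0
  exact ⟨G, h39_mem_Lfun_iff.mpr hG, h⟩

theorem h39_Lfun_ideal_genG (τ₀ : ℍ) (h4 : E₄ τ₀ ≠ 0) (h6 : E₆ τ₀ ≠ 0) {w : ℤ} {F : ℍ → ℂ}
    (hF : F ∈ Lfun w) (h0 : F τ₀ = 0) :
    ∃ G ∈ Lfun (w - 12), F = (h39_genG τ₀ : ℍ → ℂ) * G := by
  obtain ⟨a, rfl⟩ := h39_mem_Lfun_iff.mp hF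
  obtain ⟨a', ha'⟩ := h39_ideal_genG τ₀ h4 h6 w a h0
  exact ⟨a', h39_coe_mem_Lfun a', funext ha'⟩

end Fermat.Agent.S20
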