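import Mathlib
import Fermat.Agent.S20.h39_LevelOne
import Fermat.Agent.S20.h97_Fiber

set_option autoImplicit false

/-!
# The fibre (division) lemma at `i`, `ρ` and at generic points

Ready-made instances of `h97_fiber_div` / `h97_fiber_div_cusp` with the level one data of
`h39_LevelOne`.
-/

namespace Fermat.Agent.S20

open UpperHalfPlane ModularForm SlashInvariantForm EisensteinSeries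
open scoped MatrixGroups ModularForm Manifold

variable {𝒢 : Subgroup (GL (Fin 2) ℝ)} [𝒢.IsArithmetic]

/-- Division by `E₆` at a zero of `E₆` (e.g. at `i`), modular forms. -/
theorem h39_fiber_E6 (h𝒢 : 𝒢 ≤ 𝒮ℒ) {k : ℤ} (F : ModularForm 𝒢 (k + 6)) (t0 : ℍ)
    (h6 : E₆ t0 = 0) (hF : ∀ q : 𝒮ℒ ⧸ 𝒢.subgroupOf 𝒮ℒ, quotientFunc F q t0 = 0) :
    ∃ H : ModularForm 𝒢 k, ∀ τ, H τ * E₆ τ = F τ :=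
  h97_fiber_div h𝒢 F E₆ t0 (h39_ord_E6 t0 h6) (h39_ideal_E6 t0 h6) hF

/-- Division by `E₆` at a zero of `E₆` (e.g. at `i`), cusp forms. -/
theorem h39_fiber_E6_cusp (h𝒢 : 𝒢 ≤ 𝒮ℒ) {k : ℤ} (F : CuspForm 𝒢 (k + 6)) (t0 : ℍ)
    (h6 : E₆ t0 = 0) (hF : ∀ q : 𝒮ℒ ⧸ 𝒢.subgroupOf 𝒮ℒ, quotientFunc F q t0 = 0) :
    ∃ H : CuspForm 𝒢 k, ∀ τ, H τ * E₆ τ = F τ :=
  h97_fiber_div_cusp h𝒢 F E₆ t0 (h39_ord_E6 t0 h6)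
    (by rw [h39_E6_coeff_zero]; exact one_ne_zero) (h39_ideal_E6 t0 h6) hF

/-- Division by `E₄` at a zero of `E₄` (e.g. at `ρ`), modular forms. -/
theorem h39_fiber_E4 (h𝒢 : 𝒢 ≤ 𝒮ℒ) {k : ℤ} (F : ModularForm 𝒢 (k + 4)) (t0 : ℍ)
    (h4 : E₄ t0 = 0) (hF : ∀ q : 𝒮ℒ ⧸ 𝒢.subgroupOf 𝒮ℒ, quotientFunc F q t0 = 0) :
    ∃ H : ModularForm 𝒢 k, ∀ τ, H τ * E₄ τ = F τ :=
  h97_fiber_div h𝒢 F E₄ t0 (h39_ord_E4 t0 h4) (h39_ideal_E4 t0 h4) hF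

/-- Division by `E₄` at a zero of `E₄` (e.g. at `ρ`), cusp forms. -/
theorem h39_fiber_E4_cusp (h𝒢 : 𝒢 ≤ 𝒮ℒ) {k : ℤ} (F : CuspForm 𝒢 (k + 4)) (t0 : ℍ)
    (h4 : E₄ t0 = 0) (hF : ∀ q : 𝒮ℒ ⧸ 𝒢.subgroupOf 𝒮ℒ, quotientFunc F q t0 = 0) :
    ∃ H : CuspForm 𝒢 k, ∀ τ, H τ * E₄ τ = F τ :=
  h97_fiber_div_cusp h𝒢 F E₄ t0 (h39_ord_E4 t0 h4)
    (by rw [h39_E4_coeff_zero]; exact one_ne_zero) (h39_ideal_E4 t0 h4) hF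

/-- Division by `Δ(t0) E₄³ - E₄(t0)³ Δ` at a generic point, modular forms. -/
theorem h39_fiber_genG (h𝒢 : 𝒢 ≤ 𝒮ℒ) {k : ℤ} (F : ModularForm 𝒢 (k + 12)) (t0 : ℍ)
    (h4 : E₄ t0 ≠ 0) (h6 : E₆ t0 ≠ 0)
    (hF : ∀ q : 𝒮ℒ ⧸ 𝒢.subgroupOf 𝒮ℒ, quotientFunc F q t0 = 0) :
    ∃ H : ModularForm 𝒢 k, ∀ τ, H τ * h39_genG t0 τ = F τ :=
  h97_fiber_div h𝒢 F (h39_genG t0) t0 (h39_ord_genG t0 h4 h6) (h39_ideal_genG t0 h4 h6) hF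

/-- Division by `Δ(t0) E₄³ - E₄(t0)³ Δ` at a generic point, cusp forms. -/
theorem h39_fiber_genG_cusp (h𝒢 : 𝒢 ≤ 𝒮ℒ) {k : ℤ} (F : CuspForm 𝒢 (k + 12)) (t0 : ℍ)
    (h4 : E₄ t0 ≠ 0) (h6 : E₆ t0 ≠ 0)
    (hF : ∀ q : 𝒮ℒ ⧸ 𝒢.subgroupOf 𝒮ℒ, quotientFunc F q t0 = 0) :
    ∃ H : CuspForm 𝒢 k, ∀ τ, H τ * h39_genG t0 τ = F τ :=
  h97_fiber_div_cusp h𝒢 F (h39_genG t0) t0 (h39_ord_genG t0 h4 h6)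
    (h39_genG_coeff_zero_ne t0) (h39_ideal_genG t0 h4 h6) hF

/-- At `i`. -/
theorem h39_fiber_I (h𝒢 : 𝒢 ≤ 𝒮ℒ) {k : ℤ} (F : ModularForm 𝒢 (k + 6))
    (hF : ∀ q : 𝒮ℒ ⧸ 𝒢.subgroupOf 𝒮ℒ, quotientFunc F q UpperHalfPlane.I = 0) :
    ∃ H : ModularForm 𝒢 k, ∀ τ, H τ * E₆ τ = F τ :=
  h39_fiber_E6 h𝒢 F _ Fermat.Agent.S24.h39_E6_I hF

theorem h39_fiber_I_cusp (h𝒢 : 𝒢 ≤ 𝒮ℒ) {k : ℤ} (F : CuspForm 𝒢 (k + 6))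
    (hF : ∀ q : 𝒮ℒ ⧸ 𝒢.subgroupOf 𝒮ℒ, quotientFunc F q UpperHalfPlane.I = 0) :
    ∃ H : CuspForm 𝒢 k, ∀ τ, H τ * E₆ τ = F τ :=
  h39_fiber_E6_cusp h𝒢 F _ Fermat.Agent.S24.h39_E6_I hF

/-- At `ρ`. -/
theorem h39_fiber_rho (h𝒢 : 𝒢 ≤ 𝒮ℒ) {k : ℤ} (F : ModularForm 𝒢 (k + 4))
    (hF : ∀ q : 𝒮ℒ ⧸ 𝒢.subgroupOf 𝒮ℒ, quotientFunc F q ρ = 0) :
    ∃ H : ModularForm 𝒢 k, ∀ τ, H τ * E₄ τ = F τ :=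
  h39_fiber_E4 h𝒢 F _ Fermat.Agent.S24.h39_E4_rho hF

theorem h39_fiber_rho_cusp (h𝒢 : 𝒢 ≤ 𝒮ℒ) {k : ℤ} (F : CuspForm 𝒢 (k + 4))
    (hF : ∀ q : 𝒮ℒ ⧸ 𝒢.subgroupOf 𝒮ℒ, quotientFunc F q ρ = 0) :
    ∃ H : CuspForm 𝒢 k, ∀ τ, H τ * E₄ τ = F τ :=
  h39_fiber_E4_cusp h𝒢 F _ Fermat.Agent.S24.h39_E4_rho hF

end Fermat.Agent.S20
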