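import Mathlib
import Fermat.Agent.S20.Defs
import Fermat.Agent.S20.h40_CuspDet
import Fermat.Agent.S20.h96_DetForm
import Fermat.Agent.S20.h12_NonVanish2
import Fermat.Agent.S24.h47_Ree

/-!
# S20, row DET: the sum of the weights of a generating family

`∑ w_j + 6 * orbT N = 6 * idx N`, from
* `h96_detSq_mem_Lfun`, `h96_det_ne_zero_of_linearIndependent` (the determinant of conjugates),
* `h12_eq_const_mul_discriminant_pow_of_generic` (`D² = c Δ^m`),
* `h40_cusp_det_exponent` (the order of `D` at `i∞`).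
-/

namespace Fermat.Agent.S20

open UpperHalfPlane CongruenceSubgroup Filter ModularForm
open scoped MatrixGroups ModularForm Manifold Topology Real

/-- The number of cycles of `T⁻¹` on the cosets is `orbT N`. -/
theorem h40_card_cycles_T_inv (N : ℕ) :
    Nat.card (Quotient (Equiv.Perm.SameCycle.setoid
      (MulAction.toPerm (ModularGroup.T⁻¹ : SL(2, ℤ)) :
        Equiv.Perm (SL(2, ℤ) ⧸ Gamma0 N)))) = orbT N := by
  have h := Fermat.Agent.S24.h47_orbCount_eq_card_sameCycle (X := SL(2, ℤ) ⧸ Gamma0 N)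
    (ModularGroup.T : SL(2, ℤ))
  unfold Fermat.Agent.S24.h47_orbCount at h
  unfold orbT
  refine Eq.trans ?_ h.symm
  refine Nat.card_congr (Quotient.congrRight fun a b => ?_)
  show Equiv.Perm.SameCycle _ a b ↔ Equiv.Perm.SameCycle _ a b
  have h2 : (MulAction.toPerm (ModularGroup.T⁻¹ : SL(2, ℤ)) :
      Equiv.Perm (SL(2, ℤ) ⧸ Gamma0 N)) =
      (MulAction.toPerm (ModularGroup.T : SL(2, ℤ)) : Equiv.Perm (SL(2, ℤ) ⧸ Gamma0 N))⁻¹ := by
    ext x
    rfl
  rw [h2, Equiv.Perm.sameCycle_inv]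

/-- **Row DET.** Sum of the weights of a family of `idx N` forms whose values are independent at
`i`, `ρ`, the generic points and at `i∞`. -/
theorem h40_sum_weights_eq (N : ℕ) [NeZero N] {J : Type} [Fintype J] [DecidableEq J]
    (e : J ≃ (SL(2, ℤ) ⧸ Gamma0 N)) (w : J → ℤ) (c : J → ℍ → ℂ)
    (hc : ∀ j, c j ∈ Mfun N (w j))
    (hI : LinearIndependent ℂ (fun j => evX N (w j) I (c j)))
    (hρ : LinearIndependent ℂ (fun j => evX N (w j) ρ (c j)))
    (hgen : ∀ τ₀ : ℍ, E₄ τ₀ ≠ 0 → E₆ τ₀ ≠ 0 →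
      LinearIndependent ℂ (fun j => evX N (w j) τ₀ (c j)))
    (hinf : ∀ l : J → ℂ, (∀ q : SL(2, ℤ) ⧸ Gamma0 N,
      (fun τ : ℍ => ∑ j, l j * cj N (w j) (c j) q τ) =O[atImInfty]
        (fun τ : ℍ => Real.exp (-2 * Real.pi * τ.im))) → l = 0) :
    ∑ j, w j + 6 * (orbT N : ℤ) = 6 * (idx N : ℤ) := by
  classical
  have : Fintype (SL(2, ℤ) ⧸ Gamma0 N) := Fintype.ofEquiv J e
  have hF := h96_detSq_mem_Lfun N e w c hc
  obtain ⟨m, c0, hc0, hk, hFeq⟩ := h12_eq_const_mul_discriminant_pow_of_generic _ hF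
    (pow_ne_zero 2 (h96_det_ne_zero_of_linearIndependent N e w c I hI))
    (pow_ne_zero 2 (h96_det_ne_zero_of_linearIndependent N e w c ρ hρ))
    (fun τ h4 h6 =>
      pow_ne_zero 2 (h96_det_ne_zero_of_linearIndependent N e w c τ (hgen τ h4 h6)))
  have h1 := h40_cusp_det_exponent
    (MulAction.toPerm (ModularGroup.T⁻¹ : SL(2, ℤ)) : Equiv.Perm (SL(2, ℤ) ⧸ Gamma0 N))
    (fun j x => cj N (w (e.symm j)) (c (e.symm j)) x)
    (fun j x => h96_cj_mdiff N _ (hc _).1 x)
    (fun j x => h96_cj_isBounded N _ (hc _) x)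
    (fun j x τ => h96_cj_vadd_one N _ (hc _).2.1 x τ)
    c0 m
    (fun τ => by rw [h96_det_reindex N e w c τ]; exact hFeq τ)
  rcases h1 with h1 | ⟨l, hl0, hl⟩
  · rw [h40_card_cycles_T_inv] at h1
    have hidx : Fintype.card (SL(2, ℤ) ⧸ Gamma0 N) = idx N := by
      unfold idx; rw [Nat.card_eq_fintype_card]
    rw [hidx] at h1
    have h2 : (m : ℤ) + orbT N = idx N := by exact_mod_cast h1
    linarith
  · exfalso
    apply hl0
    have h2 := hinf (fun j => l (e j)) (fun q => by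
      refine (hl q).congr_left fun τ => ?_
      rw [← Equiv.sum_comp e]
      simp)
    funext x
    have := congrFun h2 (e.symm x)
    simpa using this

end Fermat.Agent.S20
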