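import Mathlib

set_option autoImplicit false

namespace Fermat.Agent.S20

open MvPolynomial

section Defs

variable {𝕜 : Type*} [Field 𝕜] {R : Type*} [CommRing R] [Algebra 𝕜 R]

/-- Evaluation of a two-variable polynomial at `(e4, e6)`. -/
noncomputable def h65_evP (e4 e6 : R) : MvPolynomial (Fin 2) 𝕜 →ₐ[𝕜] R :=
  MvPolynomial.aeval ![e4, e6]

/-- `p` is weighted homogeneous of integer weight `n` for the weights `(4, 6)`. -/
def h65_Hom (n : ℤ) (p : MvPolynomial (Fin 2) 𝕜) : Prop :=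
  ∀ m : Fin 2 →₀ ℕ, coeff m p ≠ 0 → 4 * (m 0 : ℤ) + 6 * (m 1 : ℤ) = n

/-- The hypotheses on a graded family `M n` of subspaces of `R`:
`e4`, `e6` act with degrees `4`, `6`, and form a regular sequence. -/
structure h65_Graded (e4 e6 : R) (M : ℤ → Submodule 𝕜 R) : Prop where
  bot : ∀ n : ℤ, n < 0 → M n = ⊥
  mul4 : ∀ n : ℤ, ∀ f ∈ M n, e4 * f ∈ M (n + 4)
  mul6 : ∀ n : ℤ, ∀ f ∈ M n, e6 * f ∈ M (n + 6)
  inj4 : ∀ n : ℤ, ∀ f ∈ M n, e4 * f = 0 → f = 0
  div : ∀ n : ℤ, ∀ f ∈ M n, ∀ h ∈ M (n + 2), e6 * f = e4 * h → ∃ f' ∈ M (n - 4), f = e4 * f'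

/-- A family `c j ∈ M (κ j)` lifting bases of the quotients
`M n / (e4 * M (n - 4) + e6 * M (n - 6))`. -/
structure h65_Gens (e4 e6 : R) (M : ℤ → Submodule 𝕜 R) {J : Type*} (κ : J → ℤ) (c : J → R) :
    Prop where
  mem : ∀ j, c j ∈ M (κ j)
  gen : ∀ n : ℤ, ∀ f ∈ M n, ∃ γ : J →₀ 𝕜, (∀ j ∈ γ.support, κ j = n) ∧
    ∃ f4 ∈ M (n - 4), ∃ f6 ∈ M (n - 6),
      f = (γ.sum fun j a => a • c j) + e4 * f4 + e6 * f6
  ind : ∀ n : ℤ, ∀ γ : J →₀ 𝕜, (∀ j ∈ γ.support, κ j = n) →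
    (∃ f4 ∈ M (n - 4), ∃ f6 ∈ M (n - 6), (γ.sum fun j a => a • c j) = e4 * f4 + e6 * f6) →
    γ = 0

/-- The `𝕜`-linear map `P ↦ ∑ j, P j (e4, e6) * c j`. -/
noncomputable def h65_Psi (e4 e6 : R) {J : Type*} (c : J → R) :
    (J →₀ MvPolynomial (Fin 2) 𝕜) →ₗ[𝕜] R :=
  Finsupp.lsum 𝕜 fun j => (LinearMap.mulRight 𝕜 (c j)).comp (h65_evP (𝕜 := 𝕜) e4 e6).toLinearMap

/-- A family of polynomials, homogeneous of total weight `n` relative to the weights `κ`. -/
def h65_HomFam {J : Type*} (κ : J → ℤ) (n : ℤ) (P : J →₀ MvPolynomial (Fin 2) 𝕜) : Prop :=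
  ∀ j, h65_Hom (n - κ j) (P j)

/-- Multiply all components of a family by a polynomial. -/
noncomputable def h65_mulP {J : Type*} (q : MvPolynomial (Fin 2) 𝕜)
    (P : J →₀ MvPolynomial (Fin 2) 𝕜) : J →₀ MvPolynomial (Fin 2) 𝕜 :=
  P.mapRange (fun p => q * p) (mul_zero q)

end Defs

section Basic

variable {𝕜 : Type*} [Field 𝕜] {R : Type*} [CommRing R] [Algebra 𝕜 R]
variable {e4 e6 : R} {M : ℤ → Submodule 𝕜 R} {J : Type*} {κ : J → ℤ} {c : J → R}

theorem h65_Psi_single (j : J) (p : MvPolynomial (Fin 2) 𝕜) :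
    h65_Psi e4 e6 c (Finsupp.single j p) = h65_evP e4 e6 p * c j := by
  simp [h65_Psi]

theorem h65_Psi_apply (P : J →₀ MvPolynomial (Fin 2) 𝕜) :
    h65_Psi e4 e6 c P = P.sum fun j p => h65_evP e4 e6 p * c j := by
  rw [h65_Psi, Finsupp.lsum_apply]
  rfl

theorem h65_mulP_apply (q : MvPolynomial (Fin 2) 𝕜) (P : J →₀ MvPolynomial (Fin 2) 𝕜) (j : J) :
    h65_mulP q P j = q * P j := by
  simp [h65_mulP]

theorem h65_Psi_mulP (q : MvPolynomial (Fin 2) 𝕜) (P : J →₀ MvPolynomial (Fin 2) 𝕜) :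
    h65_Psi e4 e6 c (h65_mulP q P) = h65_evP e4 e6 q * h65_Psi e4 e6 c P := by
  induction P using Finsupp.induction_linear with
  | zero => simp [h65_mulP]
  | add P₁ P₂ h₁ h₂ =>
    have : h65_mulP q (P₁ + P₂) = h65_mulP q P₁ + h65_mulP q P₂ := by
      ext1 j; simp [h65_mulP_apply, mul_add]
    rw [this, map_add, map_add, h₁, h₂, mul_add]
  | single j p =>
    have : h65_mulP q (Finsupp.single j p) = Finsupp.single j (q * p) := by
      simp [h65_mulP]
    rw [this, h65_Psi_single, h65_Psi_single, map_mul, mul_assoc]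

theorem h65_evP_X0 : h65_evP (𝕜 := 𝕜) e4 e6 (X 0) = e4 := by simp [h65_evP]

theorem h65_evP_X1 : h65_evP (𝕜 := 𝕜) e4 e6 (X 1) = e6 := by simp [h65_evP]

theorem h65_evP_C (a : 𝕜) : h65_evP (𝕜 := 𝕜) e4 e6 (C a) = algebraMap 𝕜 R a := by simp [h65_evP]

theorem h65_evP_eq_sum (p : MvPolynomial (Fin 2) 𝕜) :
    h65_evP e4 e6 p = ∑ m ∈ p.support, coeff m p • (e4 ^ m 0 * e6 ^ m 1) := by
  rw [h65_evP, MvPolynomial.aeval_def, MvPolynomial.eval₂_eq']
  refine Finset.sum_congr rfl fun m _ => ?_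
  simp [Fin.prod_univ_two, Algebra.smul_def]

theorem h65_eval_eq_sum (ε4 ε6 : 𝕜) (p : MvPolynomial (Fin 2) 𝕜) :
    MvPolynomial.eval ![ε4, ε6] p = ∑ m ∈ p.support, coeff m p * (ε4 ^ m 0 * ε6 ^ m 1) := by
  rw [MvPolynomial.eval_eq']
  refine Finset.sum_congr rfl fun m _ => ?_
  simp [Fin.prod_univ_two]

end Basic

section Hom

variable {𝕜 : Type*} [Field 𝕜]

theorem h65_Hom_zero (n : ℤ) : h65_Hom n (0 : MvPolynomial (Fin 2) 𝕜) := by
  intro m hm; simp at hm

theorem h65_Hom_add {n : ℤ} {p q : MvPolynomial (Fin 2) 𝕜} (hp : h65_Hom n p) (hq : h65_Hom n q) :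
    h65_Hom n (p + q) := by
  intro m hm
  rw [coeff_add] at hm
  by_cases h : coeff m p = 0
  · rw [h, zero_add] at hm; exact hq m hm
  · exact hp m h

theorem h65_Hom_neg {n : ℤ} {p : MvPolynomial (Fin 2) 𝕜} (hp : h65_Hom n p) : h65_Hom n (-p) := by
  intro m hm
  rw [coeff_neg, neg_ne_zero] at hm
  exact hp m hm

theorem h65_Hom_sub {n : ℤ} {p q : MvPolynomial (Fin 2) 𝕜} (hp : h65_Hom n p) (hq : h65_Hom n q) :
    h65_Hom n (p - q) := by
  rw [sub_eq_add_neg]; exact h65_Hom_add hp (h65_Hom_neg hq)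

theorem h65_Hom_C {n : ℤ} (a : 𝕜) (h : a ≠ 0 → n = 0) :
    h65_Hom n (C a : MvPolynomial (Fin 2) 𝕜) := by
  intro m hm
  rw [coeff_C] at hm
  split_ifs at hm with h0
  · subst h0; simp [h hm]
  · exact absurd rfl hm

theorem h65_Hom_mul {n k : ℤ} {p q : MvPolynomial (Fin 2) 𝕜} (hp : h65_Hom n p)
    (hq : h65_Hom k q) : h65_Hom (n + k) (p * q) := by
  intro m hm
  rw [coeff_mul] at hm
  obtain ⟨⟨a, b⟩, hab, hne⟩ := Finset.exists_ne_zero_of_sum_ne_zero hm
  have hab := Finset.HasAntidiagonal.mem_antidiagonal.mp hab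
  have ha : coeff a p ≠ 0 := left_ne_zero_of_mul hne
  have hb : coeff b q ≠ 0 := right_ne_zero_of_mul hne
  have h1 := hp a ha
  have h2 := hq b hb
  simp only at hab
  subst hab
  simp only [Finsupp.coe_add, Pi.add_apply, Nat.cast_add]
  linarith

theorem h65_Hom_X0 : h65_Hom 4 (X 0 : MvPolynomial (Fin 2) 𝕜) := by
  intro m hm
  rw [coeff_X] at hm
  split_ifs at hm with h0
  · subst h0; simp
  · exact absurd rfl hm

theorem h65_Hom_X1 : h65_Hom 6 (X 1 : MvPolynomial (Fin 2) 𝕜) := by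
  intro m hm
  rw [coeff_X] at hm
  split_ifs at hm with h0
  · subst h0; simp
  · exact absurd rfl hm

theorem h65_Hom_congr {n k : ℤ} {p : MvPolynomial (Fin 2) 𝕜} (hp : h65_Hom n p) (h : n = k) :
    h65_Hom k p := h ▸ hp

theorem h65_Hom_eq_zero_of_neg {n : ℤ} {p : MvPolynomial (Fin 2) 𝕜} (hp : h65_Hom n p)
    (hn : n < 0) : p = 0 := by
  ext m
  by_contra h
  have := hp m (by simpa using h)
  have h0 : (0 : ℤ) ≤ 4 * (m 0 : ℤ) + 6 * (m 1 : ℤ) := by positivity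
  omega

theorem h65_Hom_div0 {n : ℤ} {p : MvPolynomial (Fin 2) 𝕜} (hp : h65_Hom n p) :
    h65_Hom (n - 4) (divMonomial p (Finsupp.single 0 1)) := by
  intro m hm
  rw [coeff_divMonomial] at hm
  have := hp _ hm
  simp only [Finsupp.coe_add, Pi.add_apply, Finsupp.single_eq_same, Nat.cast_add,
    Nat.cast_one] at this
  have h1 : (Finsupp.single (0 : Fin 2) 1 : Fin 2 →₀ ℕ) 1 = 0 := by simp
  rw [h1] at this
  push_cast at this
  linarith

theorem h65_Hom_div1 {n : ℤ} {p : MvPolynomial (Fin 2) 𝕜} (hp : h65_Hom n p) :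
    h65_Hom (n - 6) (divMonomial p (Finsupp.single 1 1)) := by
  intro m hm
  rw [coeff_divMonomial] at hm
  have := hp _ hm
  simp only [Finsupp.coe_add, Pi.add_apply, Finsupp.single_eq_same, Nat.cast_add,
    Nat.cast_one] at this
  have h1 : (Finsupp.single (1 : Fin 2) 1 : Fin 2 →₀ ℕ) 0 = 0 := by simp
  rw [h1] at this
  push_cast at this
  linarith

theorem h65_Hom_mod {n : ℤ} {p : MvPolynomial (Fin 2) 𝕜} (hp : h65_Hom n p) (s : Fin 2 →₀ ℕ) :
    h65_Hom n (modMonomial p s) := by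
  intro m hm
  by_cases h : s ≤ m
  · rw [coeff_modMonomial_of_le _ h] at hm; exact absurd rfl hm
  · rw [coeff_modMonomial_of_not_le _ h] at hm; exact hp m hm

end Hom

section Main

variable {𝕜 : Type*} [Field 𝕜] {R : Type*} [CommRing R] [Algebra 𝕜 R]
variable {e4 e6 : R} {M : ℤ → Submodule 𝕜 R} {J : Type*} {κ : J → ℤ} {c : J → R}

theorem h65_HomFam_zero (n : ℤ) : h65_HomFam (𝕜 := 𝕜) κ n 0 := fun _ => h65_Hom_zero _

theorem h65_HomFam_add {n : ℤ} {P Q : J →₀ MvPolynomial (Fin 2) 𝕜} (hP : h65_HomFam κ n P)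
    (hQ : h65_HomFam κ n Q) : h65_HomFam κ n (P + Q) := fun j => by
  rw [Finsupp.add_apply]; exact h65_Hom_add (hP j) (hQ j)

theorem h65_HomFam_sub {n : ℤ} {P Q : J →₀ MvPolynomial (Fin 2) 𝕜} (hP : h65_HomFam κ n P)
    (hQ : h65_HomFam κ n Q) : h65_HomFam κ n (P - Q) := fun j => by
  rw [Finsupp.sub_apply]; exact h65_Hom_sub (hP j) (hQ j)

theorem h65_HomFam_mulP {n k m : ℤ} {q : MvPolynomial (Fin 2) 𝕜} (hq : h65_Hom k q)
    {P : J →₀ MvPolynomial (Fin 2) 𝕜} (hP : h65_HomFam κ n P) (hm : m = k + n) :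
    h65_HomFam κ m (h65_mulP q P) := fun j => by
  rw [h65_mulP_apply]
  exact h65_Hom_congr (h65_Hom_mul hq (hP j)) (by rw [hm]; ring)

theorem h65_HomFam_mapRange_C {n : ℤ} (γ : J →₀ 𝕜) (hγ : ∀ j ∈ γ.support, κ j = n) :
    h65_HomFam κ n (γ.mapRange C C_0 : J →₀ MvPolynomial (Fin 2) 𝕜) := fun j => by
  rw [Finsupp.mapRange_apply]
  refine h65_Hom_C _ fun h => ?_
  rw [hγ j (by simpa using h)]; ring

theorem h65_Psi_mapRange_C (γ : J →₀ 𝕜) :
    h65_Psi e4 e6 c (γ.mapRange C C_0 : J →₀ MvPolynomial (Fin 2) 𝕜) =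
      γ.sum fun j a => a • c j := by
  rw [h65_Psi_apply, Finsupp.sum_mapRange_index (by simp)]
  simp [Algebra.smul_def]

theorem h65_pow_mem (hM : h65_Graded e4 e6 M) {k : ℤ} {f : R} (hf : f ∈ M k) (a b : ℕ) :
    e4 ^ a * e6 ^ b * f ∈ M (k + 4 * a + 6 * b) := by
  induction a with
  | zero =>
    induction b with
    | zero => simpa using hf
    | succ b ih =>
      have := hM.mul6 _ _ ih
      have h2 : e6 * (e4 ^ 0 * e6 ^ b * f) = e4 ^ 0 * e6 ^ (b + 1) * f := by ring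
      rw [h2] at this
      convert this using 2
      push_cast; ring
  | succ a ih =>
    have := hM.mul4 _ _ ih
    have h2 : e4 * (e4 ^ a * e6 ^ b * f) = e4 ^ (a + 1) * e6 ^ b * f := by ring
    rw [h2] at this
    convert this using 2
    push_cast; ring

theorem h65_evP_mul_mem (hM : h65_Graded e4 e6 M) {k n : ℤ} {f : R} (hf : f ∈ M k)
    {p : MvPolynomial (Fin 2) 𝕜} (hp : h65_Hom (n - k) p) : h65_evP e4 e6 p * f ∈ M n := by
  rw [h65_evP_eq_sum, Finset.sum_mul]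
  refine Submodule.sum_mem _ fun m hm => ?_
  rw [smul_mul_assoc]
  refine Submodule.smul_mem _ _ ?_
  have h1 := hp m (by simpa using hm)
  have := h65_pow_mem hM hf (m 0) (m 1)
  convert this using 2
  linarith

theorem h65_Psi_mem (hM : h65_Graded e4 e6 M) (hc : ∀ j, c j ∈ M (κ j)) {n : ℤ}
    {P : J →₀ MvPolynomial (Fin 2) 𝕜} (hP : h65_HomFam κ n P) : h65_Psi e4 e6 c P ∈ M n := by
  rw [h65_Psi_apply, Finsupp.sum]
  exact Submodule.sum_mem _ fun j _ => h65_evP_mul_mem hM (hc j) (hP j)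

/-- (F1) Generation: every element of `M n` is `∑ j, P j (e4, e6) * c j` with `P j` weighted
homogeneous of weight `n - κ j`. -/
theorem h65_generate (hM : h65_Graded e4 e6 M) (hc : h65_Gens e4 e6 M κ c) (n : ℤ) (f : R)
    (hf : f ∈ M n) :
    ∃ P : J →₀ MvPolynomial (Fin 2) 𝕜, h65_HomFam κ n P ∧ h65_Psi e4 e6 c P = f := by
  suffices H : ∀ (N : ℕ) (n : ℤ), n < N → ∀ f ∈ M n,
      ∃ P : J →₀ MvPolynomial (Fin 2) 𝕜, h65_HomFam κ n P ∧ h65_Psi e4 e6 c P = f from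
    H (n.toNat + 1) n (by omega) f hf
  intro N
  induction N with
  | zero =>
    intro n hn f hf
    rw [hM.bot n (by simpa using hn), Submodule.mem_bot] at hf
    exact ⟨0, h65_HomFam_zero n, by rw [map_zero, hf]⟩
  | succ N ih =>
    intro n hn f hf
    obtain ⟨γ, hγ, f4, hf4, f6, hf6, rfl⟩ := hc.gen n f hf
    obtain ⟨P4, hP4, rfl⟩ := ih (n - 4) (by push_cast at hn; omega) f4 hf4
    obtain ⟨P6, hP6, rfl⟩ := ih (n - 6) (by push_cast at hn; omega) f6 hf6
    refine ⟨γ.mapRange C C_0 + h65_mulP (X 0) P4 + h65_mulP (X 1) P6, ?_, ?_⟩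
    · exact h65_HomFam_add (h65_HomFam_add (h65_HomFam_mapRange_C γ hγ)
        (h65_HomFam_mulP h65_Hom_X0 hP4 (by ring))) (h65_HomFam_mulP h65_Hom_X1 hP6 (by ring))
    · rw [map_add, map_add, h65_Psi_mapRange_C, h65_Psi_mulP, h65_Psi_mulP, h65_evP_X0,
        h65_evP_X1]

theorem h65_kappa_nonneg (hM : h65_Graded e4 e6 M) (hc : h65_Gens e4 e6 M κ c) (j : J) :
    0 ≤ κ j := by
  by_contra h
  have hcj : c j = 0 := by
    have := hc.mem j
    rw [hM.bot _ (by omega), Submodule.mem_bot] at this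
    exact this
  have := hc.ind (κ j) (Finsupp.single j 1) (fun i hi => by
    rw [Finsupp.support_single _ one_ne_zero, Finset.mem_singleton] at hi
    rw [hi]) ⟨0, zero_mem _, 0, zero_mem _, by simp [hcj]⟩
  exact one_ne_zero (Finsupp.single_eq_zero.mp this)

theorem h65_eq_zero_of_neg (hM : h65_Graded e4 e6 M) (hc : h65_Gens e4 e6 M κ c) {n : ℤ}
    (hn : n < 0) {P : J →₀ MvPolynomial (Fin 2) 𝕜} (hP : h65_HomFam κ n P) : P = 0 := by
  ext1 j
  have := h65_kappa_nonneg hM hc j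
  exact h65_Hom_eq_zero_of_neg (hP j) (by omega)

theorem h65_zero_modMonomial (s : Fin 2 →₀ ℕ) :
    modMonomial (0 : MvPolynomial (Fin 2) 𝕜) s = 0 := by
  ext m
  by_cases h : s ≤ m
  · rw [coeff_modMonomial_of_le _ h, coeff_zero]
  · rw [coeff_modMonomial_of_not_le _ h]

theorem h65_not_single_le_iff (i : Fin 2) (m : Fin 2 →₀ ℕ) :
    ¬ (Finsupp.single i 1 ≤ m) ↔ m i = 0 := by
  rw [Finsupp.single_le_iff]
  simp

theorem h65_stepA (hM : h65_Graded e4 e6 M) (hc : h65_Gens e4 e6 M κ c) :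
    ∀ (N : ℕ) (n : ℤ), n < N → ∀ B : J →₀ MvPolynomial (Fin 2) 𝕜, h65_HomFam κ n B →
      (∀ j m, coeff m (B j) ≠ 0 → m 0 = 0) →
      (∃ h ∈ M (n - 4), h65_Psi e4 e6 c B = e4 * h) → B = 0 := by
  intro N
  induction N with
  | zero =>
    intro n hn B hB _ _
    exact h65_eq_zero_of_neg hM hc (by simpa using hn) hB
  | succ N ih =>
    intro n hn B hB hX ⟨h, hh, hΨ⟩
    set B' : J →₀ MvPolynomial (Fin 2) 𝕜 :=
      B.mapRange (fun p => divMonomial p (Finsupp.single 1 1)) (zero_divMonomial _) with hB'def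
    set γ : J →₀ 𝕜 := B.mapRange (fun p => coeff 0 p) (coeff_zero 0) with hγdef
    have hdecomp : B = h65_mulP (X 1) B' + γ.mapRange C C_0 := by
      ext1 j
      rw [Finsupp.add_apply, h65_mulP_apply, hB'def, hγdef, Finsupp.mapRange_apply,
        Finsupp.mapRange_apply, Finsupp.mapRange_apply]
      have h1 := divMonomial_add_modMonomial_single (B j) (1 : Fin 2)
      have h2 : modMonomial (B j) (Finsupp.single 1 1) = C (coeff 0 (B j)) := by
        ext m
        by_cases hle : Finsupp.single (1 : Fin 2) 1 ≤ m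
        · rw [coeff_modMonomial_of_le _ hle, coeff_C]
          have : (0 : Fin 2 →₀ ℕ) ≠ m := by
            rintro rfl
            have := (Finsupp.single_le_iff.mp hle)
            simp at this
          rw [if_neg this]
        · rw [coeff_modMonomial_of_not_le _ hle, coeff_C]
          have hm1 : m 1 = 0 := (h65_not_single_le_iff 1 m).mp hle
          by_cases hm : (0 : Fin 2 →₀ ℕ) = m
          · rw [if_pos hm, hm]
          · rw [if_neg hm]
            by_contra hne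
            have hm0 := hX j m hne
            apply hm
            ext i
            fin_cases i
            · simpa using hm0.symm
            · simpa using hm1.symm
      rw [h2] at h1
      exact h1.symm
    have hγ : ∀ j ∈ γ.support, κ j = n := by
      intro j hj
      rw [Finsupp.mem_support_iff, hγdef, Finsupp.mapRange_apply] at hj
      have := hB j 0 hj
      simp at this
      linarith
    have hB'hom : h65_HomFam κ (n - 6) B' := fun j => by
      rw [hB'def, Finsupp.mapRange_apply]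
      exact h65_Hom_congr (h65_Hom_div1 (hB j)) (by ring)
    have hΨB' : h65_Psi e4 e6 c B' ∈ M (n - 6) := h65_Psi_mem hM hc.mem hB'hom
    have hΨ2 : e6 * h65_Psi e4 e6 c B' + (γ.sum fun j a => a • c j) = e4 * h := by
      rw [← hΨ]
      conv_rhs => rw [hdecomp]
      rw [map_add, h65_Psi_mulP, h65_evP_X1, h65_Psi_mapRange_C]
    have hγ0 : γ = 0 := by
      refine hc.ind n γ hγ ⟨h, hh, -h65_Psi e4 e6 c B', neg_mem hΨB', ?_⟩
      linear_combination hΨ2
    rw [hγ0] at hΨ2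
    have hΨ3 : e6 * h65_Psi e4 e6 c B' = e4 * h := by simpa using hΨ2
    have hh' : h ∈ M (n - 6 + 2) := by
      have : n - 6 + 2 = n - 4 := by ring
      rw [this]; exact hh
    obtain ⟨g', hg', hg'eq⟩ := hM.div (n - 6) _ hΨB' h hh' hΨ3
    have hB'0 : B' = 0 := by
      refine ih (n - 6) (by push_cast at hn; omega) B' hB'hom ?_ ⟨g', hg', hg'eq⟩
      intro j m hm
      rw [hB'def, Finsupp.mapRange_apply, coeff_divMonomial] at hm
      have := hX j _ hm
      simpa using this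
    rw [hdecomp, hB'0, hγ0]
    ext1 j
    simp [h65_mulP_apply]

/-- (F2) Freeness: a homogeneous family `P` with `∑ j, P j (e4, e6) * c j = 0` is zero. -/
theorem h65_free (hM : h65_Graded e4 e6 M) (hc : h65_Gens e4 e6 M κ c) (n : ℤ)
    (P : J →₀ MvPolynomial (Fin 2) 𝕜) (hP : h65_HomFam κ n P)
    (h0 : h65_Psi e4 e6 c P = 0) : P = 0 := by
  suffices H : ∀ (N : ℕ) (n : ℤ), n < N → ∀ P : J →₀ MvPolynomial (Fin 2) 𝕜,
      h65_HomFam κ n P → h65_Psi e4 e6 c P = 0 → P = 0 from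
    H (n.toNat + 1) n (by omega) P hP h0
  intro N
  induction N with
  | zero =>
    intro n hn P hP _
    exact h65_eq_zero_of_neg hM hc (by simpa using hn) hP
  | succ N ih =>
    intro n hn P hP h0
    set A : J →₀ MvPolynomial (Fin 2) 𝕜 :=
      P.mapRange (fun p => divMonomial p (Finsupp.single 0 1)) (zero_divMonomial _) with hAdef
    set B : J →₀ MvPolynomial (Fin 2) 𝕜 :=
      P.mapRange (fun p => modMonomial p (Finsupp.single 0 1)) (h65_zero_modMonomial _) with hBdef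
    have hdecomp : P = h65_mulP (X 0) A + B := by
      ext1 j
      rw [Finsupp.add_apply, h65_mulP_apply, hAdef, hBdef, Finsupp.mapRange_apply,
        Finsupp.mapRange_apply]
      exact (divMonomial_add_modMonomial_single (P j) (0 : Fin 2)).symm
    have hAhom : h65_HomFam κ (n - 4) A := fun j => by
      rw [hAdef, Finsupp.mapRange_apply]
      exact h65_Hom_congr (h65_Hom_div0 (hP j)) (by ring)
    have hBhom : h65_HomFam κ n B := fun j => by
      rw [hBdef, Finsupp.mapRange_apply]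
      exact h65_Hom_mod (hP j) _
    have hΨA : h65_Psi e4 e6 c A ∈ M (n - 4) := h65_Psi_mem hM hc.mem hAhom
    have hsum : e4 * h65_Psi e4 e6 c A + h65_Psi e4 e6 c B = 0 := by
      rw [← h0]
      conv_rhs => rw [hdecomp]
      rw [map_add, h65_Psi_mulP, h65_evP_X0]
    have hB0 : B = 0 := by
      refine h65_stepA hM hc (N + 1) n hn B hBhom ?_ ⟨-h65_Psi e4 e6 c A, neg_mem hΨA, ?_⟩
      · intro j m hm
        rw [hBdef, Finsupp.mapRange_apply] at hm
        by_contra hm0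
        have hle : Finsupp.single (0 : Fin 2) 1 ≤ m := by
          by_contra hle
          exact hm0 ((h65_not_single_le_iff 0 m).mp hle)
        rw [coeff_modMonomial_of_le _ hle] at hm
        exact hm rfl
      · linear_combination hsum
    rw [hB0, map_zero, add_zero] at hsum
    have hA0 : A = 0 := ih (n - 4) (by push_cast at hn; omega) A hAhom
      (hM.inj4 (n - 4) _ hΨA hsum)
    rw [hdecomp, hA0, hB0]
    ext1 j
    simp [h65_mulP_apply]

end Main

section Fibre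

variable {𝕜 : Type*} [Field 𝕜] {R : Type*} [CommRing R] [Algebra 𝕜 R]
variable {e4 e6 : R} {M : ℤ → Submodule 𝕜 R} {J : Type*} {κ : J → ℤ} {c : J → R}
variable {V : Type*} [AddCommGroup V] [Module 𝕜 V]

/-- Hypotheses on a family of fibre evaluation maps `ev n : R → V` (linear on `M n`,
compatible with multiplication by `e4`, `e6` through the scalars `ε4`, `ε6`). -/
structure h65_Eval (e4 e6 : R) (M : ℤ → Submodule 𝕜 R) (ev : ℤ → R → V) (ε4 ε6 : 𝕜) : Prop where
  add : ∀ n : ℤ, ∀ f ∈ M n, ∀ g ∈ M n, ev n (f + g) = ev n f + ev n g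
  smul : ∀ n : ℤ, ∀ a : 𝕜, ∀ f ∈ M n, ev n (a • f) = a • ev n f
  mul4 : ∀ n : ℤ, ∀ f ∈ M n, ev (n + 4) (e4 * f) = ε4 • ev n f
  mul6 : ∀ n : ℤ, ∀ f ∈ M n, ev (n + 6) (e6 * f) = ε6 • ev n f

variable {ev : ℤ → R → V} {ε4 ε6 : 𝕜}

theorem h65_Eval.map_zero (hev : h65_Eval e4 e6 M ev ε4 ε6) (n : ℤ) : ev n 0 = 0 := by
  have := hev.smul n 0 0 (zero_mem _)
  simpa using this

theorem h65_Eval.map_sum (hev : h65_Eval e4 e6 M ev ε4 ε6) (n : ℤ) {ι : Type*} (s : Finset ι)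
    (g : ι → R) (hg : ∀ i ∈ s, g i ∈ M n) : ev n (∑ i ∈ s, g i) = ∑ i ∈ s, ev n (g i) := by
  classical
  induction s using Finset.induction_on with
  | empty => simpa using hev.map_zero n
  | insert a s ha ih =>
    rw [Finset.sum_insert ha, Finset.sum_insert ha,
      hev.add n _ (hg a (Finset.mem_insert_self a s)) _
        (Submodule.sum_mem _ fun i hi => hg i (Finset.mem_insert_of_mem hi)),
      ih fun i hi => hg i (Finset.mem_insert_of_mem hi)]

theorem h65_Eval.map_pow (hM : h65_Graded e4 e6 M) (hev : h65_Eval e4 e6 M ev ε4 ε6) {k : ℤ}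
    {f : R} (hf : f ∈ M k) (a b : ℕ) :
    ev (k + 4 * a + 6 * b) (e4 ^ a * e6 ^ b * f) = (ε4 ^ a * ε6 ^ b) • ev k f := by
  induction a with
  | zero =>
    induction b with
    | zero => simp
    | succ b ih =>
      have hmem := h65_pow_mem hM hf 0 b
      have := hev.mul6 _ _ hmem
      have h2 : e6 * (e4 ^ 0 * e6 ^ b * f) = e4 ^ 0 * e6 ^ (b + 1) * f := by ring
      have h3 : k + 4 * ((0 : ℕ) : ℤ) + 6 * (b : ℤ) + 6 = k + 4 * ((0 : ℕ) : ℤ) + 6 * ((b + 1 : ℕ) : ℤ) := by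
        push_cast; ring
      rw [h2, h3, ih] at this
      rw [this, smul_smul]
      congr 1
      ring
  | succ a ih =>
    have hmem := h65_pow_mem hM hf a b
    have := hev.mul4 _ _ hmem
    have h2 : e4 * (e4 ^ a * e6 ^ b * f) = e4 ^ (a + 1) * e6 ^ b * f := by ring
    have h3 : k + 4 * (a : ℤ) + 6 * (b : ℤ) + 4 = k + 4 * ((a + 1 : ℕ) : ℤ) + 6 * (b : ℤ) := by
      push_cast; ring
    rw [h2, h3, ih] at this
    rw [this, smul_smul]
    congr 1
    ring

theorem h65_Eval.map_evP (hM : h65_Graded e4 e6 M) (hev : h65_Eval e4 e6 M ev ε4 ε6) {k n : ℤ}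
    {f : R} (hf : f ∈ M k) {p : MvPolynomial (Fin 2) 𝕜} (hp : h65_Hom (n - k) p) :
    ev n (h65_evP e4 e6 p * f) = MvPolynomial.eval ![ε4, ε6] p • ev k f := by
  have hmem : ∀ m ∈ p.support, e4 ^ m 0 * e6 ^ m 1 * f ∈ M n := by
    intro m hm
    have h1 := hp m (by simpa using hm)
    have := h65_pow_mem hM hf (m 0) (m 1)
    convert this using 2
    linarith
  rw [h65_evP_eq_sum, Finset.sum_mul, h65_eval_eq_sum, Finset.sum_smul,
    hev.map_sum n _ _ (fun m hm => by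
      rw [smul_mul_assoc]; exact Submodule.smul_mem _ _ (hmem m hm))]
  refine Finset.sum_congr rfl fun m hm => ?_
  rw [smul_mul_assoc, hev.smul n _ _ (hmem m hm), mul_smul]
  congr 1
  have h1 := hp m (by simpa using hm)
  have := hev.map_pow hM hf (m 0) (m 1)
  rw [← this]
  congr 1
  linarith

theorem h65_Eval.map_Psi (hM : h65_Graded e4 e6 M) (hev : h65_Eval e4 e6 M ev ε4 ε6)
    (hc : ∀ j, c j ∈ M (κ j)) {n : ℤ} {P : J →₀ MvPolynomial (Fin 2) 𝕜}
    (hP : h65_HomFam κ n P) :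
    ev n (h65_Psi e4 e6 c P) =
      P.sum fun j p => MvPolynomial.eval ![ε4, ε6] p • ev (κ j) (c j) := by
  rw [h65_Psi_apply, Finsupp.sum, Finsupp.sum,
    hev.map_sum n _ _ (fun j _ => h65_evP_mul_mem hM (hc j) (hP j))]
  exact Finset.sum_congr rfl fun j _ => hev.map_evP hM (hc j) (hP j)

/-- (F4) The image of `M n` under `ev n` lies in the span of the vectors `ev (κ j) (c j)`. -/
theorem h65_ev_mem_span (hM : h65_Graded e4 e6 M) (hc : h65_Gens e4 e6 M κ c)
    (hev : h65_Eval e4 e6 M ev ε4 ε6) (n : ℤ) (F : R) (hF : F ∈ M n) :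
    ev n F ∈ Submodule.span 𝕜 (Set.range fun j => ev (κ j) (c j)) := by
  obtain ⟨P, hP, rfl⟩ := h65_generate hM hc n F hF
  rw [hev.map_Psi hM hc.mem hP, Finsupp.sum]
  exact Submodule.sum_mem _ fun j _ =>
    Submodule.smul_mem _ _ (Submodule.subset_span ⟨j, rfl⟩)

/-- (F3) Fibre independence, explicit form. -/
theorem h65_fibre_indep (hM : h65_Graded e4 e6 M) (hc : h65_Gens e4 e6 M κ c)
    (hev : h65_Eval e4 e6 M ev ε4 ε6) {w : ℤ} {PG : MvPolynomial (Fin 2) 𝕜}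
    (hPG : h65_Hom w PG) (hPG0 : MvPolynomial.eval ![ε4, ε6] PG = 0)
    (hfib : ∀ K : ℤ, ∀ F ∈ M K, ev K F = 0 → ∃ F' ∈ M (K - w), F = h65_evP e4 e6 PG * F')
    (K : ℤ) (s : Finset J) (Q : J → MvPolynomial (Fin 2) 𝕜)
    (hQ : ∀ j ∈ s, h65_Hom (K - κ j) (Q j))
    (hQ0 : ∀ j ∈ s, MvPolynomial.eval ![ε4, ε6] (Q j) ≠ 0)
    (γ : J → 𝕜) (hγ : ∑ j ∈ s, γ j • ev (κ j) (c j) = 0) : ∀ j ∈ s, γ j = 0 := by
  classical
  set P : J →₀ MvPolynomial (Fin 2) 𝕜 :=
    Finsupp.indicator s fun j _ => C (γ j / MvPolynomial.eval ![ε4, ε6] (Q j)) * Q j with hPdef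
  have hPapp : ∀ j ∈ s, P j = C (γ j / MvPolynomial.eval ![ε4, ε6] (Q j)) * Q j := by
    intro j hj
    rw [hPdef, Finsupp.indicator_apply, dif_pos hj]
  have hPhom : h65_HomFam κ K P := by
    intro j
    by_cases hj : j ∈ s
    · rw [hPapp j hj]
      exact h65_Hom_congr (h65_Hom_mul (h65_Hom_C _ fun _ => rfl) (hQ j hj)) (by ring)
    · rw [hPdef, Finsupp.indicator_apply, dif_neg hj]
      exact h65_Hom_zero _
  have hsupp : P.support ⊆ s := by
    rw [hPdef]; exact Finsupp.support_indicator_subset _ _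
  have hevP : ev K (h65_Psi e4 e6 c P) = 0 := by
    rw [hev.map_Psi hM hc.mem hPhom, Finsupp.sum_of_support_subset _ hsupp _ (by simp), ← hγ]
    refine Finset.sum_congr rfl fun j hj => ?_
    rw [hPapp j hj, map_mul, eval_C, div_mul_cancel₀ _ (hQ0 j hj)]
  obtain ⟨F', hF', hFF'⟩ := hfib K _ (h65_Psi_mem hM hc.mem hPhom) hevP
  obtain ⟨P', hP', rfl⟩ := h65_generate hM hc (K - w) F' hF'
  have hdiff : P - h65_mulP PG P' = 0 := by
    refine h65_free hM hc K _ (h65_HomFam_sub hPhom (h65_HomFam_mulP hPG hP' (by ring))) ?_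
    rw [map_sub, h65_Psi_mulP, hFF', sub_self]
  intro j hj
  have h1 : P j = PG * P' j := by
    have := congrArg (fun Q => Q j) (sub_eq_zero.mp hdiff)
    simpa [h65_mulP_apply] using this
  rw [hPapp j hj] at h1
  have h2 := congrArg (MvPolynomial.eval ![ε4, ε6]) h1
  rw [map_mul, map_mul, eval_C, hPG0, zero_mul, div_mul_cancel₀ _ (hQ0 j hj)] at h2
  exact h2

/-- (F3) Fibre independence as linear independence over a set of indices. -/
theorem h65_fibre_linearIndependent (hM : h65_Graded e4 e6 M) (hc : h65_Gens e4 e6 M κ c)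
    (hev : h65_Eval e4 e6 M ev ε4 ε6) {w : ℤ} {PG : MvPolynomial (Fin 2) 𝕜}
    (hPG : h65_Hom w PG) (hPG0 : MvPolynomial.eval ![ε4, ε6] PG = 0)
    (hfib : ∀ K : ℤ, ∀ F ∈ M K, ev K F = 0 → ∃ F' ∈ M (K - w), F = h65_evP e4 e6 PG * F')
    (S : Set J)
    (hS : ∀ s : Finset J, (↑s ⊆ S) → ∃ (K : ℤ) (Q : J → MvPolynomial (Fin 2) 𝕜),
      ∀ j ∈ s, h65_Hom (K - κ j) (Q j) ∧ MvPolynomial.eval ![ε4, ε6] (Q j) ≠ 0) :
    LinearIndependent 𝕜 (fun j : S => ev (κ (j : J)) (c (j : J))) := by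
  classical
  rw [linearIndependent_iff']
  intro t g hg i hi
  obtain ⟨K, Q, hQ⟩ := hS (t.map (Function.Embedding.subtype _)) (by
    intro j hj
    simp only [Finset.coe_map, Function.Embedding.coe_subtype, Set.mem_image, Finset.mem_coe] at hj
    obtain ⟨x, _, rfl⟩ := hj
    exact x.2)
  have key := h65_fibre_indep hM hc hev hPG hPG0 hfib K (t.map (Function.Embedding.subtype _)) Q
    (fun j hj => (hQ j hj).1) (fun j hj => (hQ j hj).2)
    (fun j => if h : j ∈ S then g ⟨j, h⟩ else 0) (by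
      rw [Finset.sum_map]
      rw [← hg]
      refine Finset.sum_congr rfl fun x _ => ?_
      simp [x.2])
  have := key i (by simp [hi])
  simpa [i.2] using this

end Fibre

end Fermat.Agent.S20
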