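import Fermat.Agent.S20.h65_Free

set_option autoImplicit false

namespace Fermat.Agent.S20

open MvPolynomial

section Monomials

variable {𝕜 : Type*} [Field 𝕜]

theorem h65_Hom_one : h65_Hom 0 (1 : MvPolynomial (Fin 2) 𝕜) := by
  have := h65_Hom_C (n := 0) (1 : 𝕜) (fun _ => rfl)
  simpa using this

theorem h65_Hom_pow {n : ℤ} {p : MvPolynomial (Fin 2) 𝕜} (hp : h65_Hom n p) (k : ℕ) :
    h65_Hom (k * n) (p ^ k) := by
  induction k with
  | zero => simpa using h65_Hom_one (𝕜 := 𝕜)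
  | succ k ih =>
    rw [pow_succ]
    exact h65_Hom_congr (h65_Hom_mul ih hp) (by push_cast; ring)

theorem h65_Hom_monomial (a b : ℕ) {n : ℤ} (hn : 4 * (a : ℤ) + 6 * (b : ℤ) = n) :
    h65_Hom n (X 0 ^ a * X 1 ^ b : MvPolynomial (Fin 2) 𝕜) :=
  h65_Hom_congr (h65_Hom_mul (h65_Hom_pow h65_Hom_X0 a) (h65_Hom_pow h65_Hom_X1 b))
    (by rw [← hn]; ring)

theorem h65_eval_monomial (ε4 ε6 : 𝕜) (a b : ℕ) :
    MvPolynomial.eval ![ε4, ε6] (X 0 ^ a * X 1 ^ b : MvPolynomial (Fin 2) 𝕜) = ε4 ^ a * ε6 ^ b := by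
  simp

end Monomials

section Classes

variable {𝕜 : Type*} [Field 𝕜] {R : Type*} [CommRing R] [Algebra 𝕜 R]
variable {e4 e6 : R} {M : ℤ → Submodule 𝕜 R} {J : Type*} {κ : J → ℤ} {c : J → R}
variable {V : Type*} [AddCommGroup V] [Module 𝕜 V] {ev : ℤ → R → V} {ε4 ε6 : 𝕜}

theorem h65_kappa_le_sum (hM : h65_Graded e4 e6 M) (hc : h65_Gens e4 e6 M κ c) (s : Finset J)
    {j : J} (hj : j ∈ s) : κ j ≤ ∑ i ∈ s, κ i :=
  Finset.single_le_sum (fun i _ => h65_kappa_nonneg hM hc i) hj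

/-- Fibre independence at a point where `ε4 ≠ 0` and `ε6 ≠ 0` (all weights even). -/
theorem h65_fibre_linearIndependent_generic (hM : h65_Graded e4 e6 M)
    (hc : h65_Gens e4 e6 M κ c) (hev : h65_Eval e4 e6 M ev ε4 ε6) {w : ℤ}
    {PG : MvPolynomial (Fin 2) 𝕜} (hPG : h65_Hom w PG)
    (hPG0 : MvPolynomial.eval ![ε4, ε6] PG = 0)
    (hfib : ∀ K : ℤ, ∀ F ∈ M K, ev K F = 0 → ∃ F' ∈ M (K - w), F = h65_evP e4 e6 PG * F')
    (h4 : ε4 ≠ 0) (h6 : ε6 ≠ 0) (heven : ∀ j, Even (κ j)) :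
    LinearIndependent 𝕜 (fun j : J => ev (κ j) (c j)) := by
  classical
  rw [linearIndependent_iff']
  intro t g hg i hi
  set T : ℤ := ∑ i ∈ t, κ i with hT
  have hT0 : 0 ≤ T := Finset.sum_nonneg fun i _ => h65_kappa_nonneg hM hc i
  -- the exponents
  have hab : ∀ j ∈ t, ∃ a b : ℕ, 4 * (a : ℤ) + 6 * (b : ℤ) = 2 * T + 4 - κ j := by
    intro j hj
    have h1 := h65_kappa_le_sum hM hc t hj
    have h0 := h65_kappa_nonneg hM hc j
    obtain ⟨r, hr⟩ := heven j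
    -- d = 2 T + 4 - κ j = 2 (T + 2 - r), with T + 2 - r ≥ 2
    obtain ⟨u, hu⟩ : ∃ u : ℕ, (u : ℤ) = T - r := ⟨(T - r).toNat, by omega⟩
    rcases Nat.even_or_odd' u with ⟨v, hv | hv⟩
    · -- T - r = 2 v : d = 4 v + 4
      exact ⟨v + 1, 0, by push_cast; omega⟩
    · -- T - r = 2 v + 1 : d = 4 v + 6
      exact ⟨v, 1, by push_cast; omega⟩
  choose! a b hab using hab
  refine h65_fibre_indep hM hc hev hPG hPG0 hfib (2 * T + 4) t (fun j => X 0 ^ a j * X 1 ^ b j)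
    (fun j hj => h65_Hom_monomial _ _ (hab j hj))
    (fun j _ => by rw [h65_eval_monomial]; exact mul_ne_zero (pow_ne_zero _ h4) (pow_ne_zero _ h6))
    g hg i hi

/-- Fibre independence at a point where `ε4 ≠ 0` (e.g. `ε6 = 0`): one residue class of
weights modulo `4`. -/
theorem h65_fibre_linearIndependent_mod4 (hM : h65_Graded e4 e6 M)
    (hc : h65_Gens e4 e6 M κ c) (hev : h65_Eval e4 e6 M ev ε4 ε6) {w : ℤ}
    {PG : MvPolynomial (Fin 2) 𝕜} (hPG : h65_Hom w PG)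
    (hPG0 : MvPolynomial.eval ![ε4, ε6] PG = 0)
    (hfib : ∀ K : ℤ, ∀ F ∈ M K, ev K F = 0 → ∃ F' ∈ M (K - w), F = h65_evP e4 e6 PG * F')
    (h4 : ε4 ≠ 0) (r : ℤ) :
    LinearIndependent 𝕜 (fun j : {j : J | (4 : ℤ) ∣ κ j - r} => ev (κ (j : J)) (c (j : J))) := by
  classical
  refine h65_fibre_linearIndependent hM hc hev hPG hPG0 hfib _ fun s hs => ?_
  set T : ℤ := ∑ i ∈ s, κ i with hT
  have hT0 : 0 ≤ T := Finset.sum_nonneg fun i _ => h65_kappa_nonneg hM hc i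
  have hab : ∀ j ∈ s, ∃ a : ℕ, 4 * (a : ℤ) = r + 4 * (T + |r|) - κ j := by
    intro j hj
    have h1 := h65_kappa_le_sum hM hc s hj
    obtain ⟨q, hq⟩ : (4 : ℤ) ∣ κ j - r := hs hj
    have hr := neg_abs_le r
    have hr' := le_abs_self r
    refine ⟨(T + |r| - q).toNat, ?_⟩
    have : 0 ≤ T + |r| - q := by omega
    rw [Int.toNat_of_nonneg this]
    omega
  choose! a hab using hab
  refine ⟨r + 4 * (T + |r|), fun j => X 0 ^ a j, fun j hj => ⟨?_, ?_⟩⟩
  · have := h65_Hom_monomial (𝕜 := 𝕜) (a j) 0 (n := r + 4 * (T + |r|) - κ j)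
      (by rw [← hab j hj]; simp)
    simpa using this
  · simpa using pow_ne_zero (a j) h4

/-- Fibre independence at a point where `ε6 ≠ 0` (e.g. `ε4 = 0`): one residue class of
weights modulo `6`. -/
theorem h65_fibre_linearIndependent_mod6 (hM : h65_Graded e4 e6 M)
    (hc : h65_Gens e4 e6 M κ c) (hev : h65_Eval e4 e6 M ev ε4 ε6) {w : ℤ}
    {PG : MvPolynomial (Fin 2) 𝕜} (hPG : h65_Hom w PG)
    (hPG0 : MvPolynomial.eval ![ε4, ε6] PG = 0)
    (hfib : ∀ K : ℤ, ∀ F ∈ M K, ev K F = 0 → ∃ F' ∈ M (K - w), F = h65_evP e4 e6 PG * F')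
    (h6 : ε6 ≠ 0) (r : ℤ) :
    LinearIndependent 𝕜 (fun j : {j : J | (6 : ℤ) ∣ κ j - r} => ev (κ (j : J)) (c (j : J))) := by
  classical
  refine h65_fibre_linearIndependent hM hc hev hPG hPG0 hfib _ fun s hs => ?_
  set T : ℤ := ∑ i ∈ s, κ i with hT
  have hT0 : 0 ≤ T := Finset.sum_nonneg fun i _ => h65_kappa_nonneg hM hc i
  have hab : ∀ j ∈ s, ∃ b : ℕ, 6 * (b : ℤ) = r + 6 * (T + |r|) - κ j := by
    intro j hj
    have h1 := h65_kappa_le_sum hM hc s hj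
    obtain ⟨q, hq⟩ : (6 : ℤ) ∣ κ j - r := hs hj
    have hr := neg_abs_le r
    have hr' := le_abs_self r
    refine ⟨(T + |r| - q).toNat, ?_⟩
    have : 0 ≤ T + |r| - q := by omega
    rw [Int.toNat_of_nonneg this]
    omega
  choose! b hab using hab
  refine ⟨r + 6 * (T + |r|), fun j => X 1 ^ b j, fun j hj => ⟨?_, ?_⟩⟩
  · have := h65_Hom_monomial (𝕜 := 𝕜) 0 (b j) (n := r + 6 * (T + |r|) - κ j)
      (by rw [← hab j hj]; simp)
    simpa using this
  · simpa using pow_ne_zero (b j) h6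

end Classes

section Exists

universe u

variable {𝕜 : Type*} [Field 𝕜] {R : Type u} [CommRing R] [Algebra 𝕜 R]

/-- The decomposable part `e4 * M (n - 4) + e6 * M (n - 6)`. -/
def h65_dec (e4 e6 : R) (M : ℤ → Submodule 𝕜 R) (n : ℤ) : Submodule 𝕜 R :=
  (M (n - 4)).map (LinearMap.mulLeft 𝕜 e4) ⊔ (M (n - 6)).map (LinearMap.mulLeft 𝕜 e6)

theorem h65_mem_dec {e4 e6 : R} {M : ℤ → Submodule 𝕜 R} {n : ℤ} {x : R} :
    x ∈ h65_dec e4 e6 M n ↔ ∃ f4 ∈ M (n - 4), ∃ f6 ∈ M (n - 6), x = e4 * f4 + e6 * f6 := by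
  simp only [h65_dec, Submodule.mem_sup, Submodule.mem_map, LinearMap.mulLeft_apply]
  constructor
  · rintro ⟨y, ⟨f4, hf4, rfl⟩, z, ⟨f6, hf6, rfl⟩, rfl⟩
    exact ⟨f4, hf4, f6, hf6, rfl⟩
  · rintro ⟨f4, hf4, f6, hf6, rfl⟩
    exact ⟨_, ⟨f4, hf4, rfl⟩, _, ⟨f6, hf6, rfl⟩, rfl⟩

/-- Existence of a generating family (lifts of bases of the quotients), for any graded family. -/
theorem h65_exists_gens (e4 e6 : R) (M : ℤ → Submodule 𝕜 R) :
    ∃ (J : Type u) (κ : J → ℤ) (c : J → R), h65_Gens e4 e6 M κ c := by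
  classical
  let D : ∀ n, Submodule 𝕜 (M n) := fun n => (h65_dec e4 e6 M n).comap (M n).subtype
  let ι : ℤ → Type u := fun n => Module.Basis.ofVectorSpaceIndex 𝕜 ((M n) ⧸ D n)
  let b : ∀ n, Module.Basis (ι n) 𝕜 ((M n) ⧸ D n) := fun n => Module.Basis.ofVectorSpace 𝕜 _
  have hsurj : ∀ n (i : ι n), ∃ x : M n, (D n).mkQ x = b n i := fun n i =>
    Submodule.mkQ_surjective (D n) (b n i)
  choose rep hrep using hsurj
  have hcoe : ∀ n (δ : ι n →₀ 𝕜), ((δ.sum fun i a => a • rep n i : M n) : R) =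
      δ.sum fun i a => a • (rep n i : R) := by
    intro n δ
    simp [Finsupp.sum]
  have hmk : ∀ n (δ : ι n →₀ 𝕜), (D n).mkQ (δ.sum fun i a => a • rep n i) =
      Finsupp.linearCombination 𝕜 (b n) δ := by
    intro n δ
    rw [map_finsuppSum, Finsupp.linearCombination_apply]
    simp [hrep]
  refine ⟨Σ n, ι n, fun j => j.1, fun j => (rep j.1 j.2 : R),
    ⟨fun j => (rep j.1 j.2).2, ?_, ?_⟩⟩
  · intro n f hf
    set q := (D n).mkQ ⟨f, hf⟩ with hq
    set δ := (b n).repr q with hδ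
    refine ⟨δ.mapDomain (Sigma.mk n), ?_, ?_⟩
    · intro j hj
      have := Finsupp.mapDomain_support hj
      rw [Finset.mem_image] at this
      obtain ⟨i, _, rfl⟩ := this
      rfl
    · have hsum : ((δ.mapDomain (Sigma.mk n)).sum fun j a => a • (rep j.1 j.2 : R)) =
          δ.sum fun i a => a • (rep n i : R) := by
        rw [Finsupp.sum_mapDomain_index (h := fun (j : Σ n, ι n) (a : 𝕜) => a • (rep j.1 j.2 : R))
          (fun _ => zero_smul _ _) (fun _ _ _ => add_smul _ _ _)]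
      have hmem : (⟨f, hf⟩ - (δ.sum fun i a => a • rep n i) : M n) ∈ D n := by
        rw [← Submodule.Quotient.mk_eq_zero, ← Submodule.mkQ_apply, map_sub, hmk, ← hq, hδ,
          Module.Basis.linearCombination_repr, sub_self]
      have hmem' : f - (δ.sum fun i a => a • (rep n i : R)) ∈ h65_dec e4 e6 M n := by
        have := hmem
        rw [Submodule.mem_comap] at this
        simpa [hcoe] using this
      obtain ⟨f4, hf4, f6, hf6, h⟩ := h65_mem_dec.mp hmem'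
      refine ⟨f4, hf4, f6, hf6, ?_⟩
      rw [hsum]
      linear_combination h
  · intro n γ hγ ⟨f4, hf4, f6, hf6, hsum⟩
    have hinj : Function.Injective (Sigma.mk n : ι n → Σ n, ι n) := sigma_mk_injective
    set δ : ι n →₀ 𝕜 := γ.comapDomain (Sigma.mk n) hinj.injOn with hδ
    have hγδ : δ.mapDomain (Sigma.mk n) = γ := by
      refine Finsupp.mapDomain_comapDomain _ hinj γ ?_
      intro j hj
      have := hγ j hj
      obtain ⟨m, i⟩ := j
      simp only at this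
      subst this
      exact ⟨i, rfl⟩
    have hsum' : (δ.sum fun i a => a • (rep n i : R)) = e4 * f4 + e6 * f6 := by
      rw [← hsum, ← hγδ,
        Finsupp.sum_mapDomain_index (h := fun (j : Σ n, ι n) (a : 𝕜) => a • (rep j.1 j.2 : R))
          (fun _ => zero_smul _ _) (fun _ _ _ => add_smul _ _ _)]
    have hmem : (δ.sum fun i a => a • rep n i : M n) ∈ D n := by
      rw [Submodule.mem_comap, Submodule.subtype_apply, hcoe, hsum']
      exact h65_mem_dec.mpr ⟨f4, hf4, f6, hf6, rfl⟩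
    have h0 : Finsupp.linearCombination 𝕜 (b n) δ = 0 := by
      rw [← hmk, Submodule.mkQ_apply, Submodule.Quotient.mk_eq_zero]
      exact hmem
    have hδ0 : δ = 0 := (linearIndependent_iff.mp (b n).linearIndependent) δ h0
    rw [← hγδ, hδ0, Finsupp.mapDomain_zero]

end Exists

end Fermat.Agent.S20
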