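import Mathlib
import Fermat.Agent.S20.Gens
import Fermat.Agent.S20.h65_Free

set_option autoImplicit false

/-!
# Project S20 + S21 : level-one forms are polynomials in `E₄`, `E₆`

* `Lfun_dec` : the level-one decomposition `a = E₄ * a' + l • E₆ ^ n` (helper38's `h38_hdec_Lfun`);
* `Lfun_eq_evP` : every `a ∈ Lfun w` is `p(E₄, E₆)` for a polynomial `p` which is weighted
  homogeneous of weight `w` (the bridge between the `Lfun` language and helper65's
  `h65_Hom` / `h65_evP` language);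
* `evP_mem_Lfun` : conversely `p(E₄, E₆) ∈ Lfun w` for `p` weighted homogeneous of weight `w`.
-/

namespace Fermat.Agent.S20

open UpperHalfPlane ModularForm MvPolynomial

/-- Level-one decomposition (row (A1) of #646; this is helper38's `h38_hdec_Lfun`). -/
theorem Lfun_dec (w : ℤ) (a : ℍ → ℂ) (ha : a ∈ Lfun w) :
    ∃ a' ∈ Lfun (w - 4), ∃ (l : ℂ) (n : ℕ),
      a = ⇑E₄ * a' + l • (⇑E₆) ^ n ∧ (l ≠ 0 → (6 * n : ℤ) = w) :=
  h38_hdec_Lfun w a ha

theorem h97_Hom_X1_pow (n : ℕ) :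
    h65_Hom (6 * (n : ℤ)) ((X 1 : MvPolynomial (Fin 2) ℂ) ^ n) := by
  induction n with
  | zero =>
    simpa using h65_Hom_C (𝕜 := ℂ) (n := 0) (1 : ℂ) (fun _ => rfl)
  | succ n ih =>
    rw [pow_succ]
    exact h65_Hom_congr (h65_Hom_mul ih h65_Hom_X1) (by push_cast; ring)

theorem h97_Hom_X0_pow (n : ℕ) :
    h65_Hom (4 * (n : ℤ)) ((X 0 : MvPolynomial (Fin 2) ℂ) ^ n) := by
  induction n with
  | zero =>
    simpa using h65_Hom_C (𝕜 := ℂ) (n := 0) (1 : ℂ) (fun _ => rfl)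
  | succ n ih =>
    rw [pow_succ]
    exact h65_Hom_congr (h65_Hom_mul ih h65_Hom_X0) (by push_cast; ring)

theorem h97_Lfun_eq_evP_aux (m : ℕ) : ∀ w : ℤ, w < m → ∀ a : ℍ → ℂ, a ∈ Lfun w →
    ∃ p : MvPolynomial (Fin 2) ℂ, h65_Hom w p ∧ h65_evP (⇑E₄) (⇑E₆) p = a := by
  induction m with
  | zero =>
    intro w hw a ha
    have hw' : w < 0 := by simpa using hw
    rw [h38_Lfun_eq_bot_of_neg hw', Submodule.mem_bot] at ha
    exact ⟨0, h65_Hom_zero w, by rw [ha, map_zero]⟩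
  | succ m ih =>
    intro w hw a ha
    obtain ⟨a', ha', l, n, hal, hln⟩ := Lfun_dec w a ha
    obtain ⟨p', hp', hev'⟩ := ih (w - 4) (by push_cast at hw; omega) a' ha'
    by_cases hl : l = 0
    · refine ⟨X 0 * p', h65_Hom_congr (h65_Hom_mul h65_Hom_X0 hp') (by ring), ?_⟩
      rw [map_mul, h65_evP_X0, hev', hal, hl, zero_smul, add_zero]
    · refine ⟨X 0 * p' + C l * X 1 ^ n, h65_Hom_add
        (h65_Hom_congr (h65_Hom_mul h65_Hom_X0 hp') (by ring))
        (h65_Hom_congr (h65_Hom_mul (h65_Hom_C (n := 0) l (fun _ => rfl)) (h97_Hom_X1_pow n))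
          (by rw [zero_add]; exact hln hl)), ?_⟩
      rw [map_add, map_mul, map_mul, map_pow, h65_evP_X0, h65_evP_X1, h65_evP_C, hev', hal,
        Algebra.smul_def]

/-- POLYNOMIAL BRIDGE: every level-one form of weight `w` is `p(E₄, E₆)` with `p` weighted
homogeneous of weight `w` (weights `(4, 6)`). -/
theorem Lfun_eq_evP (w : ℤ) (a : ℍ → ℂ) (ha : a ∈ Lfun w) :
    ∃ p : MvPolynomial (Fin 2) ℂ, h65_Hom w p ∧ h65_evP (⇑E₄) (⇑E₆) p = a :=
  h97_Lfun_eq_evP_aux (w.toNat + 1) w (by push_cast; omega) a ha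

/-- Conversely, `p(E₄, E₆)` is a level-one form of weight `w` when `p` is weighted homogeneous
of weight `w`. -/
theorem evP_mem_Lfun (w : ℤ) (p : MvPolynomial (Fin 2) ℂ) (hp : h65_Hom w p) :
    h65_evP (⇑E₄) (⇑E₆) p ∈ Lfun w := by
  rw [p.as_sum, map_sum]
  refine Submodule.sum_mem _ fun m hm => ?_
  have hm' : coeff m p ≠ 0 := by simpa using hm
  have hw := hp m hm'
  have h1 : h65_evP (⇑E₄) (⇑E₆) (monomial m (coeff m p)) =
      coeff m p • ((⇑E₄ : ℍ → ℂ) ^ (m 0) * (⇑E₆ : ℍ → ℂ) ^ (m 1)) := by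
    rw [h65_evP, aeval_monomial, Algebra.smul_def]
    congr 1
    rw [Finsupp.prod_fintype _ _ (fun i => pow_zero _)]
    simp [Fin.prod_univ_two]
  rw [h1]
  exact Submodule.smul_mem _ _ (h38_Lfun_cast hw (h38_mono_mem (m 0) (m 1)))

end Fermat.Agent.S20
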